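import Mathlib

set_option autoImplicit false

/-!
# Program E, node L4: the integral triangular basis of level one modular forms

For every weight `k` the power series `Δ ^ c * E₄ ^ a * E₆ ^ b` (`4 a + 6 b = k - 12 c`,
`0 ≤ c < dimL k`) have integer coefficients and are triangular (`q ^ c + ...`).  We show that a
level one modular form whose `q`-expansion has coefficients in a subring `S` of `ℂ` is a
combination of these series with coefficients in `S`, and derive the reduction statements
(coordinates under a ring homomorphism `S →+* K`, Sturm bound modulo an ideal).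
-/

namespace Fermat.Agent.Eis.L1B

open UpperHalfPlane ModularForm CongruenceSubgroup PowerSeries Finset
open scoped MatrixGroups

noncomputable section

/-! ## Exponents -/

/-- The exponent of `E₆` in the monomial `E₄ ^ a * E₆ ^ b` of weight `m`. -/
def eB (m : ℕ) : ℕ := if m % 4 = 2 then 1 else 0

/-- The exponent of `E₄` in the monomial `E₄ ^ a * E₆ ^ b` of weight `m`. -/
def eA (m : ℕ) : ℕ := (m - 6 * eB m) / 4

/-- The dimension of the space of level one forms of (even) weight `k`. -/
def dimL (k : ℕ) : ℕ := if k % 12 = 2 then k / 12 else k / 12 + 1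

theorem eA_eB_spec {m : ℕ} (hm : Even m) (h2 : m ≠ 2) : 4 * eA m + 6 * eB m = m := by
  obtain ⟨r, rfl⟩ := hm
  unfold eA eB
  split_ifs with h <;> omega

theorem dimL_add_twelve (k : ℕ) : dimL (k + 12) = dimL k + 1 := by
  unfold dimL
  have h1 : (k + 12) % 12 = k % 12 := by omega
  have h2 : (k + 12) / 12 = k / 12 + 1 := by omega
  rw [h1, h2]
  split_ifs <;> rfl

theorem dimL_of_lt_twelve {k : ℕ} (hk : k < 12) (h2 : k ≠ 2) : dimL k = 1 := by
  unfold dimL
  have : k / 12 = 0 := by omega
  have h3 : k % 12 = k := by omega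
  rw [this, h3, if_neg h2]

/-! ## The triangular family in an arbitrary power series ring -/

/-- The series `D ^ c * Q ^ a * R ^ b` with `4 a + 6 b = k - 12 c`. -/
def bas {A : Type*} [CommRing A] (Q R D : PowerSeries A) (k c : ℕ) : PowerSeries A :=
  D ^ c * Q ^ eA (k - 12 * c) * R ^ eB (k - 12 * c)

theorem bas_zero {A : Type*} [CommRing A] (Q R D : PowerSeries A) (k : ℕ) :
    bas Q R D k 0 = Q ^ eA k * R ^ eB k := by
  simp [bas]

theorem bas_succ {A : Type*} [CommRing A] (Q R D : PowerSeries A) (k c : ℕ) :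
    bas Q R D (k + 12) (c + 1) = D * bas Q R D k c := by
  unfold bas
  have : k + 12 - 12 * (c + 1) = k - 12 * c := by omega
  rw [this, pow_succ]
  ring

theorem map_bas {A B : Type*} [CommRing A] [CommRing B] (φ : A →+* B) (Q R D : PowerSeries A)
    (k c : ℕ) :
    (bas Q R D k c).map φ = bas (Q.map φ) (R.map φ) (D.map φ) k c := by
  simp [bas, map_mul, map_pow]

/-- Triangularity: `bas Q R D k c = q ^ c + ...`. -/
theorem coeff_bas {A : Type*} [CommRing A] {Q R D : PowerSeries A}
    (hQ : constantCoeff Q = 1) (hR : constantCoeff R = 1) (hD0 : constantCoeff D = 0)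
    (hD1 : coeff 1 D = 1) (k c n : ℕ) (hn : n ≤ c) :
    coeff n (bas Q R D k c) = if n = c then 1 else 0 := by
  obtain ⟨U, rfl⟩ := X_dvd_iff.mpr hD0
  have hU : constantCoeff U = 1 := by
    have := hD1
    rwa [show (1 : ℕ) = 0 + 1 from rfl, coeff_succ_X_mul, coeff_zero_eq_constantCoeff_apply]
      at this
  have hW : bas Q R (X * U) k c =
      X ^ c * (U ^ c * Q ^ eA (k - 12 * c) * R ^ eB (k - 12 * c)) := by
    unfold bas; rw [mul_pow]; ring
  rw [hW, coeff_X_pow_mul']
  rcases hn.lt_or_eq with h | h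
  · rw [if_neg (by omega), if_neg (by omega)]
  · subst h
    rw [if_pos le_rfl, if_pos rfl, Nat.sub_self, coeff_zero_eq_constantCoeff_apply]
    simp [hQ, hR, hU]

/-! ## Division by a series `q + ...` preserves integrality -/

/-- If `D = q + ...` and `D * h` have coefficients in the subring `S`, so does `h`. -/
theorem coeff_mem_of_mul_mem {A : Type*} [CommRing A] (S : Subring A) {D h : PowerSeries A}
    (hD0 : coeff 0 D = 0) (hD1 : coeff 1 D = 1) (hDS : ∀ n, coeff n D ∈ S)
    (hS : ∀ n, coeff n (D * h) ∈ S) : ∀ n, coeff n h ∈ S := by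
  intro n
  induction n using Nat.strong_induction_on with
  | _ n ih =>
    have key : coeff (n + 1) (D * h) =
        coeff n h + ∑ i ∈ range n, coeff (i + 2) D * coeff (n - 1 - i) h := by
      rw [coeff_mul, Finset.Nat.sum_antidiagonal_eq_sum_range_succ_mk, Finset.sum_range_succ',
        Finset.sum_range_succ']
      simp only [hD0, hD1, zero_mul, add_zero, one_mul, zero_add, Nat.add_sub_cancel]
      rw [add_comm]
      congr 1
      apply Finset.sum_congr rfl
      intro i hi
      have : n + 1 - (i + 1 + 1) = n - 1 - i := by omega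
      rw [this]
    have h1 : coeff n h =
        coeff (n + 1) (D * h) - ∑ i ∈ range n, coeff (i + 2) D * coeff (n - 1 - i) h := by
      rw [key]; ring
    rw [h1]
    refine S.sub_mem (hS _) (S.sum_mem fun i hi => S.mul_mem (hDS _) (ih _ ?_))
    have := Finset.mem_range.mp hi
    omega

/-! ## The complex `q`-expansions -/

/-- The `q`-expansion of `E₄`. -/
abbrev QC : PowerSeries ℂ := qExpansion 1 E₄

/-- The `q`-expansion of `E₆`. -/
abbrev RC : PowerSeries ℂ := qExpansion 1 E₆

/-- The `q`-expansion of the discriminant. -/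
abbrev DC : PowerSeries ℂ := qExpansion 1 ModularForm.discriminant

theorem constantCoeff_QC : constantCoeff QC = 1 := by
  rw [← coeff_zero_eq_constantCoeff_apply]
  exact EisensteinSeries.E_qExpansion_coeff_zero _ ⟨2, rfl⟩

theorem constantCoeff_RC : constantCoeff RC = 1 := by
  rw [← coeff_zero_eq_constantCoeff_apply]
  exact EisensteinSeries.E_qExpansion_coeff_zero _ ⟨3, rfl⟩

theorem coeff_zero_DC : coeff 0 DC = 0 := by
  have h := ModularForm.discriminant_qExpansion_order
  by_contra h0
  have : (qExpansion 1 ModularForm.discriminant).order ≤ 0 := by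
    exact_mod_cast PowerSeries.order_le 0 h0
  rw [h] at this
  exact absurd this (by norm_num)

theorem coeff_one_DC : coeff 1 DC = 1 := ModularForm.discriminant_qExpansion_coeff_one

/-- The coefficients of `E₄` are integers. -/
theorem coeff_QC_int (n : ℕ) : ∃ m : ℤ, coeff n QC = m := by
  rw [show coeff n QC = _ from EisensteinSeries.E_qExpansion_coeff (by norm_num : 3 ≤ 4) ⟨2, rfl⟩ n]
  split_ifs with hn
  · exact ⟨1, by simp⟩
  · refine ⟨240 * (ArithmeticFunction.sigma 3 n : ℤ), ?_⟩
    have hb : bernoulli 4 = -1 / 30 := by decide +kernel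
    rw [hb]
    push_cast
    ring

/-- The coefficients of `E₆` are integers. -/
theorem coeff_RC_int (n : ℕ) : ∃ m : ℤ, coeff n RC = m := by
  rw [show coeff n RC = _ from EisensteinSeries.E_qExpansion_coeff (by norm_num : 3 ≤ 6) ⟨3, rfl⟩ n]
  split_ifs with hn
  · exact ⟨1, by simp⟩
  · refine ⟨-504 * (ArithmeticFunction.sigma 5 n : ℤ), ?_⟩
    have hb : bernoulli 6 = 1 / 42 := by decide +kernel
    rw [hb]
    push_cast
    ring

theorem coeff_QC_mem (S : Subring ℂ) (n : ℕ) : coeff n QC ∈ S := by
  obtain ⟨m, hm⟩ := coeff_QC_int n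
  rw [hm]; exact intCast_mem S m

theorem coeff_RC_mem (S : Subring ℂ) (n : ℕ) : coeff n RC ∈ S := by
  obtain ⟨m, hm⟩ := coeff_RC_int n
  rw [hm]; exact intCast_mem S m

/-! ## The monomial forms `E₄ ^ a * E₆ ^ b` -/

/-- The modular form `E₄ ^ a * E₆ ^ b` of weight `k = 4 a + 6 b`. -/
def monoForm (k : ℤ) (a b : ℕ) (h : (a : ℤ) * 4 + (b : ℤ) * 6 = k) : ModularForm 𝒮ℒ k :=
  ModularForm.mcast h ((E₄.pow a).mul (E₆.pow b))

theorem qExpansion_monoForm (k : ℤ) (a b : ℕ) (h : (a : ℤ) * 4 + (b : ℤ) * 6 = k) :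
    qExpansion 1 (monoForm k a b h) = QC ^ a * RC ^ b := by
  unfold monoForm
  rw [ModularForm.qExpansion_mcast, ModularForm.qExpansion_mul one_pos one_mem_strictPeriods_SL,
    ModularForm.qExpansion_pow one_pos one_mem_strictPeriods_SL,
    ModularForm.qExpansion_pow one_pos one_mem_strictPeriods_SL]

/-- Power series over `ℂ` with coefficients in a subring `S`, as a predicate closed under the
ring operations. -/
theorem coeff_mul_mem {A : Type*} [CommRing A] (S : Subring A) {f g : PowerSeries A}
    (hf : ∀ n, coeff n f ∈ S) (hg : ∀ n, coeff n g ∈ S) (n : ℕ) : coeff n (f * g) ∈ S := by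
  rw [coeff_mul]
  exact S.sum_mem fun p _ => S.mul_mem (hf _) (hg _)

theorem coeff_pow_mem {A : Type*} [CommRing A] (S : Subring A) {f : PowerSeries A}
    (hf : ∀ n, coeff n f ∈ S) (m n : ℕ) : coeff n (f ^ m) ∈ S := by
  induction m generalizing n with
  | zero =>
    rw [pow_zero, coeff_one]
    split_ifs
    · exact S.one_mem
    · exact S.zero_mem
  | succ m ih =>
    rw [pow_succ]
    exact coeff_mul_mem S ih hf n

theorem coeff_bas_mem {A : Type*} [CommRing A] (S : Subring A) {Q R D : PowerSeries A}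
    (hQ : ∀ n, coeff n Q ∈ S) (hR : ∀ n, coeff n R ∈ S) (hD : ∀ n, coeff n D ∈ S)
    (k c n : ℕ) : coeff n (bas Q R D k c) ∈ S := by
  unfold bas
  exact coeff_mul_mem S (coeff_mul_mem S (coeff_pow_mem S hD _) (coeff_pow_mem S hQ _))
    (coeff_pow_mem S hR _) n

/-! ## The main induction -/

private theorem exists_coords_aux (S : Subring ℂ) (hDS : ∀ n, coeff n DC ∈ S) :
    ∀ (n : ℕ) (k : ℤ), k.toNat = n → ∀ F : ModularForm 𝒮ℒ k,
      (∀ m, coeff m (qExpansion 1 F) ∈ S) →
      ∃ o : ℕ → ℂ, (∀ c, o c ∈ S) ∧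
        qExpansion 1 F = ∑ c ∈ range (dimL n), C (o c) * bas QC RC DC n c := by
  intro n
  induction n using Nat.strong_induction_on with
  | _ n ih =>
    intro k hkn F hF
    -- the zero form
    have hzero : F = 0 → ∃ o : ℕ → ℂ, (∀ c, o c ∈ S) ∧
        qExpansion 1 F = ∑ c ∈ range (dimL n), C (o c) * bas QC RC DC n c := by
      intro h0
      refine ⟨fun _ => 0, fun _ => S.zero_mem, ?_⟩
      rw [h0]
      simp [UpperHalfPlane.qExpansion_zero]
    rcases lt_or_ge k 0 with hneg | hnonneg
    · apply hzero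
      exact DFunLike.coe_injective (ModularFormClass.levelOne_neg_weight_eq_zero hneg F)
    rcases Int.even_or_odd k with heven | hodd
    swap
    · exact hzero (ModularForm.levelOne_odd_weight_eq_zero hodd F)
    by_cases hk0 : k = 0
    · subst hk0
      obtain ⟨c, hc⟩ := ModularFormClass.levelOne_weight_zero_const F
      have hn0 : n = 0 := by simpa using hkn.symm
      subst hn0
      have hq : qExpansion 1 F = C c := by
        rw [hc]
        have h1 : (Function.const ℍ c : ℍ → ℂ) = c • (1 : ℍ → ℂ) := by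
          funext z; simp
        rw [h1]
        have h2 := ModularForm.qExpansion_smul (h := 1) one_pos one_mem_strictPeriods_SL c
          (1 : ModularForm 𝒮ℒ 0)
        rw [show ((1 : ModularForm 𝒮ℒ 0) : ℍ → ℂ) = 1 from rfl] at h2
        rw [h2, UpperHalfPlane.qExpansion_one]
        ext m
        simp [coeff_C, coeff_one]
      refine ⟨fun _ => c, fun _ => ?_, ?_⟩
      · have := hF 0
        rw [hq, coeff_zero_C] at this
        exact this
      · rw [hq]
        simp [dimL, bas, eA, eB]
    by_cases hk2 : k = 2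
    · subst hk2
      apply hzero
      exact rank_zero_iff_forall_zero.mp ModularForm.levelOne_weight_two_rank_zero F
    -- now `k ≥ 4` is even
    have hk4 : 4 ≤ k := by
      obtain ⟨m, rfl⟩ := heven
      omega
    lift k to ℕ using hnonneg
    have hkn' : k = n := by simpa using hkn
    subst hkn'
    have hkeven : Even k := by exact_mod_cast heven
    have hk2' : k ≠ 2 := by
      intro h; apply hk2; rw [h]; rfl
    have hspec := eA_eB_spec hkeven hk2'
    set G : ModularForm 𝒮ℒ (k : ℤ) := monoForm (k : ℤ) (eA k) (eB k) (by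
      have : ((4 * eA k + 6 * eB k : ℕ) : ℤ) = (k : ℤ) := by rw [hspec]
      push_cast at this; linarith) with hG
    have hGq : qExpansion 1 G = bas QC RC DC k 0 := by
      rw [hG, qExpansion_monoForm, bas_zero]
    set a₀ : ℂ := coeff 0 (qExpansion 1 F) with ha₀
    have ha₀S : a₀ ∈ S := hF 0
    set F' : ModularForm 𝒮ℒ (k : ℤ) := F - a₀ • G with hF'
    have hF'q : qExpansion 1 F' = qExpansion 1 F - C a₀ * bas QC RC DC k 0 := by
      rw [hF']
      have h1 := ModularForm.qExpansion_sub (h := 1) one_pos one_mem_strictPeriods_SL F (a₀ • G)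
      have h2 := ModularForm.qExpansion_smul (h := 1) one_pos one_mem_strictPeriods_SL a₀ G
      have h3 : ((F - a₀ • G : ModularForm 𝒮ℒ (k : ℤ)) : ℍ → ℂ) = (F : ℍ → ℂ) - ⇑(a₀ • G) := rfl
      have h4 : ((a₀ • G : ModularForm 𝒮ℒ (k : ℤ)) : ℍ → ℂ) = a₀ • (G : ℍ → ℂ) := rfl
      rw [h3, h1, h4, h2, hGq, smul_eq_C_mul]
    have hF'S : ∀ m, coeff m (qExpansion 1 F') ∈ S := by
      intro m
      rw [hF'q, map_sub]
      refine S.sub_mem (hF m) (coeff_mul_mem S (fun j => ?_)
        (coeff_bas_mem S (coeff_QC_mem S) (coeff_RC_mem S) hDS k 0) m)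
      rw [coeff_C]
      split_ifs
      · exact ha₀S
      · exact S.zero_mem
    have hcusp : (qExpansion 1 F').coeff 0 = 0 := by
      rw [hF'q, map_sub, coeff_zero_eq_constantCoeff_apply, coeff_zero_eq_constantCoeff_apply,
        map_mul, constantCoeff_C, bas_zero, map_mul, map_pow, map_pow, constantCoeff_QC,
        constantCoeff_RC, ← coeff_zero_eq_constantCoeff_apply, ← ha₀]
      simp
    set H : ModularForm 𝒮ℒ ((k : ℤ) - 12) :=
      CuspForm.discriminantEquiv (toCuspForm F' hcusp) with hH
    have hfac : qExpansion 1 F' = DC * qExpansion 1 H :=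
      ModularForm.qExpansion_eq_qExpansion_discriminant_mul F' hcusp
    have hHS : ∀ m, coeff m (qExpansion 1 H) ∈ S := by
      apply coeff_mem_of_mul_mem S coeff_zero_DC coeff_one_DC hDS
      intro m
      rw [← hfac]
      exact hF'S m
    have hFq : qExpansion 1 F = C a₀ * bas QC RC DC k 0 + DC * qExpansion 1 H := by
      rw [← hfac, hF'q]; ring
    rcases lt_or_ge k 12 with hlt | hge
    · -- weight `< 12`: `H = 0`
      have hH0 : H = 0 :=
        DFunLike.coe_injective (ModularFormClass.levelOne_neg_weight_eq_zero (by omega) H)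
      refine ⟨fun _ => a₀, fun _ => ha₀S, ?_⟩
      rw [hFq, hH0, show ((0 : ModularForm 𝒮ℒ ((k : ℤ) - 12)) : ℍ → ℂ) = 0 from rfl,
        UpperHalfPlane.qExpansion_zero, mul_zero, add_zero, dimL_of_lt_twelve hlt hk2']
      simp
    · obtain ⟨k', rfl⟩ : ∃ k', k = k' + 12 := ⟨k - 12, by omega⟩
      have hto : (((k' + 12 : ℕ) : ℤ) - 12).toNat = k' := by
        push_cast; simp
      obtain ⟨o', ho'S, ho'⟩ := ih k' (by omega) (((k' + 12 : ℕ) : ℤ) - 12) hto H hHS
      refine ⟨fun c => Nat.casesOn c a₀ o', fun c => ?_, ?_⟩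
      · cases c with
        | zero => exact ha₀S
        | succ c => exact ho'S c
      · rw [hFq, ho', dimL_add_twelve, Finset.sum_range_succ', Finset.mul_sum, add_comm]
        congr 1
        apply Finset.sum_congr rfl
        intro c _
        rw [bas_succ]
        ring

/-- **Integral basis, complex form.**  If the discriminant has coefficients in the subring `S`
and the level one form `F` has `q`-expansion coefficients in `S`, then its `q`-expansion is a
combination, with coefficients in `S`, of the triangular family `Δ ^ c * E₄ ^ a * E₆ ^ b`. -/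
theorem exists_coords_complex (S : Subring ℂ) (hDS : ∀ n, coeff n DC ∈ S) {k : ℤ}
    (F : ModularForm 𝒮ℒ k) (hF : ∀ n, coeff n (qExpansion 1 F) ∈ S) :
    ∃ o : ℕ → ℂ, (∀ c, o c ∈ S) ∧
      qExpansion 1 F = ∑ c ∈ range (dimL k.toNat), C (o c) * bas QC RC DC k.toNat c :=
  exists_coords_aux S hDS k.toNat k rfl F hF

/-! ## Integer models of the three generators -/

section IntModel

variable {Qs Rs Ds : PowerSeries ℤ}

theorem map_bas_int (hQ : Qs.map (Int.castRingHom ℂ) = qExpansion 1 E₄)
    (hR : Rs.map (Int.castRingHom ℂ) = qExpansion 1 E₆)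
    (hD : Ds.map (Int.castRingHom ℂ) = qExpansion 1 ModularForm.discriminant) (k c : ℕ) :
    (bas Qs Rs Ds k c).map (Int.castRingHom ℂ) = bas QC RC DC k c := by
  rw [map_bas, hQ, hR, hD]

theorem coeff_DC_mem (hD : Ds.map (Int.castRingHom ℂ) = qExpansion 1 ModularForm.discriminant)
    (S : Subring ℂ) (n : ℕ) : coeff n DC ∈ S := by
  rw [show DC = Ds.map (Int.castRingHom ℂ) from hD.symm, coeff_map]
  exact intCast_mem S _

theorem constantCoeff_Qs (hQ : Qs.map (Int.castRingHom ℂ) = qExpansion 1 E₄) :
    constantCoeff Qs = 1 := by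
  have h := constantCoeff_QC
  rw [show QC = Qs.map (Int.castRingHom ℂ) from hQ.symm, ← coeff_zero_eq_constantCoeff_apply,
    coeff_map] at h
  rw [← coeff_zero_eq_constantCoeff_apply]
  rw [eq_intCast] at h
  exact_mod_cast h

theorem constantCoeff_Rs (hR : Rs.map (Int.castRingHom ℂ) = qExpansion 1 E₆) :
    constantCoeff Rs = 1 := by
  have h := constantCoeff_RC
  rw [show RC = Rs.map (Int.castRingHom ℂ) from hR.symm, ← coeff_zero_eq_constantCoeff_apply,
    coeff_map] at h
  rw [← coeff_zero_eq_constantCoeff_apply]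
  rw [eq_intCast] at h
  exact_mod_cast h

theorem constantCoeff_Ds
    (hD : Ds.map (Int.castRingHom ℂ) = qExpansion 1 ModularForm.discriminant) :
    constantCoeff Ds = 0 := by
  have h := coeff_zero_DC
  rw [show DC = Ds.map (Int.castRingHom ℂ) from hD.symm, coeff_map] at h
  rw [← coeff_zero_eq_constantCoeff_apply]
  rw [eq_intCast] at h
  exact_mod_cast h

theorem coeff_one_Ds
    (hD : Ds.map (Int.castRingHom ℂ) = qExpansion 1 ModularForm.discriminant) :
    coeff 1 Ds = 1 := by
  have h := coeff_one_DC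
  rw [show DC = Ds.map (Int.castRingHom ℂ) from hD.symm, coeff_map, eq_intCast] at h
  exact_mod_cast h

/-- Triangularity of the integer family, transported to any commutative ring `K`:
`bas Q_K R_K D_K k c = q ^ c + ...`. -/
theorem coeff_bas_map (hQ : Qs.map (Int.castRingHom ℂ) = qExpansion 1 E₄)
    (hR : Rs.map (Int.castRingHom ℂ) = qExpansion 1 E₆)
    (hD : Ds.map (Int.castRingHom ℂ) = qExpansion 1 ModularForm.discriminant)
    {K : Type*} [CommRing K] (k c n : ℕ) (hn : n ≤ c) :
    coeff n (bas (Qs.map (Int.castRingHom K)) (Rs.map (Int.castRingHom K))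
      (Ds.map (Int.castRingHom K)) k c) = if n = c then 1 else 0 := by
  apply coeff_bas _ _ _ _ k c n hn
  · rw [← coeff_zero_eq_constantCoeff_apply, coeff_map, coeff_zero_eq_constantCoeff_apply,
      constantCoeff_Qs hQ]; simp
  · rw [← coeff_zero_eq_constantCoeff_apply, coeff_map, coeff_zero_eq_constantCoeff_apply,
      constantCoeff_Rs hR]; simp
  · rw [← coeff_zero_eq_constantCoeff_apply, coeff_map, coeff_zero_eq_constantCoeff_apply,
      constantCoeff_Ds hD]; simp
  · rw [coeff_map, coeff_one_Ds hD]; simp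

/-- **Integral basis (L4 main statement).**  A level one form `F` of weight `k` whose
`q`-expansion has coefficients in the subring `S` of `ℂ` has coordinates `o c ∈ S` with respect
to the integral triangular family `Ds ^ c * Qs ^ a * Rs ^ b` (`4 a + 6 b = k - 12 c`). -/
theorem exists_coords (hQ : Qs.map (Int.castRingHom ℂ) = qExpansion 1 E₄)
    (hR : Rs.map (Int.castRingHom ℂ) = qExpansion 1 E₆)
    (hD : Ds.map (Int.castRingHom ℂ) = qExpansion 1 ModularForm.discriminant)
    (S : Subring ℂ) {k : ℤ} (F : ModularForm 𝒮ℒ k)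
    (hF : ∀ n, coeff n (qExpansion 1 F) ∈ S) :
    ∃ o : ℕ → ℂ, (∀ c, o c ∈ S) ∧
      qExpansion 1 F = ∑ c ∈ range (dimL k.toNat),
        C (o c) * (bas Qs Rs Ds k.toNat c).map (Int.castRingHom ℂ) := by
  obtain ⟨o, hoS, ho⟩ := exists_coords_complex S (coeff_DC_mem hD S) F hF
  refine ⟨o, hoS, ?_⟩
  rw [ho]
  apply Finset.sum_congr rfl
  intro c _
  rw [map_bas_int hQ hR hD]

/-- **Integral basis over the subring.**  The same statement for a power series `f` over `S`
lifting the `q`-expansion of `F`. -/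
theorem exists_coords_sub (hQ : Qs.map (Int.castRingHom ℂ) = qExpansion 1 E₄)
    (hR : Rs.map (Int.castRingHom ℂ) = qExpansion 1 E₆)
    (hD : Ds.map (Int.castRingHom ℂ) = qExpansion 1 ModularForm.discriminant)
    (S : Subring ℂ) {k : ℤ} (F : ModularForm 𝒮ℒ k) (f : PowerSeries S)
    (hf : f.map S.subtype = qExpansion 1 F) :
    ∃ o : ℕ → S, f = ∑ c ∈ range (dimL k.toNat),
        C (o c) * (bas Qs Rs Ds k.toNat c).map (Int.castRingHom S) := by
  have hF : ∀ n, coeff n (qExpansion 1 F) ∈ S := by
    intro n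
    rw [← hf, coeff_map]
    exact (coeff n f).2
  obtain ⟨o, hoS, ho⟩ := exists_coords hQ hR hD S F hF
  refine ⟨fun c => ⟨o c, hoS c⟩, ?_⟩
  apply PowerSeries.map_injective S.subtype Subtype.coe_injective
  rw [hf, ho, map_sum]
  apply Finset.sum_congr rfl
  intro c _
  rw [map_mul, map_C]
  have h1 : (S.subtype).comp (Int.castRingHom S) = Int.castRingHom ℂ := RingHom.ext_int _ _
  have h2 : ((bas Qs Rs Ds k.toNat c).map (Int.castRingHom S)).map S.subtype =
      (bas Qs Rs Ds k.toNat c).map (Int.castRingHom ℂ) := by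
    rw [← h1, PowerSeries.map_comp]
    rfl
  rw [h2]
  rfl

/-- **Reduction.**  For any ring homomorphism `φ : S →+* K` the image of `f` is a combination
of the triangular family over `K`. -/
theorem exists_coords_map (hQ : Qs.map (Int.castRingHom ℂ) = qExpansion 1 E₄)
    (hR : Rs.map (Int.castRingHom ℂ) = qExpansion 1 E₆)
    (hD : Ds.map (Int.castRingHom ℂ) = qExpansion 1 ModularForm.discriminant)
    (S : Subring ℂ) {K : Type*} [CommRing K] (φ : S →+* K) {k : ℤ} (F : ModularForm 𝒮ℒ k)
    (f : PowerSeries S) (hf : f.map S.subtype = qExpansion 1 F) :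
    ∃ o : ℕ → S, f.map φ = ∑ c ∈ range (dimL k.toNat),
        C (φ (o c)) * bas (Qs.map (Int.castRingHom K)) (Rs.map (Int.castRingHom K))
          (Ds.map (Int.castRingHom K)) k.toNat c := by
  obtain ⟨o, ho⟩ := exists_coords_sub hQ hR hD S F f hf
  refine ⟨o, ?_⟩
  conv_lhs => rw [ho]
  rw [map_sum]
  apply Finset.sum_congr rfl
  intro c _
  rw [map_mul, map_C]
  congr 1
  have h1 : φ.comp (Int.castRingHom S) = Int.castRingHom K := RingHom.ext_int _ _
  have h2 : ∀ P : PowerSeries ℤ, (P.map (Int.castRingHom S)).map φ = P.map (Int.castRingHom K) := by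
    intro P
    rw [← h1, PowerSeries.map_comp]
    rfl
  rw [h2, map_bas]

/-- **Reduction when `E₄` and `E₆` become `1`** (the shape used for `ℓ = 2, 3`): the image of
`f` is a polynomial of degree `< dimL k` in the image of `Δ`. -/
theorem exists_coords_map_of_one (hQ : Qs.map (Int.castRingHom ℂ) = qExpansion 1 E₄)
    (hR : Rs.map (Int.castRingHom ℂ) = qExpansion 1 E₆)
    (hD : Ds.map (Int.castRingHom ℂ) = qExpansion 1 ModularForm.discriminant)
    (S : Subring ℂ) {K : Type*} [CommRing K] (φ : S →+* K)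
    (hQ1 : Qs.map (Int.castRingHom K) = 1) (hR1 : Rs.map (Int.castRingHom K) = 1)
    {k : ℤ} (F : ModularForm 𝒮ℒ k)
    (f : PowerSeries S) (hf : f.map S.subtype = qExpansion 1 F) :
    ∃ o : ℕ → S, f.map φ = ∑ c ∈ range (dimL k.toNat),
        C (φ (o c)) * (Ds.map (Int.castRingHom K)) ^ c := by
  obtain ⟨o, ho⟩ := exists_coords_map hQ hR hD S φ F f hf
  refine ⟨o, ?_⟩
  rw [ho]
  apply Finset.sum_congr rfl
  intro c _
  simp [bas, hQ1, hR1]

end IntModel

end

end Fermat.Agent.Eis.L1B
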