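/-
Program E (S16), node N2-int, part 1: pure algebra of isobaric polynomials in `X₀` (weight 4) and
`X₁` (weight 6).  No modular forms here.

Main results (namespace `Fermat.Agent.Eis.L1Int`):
* `exists_eq_add_disc2_mul`: an isobaric `Φ` of weight `k` equals
  `Φ(1,1) • X₀^r X₁^s + (X₀³ - X₁²) * G` with `G` isobaric of weight `k - 12`.
* `isobaric2_eq_zero`: the `q`-expansion map is injective on isobaric pieces.
* `isobaric_aeval`: substitution of isobaric polynomials into an isobaric polynomial.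
* `exists_isobaric2_of_isobaric3`: elimination of the third variable (weight 12) when `1728` is
  invertible.
-/
import Mathlib

set_option autoImplicit false

noncomputable section

namespace Fermat.Agent.Eis.L1Int

open MvPolynomial

/-- weights of the two generators `E₄, E₆`. -/
def wt2 : Fin 2 → ℕ := ![4, 6]

/-- weights of the three generators `E₄, E₆, Δ`. -/
def wt3 : Fin 3 → ℕ := ![4, 6, 12]

section CommRing

variable (K : Type*) [CommRing K]

/-- the polynomial `X₀³ - X₁²` (`= 1728 Δ`). -/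
def disc2 : MvPolynomial (Fin 2) K := X 0 ^ 3 - X 1 ^ 2

lemma isobaric_X0 : (X 0 : MvPolynomial (Fin 2) K).IsWeightedHomogeneous wt2 4 :=
  isWeightedHomogeneous_X K wt2 0

lemma isobaric_X1 : (X 1 : MvPolynomial (Fin 2) K).IsWeightedHomogeneous wt2 6 :=
  isWeightedHomogeneous_X K wt2 1

lemma isobaric_X0_pow_mul_X1_pow (i j : ℕ) :
    ((X 0 : MvPolynomial (Fin 2) K) ^ i * X 1 ^ j).IsWeightedHomogeneous wt2 (4 * i + 6 * j) := by
  have h := ((isobaric_X0 K).pow i).mul ((isobaric_X1 K).pow j)
  simpa [smul_eq_mul, mul_comm] using h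

lemma disc2_isobaric : (disc2 K).IsWeightedHomogeneous wt2 12 := by
  have h0 := (isobaric_X0 K).pow 3
  have h1 := (isobaric_X1 K).pow 2
  exact h0.sub h1

/-- reduction of a monomial modulo `X₀³ - X₁²`. -/
lemma monomial_reduce (i j : ℕ) :
    ∃ G : MvPolynomial (Fin 2) K, G.IsWeightedHomogeneous wt2 (4 * i + 6 * j - 12) ∧
      (4 * i + 6 * j < 12 → G = 0) ∧
      (X 0 : MvPolynomial (Fin 2) K) ^ i * X 1 ^ j =
        X 0 ^ (i % 3) * X 1 ^ (j + 2 * (i / 3)) + disc2 K * G := by
  induction i using Nat.strong_induction_on generalizing j with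
  | _ i ih =>
    rcases lt_or_ge i 3 with hi | hi
    · refine ⟨0, isWeightedHomogeneous_zero K wt2 _, fun _ => rfl, ?_⟩
      rw [Nat.mod_eq_of_lt hi, Nat.div_eq_of_lt hi]
      simp
    · obtain ⟨G, hG, -, hGeq⟩ := ih (i - 3) (by omega) (j + 2)
      refine ⟨G + X 0 ^ (i - 3) * X 1 ^ j, ?_, fun h => by omega, ?_⟩
      · have h1 : 4 * (i - 3) + 6 * (j + 2) - 12 = 4 * i + 6 * j - 12 := by omega
        have h2 : 4 * (i - 3) + 6 * j = 4 * i + 6 * j - 12 := by omega
        rw [h1] at hG
        have h3 := isobaric_X0_pow_mul_X1_pow K (i - 3) j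
        rw [h2] at h3
        exact hG.add h3
      · have e1 : (i - 3) % 3 = i % 3 := by omega
        have e2 : j + 2 + 2 * ((i - 3) / 3) = j + 2 * (i / 3) := by omega
        rw [e1, e2] at hGeq
        have e3 : (X 0 : MvPolynomial (Fin 2) K) ^ i = X 0 ^ (i - 3) * X 0 ^ 3 := by
          rw [← pow_add]; congr 1; omega
        have e4 : (X 1 : MvPolynomial (Fin 2) K) ^ (j + 2) = X 1 ^ j * X 1 ^ 2 := pow_add _ _ _
        rw [e4] at hGeq
        rw [e3]
        simp only [disc2] at hGeq ⊢
        linear_combination hGeq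

lemma weight_wt2 (d : Fin 2 →₀ ℕ) : Finsupp.weight wt2 d = 4 * d 0 + 6 * d 1 := by
  rw [Finsupp.weight_apply, Finsupp.sum_fintype _ _ (fun i => by simp), Fin.sum_univ_two]
  simp [wt2, mul_comm]

lemma monomial_eq_X0_X1 (d : Fin 2 →₀ ℕ) (r : K) :
    monomial d r = C r * ((X 0 : MvPolynomial (Fin 2) K) ^ d 0 * X 1 ^ d 1) := by
  rw [monomial_eq, Finsupp.prod_fintype _ _ (fun i => by simp), Fin.prod_univ_two]

variable {K}

/-- **Division lemma.** An isobaric polynomial of weight `k` is its value at `(1,1)` times a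
fixed monomial plus a multiple of `X₀³ - X₁²` with isobaric quotient of weight `k - 12`. -/
theorem exists_eq_add_disc2_mul {k : ℕ} {Φ : MvPolynomial (Fin 2) K}
    (hΦ : Φ.IsWeightedHomogeneous wt2 k) :
    ∃ G : MvPolynomial (Fin 2) K, G.IsWeightedHomogeneous wt2 (k - 12) ∧ (k < 12 → G = 0) ∧
      Φ = C (eval ![1, 1] Φ) * (X 0 ^ (k % 3) * X 1 ^ ((k - 4 * (k % 3)) / 6)) +
        disc2 K * G := by
  refine IsWeightedHomogeneous.induction_on
    (motive := fun Φ _ => ∃ G : MvPolynomial (Fin 2) K, G.IsWeightedHomogeneous wt2 (k - 12) ∧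
      (k < 12 → G = 0) ∧
      Φ = C (eval ![1, 1] Φ) * (X 0 ^ (k % 3) * X 1 ^ ((k - 4 * (k % 3)) / 6)) +
        disc2 K * G) ?_ ?_ ?_ hΦ
  · exact ⟨0, isWeightedHomogeneous_zero K wt2 _, fun _ => rfl, by simp⟩
  · rintro p q - - ⟨G1, hG1, hG1', h1⟩ ⟨G2, hG2, hG2', h2⟩
    refine ⟨G1 + G2, hG1.add hG2, fun h => by rw [hG1' h, hG2' h, add_zero], ?_⟩
    rw [map_add, map_add]
    linear_combination h1 + h2
  · intro d r hd
    rw [weight_wt2] at hd
    obtain ⟨G, hG, hG', hGeq⟩ := monomial_reduce K (d 0) (d 1)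
    rw [hd] at hG hG'
    refine ⟨C r * G, hG.C_mul r, fun h => by rw [hG' h, mul_zero], ?_⟩
    have e1 : d 0 % 3 = k % 3 := by omega
    have e2 : d 1 + 2 * (d 0 / 3) = (k - 4 * (k % 3)) / 6 := by omega
    rw [e1, e2] at hGeq
    have e3 : eval ![(1 : K), 1] (monomial d r) = r := by
      rw [eval_monomial, Finsupp.prod_fintype _ _ (fun i => by simp), Fin.prod_univ_two]
      simp
    rw [e3, monomial_eq_X0_X1, hGeq]
    ring

lemma constantCoeff_aeval2 (Q R : PowerSeries K)
    (hQ0 : PowerSeries.constantCoeff Q = 1) (hR0 : PowerSeries.constantCoeff R = 1)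
    (Φ : MvPolynomial (Fin 2) K) :
    PowerSeries.constantCoeff (aeval ![Q, R] Φ) = eval ![1, 1] Φ := by
  have h : (PowerSeries.constantCoeff (R := K)).comp
      (aeval ![Q, R] : MvPolynomial (Fin 2) K →ₐ[K] PowerSeries K).toRingHom =
      eval ![1, 1] := by
    apply MvPolynomial.ringHom_ext
    · intro r
      simp
    · intro i
      fin_cases i <;> simp [hQ0, hR0]
  exact RingHom.congr_fun h Φ

lemma aeval2_disc2 (Q R : PowerSeries K) : aeval ![Q, R] (disc2 K) = Q ^ 3 - R ^ 2 := by
  simp [disc2]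

end CommRing

section Domain

variable {K : Type*} [CommRing K] [IsDomain K]

/-- **Injectivity of the `q`-expansion on isobaric pieces** (pure algebra): if `Q, R` are power
series with constant term `1` and `Q³ - R² = 1728 D` with `1728 D ≠ 0`, then an isobaric
polynomial `Φ` in `X₀` (weight 4), `X₁` (weight 6) with `Φ(Q, R) = 0` vanishes. -/
theorem isobaric2_eq_zero (Q R D : PowerSeries K)
    (hQ0 : PowerSeries.constantCoeff Q = 1) (hR0 : PowerSeries.constantCoeff R = 1)
    (hD : Q ^ 3 - R ^ 2 = (1728 : K) • D) (h1728 : (1728 : K) ≠ 0) (hD0 : D ≠ 0) :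
    ∀ (k : ℕ) (Φ : MvPolynomial (Fin 2) K), Φ.IsWeightedHomogeneous wt2 k →
      aeval ![Q, R] Φ = 0 → Φ = 0 := by
  intro k
  induction k using Nat.strong_induction_on with
  | _ k ih =>
    intro Φ hΦ h0
    obtain ⟨G, hG, hG', hGeq⟩ := exists_eq_add_disc2_mul hΦ
    have hc : eval ![(1 : K), 1] Φ = 0 := by
      rw [← constantCoeff_aeval2 Q R hQ0 hR0, h0, map_zero]
    rw [hc, map_zero, zero_mul, zero_add] at hGeq
    rcases lt_or_ge k 12 with hk | hk
    · rw [hGeq, hG' hk, mul_zero]
    · have h1 : aeval ![Q, R] G = 0 := by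
        have h2 : aeval ![Q, R] Φ = (Q ^ 3 - R ^ 2) * aeval ![Q, R] G := by
          rw [hGeq, map_mul, aeval2_disc2]
        rw [h0, hD] at h2
        have h3 : (1728 : K) • D ≠ 0 := by
          intro h
          apply hD0
          ext n
          have h4 := congrArg (PowerSeries.coeff n) h
          rw [PowerSeries.coeff_smul, map_zero, smul_eq_mul] at h4
          rw [map_zero]
          exact (mul_eq_zero.mp h4).resolve_left h1728
        exact (mul_eq_zero.mp h2.symm).resolve_left h3
      rw [hGeq, ih (k - 12) (by omega) G hG h1, mul_zero]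

end Domain

section Subst

universe uA

variable {K : Type*} [CommRing K]

/-- Substituting isobaric polynomials of the right weights into an isobaric polynomial gives an
isobaric polynomial. -/
theorem isobaric_aeval {σ τ : Type*} {w : σ → ℕ} {w' : τ → ℕ} {k : ℕ}
    {Φ : MvPolynomial σ K} (hΦ : Φ.IsWeightedHomogeneous w k)
    (g : σ → MvPolynomial τ K) (hg : ∀ i, (g i).IsWeightedHomogeneous w' (w i)) :
    (aeval g Φ).IsWeightedHomogeneous w' k := by
  refine IsWeightedHomogeneous.induction_on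
    (motive := fun Φ _ => (aeval g Φ).IsWeightedHomogeneous w' k) ?_ ?_ ?_ hΦ
  · rw [map_zero]
    exact isWeightedHomogeneous_zero K w' k
  · intro p q _ _ hp hq
    rw [map_add]
    exact hp.add hq
  · intro d r hd
    rw [aeval_monomial, ← hd, Finsupp.weight_apply, Finsupp.sum, Finsupp.prod]
    have h1 : (∏ i ∈ d.support, g i ^ d i).IsWeightedHomogeneous w'
        (∑ i ∈ d.support, d i • w i) :=
      IsWeightedHomogeneous.prod _ _ _ fun i _ => (hg i).pow (d i)
    simpa using h1.C_mul r

/-- Elimination of the weight-12 variable: if `u * 1728 = 1` in `K`, an isobaric polynomial in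
three variables of weights `4, 6, 12` becomes an isobaric polynomial in two variables after
`X₂ := u (X₀³ - X₁²)`, with the same value at every `(Q, R, D)` with `Q³ - R² = 1728 D`. -/
theorem exists_isobaric2_of_isobaric3 {u : K} (hu : u * 1728 = 1) {k : ℕ}
    {Φ : MvPolynomial (Fin 3) K} (hΦ : Φ.IsWeightedHomogeneous wt3 k) :
    ∃ Ψ : MvPolynomial (Fin 2) K, Ψ.IsWeightedHomogeneous wt2 k ∧
      ∀ (A : Type uA) [CommRing A] [Algebra K A] (Q R D : A),
        Q ^ 3 - R ^ 2 = (1728 : K) • D → aeval ![Q, R] Ψ = aeval ![Q, R, D] Φ := by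
  refine ⟨aeval ![X 0, X 1, C u * disc2 K] Φ, isobaric_aeval hΦ _ ?_, ?_⟩
  · intro i
    fin_cases i
    · exact isobaric_X0 K
    · exact isobaric_X1 K
    · exact (disc2_isobaric K).C_mul u
  · intro A _ _ Q R D hD
    rw [← AlgHom.comp_apply, comp_aeval]
    congr 2
    funext i
    fin_cases i
    · simp
    · simp
    · have h1 : aeval ![Q, R] (C u * disc2 K) = algebraMap K A u * (Q ^ 3 - R ^ 2) := by
        simp [disc2]
      change aeval ![Q, R] (C u * disc2 K) = D
      rw [h1, hD, Algebra.smul_def, ← mul_assoc, ← map_mul, hu, map_one, one_mul]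

lemma weight_wt3 (d : Fin 3 →₀ ℕ) : Finsupp.weight wt3 d = 4 * d 0 + 6 * d 1 + 12 * d 2 := by
  rw [Finsupp.weight_apply, Finsupp.sum_fintype _ _ (fun i => by simp), Fin.sum_univ_three]
  simp [wt3, mul_comm]

/-- If the first two generators specialise to `1` (as happens for `E₄, E₆` modulo `2` and `3`),
an isobaric polynomial of weight `k` in three variables specialises to a polynomial of degree
at most `k / 12` in the third one. -/
theorem exists_polynomial_of_isobaric3 {k : ℕ}
    {Φ : MvPolynomial (Fin 3) K} (hΦ : Φ.IsWeightedHomogeneous wt3 k) :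
    ∃ P : Polynomial K, P.natDegree ≤ k / 12 ∧
      ∀ (A : Type uA) [CommRing A] [Algebra K A] (D : A),
        aeval ![1, 1, D] Φ = Polynomial.aeval D P := by
  refine IsWeightedHomogeneous.induction_on
    (motive := fun Φ _ => ∃ P : Polynomial K, P.natDegree ≤ k / 12 ∧
      ∀ (A : Type uA) [CommRing A] [Algebra K A] (D : A),
        aeval ![1, 1, D] Φ = Polynomial.aeval D P) ?_ ?_ ?_ hΦ
  · exact ⟨0, by simp, fun A _ _ D => by simp⟩
  · rintro p q - - ⟨P1, hP1, h1⟩ ⟨P2, hP2, h2⟩
    refine ⟨P1 + P2, (Polynomial.natDegree_add_le _ _).trans (max_le hP1 hP2), ?_⟩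
    intro A _ _ D
    rw [map_add, map_add, h1, h2]
  · intro d r hd
    rw [weight_wt3] at hd
    refine ⟨Polynomial.monomial (d 2) r, (Polynomial.natDegree_monomial_le r).trans ?_, ?_⟩
    · omega
    · intro A _ _ D
      rw [aeval_monomial, Finsupp.prod_fintype _ _ (fun i => by simp), Fin.prod_univ_three,
        Polynomial.aeval_monomial]
      simp

end Subst

end Fermat.Agent.Eis.L1Int
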