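/-
Program E (S16), node N2-int, part 3: von Staudt–Clausen for `E_{l-1}`.

For a prime `l ≥ 5` the normalised Eisenstein series `E_{l-1} = 1 - (2(l-1)/B_{l-1}) ∑ σ_{l-2}(n) qⁿ`
has `l`-integral coefficients and is congruent to `1` modulo `l`.

Main results (namespace `Fermat.Agent.Eis.L1Int`):
* `exists_eis_coeff_eq`: `2 (l-1) / B_{l-1} = l * a / b` with integers `a, b`, `l ∤ b`.
-/
import Mathlib

set_option autoImplicit false

noncomputable section

namespace Fermat.Agent.Eis.L1Int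

open Finset

/-- **von Staudt–Clausen at the prime `l`**: `l * N * B_{l-1}` is an integer congruent to `-N`
modulo `l` for a suitable `N` prime to `l`. -/
theorem exists_int_bernoulli_pred (l : ℕ) [hl : Fact l.Prime] (hl3 : 3 ≤ l) :
    ∃ (N : ℕ) (c : ℤ), ¬ l ∣ N ∧ ¬ (l : ℤ) ∣ c ∧
      (l : ℚ) * N * bernoulli (l - 1) = c := by
  obtain ⟨k, hk⟩ : ∃ k, l - 1 = 2 * k := by
    have hodd : Odd l := hl.out.odd_of_ne_two (by omega)
    obtain ⟨j, hj⟩ := hodd
    exact ⟨j, by omega⟩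
  obtain ⟨m, hm⟩ := Bernoulli.vonStaudt_clausen k
  rw [← hk] at hm
  set s : Finset ℕ := (range (l - 1 + 2)).filter fun p => p.Prime ∧ (p - 1) ∣ l - 1 with hs
  have hls : l ∈ s := by
    rw [hs, mem_filter, mem_range]
    exact ⟨by omega, hl.out, dvd_rfl⟩
  rw [← add_sum_erase s _ hls] at hm
  set t : Finset ℕ := s.erase l with ht
  have htprime : ∀ p ∈ t, p.Prime := fun p hp => ((mem_filter.mp (mem_of_mem_erase hp)).2).1
  have htne : ∀ p ∈ t, p ≠ l := fun p hp => ne_of_mem_erase hp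
  set N : ℕ := ∏ p ∈ t, p with hN
  have hlN : ¬ l ∣ N := by
    intro h
    obtain ⟨p, hp, hlp⟩ := (hl.out.prime.dvd_finsetProd_iff _).mp h
    exact htne p hp ((Nat.prime_dvd_prime_iff_eq hl.out (htprime p hp)).mp hlp).symm
  -- `N * T` is an integer
  have hNT : ∃ z : ℤ, (N : ℚ) * ∑ p ∈ t, (1 : ℚ) / p = z := by
    refine ⟨∑ p ∈ t, ∏ p' ∈ t.erase p, (p' : ℤ), ?_⟩
    rw [mul_sum]
    push_cast
    refine sum_congr rfl fun p hp => ?_
    have hp0 : (p : ℚ) ≠ 0 := Nat.cast_ne_zero.mpr (htprime p hp).ne_zero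
    rw [hN, ← mul_prod_erase t _ hp]
    push_cast
    field_simp
  obtain ⟨z, hz⟩ := hNT
  refine ⟨N, (l : ℤ) * N * m - N - l * z, hlN, ?_, ?_⟩
  · intro h
    have h1 : (l : ℤ) ∣ N := by
      have h2 : (l : ℤ) ∣ (l : ℤ) * N * m - l * z - ((l : ℤ) * N * m - N - l * z) :=
        dvd_sub (dvd_sub ⟨N * m, by ring⟩ ⟨z, rfl⟩) h
      have h3 : (l : ℤ) * N * m - l * z - ((l : ℤ) * N * m - N - l * z) = N := by ring
      rwa [h3] at h2
    exact hlN (Int.natCast_dvd_natCast.mp h1)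
  · have hl0 : (l : ℚ) ≠ 0 := Nat.cast_ne_zero.mpr hl.out.ne_zero
    have hB : bernoulli (l - 1) = m - 1 / l - ∑ p ∈ t, (1 : ℚ) / p := by
      linarith
    rw [hB]
    push_cast
    rw [← hz]
    field_simp

/-- The Eisenstein coefficient `2 (l-1) / B_{l-1}` is `l` times an `l`-integral rational. -/
theorem exists_eis_coeff_eq (l : ℕ) [hl : Fact l.Prime] (hl3 : 3 ≤ l) :
    ∃ (a b : ℤ), ¬ (l : ℤ) ∣ b ∧
      (2 * ((l - 1 : ℕ) : ℚ)) / bernoulli (l - 1) = (l : ℚ) * a / b := by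
  obtain ⟨N, c, -, hc, h⟩ := exists_int_bernoulli_pred l hl3
  have hc0 : (c : ℚ) ≠ 0 := by
    intro h0
    apply hc
    have : c = 0 := by exact_mod_cast h0
    rw [this]
    exact dvd_zero _
  have hl0 : (l : ℚ) ≠ 0 := Nat.cast_ne_zero.mpr hl.out.ne_zero
  have hN0 : (N : ℚ) ≠ 0 := by
    intro h0
    rw [h0, mul_zero, zero_mul] at h
    exact hc0 h.symm
  have hB : bernoulli (l - 1) = c / ((l : ℚ) * N) := by
    rw [eq_div_iff (mul_ne_zero hl0 hN0), ← h]
    ring
  refine ⟨2 * ((l - 1 : ℕ) : ℤ) * N, c, hc, ?_⟩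
  rw [hB]
  push_cast
  field_simp

open ModularForm UpperHalfPlane MatrixGroups ModularFormClass in
/-- **`E_{l-1} ≡ 1 mod l`.** Let `S` be a subring of `ℂ` in which every integer prime to `l` is
invertible.  Then the `q`-expansion of `E_{l-1}` has coefficients in `S`, and its image under any
ring homomorphism `φ : S →+* K` killing `l` is `1`. -/
theorem exists_qExpansion_E_pred (l : ℕ) [hl : Fact l.Prime] (hl5 : 5 ≤ l)
    (S : Subring ℂ) (hS : ∀ N : ℕ, ¬ l ∣ N → ((N : ℂ))⁻¹ ∈ S) :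
    ∃ f : PowerSeries S,
      PowerSeries.map S.subtype f = qExpansion 1 (E (k := l - 1) (by omega)) ∧
      ∀ (K : Type*) [CommRing K] (φ : S →+* K), φ (l : S) = 0 → PowerSeries.map φ f = 1 := by
  have hk3 : 3 ≤ l - 1 := by omega
  have hk2 : Even (l - 1) := by
    have hodd : Odd l := hl.out.odd_of_ne_two (by omega)
    obtain ⟨j, hj⟩ := hodd
    exact ⟨j, by omega⟩
  obtain ⟨a, b, hb, hab⟩ := exists_eis_coeff_eq l (by omega)
  -- the inverse of `b` lies in `S`
  have hbS : ((b : ℂ))⁻¹ ∈ S := by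
    have h1 : ¬ l ∣ b.natAbs := fun h => hb (Int.natCast_dvd.mpr h)
    have h2 := hS b.natAbs h1
    have h3 : (b : ℂ) = (b.natAbs : ℂ) ∨ (b : ℂ) = -(b.natAbs : ℂ) := by
      rcases Int.natAbs_eq b with hbb | hbb
      · left
        have := congrArg (Int.cast : ℤ → ℂ) hbb
        rwa [Int.cast_natCast] at this
      · right
        have := congrArg (Int.cast : ℤ → ℂ) hbb
        rwa [Int.cast_neg, Int.cast_natCast] at this
    rcases h3 with h3 | h3
    · rw [h3]
      exact h2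
    · rw [h3, inv_neg]
      exact S.neg_mem h2
  let binv : S := ⟨_, hbS⟩
  let g : S := (l : S) * ((a : S) * binv)
  have hgval : (g : ℂ) = -(-(2 * ((l - 1 : ℕ) : ℂ) / (bernoulli (l - 1) : ℂ))) := by
    have h3 : ((2 * ((l - 1 : ℕ) : ℚ) / bernoulli (l - 1) : ℚ) : ℂ) = ((l : ℚ) * a / b : ℚ) := by
      rw [hab]
    push_cast at h3
    rw [neg_neg, h3]
    simp only [g, binv, Subring.coe_mul, Subring.coe_natCast, Subring.coe_intCast]
    ring
  refine ⟨PowerSeries.mk fun m => if m = 0 then 1 else -(g * ((ArithmeticFunction.sigma (l - 1 - 1) m : ℕ) : S)), ?_, ?_⟩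
  · ext m
    rw [PowerSeries.coeff_map, PowerSeries.coeff_mk, EisensteinSeries.E_qExpansion_coeff hk3 hk2 m]
    split_ifs with hm
    · simp
    · simp only [Subring.subtype_apply, Subring.coe_neg, Subring.coe_mul, Subring.coe_natCast,
        hgval]
      ring
  · intro K _ φ hφ
    ext m
    rw [PowerSeries.coeff_map, PowerSeries.coeff_mk, PowerSeries.coeff_one]
    split_ifs with hm
    · simp
    · simp only [g, map_neg, map_mul, hφ, zero_mul, neg_zero]

end Fermat.Agent.Eis.L1Int
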