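/-
Program E (S16), node N2-int, part 4: reduction of level one forms to isobaric polynomials in two
variables over a ring `K` in which `1728` is invertible.

Main results (namespace `Fermat.Agent.Eis.L1Int`):
* `exists_isobaric2_map`: a level one form `F` of weight `k` whose `q`-expansion has coefficients
  in a subring `S ⊆ ℂ` reduces, along any `φ : S →+* K` with `1728` invertible in `K`, to
  `Ψ(Q_K, R_K)` for an isobaric `Ψ ∈ K[X₀, X₁]` of weight `k`.
* `exists_isobaric2_E_pred`: for a prime `l ≥ 5` killed by `φ` there is an isobaric `A` of weight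
  `l - 1` with `A(Q_K, R_K) = 1` (von Staudt–Clausen).
-/
import Fermat.Agent.Eis.L1Basis
import Fermat.Agent.Eis.L1IntAlg
import Fermat.Agent.Eis.L1IntStaudt

set_option autoImplicit false

noncomputable section

namespace Fermat.Agent.Eis.L1Int

open UpperHalfPlane ModularForm MvPolynomial Finset
open scoped MatrixGroups
open Fermat.Agent.Eis.L1B

variable {Qs Rs Ds : PowerSeries ℤ}

/-- for `c < dimL k` (and `k` even, `k ≠ 2`) the weight `k - 12 c` is admissible. -/
lemma weight_sub_spec {k c : ℕ} (hk : Even k) (hk2 : k ≠ 2) (hc : c < dimL k) :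
    12 * c + (4 * eA (k - 12 * c) + 6 * eB (k - 12 * c)) = k := by
  obtain ⟨r, rfl⟩ := hk
  have h1 : 12 * c ≤ r + r ∧ (r + r - 12 * c ≠ 2) := by
    unfold dimL at hc
    split_ifs at hc with h <;> omega
  have h2 : Even (r + r - 12 * c) := ⟨r - 6 * c, by omega⟩
  rw [eA_eB_spec h2 h1.2]
  omega

/-- **Reduction to isobaric polynomials.** -/
theorem exists_isobaric2_map (hQ : Qs.map (Int.castRingHom ℂ) = qExpansion 1 E₄)
    (hR : Rs.map (Int.castRingHom ℂ) = qExpansion 1 E₆)
    (hD : Ds.map (Int.castRingHom ℂ) = qExpansion 1 ModularForm.discriminant)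
    (hrel : Qs ^ 3 - Rs ^ 2 = 1728 * Ds)
    (S : Subring ℂ) {K : Type*} [CommRing K] (φ : S →+* K) {u : K} (hu : u * 1728 = 1)
    (k : ℕ) (F : ModularForm 𝒮ℒ (k : ℤ)) (f : PowerSeries S)
    (hf : f.map S.subtype = qExpansion 1 F) :
    ∃ Ψ : MvPolynomial (Fin 2) K, Ψ.IsWeightedHomogeneous wt2 k ∧
      f.map φ = aeval ![Qs.map (Int.castRingHom K), Rs.map (Int.castRingHom K)] Ψ := by
  -- the trivial cases: `F = 0`
  have hzero : F = 0 → ∃ Ψ : MvPolynomial (Fin 2) K, Ψ.IsWeightedHomogeneous wt2 k ∧
      f.map φ = aeval ![Qs.map (Int.castRingHom K), Rs.map (Int.castRingHom K)] Ψ := by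
    intro hF0
    refine ⟨0, isWeightedHomogeneous_zero K wt2 k, ?_⟩
    have hf0 : f = 0 := by
      apply PowerSeries.map_injective S.subtype Subtype.coe_injective
      rw [hf, hF0, map_zero]
      exact qExpansion_zero 1
    rw [hf0, map_zero, map_zero]
  rcases Nat.even_or_odd k with hk | hk
  · by_cases hk2 : k = 2
    · subst hk2
      exact hzero (rank_zero_iff_forall_zero.mp levelOne_weight_two_rank_zero F)
    · obtain ⟨o, ho⟩ := exists_coords_map hQ hR hD S φ F f hf
      rw [Int.toNat_natCast] at ho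
      set QK := Qs.map (Int.castRingHom K) with hQK
      set RK := Rs.map (Int.castRingHom K) with hRK
      set DK := Ds.map (Int.castRingHom K) with hDK
      have hrelK : QK ^ 3 - RK ^ 2 = 1728 * DK := by
        have := congrArg (PowerSeries.map (Int.castRingHom K)) hrel
        rw [map_sub, map_pow, map_pow, map_mul, map_ofNat] at this
        exact this
      have hDK' : PowerSeries.C u * (QK ^ 3 - RK ^ 2) = DK := by
        rw [hrelK, ← mul_assoc]
        have : (PowerSeries.C u : PowerSeries K) * 1728 = 1 := by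
          have h := congrArg (PowerSeries.C (R := K)) hu
          rw [map_mul, map_ofNat, map_one] at h
          exact h
        rw [this, one_mul]
      refine ⟨∑ c ∈ range (dimL k), C (φ (o c)) *
        ((C u * disc2 K) ^ c * X 0 ^ eA (k - 12 * c) * X 1 ^ eB (k - 12 * c)), ?_, ?_⟩
      · refine IsWeightedHomogeneous.sum _ _ _ fun c hc => ?_
        rw [mem_range] at hc
        refine IsWeightedHomogeneous.C_mul ?_ _
        have h1 := (((disc2_isobaric K).C_mul u).pow c).mul
          (((isobaric_X0 K).pow (eA (k - 12 * c))).mul ((isobaric_X1 K).pow (eB (k - 12 * c))))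
        rw [← mul_assoc] at h1
        convert h1 using 1
        simp only [smul_eq_mul]
        have := weight_sub_spec hk hk2 hc
        linarith
      · rw [ho, map_sum]
        refine sum_congr rfl fun c _ => ?_
        simp only [map_mul, map_pow, aeval_C, aeval_X, aeval2_disc2, bas]
        simp only [Matrix.cons_val_zero, Matrix.cons_val_one]
        have h2 : (algebraMap K (PowerSeries K)) u * (QK ^ 3 - RK ^ 2) = DK := hDK'
        rw [h2]
        rfl
  · exact hzero (levelOne_odd_weight_eq_zero (by exact_mod_cast hk) F)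

/-- **`E_{l-1}` as an isobaric polynomial with `q`-expansion `1`.**  Let `l ≥ 5` be a prime, `S` a
subring of `ℂ` in which every integer prime to `l` is invertible and `φ : S →+* K` a ring
homomorphism killing `l`, `K` a ring in which `1728` is invertible.  Then there is an isobaric
polynomial `A` of weight `l - 1` with `A(Q_K, R_K) = 1`. -/
theorem exists_isobaric2_E_pred (hQ : Qs.map (Int.castRingHom ℂ) = qExpansion 1 E₄)
    (hR : Rs.map (Int.castRingHom ℂ) = qExpansion 1 E₆)
    (hD : Ds.map (Int.castRingHom ℂ) = qExpansion 1 ModularForm.discriminant)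
    (hrel : Qs ^ 3 - Rs ^ 2 = 1728 * Ds)
    (l : ℕ) [hl : Fact l.Prime] (hl5 : 5 ≤ l)
    (S : Subring ℂ) (hS : ∀ N : ℕ, ¬ l ∣ N → ((N : ℂ))⁻¹ ∈ S)
    {K : Type*} [CommRing K] (φ : S →+* K) (hφ : φ (l : S) = 0) {u : K} (hu : u * 1728 = 1) :
    ∃ A : MvPolynomial (Fin 2) K, A.IsWeightedHomogeneous wt2 (l - 1) ∧
      aeval ![Qs.map (Int.castRingHom K), Rs.map (Int.castRingHom K)] A = 1 := by
  obtain ⟨f, hf, hf1⟩ := exists_qExpansion_E_pred l hl5 S hS
  obtain ⟨A, hA, hAf⟩ := exists_isobaric2_map hQ hR hD hrel S φ hu (l - 1)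
    (E (k := l - 1) (by omega)) f hf
  exact ⟨A, hA, by rw [← hAf, hf1 K φ hφ]⟩

end Fermat.Agent.Eis.L1Int
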