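import Fermat.Agent.Eis.L1ModCore

/-!
# Program E (S16), node N2-alg: the abstract form of the level-one mod `ℓ` weight theorem

`dvd_weight_of_evQR_const` : `K` algebraically closed of characteristic `ℓ ≥ 5`; `E2, E4, E6` power
series over `K` (constant terms `1` for `E4`, `E6`) satisfying Ramanujan's identities; the
evaluation `Q ↦ E4, R ↦ E6` injective on each isobaric piece; `A` of weight `ℓ - 1` with
`q`-expansion `1`; `F` of weight `k` with constant nonzero `q`-expansion.  Then `(ℓ - 1) ∣ k`.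
-/

set_option autoImplicit false

namespace Fermat.Agent.Eis.L1

open MvPolynomial

section AbstractMain

variable {K : Type*} [Field K] [IsAlgClosed K] (ℓ : ℕ) [hℓ : Fact ℓ.Prime] [CharP K ℓ]
  {E2 E4 E6 : PowerSeries K}

/-- **N2, abstract form.**  `K` algebraically closed of characteristic `ℓ ≥ 5`; `E2, E4, E6` power
series over `K` with constant terms `1` (for `E4`, `E6`) satisfying Ramanujan's identities; the
evaluation `Q ↦ E4, R ↦ E6` injective on each isobaric piece; `A` of weight `ℓ - 1` with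
`q`-expansion `1`; `F` of weight `k` with constant nonzero `q`-expansion.  Then `(ℓ - 1) ∣ k`. -/
theorem dvd_weight_of_evQR_const (h5 : 5 ≤ ℓ)
    (h4 : PowerSeries.constantCoeff E4 = 1) (h6 : PowerSeries.constantCoeff E6 = 1)
    (ram2 : 12 * theta E2 = E2 ^ 2 - E4) (ram4 : 3 * theta E4 = E2 * E4 - E6)
    (ram6 : 2 * theta E6 = E2 * E6 - E4 ^ 2)
    (hinj : ∀ (n : ℕ) (φ : MvPolynomial (Fin 2) K), IsWeightedHomogeneous wt φ n →
      evQR E4 E6 φ = 0 → φ = 0)
    {A F : MvPolynomial (Fin 2) K} {k : ℕ} {c : K}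
    (hA : IsWeightedHomogeneous wt A (ℓ - 1)) (hA1 : evQR E4 E6 A = 1)
    (hF : IsWeightedHomogeneous wt F k) (hc : c ≠ 0) (hFc : evQR E4 E6 F = PowerSeries.C c) :
    (ℓ - 1) ∣ k := by
  have hl1 : 1 ≤ ℓ := hℓ.out.one_lt.le
  have hcast1 : ((ℓ - 1 : ℕ) : PowerSeries K) = -1 := by
    have := natCast_pred_prime (K := K) ℓ
    have h := congrArg (PowerSeries.C (R := K)) this
    rw [map_natCast, map_neg, map_one] at h
    exact h
  have hcast2 : ((ℓ - 1 + 2 : ℕ) : PowerSeries K) = 1 := by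
    have := natCast_succ_prime (K := K) ℓ
    have h := congrArg (PowerSeries.C (R := K)) this
    rw [map_natCast, map_one] at h
    exact h
  -- `A(1,1) = 1`
  have hA11 : eval ![1, 1] A ≠ 0 := by
    rw [← constantCoeff_evQR E4 E6 h4 h6, hA1]; simp
  -- `B = ∂A` has `q`-expansion `E2`
  have hBw : IsWeightedHomogeneous wt (ramD A) (ℓ - 1 + 2) := ramD_isWeightedHomogeneous hA
  have hB : evQR E4 E6 (ramD A) = E2 := by
    rw [evQR_ramD_of_isWeightedHomogeneous ram4 ram6 hA, hA1, theta_one, hcast1]; ring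
  -- `∂B = -Q A`
  have hBBw : IsWeightedHomogeneous wt (ramD (ramD A)) (ℓ - 1 + 2 + 2) :=
    ramD_isWeightedHomogeneous hBw
  have hBB : evQR E4 E6 (ramD (ramD A)) = -E4 := by
    rw [evQR_ramD_of_isWeightedHomogeneous ram4 ram6 hBw, hB, hcast2]
    linear_combination ram2
  have hQAw : IsWeightedHomogeneous wt (-(X 0) * A) (ℓ - 1 + 2 + 2) := by
    have h1 : IsWeightedHomogeneous wt (-(X 0 : MvPolynomial (Fin 2) K)) 4 :=
      (isWeightedHomogeneous_X0).neg
    have := h1.mul hA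
    convert this using 1
    omega
  have hode : ramD (ramD A) = -(X 0) * A := by
    have hz := hinj _ _ (hBBw.sub hQAw) (by
      rw [map_sub, hBB, map_mul, map_neg, evQR_X0, hA1]; ring)
    exact sub_eq_zero.mp hz
  -- `F ^ (ℓ-1) = c^(ℓ-1) A^k`
  have hFpw : IsWeightedHomogeneous wt (F ^ (ℓ - 1)) ((ℓ - 1) * k) := by
    have := hF.pow (ℓ - 1)
    simpa [smul_eq_mul] using this
  have hApw : IsWeightedHomogeneous wt (C (c ^ (ℓ - 1)) * A ^ k) ((ℓ - 1) * k) := by
    have := (hA.pow k).C_mul (c ^ (ℓ - 1))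
    simpa [smul_eq_mul, mul_comm] using this
  have hpow : F ^ (ℓ - 1) = C (c ^ (ℓ - 1)) * A ^ k := by
    have hz := hinj _ _ (hFpw.sub hApw) (by
      rw [map_sub, map_pow, hFc, map_mul, map_pow (evQR E4 E6) A, hA1, evQR_C]; simp)
    exact sub_eq_zero.mp hz
  exact dvd_of_pow_eq_of_ode ℓ h5 hA hA11 hode (pow_ne_zero _ hc) hpow

end AbstractMain

end Fermat.Agent.Eis.L1
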