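import Mathlib
import Fermat.Agent.X0.JqBridge

set_option autoImplicit false

/-!
# Program E, node L2b: integral `q`-expansions of the level-one forms

* `eisZ c j = 1 + c * Σ_{n ≥ 1} σ_j(n) q^n ∈ ℤ[[q]]`
* `qExpansion_E4`, `qExpansion_E6`, `qExpansion_E8`, `qExpansion_E10`, `qExpansion_E14`:
  the `q`-expansions of the normalised Eisenstein series are the images of
  `eisZ 240 3`, `eisZ (-504) 5`, `eisZ 480 7`, `eisZ (-264) 9`, `eisZ (-24) 13`
* `qExpansion_E2` : the `q`-series of Mathlib's `E2` is the image of `eisZ (-24) 1`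
* `E8_eq`, `E10_eq`, `E14_eq` and the integral identities `eisZ_480_7`, `eisZ_264_9`, `eisZ_24_13`
* `deltaZ = q * ∏ (1 - q^n)^24 ∈ ℤ[[q]]`, `qExpansion_discriminant`, `deltaZ_coeff_one`,
  `eisZ_cube_sub_sq : eisZ 240 3 ^ 3 - eisZ (-504) 5 ^ 2 = 1728 * deltaZ`
-/

namespace Fermat.Agent.Eis.QExp

open UpperHalfPlane ModularForm EisensteinSeries ModularFormClass
open scoped MatrixGroups ArithmeticFunction.sigma

/-- The integral Eisenstein `q`-series `1 + c * Σ_{n ≥ 1} σ_j(n) q^n`. -/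
noncomputable def eisZ (c : ℤ) (j : ℕ) : PowerSeries ℤ :=
  PowerSeries.mk fun n => if n = 0 then 1 else c * (σ j n : ℤ)

theorem coeff_eisZ (c : ℤ) (j n : ℕ) :
    (eisZ c j).coeff n = if n = 0 then 1 else c * (σ j n : ℤ) := by
  simp [eisZ, PowerSeries.coeff_mk]

@[simp]
theorem coeff_zero_eisZ (c : ℤ) (j : ℕ) : (eisZ c j).coeff 0 = 1 := by
  simp [coeff_eisZ]

@[simp]
theorem constantCoeff_eisZ (c : ℤ) (j : ℕ) : PowerSeries.constantCoeff (eisZ c j) = 1 := by
  rw [← PowerSeries.coeff_zero_eq_constantCoeff_apply, coeff_zero_eisZ]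

theorem coeff_eisZ_of_ne_zero (c : ℤ) (j : ℕ) {n : ℕ} (hn : n ≠ 0) :
    (eisZ c j).coeff n = c * (σ j n : ℤ) := by
  simp [coeff_eisZ, hn]

@[simp]
theorem coeff_one_eisZ (c : ℤ) (j : ℕ) : (eisZ c j).coeff 1 = c := by
  simp [coeff_eisZ]

/-- `eisZ c j ≡ 1 mod c`: every coefficient of `eisZ c j - 1` is divisible by `c`. -/
theorem dvd_coeff_eisZ_sub_one (c : ℤ) (j n : ℕ) : c ∣ (eisZ c j - 1).coeff n := by
  rcases eq_or_ne n 0 with rfl | hn
  · simp
  · rw [map_sub, coeff_eisZ_of_ne_zero c j hn, PowerSeries.coeff_one, if_neg hn, sub_zero]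
    exact dvd_mul_right _ _

/-- The Prelude's formal `E₄`. -/
theorem eisZ_240_3 : eisZ 240 3 = ModularCurve.eisenstein4 := by
  ext n
  simp [coeff_eisZ, ModularCurve.eisenstein4, ArithmeticFunction.sigma_apply]

theorem map_castRingHom_injective :
    Function.Injective (PowerSeries.map (Int.castRingHom ℂ)) := by
  intro f g h
  ext n
  have := congrArg (PowerSeries.coeff n) h
  simpa [PowerSeries.coeff_map] using this

/-- General shape: for even `k ≥ 4` with `c * B_k = -2k`, `E_k = 1 + c Σ σ_{k-1}(n) q^n`. -/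
theorem qExpansion_E_of_bernoulli {k : ℕ} (hk : 3 ≤ k) (hk2 : Even k) (c : ℤ)
    (hc : (c : ℚ) * bernoulli k = -(2 * k)) :
    qExpansion 1 (E hk) = (eisZ c (k - 1)).map (Int.castRingHom ℂ) := by
  ext m
  rw [E_qExpansion_coeff hk hk2 m, PowerSeries.coeff_map, coeff_eisZ]
  by_cases hm : m = 0
  · simp [hm]
  · rw [if_neg hm, if_neg hm]
    have hb : (bernoulli k : ℂ) ≠ 0 := by
      intro h0
      have h0' : bernoulli k = 0 := by exact_mod_cast h0
      rw [h0', mul_zero] at hc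
      have : (k : ℚ) = 0 := by linarith
      have : k = 0 := by exact_mod_cast this
      omega
    have hc' : (c : ℂ) * (bernoulli k : ℂ) = -(2 * k) := by exact_mod_cast congrArg (fun x : ℚ => (x : ℂ)) hc
    have : (c : ℂ) = -(2 * k / (bernoulli k : ℂ)) := by
      field_simp
      linear_combination hc'
    rw [← this]
    simp

/-- `E₄ = 1 + 240 Σ σ₃(n) qⁿ`. -/
theorem qExp_E4 : qExpansion 1 E₄ = (eisZ 240 3).map (Int.castRingHom ℂ) :=
  qExpansion_E_of_bernoulli (by norm_num) ⟨2, rfl⟩ 240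
    (by rw [show bernoulli 4 = -1 / 30 by decide +kernel]; norm_num)

/-- `E₆ = 1 - 504 Σ σ₅(n) qⁿ`. -/
theorem qExp_E6 : qExpansion 1 E₆ = (eisZ (-504) 5).map (Int.castRingHom ℂ) :=
  qExpansion_E_of_bernoulli (by norm_num) ⟨3, rfl⟩ (-504)
    (by rw [show bernoulli 6 = 1 / 42 by decide +kernel]; norm_num)

/-- The normalised level 1 Eisenstein series of weight 8. -/
noncomputable abbrev E8 : ModularForm 𝒮ℒ 8 := E (by norm_num : 3 ≤ 8)

/-- The normalised level 1 Eisenstein series of weight 10. -/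
noncomputable abbrev E10 : ModularForm 𝒮ℒ 10 := E (by norm_num : 3 ≤ 10)

/-- The normalised level 1 Eisenstein series of weight 14. -/
noncomputable abbrev E14 : ModularForm 𝒮ℒ 14 := E (by norm_num : 3 ≤ 14)

/-- `E₈ = 1 + 480 Σ σ₇(n) qⁿ`. -/
theorem qExp_E8 : qExpansion 1 E8 = (eisZ 480 7).map (Int.castRingHom ℂ) :=
  qExpansion_E_of_bernoulli (by norm_num) ⟨4, rfl⟩ 480
    (by rw [show bernoulli 8 = -1 / 30 by decide +kernel]; norm_num)

/-- `E₁₀ = 1 - 264 Σ σ₉(n) qⁿ`. -/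
theorem qExp_E10 : qExpansion 1 E10 = (eisZ (-264) 9).map (Int.castRingHom ℂ) :=
  qExpansion_E_of_bernoulli (by norm_num) ⟨5, rfl⟩ (-264)
    (by rw [show bernoulli 10 = 5 / 66 by decide +kernel]; norm_num)

/-- `E₁₄ = 1 - 24 Σ σ₁₃(n) qⁿ`. -/
theorem qExp_E14 : qExpansion 1 E14 = (eisZ (-24) 13).map (Int.castRingHom ℂ) :=
  qExpansion_E_of_bernoulli (by norm_num) ⟨7, rfl⟩ (-24)
    (by rw [show bernoulli 14 = 7 / 6 by decide +kernel]; norm_num)

/-! ### Level-one uniqueness and the relations `E₈ = E₄²`, `E₁₀ = E₄E₆`, `E₁₄ = E₄²E₆` -/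

/-- Two level-one forms of weight `k` whose `q`-expansions agree up to `q^(k/12)` are equal. -/
theorem levelOne_eq_of_coeff (k : ℕ) (f g : ModularForm 𝒮ℒ (k : ℤ))
    (h : ∀ n ≤ k / 12, (qExpansion 1 f).coeff n = (qExpansion 1 g).coeff n) : f = g := by
  have h0 : f - g = 0 := by
    apply sturm_bound_levelOne_nat
    have h1 : qExpansion 1 (f - g : ModularForm 𝒮ℒ (k : ℤ)) = qExpansion 1 f - qExpansion 1 g := by
      rw [FunLike.coe_sub]
      exact ModularForm.qExpansion_sub one_pos one_mem_strictPeriods_SL f g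
    rw [h1]
    refine lt_of_lt_of_le (b := ((k / 12 + 1 : ℕ) : ℕ∞)) (by exact_mod_cast Nat.lt_succ_self _) ?_
    refine PowerSeries.nat_le_order _ _ fun i hi => ?_
    rw [map_sub, h i (by omega), sub_self]
  exact sub_eq_zero.mp h0

theorem E8_eq_form : E8 = ModularForm.mcast (by norm_num) (E₄.mul E₄) := by
  refine levelOne_eq_of_coeff 8 _ _ fun n hn => ?_
  obtain rfl : n = 0 := by omega
  rw [ModularForm.qExpansion_mcast, ModularForm.qExpansion_mul one_pos one_mem_strictPeriods_SL,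
    qExp_E8, qExp_E4]
  simp [PowerSeries.coeff_mul]

theorem E8_eq (z : ℍ) : E8 z = E₄ z ^ 2 := by
  rw [E8_eq_form, ModularForm.mcast_apply, ModularForm.coe_mul, Pi.mul_apply, pow_two]

theorem E10_eq_form : E10 = ModularForm.mcast (by norm_num) (E₄.mul E₆) := by
  refine levelOne_eq_of_coeff 10 _ _ fun n hn => ?_
  obtain rfl : n = 0 := by omega
  rw [ModularForm.qExpansion_mcast, ModularForm.qExpansion_mul one_pos one_mem_strictPeriods_SL,
    qExp_E10, qExp_E4, qExp_E6]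
  simp [PowerSeries.coeff_mul]

theorem E10_eq (z : ℍ) : E10 z = E₄ z * E₆ z := by
  rw [E10_eq_form, ModularForm.mcast_apply, ModularForm.coe_mul, Pi.mul_apply]

theorem E14_eq_form : E14 = ModularForm.mcast (by norm_num) ((E₄.mul E₄).mul E₆) := by
  refine levelOne_eq_of_coeff 14 _ _ fun n hn => ?_
  rw [ModularForm.qExpansion_mcast, ModularForm.qExpansion_mul one_pos one_mem_strictPeriods_SL,
    ModularForm.qExpansion_mul one_pos one_mem_strictPeriods_SL, qExp_E14, qExp_E4, qExp_E6]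
  have hn' : n = 0 ∨ n = 1 := by omega
  rcases hn' with rfl | rfl
  · simp [PowerSeries.coeff_mul]
  · simp [PowerSeries.coeff_mul, Finset.Nat.antidiagonal_succ]
    norm_num

theorem E14_eq (z : ℍ) : E14 z = E₄ z ^ 2 * E₆ z := by
  rw [E14_eq_form, ModularForm.mcast_apply, ModularForm.coe_mul, Pi.mul_apply,
    ModularForm.coe_mul, Pi.mul_apply, pow_two]

/-- `1 + 480 Σ σ₇(n) qⁿ = (1 + 240 Σ σ₃(n) qⁿ)²` in `ℤ[[q]]`. -/
theorem eisZ_480_7 : eisZ 480 7 = eisZ 240 3 ^ 2 := by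
  apply map_castRingHom_injective
  rw [map_pow, ← qExp_E8, ← qExp_E4, E8_eq_form, ModularForm.qExpansion_mcast,
    ModularForm.qExpansion_mul one_pos one_mem_strictPeriods_SL, pow_two]

theorem eisZ_264_9 : eisZ (-264) 9 = eisZ 240 3 * eisZ (-504) 5 := by
  apply map_castRingHom_injective
  rw [map_mul, ← qExp_E10, ← qExp_E4, ← qExp_E6, E10_eq_form, ModularForm.qExpansion_mcast,
    ModularForm.qExpansion_mul one_pos one_mem_strictPeriods_SL]

theorem eisZ_24_13 : eisZ (-24) 13 = eisZ 240 3 ^ 2 * eisZ (-504) 5 := by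
  apply map_castRingHom_injective
  rw [map_mul, map_pow, ← qExp_E14, ← qExp_E4, ← qExp_E6, E14_eq_form,
    ModularForm.qExpansion_mcast, ModularForm.qExpansion_mul one_pos one_mem_strictPeriods_SL,
    ModularForm.qExpansion_mul one_pos one_mem_strictPeriods_SL, pow_two]

/-! ### The discriminant -/

/-- `Δ = q ∏ (1 - qⁿ)²⁴ ∈ ℤ[[q]]`. -/
noncomputable def deltaZ : PowerSeries ℤ := PowerSeries.X * ModularCurve.dedekindEtaUnit

theorem qExp_Delta :
    qExpansion 1 ModularForm.discriminant = deltaZ.map (Int.castRingHom ℂ) := by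
  rw [Fermat.Agent.X0.qExpansion_discriminant, deltaZ, map_mul, PowerSeries.map_X]

@[simp]
theorem coeff_zero_deltaZ : deltaZ.coeff 0 = 0 := by
  simp [deltaZ]

theorem coeff_succ_deltaZ (n : ℕ) :
    deltaZ.coeff (n + 1) = ModularCurve.dedekindEtaUnit.coeff n := by
  rw [deltaZ, PowerSeries.coeff_succ_X_mul]

@[simp]
theorem coeff_one_deltaZ : deltaZ.coeff 1 = 1 := by
  rw [show (1 : ℕ) = 0 + 1 from rfl, coeff_succ_deltaZ,
    PowerSeries.coeff_zero_eq_constantCoeff_apply, ModularCurve.constantCoeff_dedekindEtaUnit]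

/-- `E₄³ - E₆² = 1728 Δ` on `q`-expansions. -/
theorem qExp_E4_cube_sub_E6_sq :
    qExpansion 1 E₄ ^ 3 - qExpansion 1 E₆ ^ 2 =
      (1728 : ℂ) • qExpansion 1 ModularForm.discriminant := by
  have h1 : qExpansion 1 ((E₄.pow 3 : ModularForm 𝒮ℒ _) - (E₆.pow 2 : ModularForm 𝒮ℒ _) : ℍ → ℂ) =
      qExpansion 1 E₄ ^ 3 - qExpansion 1 E₆ ^ 2 := by
    rw [ModularForm.qExpansion_sub one_pos one_mem_strictPeriods_SL,
      ModularForm.qExpansion_pow one_pos one_mem_strictPeriods_SL,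
      ModularForm.qExpansion_pow one_pos one_mem_strictPeriods_SL]
  have h2 : ((E₄.pow 3 : ModularForm 𝒮ℒ _) - (E₆.pow 2 : ModularForm 𝒮ℒ _) : ℍ → ℂ) =
      (1728 : ℂ) • (CuspForm.discriminant : ℍ → ℂ) := by
    funext z
    have h := discriminant_eq_E₄_cube_sub_E₆_sq z
    simp only [Pi.sub_apply, ModularForm.coe_pow, Pi.pow_apply, Pi.smul_apply, smul_eq_mul,
      CuspForm.coe_discriminant]
    rw [h]
    ring
  rw [← h1, h2]
  exact ModularForm.qExpansion_smul one_pos one_mem_strictPeriods_SL (1728 : ℂ)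
    CuspForm.discriminant

/-- `E₄³ - E₆² = 1728 Δ` in `ℤ[[q]]`. -/
theorem eisZ_cube_sub_sq : eisZ 240 3 ^ 3 - eisZ (-504) 5 ^ 2 = 1728 * deltaZ := by
  apply map_castRingHom_injective
  rw [map_sub, map_pow, map_pow, map_mul, ← qExp_E4, ← qExp_E6, ← qExp_Delta,
    qExp_E4_cube_sub_E6_sq]
  have h : (PowerSeries.map (Int.castRingHom ℂ)) (1728 : PowerSeries ℤ) =
      PowerSeries.C (1728 : ℂ) := by
    rw [show (1728 : PowerSeries ℤ) = PowerSeries.C (1728 : ℤ) from (map_ofNat _ _).symm,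
      PowerSeries.map_C]
    simp
  rw [h, PowerSeries.smul_eq_C_mul]

/-! ### `E₂` -/

theorem periodic_E2 : Function.Periodic (E2 ∘ UpperHalfPlane.ofComplex) 1 := by
  intro w
  by_cases hw : 0 < w.im
  · have hw1 : 0 < (w + 1).im := by simpa using hw
    simp only [Function.comp_apply, ofComplex_apply_of_im_pos hw1, ofComplex_apply_of_im_pos hw]
    rw [E2_eq_tsum_cexp, E2_eq_tsum_cexp]
    have h : Complex.exp (2 * Real.pi * Complex.I * ((⟨w + 1, hw1⟩ : ℍ) : ℂ)) =
        Complex.exp (2 * Real.pi * Complex.I * ((⟨w, hw⟩ : ℍ) : ℂ)) := by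
      change Complex.exp (2 * Real.pi * Complex.I * (w + 1)) =
        Complex.exp (2 * Real.pi * Complex.I * w)
      rw [mul_add, Complex.exp_add, mul_one, Complex.exp_two_pi_mul_I, mul_one]
    rw [h]
  · have hw' : w.im ≤ 0 := not_lt.mp hw
    have hw1 : (w + 1).im ≤ 0 := by simpa using hw'
    simp [ofComplex_apply_of_im_nonpos hw1, ofComplex_apply_of_im_nonpos hw']

theorem analyticAt_cuspFunction_E2 : AnalyticAt ℂ (cuspFunction 1 E2) 0 :=
  UpperHalfPlane.analyticAt_cuspFunction_zero one_pos periodic_E2 E2_mdifferentiable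
    isBoundedAtImInfty_E2

theorem hasSum_E2_qParam (τ : ℍ) :
    HasSum (fun m : ℕ => (if m = 0 then (1 : ℂ) else -24 * (σ 1 m : ℂ)) •
      Function.Periodic.qParam 1 τ ^ m) (E2 τ) := by
  simpa only [Function.Periodic.qParam, Complex.ofReal_one, div_one] using
    hasSum_qExpansion_E2 (z := τ)

theorem coeff_qExp_E2 (m : ℕ) :
    (qExpansion 1 E2).coeff m = if m = 0 then (1 : ℂ) else -24 * (σ 1 m : ℂ) := by
  have h1 := (UpperHalfPlane.hasFPowerSeriesOnBall_cuspFunction one_pos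
    analyticAt_cuspFunction_E2 hasSum_E2_qParam).hasFPowerSeriesAt
  have h2 : HasFPowerSeriesAt (cuspFunction 1 E2)
      (.ofScalars ℂ fun m => (qExpansion 1 E2).coeff m) 0 := by
    simpa [qExpansion_coeff, div_eq_mul_inv, mul_comm] using
      analyticAt_cuspFunction_E2.hasFPowerSeriesAt
  have h3 := congr_arg (FormalMultilinearSeries.coeff · m) (h1.eq_formalMultilinearSeries h2)
  simpa [FormalMultilinearSeries.coeff_ofScalars] using h3.symm

/-- `E₂ = 1 - 24 Σ σ₁(n) qⁿ`. -/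
theorem qExp_E2 : qExpansion 1 E2 = (eisZ (-24) 1).map (Int.castRingHom ℂ) := by
  ext m
  rw [coeff_qExp_E2, PowerSeries.coeff_map, coeff_eisZ]
  split_ifs <;> simp

end Fermat.Agent.Eis.QExp
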