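import Mathlib
import Fermat.Agent.X0.JLocalDeriv

set_option autoImplicit false

/-!
# Program E (row N2-ram, infrastructure): the `q`-expansion of the normalised derivative

For a nice function `F` (`1`-periodic, holomorphic, bounded at `i∞`) with `q`-expansion
`∑ a_n q ^ n`, the normalised derivative `D F = (2πi)⁻¹ dF/dz` has `q`-expansion
`∑ n a_n q ^ n = X * derivative (qExpansion 1 F)`.
-/

namespace Fermat.Agent.Eis.QD

open UpperHalfPlane Function Complex Filter Topology
open scoped MatrixGroups ModularForm Manifold Real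
open Derivative
open Fermat.Agent.S23 (IsNice)
open Fermat.Agent.X0.JLocal (D_eq_qParam_mul_deriv_cuspFunction isNice_D)

local notation "𝕢" => Periodic.qParam

/-- The cusp function of a nice function is given by its `q`-expansion on the unit ball. -/
theorem hasFPowerSeriesOnBall_cuspFunction_of_isNice {F : ℍ → ℂ} (hF : IsNice F) :
    HasFPowerSeriesOnBall (cuspFunction 1 F)
      (FormalMultilinearSeries.ofScalars ℂ fun m => (qExpansion 1 F).coeff m) 0 1 :=
  hasFPowerSeriesOnBall_cuspFunction one_pos hF.analyticAt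
    (fun τ => hasSum_qExpansion one_pos hF.1 hF.2.1 hF.2.2 τ)

/-- Termwise differentiation of the cusp function. -/
theorem hasSum_deriv_cuspFunction {F : ℍ → ℂ} (hF : IsNice F) {q : ℂ} (hq : ‖q‖ < 1) :
    HasSum (fun n : ℕ => ((n + 1 : ℕ) : ℂ) * (qExpansion 1 F).coeff (n + 1) * q ^ n)
      (deriv (cuspFunction 1 F) q) := by
  set p : FormalMultilinearSeries ℂ ℂ ℂ :=
    FormalMultilinearSeries.ofScalars ℂ fun m => (qExpansion 1 F).coeff m with hp
  have h1 : HasFPowerSeriesOnBall (cuspFunction 1 F) p 0 1 :=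
    hasFPowerSeriesOnBall_cuspFunction_of_isNice hF
  have h2 := h1.fderiv
  have hq' : q ∈ Metric.eball (0 : ℂ) 1 := by
    rw [← ENNReal.coe_one, Metric.eball_coe, NNReal.coe_one, mem_ball_zero_iff]
    exact hq
  have h3 := h2.hasSum hq'
  rw [zero_add] at h3
  -- apply the continuous linear maps at `1`
  have h4 : HasSum (fun n : ℕ => (p.derivSeries n fun _ => q) 1)
      ((fderiv ℂ (cuspFunction 1 F) q) 1) :=
    h3.mapL (ContinuousLinearMap.apply ℂ ℂ (1 : ℂ))
  have h5 : (fderiv ℂ (cuspFunction 1 F) q) 1 = deriv (cuspFunction 1 F) q := rfl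
  rw [h5] at h4
  convert h4 using 2 with n
  rw [FormalMultilinearSeries.apply_eq_pow_smul_coeff]
  simp only [smul_apply]
  rw [FormalMultilinearSeries.derivSeries_coeff_one, hp,
    FormalMultilinearSeries.coeff_ofScalars]
  simp only [smul_eq_mul, nsmul_eq_mul]
  push_cast
  ring

/-- `D F τ = ∑ n a_n q ^ n`. -/
theorem hasSum_D {F : ℍ → ℂ} (hF : IsNice F) (τ : ℍ) :
    HasSum (fun m : ℕ => ((m : ℂ) * (qExpansion 1 F).coeff m) • 𝕢 1 τ ^ m) (D F τ) := by
  have hq : ‖𝕢 1 (τ : ℂ)‖ < 1 := Periodic.norm_qParam_lt_one one_pos τ.im_pos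
  have h1 := hasSum_deriv_cuspFunction hF hq
  have h2 := h1.mul_left (𝕢 1 (τ : ℂ))
  rw [← D_eq_qParam_mul_deriv_cuspFunction hF τ] at h2
  rw [← hasSum_nat_add_iff' 1]
  simp only [Finset.range_one, Finset.sum_singleton, Nat.cast_zero, zero_mul, zero_smul,
    sub_zero]
  have h3 : (fun n : ℕ => (((n + 1 : ℕ) : ℂ) * (qExpansion 1 F).coeff (n + 1)) •
      𝕢 1 (τ : ℂ) ^ (n + 1)) = fun i : ℕ => 𝕢 1 (τ : ℂ) *
      (((i + 1 : ℕ) : ℂ) * (qExpansion 1 F).coeff (i + 1) * 𝕢 1 (τ : ℂ) ^ i) := by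
    funext n
    rw [smul_eq_mul]
    ring
  rw [h3]
  exact h2

/-- Uniqueness of `q`-expansion coefficients for a bare function on the upper half plane. -/
theorem coeff_unique_of_hasSum {f : ℍ → ℂ} {c : ℕ → ℂ}
    (hfanalytic : AnalyticAt ℂ (cuspFunction 1 f) 0)
    (hf : ∀ τ : ℍ, HasSum (fun m => c m • 𝕢 1 τ ^ m) (f τ)) (m : ℕ) :
    c m = (qExpansion 1 f).coeff m := by
  have h1 := (hasFPowerSeriesOnBall_cuspFunction one_pos hfanalytic hf).hasFPowerSeriesAt
  have h2 := hfanalytic.hasFPowerSeriesAt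
  have h3 := congr_arg (FormalMultilinearSeries.coeff · m) (h1.eq_formalMultilinearSeries h2)
  simp only [FormalMultilinearSeries.coeff_ofScalars] at h3
  rw [h3, qExpansion_coeff, div_eq_inv_mul]

/-- **Coefficients of the normalised derivative**: `a_m (D F) = m * a_m (F)`. -/
theorem qExpansion_D_coeff {F : ℍ → ℂ} (hF : IsNice F) (m : ℕ) :
    (qExpansion 1 (D F)).coeff m = (m : ℂ) * (qExpansion 1 F).coeff m :=
  (coeff_unique_of_hasSum (isNice_D hF).analyticAt (hasSum_D hF) m).symm

/-- **The `q`-expansion of the normalised derivative** is `θ = X * d/dX` applied to the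
`q`-expansion. -/
theorem qExpansion_D {F : ℍ → ℂ} (hF : IsNice F) :
    qExpansion 1 (D F) = PowerSeries.X * PowerSeries.derivative ℂ (qExpansion 1 F) := by
  ext m
  rw [qExpansion_D_coeff hF]
  cases m with
  | zero => simp
  | succ m =>
    rw [PowerSeries.coeff_succ_X_mul, PowerSeries.coeff_derivative]
    push_cast
    ring

/-- Version for modular forms of level one. -/
theorem qExpansion_D_modularForm {k : ℤ} (f : ModularForm 𝒮ℒ k) :
    qExpansion 1 (D (f : ℍ → ℂ)) =
      PowerSeries.X * PowerSeries.derivative ℂ (qExpansion 1 f) :=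
  qExpansion_D (Fermat.Agent.S23.isNice_of_modularForm one_mem_strictPeriods_SL f)

end Fermat.Agent.Eis.QD
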