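import Mathlib
import Fermat.Agent.S23.Basic
import Fermat.Agent.X0.JLocalDeriv
import Fermat.Agent.Eis.QExpDeriv

set_option autoImplicit false

/-!
# Program E (S16), node N2-ram (R2): Ramanujan's identity for `E₂`

`D E₂ = (E₂² - E₄) / 12` as functions on the upper half plane (`D = (2πi)⁻¹ d/dz`).
-/

namespace Fermat.Agent.Eis.RamE2

open UpperHalfPlane hiding I
open Function Filter Complex ModularForm EisensteinSeries
open scoped MatrixGroups ModularForm Manifold Topology Real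
open Derivative
open Fermat.Agent.S23 (IsNice isNice_of_modularForm)
open Fermat.Agent.X0.JLocal

local notation "𝕢" => Periodic.qParam

/-- `E₂` is `1`-periodic. -/
theorem periodic_E2 : Periodic (E2 ∘ ofComplex) 1 := by
  intro w
  by_cases! hw : 0 < im w
  · have hw' : 0 < im (w + 1) := by simpa using hw
    simp only [comp_apply, ofComplex_apply_of_im_pos hw', ofComplex_apply_of_im_pos hw]
    have h1 := hasSum_qExpansion_E2 (z := ⟨w + 1, hw'⟩)
    have h2 := hasSum_qExpansion_E2 (z := ⟨w, hw⟩)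
    have e : cexp (2 * π * I * ((⟨w + 1, hw'⟩ : ℍ) : ℂ)) = cexp (2 * π * I * ((⟨w, hw⟩ : ℍ) : ℂ)) := by
      show cexp (2 * π * I * (w + 1)) = cexp (2 * π * I * w)
      rw [mul_add, Complex.exp_add, mul_one, Complex.exp_two_pi_mul_I, mul_one]
    rw [e] at h1
    exact h1.unique h2
  · have : im (w + 1) ≤ 0 := by simpa using hw
    simp only [comp_apply]
    rw [ofComplex_apply_eq_of_im_nonpos this hw]

theorem isNice_E2 : IsNice E2 := ⟨periodic_E2, E2_mdifferentiable, isBoundedAtImInfty_E2⟩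

/-- The coefficients of the `q`-expansion of `E₂`. -/
noncomputable def e2c (m : ℕ) : ℂ := if m = 0 then 1 else -24 * (ArithmeticFunction.sigma 1 m : ℂ)

theorem hasSum_e2c (τ : ℍ) : HasSum (fun m : ℕ => e2c m • 𝕢 (1 : ℝ) τ ^ m) (E2 τ) := by
  have := hasSum_qExpansion_E2 (z := τ)
  simpa only [Function.Periodic.qParam, ofReal_one, div_one, e2c] using this

/-- The `q`-expansion coefficients of `E₂`. -/
theorem qExpansion_E2_coeff (m : ℕ) : (qExpansion 1 E2).coeff m = e2c m := by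
  have hcont : Continuous E2 := E2_mdifferentiable.continuous
  have := UpperHalfPlane.qExpansion_coeff_unique (h := 1) (c := e2c)
    (⟨E2, hcont⟩ : C(ℍ, ℂ)) one_pos isNice_E2.analyticAt hasSum_e2c m
  rw [ContinuousMap.coe_mk] at this
  exact this.symm

theorem tendsto_E2 : Tendsto E2 atImInfty (𝓝 1) := by
  have hcoeff : (qExpansion 1 E2).coeff 0 = cuspFunction 1 E2 0 := by
    simp [qExpansion_coeff]
  have h1 : (cuspFunction 1 E2 ∘ fun τ : ℍ ↦ 𝕢 1 τ) = E2 := by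
    funext τ
    simpa using eq_cuspFunction τ one_ne_zero isNice_E2.1
  have := isNice_E2.analyticAt.continuousAt.tendsto.comp (qParam_tendsto_atImInfty one_pos)
  rw [h1, ← hcoeff, qExpansion_E2_coeff] at this
  simpa [e2c] using this

/-! ### The correction term `D₂ γ` -/

theorem mdifferentiable_D2 (γ : SL(2, ℤ)) : MDiff (D2 γ) := by
  have : D2 γ = fun z : ℍ => (2 * π * I * γ 1 0) * (denom γ z)⁻¹ := by
    ext z; simp [D2, div_eq_mul_inv]
  rw [this]
  exact mdifferentiable_const.mul (mdifferentiable_inv_denom _)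

theorem D_D2 (γ : SL(2, ℤ)) (z : ℍ) :
    D (D2 γ) z = - (γ 1 0 : ℂ) ^ 2 / (denom γ z) ^ 2 := by
  unfold normalizedDerivOfComplex
  have hev : (D2 γ ∘ ofComplex) =ᶠ[𝓝 (z : ℂ)]
      fun w : ℂ => (2 * π * I * γ 1 0) * denom γ w ^ (-1 : ℤ) := by
    filter_upwards [isOpen_upperHalfPlaneSet.mem_nhds z.im_pos] with w hw
    simp [D2, ofComplex_apply_of_im_pos hw, div_eq_mul_inv]
  rw [hev.deriv_eq]
  have h := (hasDerivAt_denom_zpow (γ : GL (Fin 2) ℝ) (-1) z).const_mul (2 * π * I * γ 1 0)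
  rw [h.deriv]
  have hz := denom_ne_zero γ z
  have hpi : (2 * π * I : ℂ) ≠ 0 := by simp [Real.pi_ne_zero]
  have hc : ((γ : GL (Fin 2) ℝ) 1 0 : ℝ) = ((γ 1 0 : ℤ) : ℝ) := by simp
  rw [hc, show (-1 - 1 : ℤ) = -2 by norm_num, zpow_neg, zpow_ofNat]
  push_cast
  field_simp

/-! ### The weight `4` form `D E₂ - E₂² / 12` -/

/-- `D E₂ - E₂² / 12`. -/
noncomputable def ramG : ℍ → ℂ := serreDerivative 1 E2

theorem ramG_apply (z : ℍ) : ramG z = D E2 z - 12⁻¹ * (E2 z * E2 z) := by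
  simp [ramG, serreDerivative_apply]
  ring

theorem ramG_mdiff : MDiff ramG := serreDerivative_mdifferentiable 1 E2_mdifferentiable

theorem ramG_slash (γ : SL(2, ℤ)) : ramG ∣[(4 : ℤ)] γ = ramG := by
  ext z
  have hLHS : (ramG ∣[(4 : ℤ)] γ) z =
      (D E2 ∣[(4 : ℤ)] γ) z - 12⁻¹ * ((E2 ∣[(2 : ℤ)] γ) z * (E2 ∣[(2 : ℤ)] γ) z) := by
    have h4 : ((E2 * E2) ∣[(4 : ℤ)] γ) z = (E2 ∣[(2 : ℤ)] γ) z * (E2 ∣[(2 : ℤ)] γ) z := by
      have := congrFun (ModularForm.mul_slash_SL2 2 2 γ E2 E2) z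
      simpa using this
    simp only [ModularForm.SL_slash_apply, ramG_apply, Pi.mul_apply] at h4 ⊢
    rw [← h4]
    ring
  have hDz : (D (E2 ∣[(2 : ℤ)] γ)) z = (D E2 ∣[(4 : ℤ)] γ) z -
      (2 * (2 * π * I)⁻¹ * (γ 1 0 / denom γ z) * (E2 ∣[(2 : ℤ)] γ) z) := by
    have := congrFun (normalizedDerivOfComplex_SL_slash (k := 2) E2_mdifferentiable (γ := γ)) z
    simpa using this
  have hE2z : (E2 ∣[(2 : ℤ)] γ) z = E2 z - 1 / (2 * riemannZeta 2) * D2 γ z := by
    simp [E2_slash_action]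
  have hDz' : (D (E2 ∣[(2 : ℤ)] γ)) z = D E2 z - 1 / (2 * riemannZeta 2) * D (D2 γ) z := by
    rw [E2_slash_action, normalizedDerivOfComplex_sub _ _ E2_mdifferentiable
      ((mdifferentiable_D2 γ).const_smul _), normalizedDerivOfComplex_smul _ _ (mdifferentiable_D2 γ)]
    simp
  rw [D_D2] at hDz'
  rw [hLHS, ramG_apply]
  have hz := denom_ne_zero γ z
  have hpi : (π : ℂ) ≠ 0 := by simp [Real.pi_ne_zero]
  rw [hE2z] at hDz ⊢
  rw [hDz'] at hDz
  simp only [D2, riemannZeta_two] at hDz ⊢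
  have hX := eq_add_of_sub_eq hDz.symm
  rw [hX]
  have hI : (I : ℂ) ≠ 0 := I_ne_zero
  have hI3 : (I : ℂ) ^ 3 = -I := by rw [pow_succ, I_sq]; ring
  field_simp
  ring_nf
  simp only [hI3, I_sq]
  ring

theorem tendsto_ramG : Tendsto ramG atImInfty (𝓝 (-(12 : ℂ)⁻¹)) := by
  have h0 : Tendsto (D E2) atImInfty (𝓝 0) := isZeroAtImInfty_D isNice_E2
  have := h0.sub ((tendsto_const_nhds (x := (12 : ℂ)⁻¹)).mul (tendsto_E2.mul tendsto_E2))
  have e : (0 - (12 : ℂ)⁻¹ * (1 * 1)) = -(12 : ℂ)⁻¹ := by ring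
  rw [e] at this
  refine this.congr fun z => ?_
  rw [ramG_apply]

theorem isBoundedAtImInfty_ramG : IsBoundedAtImInfty ramG :=
  tendsto_ramG.isBigO_one ℝ

/-- `D E₂ - E₂² / 12` as a modular form of weight `4` and level one. -/
noncomputable def ramGForm : ModularForm 𝒮ℒ 4 where
  toFun := ramG
  slash_action_eq' A hA := by
    obtain ⟨A, rfl⟩ := hA
    exact ramG_slash A
  holo' := ramG_mdiff
  bdd_at_cusps' {c} hc := by
    rw [Subgroup.IsArithmetic.isCusp_iff_isCusp_SL2Z] at hc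
    rw [OnePoint.isBoundedAt_iff_forall_SL2Z hc]
    intro γ _
    rw [ramG_slash]
    exact isBoundedAtImInfty_ramG

theorem ramG_eq : ∀ z : ℍ, ramG z = -(12 : ℂ)⁻¹ * E₄ z := by
  obtain ⟨c, hc⟩ : ∃ c : ℂ, c • E₄ = ramGForm :=
    (finrank_eq_one_iff_of_nonzero' E₄ (E_ne_zero _ ⟨2, rfl⟩)).mp
      (Module.rank_eq_one_iff_finrank_eq_one.mp levelOne_weight_four_rank_one) _
  have hc' : ∀ z : ℍ, ramG z = c * E₄ z := by
    intro z
    have := congrArg (fun f : ModularForm 𝒮ℒ 4 => f z) hc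
    exact this.symm
  have h1 : Tendsto ramG atImInfty (𝓝 (c * 1)) := by
    refine ((tendsto_const_nhds (x := c)).mul tendsto_E₄).congr fun z => ?_
    rw [hc' z]
  have := tendsto_nhds_unique h1 tendsto_ramG
  rw [mul_one] at this
  intro z
  rw [hc' z, this]

/-- **Ramanujan's identity for `E₂`**: `D E₂ = (E₂² - E₄) / 12`. -/
theorem D_E2 (z : ℍ) : D E2 z = 12⁻¹ * (E2 z ^ 2 - E₄ z) := by
  have h1 := ramG_eq z
  rw [ramG_apply] at h1
  linear_combination h1

theorem D_E2_fun : D E2 = (12 : ℂ)⁻¹ • (E2 ^ 2 - (E₄ : ℍ → ℂ)) := by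
  funext z
  simp only [Pi.smul_apply, Pi.sub_apply, Pi.pow_apply, smul_eq_mul]
  exact D_E2 z

/-- **Ramanujan's identity for `E₂`, `q`-expansion form**: `12 θ P = P² - Q`. -/
theorem qExpansion_ram2 :
    12 * (PowerSeries.X * PowerSeries.derivative ℂ (qExpansion 1 E2)) =
      qExpansion 1 E2 ^ 2 - qExpansion 1 (E₄ : ℍ → ℂ) := by
  rw [← Fermat.Agent.Eis.QD.qExpansion_D isNice_E2, D_E2_fun,
    ((isNice_E2.pow 2).sub isNice_E₄).qExpansion_smul, (isNice_E2.pow 2).qExpansion_sub isNice_E₄,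
    isNice_E2.qExpansion_pow]
  have h12 : (12 : PowerSeries ℂ) = (12 : ℂ) • (1 : PowerSeries ℂ) := by
    rw [Algebra.smul_def, mul_one]
    exact (map_ofNat (algebraMap ℂ (PowerSeries ℂ)) 12).symm
  rw [h12, smul_mul_assoc, one_mul, smul_smul, mul_inv_cancel₀ (by norm_num : (12 : ℂ) ≠ 0),
    one_smul]

end Fermat.Agent.Eis.RamE2
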