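import Mathlib
import Fermat.Agent.S23.Basic
import Fermat.Agent.S23.Trace
import Fermat.Agent.X0.JDeriv

/-!
# Program E (S16): the Serre derivative of a level-one modular form is a level-one modular form

For `F : ModularForm 𝒮ℒ k` the Serre derivative `serreDerivative k F = D F - (k/12) E₂ F`
(`D = (2πi)⁻¹ d/dz`, Mathlib `Derivative`) is the underlying function of a modular form
`serreForm F : ModularForm 𝒮ℒ (k + 2)`:

* holomorphy: Mathlib `serreDerivative_mdifferentiable`;
* invariance: Mathlib `serreDerivative_slash_invariant`;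
* boundedness at `i∞`: `D F → 0` (`X0.tendsto_D_of_isNice`) and `E₂` is bounded
  (Mathlib `EisensteinSeries.isBoundedAtImInfty_E2`).
-/

set_option autoImplicit false

open UpperHalfPlane Function ModularForm Derivative EisensteinSeries
open scoped MatrixGroups ModularForm Manifold

namespace Fermat.Agent.Eis.SerreForm

variable {k : ℤ}

/-- A level-one form is `1`-periodic, holomorphic and bounded at `i∞`. -/
theorem isNice_levelOne (F : ModularForm 𝒮ℒ k) : S23.IsNice (F : ℍ → ℂ) :=
  S23.isNice_of_modularForm (Γ := 𝒮ℒ) one_mem_strictPeriods_SL F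

/-- `D F` tends to `0` at `i∞`, in particular it is bounded there. -/
theorem isBoundedAtImInfty_D (F : ModularForm 𝒮ℒ k) : IsBoundedAtImInfty (D (F : ℍ → ℂ)) := by
  have h : IsZeroAtImInfty (D (F : ℍ → ℂ)) := X0.tendsto_D_of_isNice (isNice_levelOne F)
  exact h.isBoundedAtImInfty

/-- The Serre derivative of a level-one form is bounded at `i∞`. -/
theorem isBoundedAtImInfty_serreDerivative (F : ModularForm 𝒮ℒ k) :
    IsBoundedAtImInfty (serreDerivative (k : ℂ) (F : ℍ → ℂ)) := by
  have h1 := isBoundedAtImInfty_D F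
  have h2 : IsBoundedAtImInfty (fun z : ℍ => (k : ℂ) * 12⁻¹ * E2 z * F z) := by
    have hE : IsBoundedAtImInfty (E2 * (F : ℍ → ℂ)) :=
      isBoundedAtImInfty_E2.mul (ModularFormClass.bdd_at_infty F)
    have := hE.const_smul_left ((k : ℂ) * 12⁻¹)
    refine this.congr' ?_ ?_
    · exact Filter.Eventually.of_forall fun z => by
        simp only [Pi.smul_apply, Pi.mul_apply, smul_eq_mul]; ring
    · exact Filter.EventuallyEq.rfl
  rw [serreDerivative_eq]
  exact h1.sub h2

/-- The Serre derivative of a level-one form is invariant of weight `k + 2`. -/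
theorem serreDerivative_slash_eq (F : ModularForm 𝒮ℒ k) (h : GL (Fin 2) ℝ) (hh : h ∈ 𝒮ℒ) :
    serreDerivative (k : ℂ) (F : ℍ → ℂ) ∣[k + 2] h = serreDerivative (k : ℂ) (F : ℍ → ℂ) := by
  obtain ⟨γ, rfl⟩ := hh
  have hF : (F : ℍ → ℂ) ∣[k] γ = (F : ℍ → ℂ) := by
    rw [ModularForm.SL_slash]
    exact SlashInvariantFormClass.slash_action_eq F _ ⟨γ, rfl⟩
  have := serreDerivative_slash_invariant (k := k) (ModularFormClass.holo F) hF
  rw [ModularForm.SL_slash] at this
  exact this

theorem exists_serreForm (F : ModularForm 𝒮ℒ k) :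
    ∃ G : ModularForm 𝒮ℒ (k + 2), ⇑G = serreDerivative (k : ℂ) (F : ℍ → ℂ) :=
  S23.Trace.exists_modularForm_of_invariant (k + 2) _ (serreDerivative_slash_eq F)
    (serreDerivative_mdifferentiable (k : ℂ) (ModularFormClass.holo F))
    (isBoundedAtImInfty_serreDerivative F)

/-- The Serre derivative of a level-one modular form of weight `k`, as a level-one modular form of
weight `k + 2`. -/
noncomputable def serreForm (F : ModularForm 𝒮ℒ k) : ModularForm 𝒮ℒ (k + 2) :=
  (exists_serreForm F).choose

theorem coe_serreForm (F : ModularForm 𝒮ℒ k) :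
    ⇑(serreForm F) = serreDerivative (k : ℂ) (F : ℍ → ℂ) :=
  (exists_serreForm F).choose_spec

theorem serreForm_apply (F : ModularForm 𝒮ℒ k) (z : ℍ) :
    serreForm F z = D (F : ℍ → ℂ) z - (k : ℂ) * 12⁻¹ * E2 z * F z := by
  rw [coe_serreForm]; rfl

end Fermat.Agent.Eis.SerreForm
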