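/-
Program E (S16), node N2-ram, identities (R4), (R6):
`3 θ E₄ = E₂ E₄ - E₆` and `2 θ E₆ = E₂ E₆ - E₄²` for the `q`-expansions.
-/
import Mathlib
import Fermat.Agent.X0.JLocalDeriv
import Fermat.Agent.Eis.QExpDeriv
import Fermat.Agent.Eis.SerreForm

set_option autoImplicit false

noncomputable section

namespace Fermat.Agent.Eis.Ram46

open UpperHalfPlane hiding I
open Real Complex EisensteinSeries Derivative ModularForm Function Filter
open scoped Manifold MatrixGroups ModularForm Topology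
open Fermat.Agent.S23 (IsNice isNice_of_modularForm)
open Fermat.Agent.X0.JLocal (isNice_D isNice_E₄ isNice_E₆ E₄_slash E₆_slash isZeroAtImInfty_D)

/-- `E₂` is `1`-periodic. -/
theorem periodic_E2_comp : Periodic (E2 ∘ ofComplex) 1 := by
  intro w
  by_cases hw : 0 < im w
  · have hw1 : 0 < im (w + 1) := by simpa using hw
    simp only [comp_apply, ofComplex_apply_of_im_pos hw1, ofComplex_apply_of_im_pos hw]
    rw [E2_eq_tsum_cexp, E2_eq_tsum_cexp]
    have : cexp (2 * π * I * ((⟨w + 1, hw1⟩ : ℍ) : ℂ)) = cexp (2 * π * I * ((⟨w, hw⟩ : ℍ) : ℂ)) := by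
      change cexp (2 * π * I * (w + 1)) = cexp (2 * π * I * w)
      rw [mul_add, Complex.exp_add, mul_one, Complex.exp_two_pi_mul_I, mul_one]
    rw [this]
  · have hw' : im w ≤ 0 := not_lt.mp hw
    have hw1 : im (w + 1) ≤ 0 := by simpa using hw'
    simp [ofComplex_apply_of_im_nonpos hw1, ofComplex_apply_of_im_nonpos hw']

/-- `E₂` is nice (periodic, holomorphic, bounded at `i∞`). -/
theorem isNice_E2 : IsNice E2 := ⟨periodic_E2_comp, E2_mdifferentiable, isBoundedAtImInfty_E2⟩

/-- Uniqueness of `q`-expansion coefficients, for plain functions on `ℍ`. -/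
theorem qExpansion_coeff_unique_fun {f : ℍ → ℂ} {c : ℕ → ℂ}
    (hfanalytic : AnalyticAt ℂ (cuspFunction 1 f) 0)
    (hf : ∀ τ : ℍ, HasSum (fun m : ℕ => c m • Function.Periodic.qParam 1 τ ^ m) (f τ)) (m : ℕ) :
    c m = (qExpansion 1 f).coeff m := by
  have h1 := (hasFPowerSeriesOnBall_cuspFunction one_pos hfanalytic hf).hasFPowerSeriesAt
  have h2 := hfanalytic.hasFPowerSeriesAt
  have h3 := h1.eq_formalMultilinearSeries h2
  have h4 := congr_arg (FormalMultilinearSeries.coeff · m) h3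
  simp only [FormalMultilinearSeries.coeff_ofScalars] at h4
  rw [h4, qExpansion_coeff]
  simp [div_eq_mul_inv, mul_comm]

/-- The `q`-expansion of `E₂`. -/
theorem qExpansion_E2_coeff (m : ℕ) : (qExpansion 1 E2).coeff m =
    if m = 0 then 1 else -24 * (ArithmeticFunction.sigma 1 m : ℂ) := by
  have hs : ∀ τ : ℍ, HasSum (fun m : ℕ =>
      (if m = 0 then 1 else -24 * (ArithmeticFunction.sigma 1 m : ℂ)) •
        Function.Periodic.qParam 1 τ ^ m) (E2 τ) := fun τ => by
    have h := hasSum_qExpansion_E2 (z := τ)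
    have e : Function.Periodic.qParam 1 (τ : ℂ) = cexp (2 * π * I * τ) := by
      simp [Function.Periodic.qParam]
    rw [e]
    exact h
  exact (qExpansion_coeff_unique_fun isNice_E2.analyticAt hs m).symm

/-- The constant coefficient of the `q`-expansion of `E₂` is `1`. -/
theorem qExpansion_E2_coeff_zero : (qExpansion 1 E2).coeff 0 = 1 := by
  rw [qExpansion_E2_coeff, if_pos rfl]

/-- rank is insensitive to casting the weight. -/
theorem rank_cast {a b : ℤ} (h : a = b) :
    Module.rank ℂ (ModularForm 𝒮ℒ a) = Module.rank ℂ (ModularForm 𝒮ℒ b) := by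
  subst h; rfl

/-- In a one dimensional space of modular forms everything is a multiple of a nonzero form. -/
theorem exists_smul_eq_of_rank_one {k : ℤ} (hrank : Module.rank ℂ (ModularForm 𝒮ℒ k) = 1)
    (G : ModularForm 𝒮ℒ k) (hG : G ≠ 0) (W : ModularForm 𝒮ℒ k) : ∃ c : ℂ, c • G = W :=
  (finrank_eq_one_iff_of_nonzero' G hG).mp (Module.rank_eq_one_iff_finrank_eq_one.mp hrank) W

/-- **Abstract Ramanujan identity.**  If `F` has weight `k` and constant term `1`, and the space of
forms of weight `k + 2` is spanned by `G` with constant term `1`, then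
`12 θ F = k (E₂ F - G)` for the `q`-expansions. -/
theorem ramanujan_of_rank_one {k : ℤ} (F : ModularForm 𝒮ℒ k) (G : ModularForm 𝒮ℒ (k + 2))
    (hrank : Module.rank ℂ (ModularForm 𝒮ℒ (k + 2)) = 1)
    (hF0 : (qExpansion 1 F).coeff 0 = 1) (hG0 : (qExpansion 1 G).coeff 0 = 1) :
    12 * (PowerSeries.X * PowerSeries.derivative ℂ (qExpansion 1 F)) =
      (k : ℂ) • (qExpansion 1 E2 * qExpansion 1 F - qExpansion 1 G) := by
  have hG : G ≠ 0 := by
    intro h
    rw [h] at hG0
    simp [qExpansion_zero] at hG0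
  obtain ⟨c, hc⟩ := exists_smul_eq_of_rank_one hrank G hG (SerreForm.serreForm F)
  have hFn : IsNice (F : ℍ → ℂ) := SerreForm.isNice_levelOne F
  have hGn : IsNice (G : ℍ → ℂ) := SerreForm.isNice_levelOne G
  -- the function identity
  have hfun : D (F : ℍ → ℂ) - ((k : ℂ) * 12⁻¹) • (E2 * (F : ℍ → ℂ)) = c • (G : ℍ → ℂ) := by
    have h1 := congrArg (fun W : ModularForm 𝒮ℒ (k + 2) => (W : ℍ → ℂ)) hc
    simp only [SerreForm.coe_serreForm] at h1
    funext z
    have h2 := congrFun h1 z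
    simp only [FunLike.coe_smul, Pi.smul_apply, smul_eq_mul, serreDerivative_apply] at h2
    simp only [Pi.sub_apply, Pi.smul_apply, Pi.mul_apply, smul_eq_mul]
    rw [h2]
    ring
  -- pass to `q`-expansions
  have hq := congrArg (qExpansion 1) hfun
  rw [(isNice_D hFn).qExpansion_sub ((isNice_E2.mul hFn).smul _),
    (isNice_E2.mul hFn).qExpansion_smul, isNice_E2.qExpansion_mul hFn, hGn.qExpansion_smul,
    QD.qExpansion_D hFn] at hq
  -- the constant
  have hc' : c = -((k : ℂ) * 12⁻¹) := by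
    have h0 := congrArg (PowerSeries.coeff 0) hq
    simp only [map_sub, PowerSeries.coeff_smul, PowerSeries.coeff_zero_eq_constantCoeff,
      map_mul, PowerSeries.constantCoeff_X, zero_mul, smul_eq_mul] at h0
    rw [← PowerSeries.coeff_zero_eq_constantCoeff_apply, ← PowerSeries.coeff_zero_eq_constantCoeff_apply,
      ← PowerSeries.coeff_zero_eq_constantCoeff_apply, qExpansion_E2_coeff_zero, hF0, hG0] at h0
    linear_combination -h0
  rw [hc'] at hq
  -- conclude
  have h12 : (12 : ℂ) ≠ 0 := by norm_num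
  ext n
  have hn := congrArg (PowerSeries.coeff n) hq
  simp only [map_sub, PowerSeries.coeff_smul, smul_eq_mul] at hn ⊢
  have e12 : (PowerSeries.coeff n) ((12 : PowerSeries ℂ) * (PowerSeries.X *
      (PowerSeries.derivative ℂ) (qExpansion 1 ⇑F))) =
      12 * (PowerSeries.coeff n) (PowerSeries.X * (PowerSeries.derivative ℂ) (qExpansion 1 ⇑F)) := by
    rw [show (12 : PowerSeries ℂ) = PowerSeries.C (12 : ℂ) from (map_ofNat PowerSeries.C 12).symm,
      PowerSeries.coeff_C_mul]
  rw [e12]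
  field_simp at hn
  linear_combination hn

/-- **Ramanujan's identity (R4)**: `3 θ E₄ = E₂ E₄ - E₆` for the `q`-expansions. -/
theorem ramanujan_E4 :
    3 * (PowerSeries.X * PowerSeries.derivative ℂ (qExpansion 1 E₄)) =
      qExpansion 1 E2 * qExpansion 1 E₄ - qExpansion 1 E₆ := by
  have h46 : (6 : ℤ) = 4 + 2 := by norm_num
  have hrank : Module.rank ℂ (ModularForm 𝒮ℒ ((4 : ℤ) + 2)) = 1 := by
    rw [rank_cast h46.symm]
    exact levelOne_weight_six_rank_one
  have hG0 : (qExpansion 1 (ModularForm.mcast h46 E₆)).coeff 0 = 1 := by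
    rw [ModularForm.coe_mcast]
    exact E_qExpansion_coeff_zero (by norm_num : 3 ≤ 6) ⟨3, rfl⟩
  have h := ramanujan_of_rank_one (k := 4) E₄ (ModularForm.mcast h46 E₆) hrank
    (E_qExpansion_coeff_zero (by norm_num : 3 ≤ 4) ⟨2, rfl⟩) hG0
  rw [ModularForm.coe_mcast] at h
  have h4 : (12 : PowerSeries ℂ) = 4 * 3 := by norm_num
  ext n
  have hn := congrArg (PowerSeries.coeff n) h
  rw [h4, mul_assoc, show (4 : PowerSeries ℂ) = PowerSeries.C (4 : ℂ) from
    (map_ofNat PowerSeries.C 4).symm, PowerSeries.coeff_C_mul, PowerSeries.coeff_smul] at hn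
  have h4' : (4 : ℂ) ≠ 0 := by norm_num
  have : (((4 : ℤ) : ℂ)) = 4 := by norm_num
  rw [this, smul_eq_mul] at hn
  exact mul_left_cancel₀ h4' hn

/-- **Ramanujan's identity (R6)**: `2 θ E₆ = E₂ E₆ - E₄²` for the `q`-expansions. -/
theorem ramanujan_E6 :
    2 * (PowerSeries.X * PowerSeries.derivative ℂ (qExpansion 1 E₆)) =
      qExpansion 1 E2 * qExpansion 1 E₆ - qExpansion 1 E₄ ^ 2 := by
  have h88 : (4 : ℤ) + 4 = 6 + 2 := by norm_num
  have h8 : (((8 : ℕ) : ℤ)) = 6 + 2 := by norm_num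
  have hrank : Module.rank ℂ (ModularForm 𝒮ℒ ((6 : ℤ) + 2)) = 1 := by
    rw [← rank_cast h8, dimension_level_one 8 ⟨4, rfl⟩]
    simp [Nat.ModEq]
  have hG0 : (qExpansion 1 (ModularForm.mcast h88 (E₄.mul E₄))).coeff 0 = 1 := by
    rw [ModularForm.coe_mcast, ModularForm.qExpansion_mul one_pos one_mem_strictPeriods_SL]
    have h4 := E_qExpansion_coeff_zero (by norm_num : 3 ≤ 4) ⟨2, rfl⟩
    rw [PowerSeries.coeff_zero_eq_constantCoeff_apply] at h4 ⊢
    rw [map_mul, h4, mul_one]
  have h := ramanujan_of_rank_one (k := 6) E₆ (ModularForm.mcast h88 (E₄.mul E₄)) hrank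
    (E_qExpansion_coeff_zero (by norm_num : 3 ≤ 6) ⟨3, rfl⟩) hG0
  rw [ModularForm.coe_mcast, ModularForm.qExpansion_mul one_pos one_mem_strictPeriods_SL] at h
  have h6 : (12 : PowerSeries ℂ) = 6 * 2 := by norm_num
  ext n
  have hn := congrArg (PowerSeries.coeff n) h
  rw [h6, mul_assoc, show (6 : PowerSeries ℂ) = PowerSeries.C (6 : ℂ) from
    (map_ofNat PowerSeries.C 6).symm, PowerSeries.coeff_C_mul, PowerSeries.coeff_smul] at hn
  have h6' : (6 : ℂ) ≠ 0 := by norm_num
  have : (((6 : ℤ) : ℂ)) = 6 := by norm_num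
  rw [this, smul_eq_mul] at hn
  rw [pow_two]
  exact mul_left_cancel₀ h6' hn

end Fermat.Agent.Eis.Ram46
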