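import Mathlib
import Fermat.Agent.Eis.L1ModAbs
import Fermat.Agent.Eis.L1IntRed
import Fermat.Agent.Eis.QExpInt
import Fermat.Agent.Eis.RamE2
import Fermat.Agent.Eis.RamE46

set_option autoImplicit false

/-!
# Program E (S16), node N2: level-one forms mod `ℓ ≥ 5` — the final theorem

A level one modular form of weight `k` whose `q`-expansion has coefficients in a subring `S ⊆ ℂ`
(containing `ℤ_(ℓ)`) and reduces to a non-zero constant along `φ : S →+* K`, `K` a field of
characteristic `ℓ ≥ 5`, has weight divisible by `ℓ - 1`.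
-/

namespace Fermat.Agent.Eis.L1

open UpperHalfPlane ModularForm EisensteinSeries
open scoped MatrixGroups ModularForm
open Fermat.Agent.Eis.QExp

/-- `θ = X d/dX` commutes with coefficientwise ring homomorphisms. -/
theorem map_X_mul_derivative {R S : Type*} [CommSemiring R] [CommSemiring S] (φ : R →+* S)
    (f : PowerSeries R) :
    PowerSeries.X * PowerSeries.derivative S (f.map φ) =
      (PowerSeries.X * PowerSeries.derivative R f).map φ := by
  ext n
  rcases n with _ | n
  · simp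
  · simp [PowerSeries.coeff_succ_X_mul, PowerSeries.coeff_derivative]

/-- The three Ramanujan identities for integral power series. -/
structure RamZ (P Q R : PowerSeries ℤ) : Prop where
  ram2 : 12 * (PowerSeries.X * PowerSeries.derivative ℤ P) = P ^ 2 - Q
  ram4 : 3 * (PowerSeries.X * PowerSeries.derivative ℤ Q) = P * Q - R
  ram6 : 2 * (PowerSeries.X * PowerSeries.derivative ℤ R) = P * R - Q ^ 2

/-- Transfer of the Ramanujan identities from `ℂ` to `ℤ`. -/
theorem ramZ_of_complex
    (h4 : 3 * (PowerSeries.X * PowerSeries.derivative ℂ (qExpansion 1 (E₄ : ℍ → ℂ))) =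
      qExpansion 1 E2 * qExpansion 1 (E₄ : ℍ → ℂ) - qExpansion 1 (E₆ : ℍ → ℂ))
    (h6 : 2 * (PowerSeries.X * PowerSeries.derivative ℂ (qExpansion 1 (E₆ : ℍ → ℂ))) =
      qExpansion 1 E2 * qExpansion 1 (E₆ : ℍ → ℂ) - qExpansion 1 (E₄ : ℍ → ℂ) ^ 2) :
    RamZ (eisZ (-24) 1) (eisZ 240 3) (eisZ (-504) 5) := by
  have h2 := Fermat.Agent.Eis.RamE2.qExpansion_ram2
  rw [qExp_E2, qExp_E4, map_X_mul_derivative] at h2
  rw [qExp_E2, qExp_E4, qExp_E6, map_X_mul_derivative] at h4 h6
  refine ⟨map_castRingHom_injective ?_, map_castRingHom_injective ?_,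
    map_castRingHom_injective ?_⟩
  · simp only [map_mul, map_sub, map_pow, map_ofNat, PowerSeries.map_X] at h2 ⊢
    exact h2
  · simp only [map_mul, map_sub, map_ofNat, PowerSeries.map_X] at h4 ⊢
    exact h4
  · simp only [map_mul, map_sub, map_pow, map_ofNat, PowerSeries.map_X] at h6 ⊢
    exact h6

/-- The Ramanujan identities over any field, from the integral ones. -/
theorem ram_map {K : Type*} [Field K] {P Q R : PowerSeries ℤ} (h : RamZ P Q R) :
    12 * theta (P.map (Int.castRingHom K)) =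
        P.map (Int.castRingHom K) ^ 2 - Q.map (Int.castRingHom K) ∧
      3 * theta (Q.map (Int.castRingHom K)) =
        P.map (Int.castRingHom K) * Q.map (Int.castRingHom K) - R.map (Int.castRingHom K) ∧
      2 * theta (R.map (Int.castRingHom K)) =
        P.map (Int.castRingHom K) * R.map (Int.castRingHom K) - Q.map (Int.castRingHom K) ^ 2 := by
  have h2 := congrArg (PowerSeries.map (Int.castRingHom K)) h.ram2
  have h4 := congrArg (PowerSeries.map (Int.castRingHom K)) h.ram4
  have h6 := congrArg (PowerSeries.map (Int.castRingHom K)) h.ram6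
  simp only [theta, map_X_mul_derivative]
  simp only [map_mul, map_sub, map_pow, map_ofNat, PowerSeries.map_X] at h2 h4 h6 ⊢
  exact ⟨h2, h4, h6⟩

theorem charP_of_natCast_prime_eq_zero (l : ℕ) [hl : Fact l.Prime] {K : Type*} [Field K]
    (h : ((l : ℕ) : K) = 0) : CharP K l := by
  have := CharP.ringChar_of_prime_eq_zero hl.out h
  exact this ▸ ringChar.charP K

/-- **Level-one forms mod `ℓ ≥ 5`**, assuming the integral Ramanujan identities. -/
theorem dvd_weight_of_const_mod_of_ram
    (hram : RamZ (eisZ (-24) 1) (eisZ 240 3) (eisZ (-504) 5))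
    (l : ℕ) [Fact l.Prime] (hl : 5 ≤ l) (S : Subring ℂ)
    (hS : ∀ N : ℕ, ¬ l ∣ N → ((N : ℂ))⁻¹ ∈ S) {K : Type*} [Field K] (φ : S →+* K)
    (hφ : φ (l : S) = 0) (k : ℕ) (F : ModularForm 𝒮ℒ k) (f : PowerSeries S)
    (hf : PowerSeries.map S.subtype f = qExpansion 1 F) (c : K) (hc : c ≠ 0)
    (hfc : PowerSeries.map φ f = PowerSeries.C c) : (l - 1) ∣ k := by
  -- pass to the algebraic closure
  let K' := AlgebraicClosure K
  let j : K →+* K' := algebraMap K K'
  let φ' : S →+* K' := j.comp φ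
  have hφ' : φ' (l : S) = 0 := by
    show j (φ (l : S)) = 0
    rw [hφ, map_zero]
  have hl0 : ((l : ℕ) : K') = 0 := by
    have := hφ'
    rwa [map_natCast] at this
  have : CharP K' l := charP_of_natCast_prime_eq_zero l hl0
  have hprime : l.Prime := Fact.out
  have h1728 : (1728 : K') ≠ 0 := by
    have h : ((1728 : ℕ) : K') ≠ 0 := by
      rw [Ne, CharP.cast_eq_zero_iff K' l]
      intro hdvd
      have h1 : (1728 : ℕ) = 2 ^ 6 * 3 ^ 3 := by norm_num
      rw [h1] at hdvd
      rcases (Nat.Prime.dvd_mul hprime).mp hdvd with h2 | h3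
      · have := (Nat.prime_dvd_prime_iff_eq hprime Nat.prime_two).mp (hprime.dvd_of_dvd_pow h2)
        omega
      · have := (Nat.prime_dvd_prime_iff_eq hprime Nat.prime_three).mp (hprime.dvd_of_dvd_pow h3)
        omega
    exact_mod_cast h
  have hu : (1728 : K')⁻¹ * 1728 = 1 := inv_mul_cancel₀ h1728
  obtain ⟨Ψ, hΨ, hΨf⟩ := L1Int.exists_isobaric2_map qExp_E4.symm qExp_E6.symm qExp_Delta.symm
    eisZ_cube_sub_sq S φ' hu k F f hf
  obtain ⟨A, hA, hA1⟩ := L1Int.exists_isobaric2_E_pred qExp_E4.symm qExp_E6.symm qExp_Delta.symm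
    eisZ_cube_sub_sq l hl S hS φ' hφ' hu
  obtain ⟨ram2, ram4, ram6⟩ := ram_map (K := K') hram
  have hfc' : PowerSeries.map φ' f = PowerSeries.C (j c) := by
    have : PowerSeries.map φ' f = PowerSeries.map j (PowerSeries.map φ f) := by
      ext n; simp [φ']
    rw [this, hfc, PowerSeries.map_C]
  have hjc : j c ≠ 0 := by
    intro h
    exact hc ((map_eq_zero j).mp h)
  have h4 : PowerSeries.constantCoeff ((eisZ 240 3).map (Int.castRingHom K')) = 1 := by
    rw [← PowerSeries.coeff_zero_eq_constantCoeff_apply, PowerSeries.coeff_map, coeff_zero_eisZ,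
      map_one]
  have h6 : PowerSeries.constantCoeff ((eisZ (-504) 5).map (Int.castRingHom K')) = 1 := by
    rw [← PowerSeries.coeff_zero_eq_constantCoeff_apply, PowerSeries.coeff_map, coeff_zero_eisZ,
      map_one]
  have hD : ((eisZ 240 3).map (Int.castRingHom K')) ^ 3 -
      ((eisZ (-504) 5).map (Int.castRingHom K')) ^ 2 =
      (1728 : K') • (deltaZ.map (Int.castRingHom K')) := by
    have := congrArg (PowerSeries.map (Int.castRingHom K')) eisZ_cube_sub_sq
    simp only [map_mul, map_sub, map_pow, map_ofNat] at this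
    rw [this, Algebra.smul_def, map_ofNat]
  have hD0 : deltaZ.map (Int.castRingHom K') ≠ 0 := by
    intro h
    have := congrArg (PowerSeries.coeff 1) h
    rw [PowerSeries.coeff_map, coeff_one_deltaZ, map_one, map_zero] at this
    exact one_ne_zero this
  have hinj : ∀ (n : ℕ) (Φ : MvPolynomial (Fin 2) K'),
      MvPolynomial.IsWeightedHomogeneous wt Φ n →
      evQR ((eisZ 240 3).map (Int.castRingHom K')) ((eisZ (-504) 5).map (Int.castRingHom K')) Φ = 0 →
      Φ = 0 := fun n Φ hΦ h0 =>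
    L1Int.isobaric2_eq_zero _ _ _ h4 h6 hD h1728 hD0 n Φ hΦ h0
  exact dvd_weight_of_evQR_const l hl h4 h6 ram2 ram4 ram6 hinj hA hA1 hΨ hjc (hΨf ▸ hfc')

/-- The integral Ramanujan identities `12 θP = P² - Q`, `3 θQ = PQ - R`, `2 θR = PR - Q²` for
`P = 1 - 24 ∑ σ₁(n) qⁿ`, `Q = 1 + 240 ∑ σ₃(n) qⁿ`, `R = 1 - 504 ∑ σ₅(n) qⁿ` in `ℤ⟦q⟧`. -/
theorem ramZ : RamZ (eisZ (-24) 1) (eisZ 240 3) (eisZ (-504) 5) :=
  ramZ_of_complex Fermat.Agent.Eis.Ram46.ramanujan_E4 Fermat.Agent.Eis.Ram46.ramanujan_E6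

/-- **Level-one forms mod `ℓ ≥ 5` (Serre, Swinnerton-Dyer).**  Let `ℓ ≥ 5` be a prime, `S ⊆ ℂ` a
subring in which every integer prime to `ℓ` is invertible, `φ : S →+* K` a ring homomorphism to a
field killing `ℓ`.  If `F` is a level one modular form of weight `k` whose `q`-expansion has
coefficients in `S` and reduces under `φ` to a non-zero constant, then `(ℓ - 1) ∣ k`. -/
theorem dvd_weight_of_const_mod (l : ℕ) [Fact l.Prime] (hl : 5 ≤ l) (S : Subring ℂ)
    (hS : ∀ N : ℕ, ¬ l ∣ N → ((N : ℂ))⁻¹ ∈ S) {K : Type*} [Field K] (φ : S →+* K)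
    (hφ : φ (l : S) = 0) (k : ℕ) (F : ModularForm 𝒮ℒ k) (f : PowerSeries S)
    (hf : PowerSeries.map S.subtype f = qExpansion 1 F) (c : K) (hc : c ≠ 0)
    (hfc : PowerSeries.map φ f = PowerSeries.C c) : (l - 1) ∣ k :=
  dvd_weight_of_const_mod_of_ram ramZ l hl S hS φ hφ k F f hf c hc hfc

end Fermat.Agent.Eis.L1
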