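/-
Program E (statement S16): shared definitions and interface propositions.
Every node of the program imports this file for the shared vocabulary.
-/
import Mathlib
import Fermat.Prelude.Def_CuspForm_HeckeLocal
import Fermat.Prelude.Def_CuspForm_HeckeEvalForms
import Fermat.Prelude.Def_HeckeGalois_EichlerShimura
import Fermat.Prelude.Def_ModularCurve_ModularUnit
import Fermat.Prelude.Def_FLTPrelim_Modularity

set_option autoImplicit false

open CongruenceSubgroup ModularFormClass UpperHalfPlane ModularCurve CuspForm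
open scoped MatrixGroups

namespace Fermat.Agent.Eis

noncomputable section

/-! ### Arithmetic functions and the congruence predicates -/

/-- Sum of the divisors of `k` that are prime to `p`. -/
def sigmaStar (p k : ℕ) : ℕ := ∑ d ∈ k.divisors with ¬ p ∣ d, d

/-- There is a weight two cusp form on `Γ₀(p)` with integral `q`-expansion congruent modulo `M`
to the Eisenstein series `∑ σ*(k) q^k` in all positive degrees. -/
def CongCusp (p M : ℕ) : Prop :=
  ∃ f : CuspForm (Gamma0 p) 2, ∀ k : ℕ, 1 ≤ k →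
    ∃ a : ℤ, qCoeff f k = (a : ℂ) ∧ (M : ℤ) ∣ a - (sigmaStar p k : ℤ)

/-- There is a weight two modular form on `Γ₀(p)` with rational `q`-expansion
congruent to `1` modulo `l ^ e`. -/
def UnitCong (p l e : ℕ) : Prop :=
  ∃ u : ModularForm (Gamma0 p) 2, qCoeff u 0 = 1 ∧ ∀ k : ℕ, 1 ≤ k →
    ∃ r : ℚ, qCoeff u k = (r : ℂ) ∧ (r = 0 ∨ (e : ℤ) ≤ padicValRat l r)

/-- Upper bound half of the program. -/
def Upper (p : ℕ) : Prop :=
  ∀ M : ℕ, 1 ≤ M → CongCusp p M → M ∣ eisensteinNumerator p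

/-- Lower bound half of the program: a surjection of the Eisenstein quotient onto `ZMod n'`
with `eisensteinNumerator p ∣ n'`. -/
def LowerHom (p : ℕ) [Fact p.Prime] : Prop :=
  ∃ n' : ℕ, eisensteinNumerator p ∣ n' ∧
    ∃ χ : (↥(heckeLatticeAlgebra p ∅) ⧸
        Ideal.map ((latticeRestrictHom p ∅).toRingHom.comp (heckeEvalForms p 2))
          (eisensteinIdeal p)) →+* ZMod n', Function.Surjective χ

/-! ### `l`-integral complex numbers -/

/-- The complex numbers integral over `ℤ_(l)`: those `z` such that `m • z` is an algebraic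
integer for some `m` prime to `l`. -/
def IntAt (l : ℕ) [hl : Fact l.Prime] : Subring ℂ where
  carrier := {z | ∃ m : ℕ, ¬ l ∣ m ∧ IsIntegral ℤ ((m : ℂ) * z)}
  zero_mem' := ⟨1, by
    simpa using (hl.out.one_lt).ne', by simpa using isIntegral_zero⟩
  one_mem' := ⟨1, by
    simpa using (hl.out.one_lt).ne', by simpa using isIntegral_one⟩
  add_mem' := by
    rintro a b ⟨m, hm, ha⟩ ⟨n, hn, hb⟩
    refine ⟨m * n, fun h => ?_, ?_⟩
    · rcases (Nat.Prime.dvd_mul hl.out).1 h with h | h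
      · exact hm h
      · exact hn h
    · have hn' : IsIntegral ℤ ((n : ℂ)) := by
        have := isIntegral_algebraMap (R := ℤ) (A := ℂ) (x := (n : ℤ))
        simpa using this
      have hm' : IsIntegral ℤ ((m : ℂ)) := by
        have := isIntegral_algebraMap (R := ℤ) (A := ℂ) (x := (m : ℤ))
        simpa using this
      have h1 : IsIntegral ℤ ((n : ℂ) * ((m : ℂ) * a)) := hn'.mul ha
      have h2 : IsIntegral ℤ ((m : ℂ) * ((n : ℂ) * b)) := hm'.mul hb
      have : ((m * n : ℕ) : ℂ) * (a + b) = (n : ℂ) * ((m : ℂ) * a) + (m : ℂ) * ((n : ℂ) * b) := by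
        push_cast; ring
      rw [this]
      exact h1.add h2
  mul_mem' := by
    rintro a b ⟨m, hm, ha⟩ ⟨n, hn, hb⟩
    refine ⟨m * n, fun h => ?_, ?_⟩
    · rcases (Nat.Prime.dvd_mul hl.out).1 h with h | h
      · exact hm h
      · exact hn h
    · have : ((m * n : ℕ) : ℂ) * (a * b) = ((m : ℂ) * a) * ((n : ℂ) * b) := by
        push_cast; ring
      rw [this]
      exact ha.mul hb
  neg_mem' := by
    rintro a ⟨m, hm, ha⟩
    refine ⟨m, hm, ?_⟩
    have : (m : ℂ) * (-a) = -((m : ℂ) * a) := by ring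
    rw [this]
    exact ha.neg

theorem mem_IntAt {l : ℕ} [Fact l.Prime] {z : ℂ} :
    z ∈ IntAt l ↔ ∃ m : ℕ, ¬ l ∣ m ∧ IsIntegral ℤ ((m : ℂ) * z) := Iff.rfl

/-- Algebraic integers are `l`-integral. -/
theorem mem_IntAt_of_isIntegral {l : ℕ} [hl : Fact l.Prime] {z : ℂ} (hz : IsIntegral ℤ z) :
    z ∈ IntAt l :=
  ⟨1, by simpa using (hl.out.one_lt).ne', by simpa using hz⟩

theorem intCast_mem_IntAt {l : ℕ} [Fact l.Prime] (a : ℤ) : (a : ℂ) ∈ IntAt l :=
  intCast_mem (IntAt l) a

/-- A rational number whose denominator is prime to `l` is `l`-integral. -/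
theorem ratCast_mem_IntAt {l : ℕ} [Fact l.Prime] {r : ℚ} (hr : ¬ l ∣ r.den) :
    (r : ℂ) ∈ IntAt l := by
  refine ⟨r.den, hr, ?_⟩
  have : ((r.den : ℂ)) * (r : ℂ) = ((r.num : ℤ) : ℂ) := by
    have h := Rat.den_mul_eq_num r
    have h' : ((r.den : ℚ) : ℂ) * (r : ℂ) = ((r.num : ℚ) : ℂ) := by
      rw [← Rat.cast_mul, h]
    simpa using h'
  rw [this]
  exact isIntegral_algebraMap (R := ℤ) (A := ℂ) (x := r.num)

/-- The inverse of a natural number prime to `l` is `l`-integral. -/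
theorem inv_natCast_mem_IntAt {l : ℕ} [Fact l.Prime] {m : ℕ} (hm : ¬ l ∣ m) :
    ((m : ℂ))⁻¹ ∈ IntAt l := by
  have hm0 : m ≠ 0 := fun h => hm (h ▸ dvd_zero l)
  refine ⟨m, hm, ?_⟩
  rw [mul_inv_cancel₀ (by exact_mod_cast hm0)]
  exact isIntegral_one

/-- `IntAt l ∩ ℚ = ℤ_(l)`: an `l`-integral rational number has denominator prime to `l`. -/
theorem not_dvd_den_of_mem_IntAt {l : ℕ} [hl : Fact l.Prime] {r : ℚ} (hr : (r : ℂ) ∈ IntAt l) :
    ¬ l ∣ r.den := by
  obtain ⟨m, hm, hint⟩ := hr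
  have h1 : IsIntegral ℤ ((m : ℚ) * r) := by
    have : ((m : ℂ) * (r : ℂ)) = algebraMap ℚ ℂ ((m : ℚ) * r) := by
      simp
    rw [this] at hint
    exact (isIntegral_algebraMap_iff (algebraMap ℚ ℂ).injective).1 hint
  obtain ⟨k, hk⟩ := IsIntegrallyClosed.isIntegral_iff.1 h1
  -- `m * r = k`, so `r = k / m` and `r.den ∣ m`
  have hm0 : m ≠ 0 := fun h => hm (h ▸ dvd_zero l)
  have hr' : r = (k : ℚ) / (m : ℚ) := by
    have hk' : (k : ℚ) = (m : ℚ) * r := by simpa using hk
    field_simp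
    linarith [hk']
  intro hdvd
  have hden : r.den ∣ m := by
    rw [hr']
    have h := Rat.den_dvd k (m : ℤ)
    rw [Rat.divInt_eq_div, Int.cast_natCast] at h
    exact Int.natCast_dvd_natCast.1 h
  exact hm (dvd_trans hdvd hden)

/-- `l` is not invertible in `IntAt l`. -/
theorem inv_prime_not_mem_IntAt {l : ℕ} [hl : Fact l.Prime] : ((l : ℂ))⁻¹ ∉ IntAt l := by
  intro h
  have h' : (((l : ℚ)⁻¹ : ℚ) : ℂ) ∈ IntAt l := by simpa using h
  have := not_dvd_den_of_mem_IntAt h'
  apply this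
  have : ((l : ℚ)⁻¹).den = l := by
    have hl0 : (0 : ℤ) < (l : ℤ) := by exact_mod_cast hl.out.pos
    have h := Rat.inv_natCast_den l
    simpa [hl.out.ne_zero] using h
  rw [this]

/-- Rational numbers of nonnegative `l`-adic valuation are `l`-integral. -/
theorem ratCast_mem_IntAt_of_padicValRat {l : ℕ} [hl : Fact l.Prime] {r : ℚ}
    (hr : r = 0 ∨ 0 ≤ padicValRat l r) : (r : ℂ) ∈ IntAt l := by
  rcases hr with rfl | hr
  · simpa using (IntAt l).zero_mem
  · refine ratCast_mem_IntAt fun hd => ?_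
    by_cases h0 : r = 0
    · subst h0; simp at hd; exact hl.out.one_lt.ne' hd
    · have hnum : ¬ (l : ℤ) ∣ r.num := by
        intro hn
        have hcop := r.reduced
        have h1 : l ∣ r.num.natAbs := Int.natCast_dvd.1 hn
        have : l ∣ Nat.gcd r.num.natAbs r.den := Nat.dvd_gcd h1 hd
        rw [Nat.Coprime] at hcop
        rw [hcop] at this
        exact hl.out.one_lt.ne' (Nat.dvd_one.1 this)
      have hval : padicValRat l r = (padicValInt l r.num : ℤ) - (padicValNat l r.den : ℤ) := rfl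
      have h2 : padicValInt l r.num = 0 := padicValInt.eq_zero_of_not_dvd hnum
      have h3 : 1 ≤ padicValNat l r.den :=
        one_le_padicValNat_of_dvd (Nat.pos_of_ne_zero r.den_nz).ne' hd
      rw [hval, h2] at hr
      omega

/-! ### Power series with `l`-integral coefficients -/

/-- The subring of power series all of whose coefficients lie in the subring `O`. -/
def psSub (O : Subring ℂ) : Subring (PowerSeries ℂ) where
  carrier := {F | ∀ n, PowerSeries.coeff n F ∈ O}
  zero_mem' := by intro n; simp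
  one_mem' := by
    intro n
    rw [PowerSeries.coeff_one]
    split_ifs
    · exact O.one_mem
    · exact O.zero_mem
  add_mem' := by
    intro a b ha hb n
    rw [map_add]
    exact O.add_mem (ha n) (hb n)
  mul_mem' := by
    intro a b ha hb n
    rw [PowerSeries.coeff_mul]
    exact O.sum_mem fun x _ => O.mul_mem (ha _) (hb _)
  neg_mem' := by
    intro a ha n
    rw [map_neg]
    exact O.neg_mem (ha n)

/-- All coefficients lie in the subring `O`. -/
def CoeffsIn (O : Subring ℂ) (F : PowerSeries ℂ) : Prop := ∀ n, F.coeff n ∈ O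

theorem coeffsIn_iff_mem_psSub {O : Subring ℂ} {F : PowerSeries ℂ} :
    CoeffsIn O F ↔ F ∈ psSub O := Iff.rfl

theorem C_mem_psSub {O : Subring ℂ} {c : ℂ} (hc : c ∈ O) : PowerSeries.C c ∈ psSub O := by
  intro n
  rw [PowerSeries.coeff_C]
  split_ifs
  · exact hc
  · exact O.zero_mem

theorem X_mem_psSub (O : Subring ℂ) : (PowerSeries.X : PowerSeries ℂ) ∈ psSub O := by
  intro n
  rw [PowerSeries.coeff_X]
  split_ifs
  · exact O.one_mem
  · exact O.zero_mem

theorem expand_mem_psSub {O : Subring ℂ} (p : ℕ) (hp : p ≠ 0) {F : PowerSeries ℂ}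
    (hF : F ∈ psSub O) : PowerSeries.expand p hp F ∈ psSub O := by
  intro n
  rw [PowerSeries.coeff_expand]
  split_ifs
  · exact hF _
  · exact O.zero_mem

/-- `F ≡ G` modulo `c` in `O⟦Y⟧`. -/
def CongMod (O : Subring ℂ) (c : ℂ) (F G : PowerSeries ℂ) : Prop :=
  ∃ H : PowerSeries ℂ, CoeffsIn O H ∧ F - G = PowerSeries.C c * H

/-! ### The conjugates package (node N1) -/

/-- The root of unity `exp (2 π i / p)`. -/
def zetaC (p : ℕ) : ℂ := Complex.exp (2 * Real.pi * Complex.I / p)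

theorem zetaC_pow (p : ℕ) (hp : p ≠ 0) : zetaC p ^ p = 1 := by
  unfold zetaC
  rw [← Complex.exp_nat_mul]
  have hp' : (p : ℂ) ≠ 0 := by exact_mod_cast hp
  have : (p : ℂ) * (2 * Real.pi * Complex.I / p) = 2 * Real.pi * Complex.I := by
    field_simp
  rw [this]
  exact Complex.exp_two_pi_mul_I

theorem zetaC_isIntegral (p : ℕ) (hp : p ≠ 0) : IsIntegral ℤ (zetaC p) :=
  IsIntegral.of_pow (Nat.pos_of_ne_zero hp) (by rw [zetaC_pow p hp]; exact isIntegral_one)

theorem zetaC_mem_IntAt (p : ℕ) (hp : p ≠ 0) (l : ℕ) [Fact l.Prime] : zetaC p ∈ IntAt l :=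
  mem_IntAt_of_isIntegral (zetaC_isIntegral p hp)

/-- The conjugate at `∞`, expanded in `Y = q^{1/p}`. -/
def conjInf (p : ℕ) (hp : p ≠ 0) (u : ℍ → ℂ) : PowerSeries ℂ :=
  PowerSeries.expand p hp (qExpansion 1 u)

/-- The conjugate number `b`, expanded in `Y = q^{1/p}`: `-(1/p) ∑ aₙ(ut) ζ^{bn} Yⁿ`. -/
def conjFin (p : ℕ) (ut : ℍ → ℂ) (b : ℕ) : PowerSeries ℂ :=
  PowerSeries.mk fun n => -(1 / (p : ℂ)) * qCoeff ut n * zetaC p ^ (b * n)

/-- The weight two conjugates package for `u` on `Γ₀(p)`. -/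
def ConjPackage (p : ℕ) (hp : p ≠ 0) (u : ModularForm (Gamma0 p) 2) : Prop :=
  ∃ (ut : ModularForm (Gamma0 p) 2) (S : (j : ℕ) → ModularForm 𝒮ℒ ((2 : ℤ) * (j : ℤ))),
    (∀ n : ℕ, qCoeff ut n = qCoeff u (p * n)) ∧
    (∀ n : ℕ, qCoeff u n = qCoeff ut (p * n)) ∧
    qExpansion 1 (S 0) = 1 ∧
    (Polynomial.X - Polynomial.C (conjInf p hp u)) *
        ∏ b ∈ Finset.range p, (Polynomial.X - Polynomial.C (conjFin p ut b)) =
      ∑ j ∈ Finset.range (p + 2),
        (-1 : Polynomial (PowerSeries ℂ)) ^ j *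
          Polynomial.C (PowerSeries.expand p hp (qExpansion 1 (S j))) *
            Polynomial.X ^ (p + 1 - j)

end

end Fermat.Agent.Eis
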