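import Fermat.Agent.Eis.E2Level
import Fermat.Agent.Eis.Defs

/-!
# Program E (S16): integral form of the `q`-expansion of `N E₂(N z) - E₂(z)`

* `sigma_eq_sigmaStar_add`: `σ(m) = sigmaStar N m + N σ(m / N) [N ∣ m]` (`sigmaStar` from `Eis/Defs.lean`);
* `e2LevelZ N : PowerSeries ℤ = (N - 1) + 24 ∑_{m ≥ 1} sigmaStar N m q ^ m` and
  `qExpansion_e2Level : qExpansion 1 (e2Level N) = (e2LevelZ N).map (Int.castRingHom ℂ)`;
* `eisNorm N = (N - 1)⁻¹ • e2Level N` (for `2 ≤ N`), the Eisenstein series of weight `2` on `Γ₀(N)`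
  normalised to have constant term `1`, with `qExpansion_eisNorm_coeff`;
* `eisStar N = (1 / 24) • e2Level N`, with constant term `(N - 1) / 24` and `m`-th coefficient
  `sigmaStar N m` (this is `E*` of the Program E blueprint when `N = p` is prime).
-/

set_option autoImplicit false
set_option linter.unusedSectionVars false

open UpperHalfPlane hiding I
open EisensteinSeries ModularForm CongruenceSubgroup Complex
open scoped MatrixGroups Manifold Real ArithmeticFunction.sigma

noncomputable section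

namespace Fermat.Agent.Eis.E2L

theorem sigmaStar_one_left (m : ℕ) : sigmaStar 1 m = 0 := by
  simp [sigmaStar]

/-- The divisors of `m` divisible by `N` are `N d'` for `d' ∣ m / N` (when `N ∣ m`). -/
theorem sum_divisors_dvd (N : ℕ) (hN : N ≠ 0) {m : ℕ} (hm : m ≠ 0) (hNm : N ∣ m) :
    ∑ d ∈ m.divisors with N ∣ d, d = N * ArithmeticFunction.sigma 1 (m / N) := by
  obtain ⟨k, rfl⟩ := hNm
  have hk : k ≠ 0 := fun h => hm (by simp [h])
  rw [Nat.mul_div_cancel_left _ (Nat.pos_of_ne_zero hN), ArithmeticFunction.sigma_one_apply,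
    Finset.mul_sum]
  refine (Finset.sum_bij' (fun d _ => N * d) (fun d _ => d / N) ?_ ?_ ?_ ?_ ?_).symm
  · intro d hd
    rw [Finset.mem_filter, Nat.mem_divisors]
    exact ⟨⟨Nat.mul_dvd_mul_left N (Nat.dvd_of_mem_divisors hd), hm⟩, dvd_mul_right N d⟩
  · intro d hd
    rw [Finset.mem_filter, Nat.mem_divisors] at hd
    obtain ⟨⟨hd1, _⟩, e, rfl⟩ := hd
    rw [Nat.mul_div_cancel_left _ (Nat.pos_of_ne_zero hN), Nat.mem_divisors]
    exact ⟨(Nat.mul_dvd_mul_iff_left (Nat.pos_of_ne_zero hN)).mp hd1, hk⟩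
  · intro d _
    exact Nat.mul_div_cancel_left _ (Nat.pos_of_ne_zero hN)
  · intro d hd
    rw [Finset.mem_filter] at hd
    exact Nat.mul_div_cancel' hd.2
  · intro d _
    rfl

theorem sigma_eq_sigmaStar_add (N : ℕ) (hN : N ≠ 0) {m : ℕ} (hm : m ≠ 0) :
    ArithmeticFunction.sigma 1 m =
      sigmaStar N m + if N ∣ m then N * ArithmeticFunction.sigma 1 (m / N) else 0 := by
  rw [ArithmeticFunction.sigma_one_apply, sigmaStar,
    ← Finset.sum_filter_not_add_sum_filter m.divisors (fun d => N ∣ d)]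
  congr 1
  split_ifs with h
  · exact sum_divisors_dvd N hN hm h
  · refine Finset.sum_eq_zero fun d hd => ?_
    rw [Finset.mem_filter, Nat.mem_divisors] at hd
    exact absurd (hd.2.trans hd.1.1) h

variable (N : ℕ) [NeZero N]

/-- The integral `q`-expansion of `N E₂(N z) - E₂(z)`. -/
def e2LevelZ : PowerSeries ℤ :=
  PowerSeries.mk fun m => if m = 0 then (N : ℤ) - 1 else 24 * (sigmaStar N m : ℤ)

@[simp] theorem coeff_e2LevelZ (m : ℕ) :
    (e2LevelZ N).coeff m = if m = 0 then (N : ℤ) - 1 else 24 * (sigmaStar N m : ℤ) :=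
  PowerSeries.coeff_mk _ _

theorem qExpansion_e2Level_coeff_sigmaStar {m : ℕ} (hm : m ≠ 0) :
    (qExpansion 1 (e2Level N)).coeff m = 24 * (sigmaStar N m : ℂ) := by
  have h := sigma_eq_sigmaStar_add N (NeZero.ne N) hm
  by_cases hNm : N ∣ m
  · rw [qExpansion_e2Level_coeff_of_dvd N hm hNm, h, if_pos hNm]
    push_cast
    ring
  · rw [qExpansion_e2Level_coeff_of_not_dvd N hNm, h, if_neg hNm]
    push_cast
    ring

/-- **Integral `q`-expansion of `N E₂(N z) - E₂(z)`.** -/
theorem qExpansion_e2Level :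
    qExpansion 1 (e2Level N) = (e2LevelZ N).map (Int.castRingHom ℂ) := by
  ext m
  rw [PowerSeries.coeff_map, coeff_e2LevelZ]
  by_cases hm : m = 0
  · subst hm
    rw [qExpansion_e2Level_coeff_zero]
    simp
  · rw [qExpansion_e2Level_coeff_sigmaStar N hm, if_neg hm]
    simp

/-! ### Normalisations -/

/-- `E*` of the blueprint: `(N E₂(N z) - E₂(z)) / 24`, with `q`-expansion
`(N - 1) / 24 + ∑ sigmaStar N m q ^ m`. -/
def eisStar : ModularForm (Gamma0 N) 2 := (1 / 24 : ℂ) • e2Level N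

theorem qExpansion_eisStar_coeff (m : ℕ) :
    (qExpansion 1 (eisStar N)).coeff m =
      if m = 0 then ((N : ℂ) - 1) / 24 else (sigmaStar N m : ℂ) := by
  have h : qExpansion 1 (eisStar N) = (1 / 24 : ℂ) • qExpansion 1 (e2Level N) :=
    ModularForm.qExpansion_smul one_pos (one_mem_strictPeriods_Gamma0' N) (1 / 24 : ℂ) (e2Level N)
  rw [h, PowerSeries.coeff_smul]
  by_cases hm : m = 0
  · subst hm
    rw [qExpansion_e2Level_coeff_zero, if_pos rfl, smul_eq_mul]
    ring
  · rw [qExpansion_e2Level_coeff_sigmaStar N hm, if_neg hm, smul_eq_mul]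
    ring

/-- The Eisenstein series of weight `2` on `Γ₀(N)` with constant term `1`
(`(N E₂(N z) - E₂(z)) / (N - 1)`; only meaningful for `2 ≤ N`). -/
def eisNorm : ModularForm (Gamma0 N) 2 := ((N : ℂ) - 1)⁻¹ • e2Level N

theorem qExpansion_eisNorm_coeff (hN : 2 ≤ N) (m : ℕ) :
    (qExpansion 1 (eisNorm N)).coeff m =
      if m = 0 then 1 else 24 / ((N : ℂ) - 1) * (sigmaStar N m : ℂ) := by
  have hN1 : (N : ℂ) - 1 ≠ 0 := by
    refine sub_ne_zero.mpr fun h => ?_
    have : N = 1 := by exact_mod_cast h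
    omega
  have h : qExpansion 1 (eisNorm N) = ((N : ℂ) - 1)⁻¹ • qExpansion 1 (e2Level N) :=
    ModularForm.qExpansion_smul one_pos (one_mem_strictPeriods_Gamma0' N) _ (e2Level N)
  rw [h, PowerSeries.coeff_smul]
  by_cases hm : m = 0
  · subst hm
    rw [qExpansion_e2Level_coeff_zero, if_pos rfl, smul_eq_mul, inv_mul_cancel₀ hN1]
  · rw [qExpansion_e2Level_coeff_sigmaStar N hm, if_neg hm, smul_eq_mul]
    field_simp

/-! ### The same statements for the Prelude's `qCoeff` -/

theorem qCoeff_e2Level (m : ℕ) :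
    ModularFormClass.qCoeff (e2Level N) m =
      if m = 0 then (N : ℂ) - 1 else 24 * (sigmaStar N m : ℂ) := by
  change (qExpansion 1 (e2Level N)).coeff m = _
  by_cases hm : m = 0
  · subst hm
    rw [qExpansion_e2Level_coeff_zero, if_pos rfl]
  · rw [qExpansion_e2Level_coeff_sigmaStar N hm, if_neg hm]

theorem qCoeff_eisStar (m : ℕ) :
    ModularFormClass.qCoeff (eisStar N) m =
      if m = 0 then ((N : ℂ) - 1) / 24 else (sigmaStar N m : ℂ) :=
  qExpansion_eisStar_coeff N m

theorem qCoeff_eisNorm (hN : 2 ≤ N) (m : ℕ) :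
    ModularFormClass.qCoeff (eisNorm N) m =
      if m = 0 then 1 else 24 / ((N : ℂ) - 1) * (sigmaStar N m : ℂ) :=
  qExpansion_eisNorm_coeff N hN m

end Fermat.Agent.Eis.E2L
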