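import Fermat.Agent.Eis.Defs
import Fermat.Agent.Eis.E2LevelInt

/-!
# Program E (S16): the BRIDGE

`bridge`: a cusp form `f` of weight two on `Γ₀(p)` with integral `q`-expansion congruent to the
Eisenstein series `∑ σ*(k) q^k` modulo `l ^ a` in positive degrees gives the modular form
`u = E − (24 / (p − 1)) f` (`E = eisNorm p`, constant term `1`), whose `k`-th coefficient
`(24 / (p − 1)) (σ*(k) − a_k)` has `l`-adic valuation at least `a + v_l(24) − v_l(p − 1)`.
-/

set_option autoImplicit false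

namespace Fermat.Agent.Eis.BridgeForm

open ModularCurve CongruenceSubgroup ModularFormClass UpperHalfPlane

/-- `q`-coefficients of the difference of a modular form and a multiple of a cusp form. -/
theorem qCoeff_sub_smul (N : ℕ) [NeZero N] (E : ModularForm (Gamma0 N) 2) (c : ℂ)
    (f : CuspForm (Gamma0 N) 2) (k : ℕ) :
    qCoeff (E - c • CuspForm.toModularFormₗ f : ModularForm (Gamma0 N) 2) k =
      qCoeff E k - c * qCoeff f k := by
  have hper := E2L.one_mem_strictPeriods_Gamma0' N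
  have h1 : qExpansion 1 (⇑E - ⇑(c • CuspForm.toModularFormₗ f : ModularForm (Gamma0 N) 2)) =
      qExpansion 1 ⇑E - qExpansion 1 ⇑(c • CuspForm.toModularFormₗ f : ModularForm (Gamma0 N) 2) :=
    ModularForm.qExpansion_sub one_pos hper E
      (c • CuspForm.toModularFormₗ f : ModularForm (Gamma0 N) 2)
  have h2 : qExpansion 1 (c • ⇑(CuspForm.toModularFormₗ f : ModularForm (Gamma0 N) 2)) =
      c • qExpansion 1 ⇑(CuspForm.toModularFormₗ f : ModularForm (Gamma0 N) 2) :=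
    ModularForm.qExpansion_smul one_pos hper c
      (CuspForm.toModularFormₗ f : ModularForm (Gamma0 N) 2)
  change (qExpansion 1 ⇑(E - c • CuspForm.toModularFormₗ f : ModularForm (Gamma0 N) 2)).coeff k = _
  rw [ModularForm.coe_sub, h1, ModularForm.coe_smul, h2, map_sub, PowerSeries.coeff_smul,
    smul_eq_mul]
  rfl

/-- The arithmetic core of the bridge: the valuation estimate for the coefficients. -/
theorem padicValRat_coeff (p l a e : ℕ) [hl : Fact l.Prime] (hp2 : 2 ≤ p)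
    (he : (e : ℤ) ≤ (a : ℤ) + (padicValNat l 24 : ℤ) - (padicValNat l (p - 1) : ℤ))
    (x s : ℤ) (hdvd : ((l ^ a : ℕ) : ℤ) ∣ x - s) :
    (24 / ((p : ℚ) - 1) * ((s : ℚ) - (x : ℚ)) = 0) ∨
      (e : ℤ) ≤ padicValRat l (24 / ((p : ℚ) - 1) * ((s : ℚ) - (x : ℚ))) := by
  by_cases h0 : (24 / ((p : ℚ) - 1) * ((s : ℚ) - (x : ℚ)) = 0)
  · exact Or.inl h0
  refine Or.inr ?_
  obtain ⟨c, hc⟩ := hdvd
  have hp1 : ((p : ℚ) - 1) = ((p - 1 : ℕ) : ℚ) := by
    rw [Nat.cast_sub (by omega)]; simp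
  have hp1ne : ((p - 1 : ℕ) : ℚ) ≠ 0 := by
    have : p - 1 ≠ 0 := by omega
    exact_mod_cast this
  have hl0 : (l : ℚ) ≠ 0 := by exact_mod_cast hl.out.ne_zero
  have h24 : ((24 : ℕ) : ℚ) ≠ 0 := by norm_num
  have h24' : (24 : ℚ) = ((24 : ℕ) : ℚ) := by norm_num
  have hsx : (s : ℚ) - (x : ℚ) = (l : ℚ) ^ a * ((-c : ℤ) : ℚ) := by
    have : (x : ℚ) - (s : ℚ) = (l : ℚ) ^ a * (c : ℚ) := by
      have := congrArg (Int.cast : ℤ → ℚ) hc
      push_cast at this
      exact this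
    push_cast
    linarith
  have hc0 : ((-c : ℤ) : ℚ) ≠ 0 := by
    intro hc0
    apply h0
    rw [hsx, hc0]
    ring
  rw [hsx, hp1, h24', padicValRat.mul (div_ne_zero h24 hp1ne) (mul_ne_zero (pow_ne_zero _ hl0) hc0),
    padicValRat.div h24 hp1ne, padicValRat.mul (pow_ne_zero _ hl0) hc0, padicValRat.pow,
    padicValRat.self hl.out.one_lt, padicValRat.of_nat, padicValRat.of_nat, padicValRat.of_int]
  have hc' : (0 : ℤ) ≤ (padicValInt l (-c) : ℤ) := Int.natCast_nonneg _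
  rw [mul_one]
  linarith

/-- **BRIDGE.**  A congruence between a cusp form and the Eisenstein series modulo `l ^ a`
gives a modular form congruent to `1` modulo `l ^ e`, `e ≤ a + v_l(24) − v_l(p − 1)`. -/
theorem bridge (p : ℕ) [Fact p.Prime] (hp5 : 5 ≤ p) (l a e : ℕ) (hl : l.Prime) (ha : 1 ≤ a)
    (he : (e : ℤ) ≤ (a : ℤ) + (padicValNat l 24 : ℤ) - (padicValNat l (p - 1) : ℤ)) :
    CongCusp p (l ^ a) → UnitCong p l e := by
  rintro ⟨f, hf⟩
  haveI : Fact l.Prime := ⟨hl⟩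
  have hp2 : 2 ≤ p := by omega
  refine ⟨E2L.eisNorm p - (24 / ((p : ℂ) - 1)) • CuspForm.toModularFormₗ f, ?_, ?_⟩
  · rw [qCoeff_sub_smul, E2L.qCoeff_eisNorm p hp2, if_pos rfl]
    have : qCoeff f 0 = 0 :=
      CuspFormClass.qExpansion_coeff_zero f one_pos (E2L.one_mem_strictPeriods_Gamma0' p)
    rw [this]
    ring
  · intro k hk
    obtain ⟨x, hx, hdvd⟩ := hf k hk
    refine ⟨24 / ((p : ℚ) - 1) * (((sigmaStar p k : ℤ) : ℚ) - (x : ℚ)), ?_,
      padicValRat_coeff p l a e hp2 he x (sigmaStar p k : ℤ) hdvd⟩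
    rw [qCoeff_sub_smul, E2L.qCoeff_eisNorm p hp2, if_neg (by omega), hx]
    push_cast
    ring

end Fermat.Agent.Eis.BridgeForm
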