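/-
Program E (S16), numerical half of the BRIDGE (helper8): the `l`-adic bookkeeping turning
`¬ l ^ a ∣ eisensteinNumerator p` into the exponent `e(p,l)` of the congruence `u ≡ 1 mod l ^ e`
for `u = 1 + (24 / (p - 1)) (δ - f)`, `δ - f ∈ l ^ a ℤ[[q]]`.
Mathlib + the Prelude definition of `eisensteinNumerator` only.
-/
import Mathlib
import Fermat.Prelude.Def_ModularCurve_ModularUnit

set_option autoImplicit false

namespace Fermat.Agent.Eis.UpperArith

open ModularCurve

/-- the exponent `e(p,l)`: `3` resp. `2` for `l = 2` and `p ≡ 3` resp. `1 mod 4`; `2` resp. `1`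
for `l = 3` and `p ≡ 2` resp. `1 mod 3`; `1` for `l ≥ 5`. -/
def eExp (p l : ℕ) : ℕ :=
  if l = 2 then (if p % 4 = 1 then 2 else 3)
  else if l = 3 then (if p % 3 = 1 then 1 else 2) else 1

theorem eExp_two (p : ℕ) : eExp p 2 = if p % 4 = 1 then 2 else 3 := by simp [eExp]

theorem eExp_two_of_one_mod_four {p : ℕ} (hp : p % 4 = 1) : eExp p 2 = 2 := by simp [eExp, hp]

theorem eExp_two_of_three_mod_four {p : ℕ} (hp : p % 4 = 3) : eExp p 2 = 3 := by
  simp [eExp, hp]

theorem eExp_three (p : ℕ) : eExp p 3 = if p % 3 = 1 then 1 else 2 := by simp [eExp]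

theorem eExp_three_of_one_mod_three {p : ℕ} (hp : p % 3 = 1) : eExp p 3 = 1 := by
  simp [eExp, hp]

theorem eExp_three_of_two_mod_three {p : ℕ} (hp : p % 3 = 2) : eExp p 3 = 2 := by
  simp [eExp, hp]

theorem eExp_of_five_le {p l : ℕ} (hl : 5 ≤ l) : eExp p l = 1 := by
  have h2 : l ≠ 2 := by omega
  have h3 : l ≠ 3 := by omega
  simp [eExp, h2, h3]

theorem padicValNat_two_24 : padicValNat 2 24 = 3 := by
  have : (24 : ℕ) = 2 ^ 3 * 3 := by norm_num
  rw [this, padicValNat.mul (by norm_num) (by norm_num), padicValNat.prime_pow]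
  norm_num

theorem padicValNat_two_12 : padicValNat 2 12 = 2 := by
  have : (12 : ℕ) = 2 ^ 2 * 3 := by norm_num
  rw [this, padicValNat.mul (by norm_num) (by norm_num), padicValNat.prime_pow]
  norm_num

theorem padicValNat_three_24 : padicValNat 3 24 = 1 := by
  have : (24 : ℕ) = 3 ^ 1 * 8 := by norm_num
  rw [this, padicValNat.mul (by norm_num) (by norm_num), padicValNat.prime_pow]
  norm_num

theorem padicValNat_three_12 : padicValNat 3 12 = 1 := by
  have : (12 : ℕ) = 3 ^ 1 * 4 := by norm_num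
  rw [this, padicValNat.mul (by norm_num) (by norm_num), padicValNat.prime_pow]
  norm_num

theorem not_dvd_24_of_five_le {l : ℕ} (hl : l.Prime) (h5 : 5 ≤ l) : ¬ l ∣ 24 := by
  intro h
  have h24 : (24 : ℕ) = 2 ^ 3 * 3 := by norm_num
  rw [h24] at h
  rcases (Nat.Prime.dvd_mul hl).mp h with h | h
  · have := (Nat.prime_dvd_prime_iff_eq hl Nat.prime_two).mp (hl.dvd_of_dvd_pow h)
    omega
  · have := (Nat.prime_dvd_prime_iff_eq hl Nat.prime_three).mp h
    omega

theorem not_dvd_12_of_five_le {l : ℕ} (hl : l.Prime) (h5 : 5 ≤ l) : ¬ l ∣ 12 :=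
  fun h => not_dvd_24_of_five_le hl h5 (h.trans ⟨2, by norm_num⟩)

theorem eisensteinNumerator_ne_zero {p : ℕ} (hp : 2 ≤ p) : eisensteinNumerator p ≠ 0 := by
  unfold eisensteinNumerator
  have hpos : 0 < p - 1 := by omega
  have hg : Nat.gcd (p - 1) 12 ∣ p - 1 := Nat.gcd_dvd_left _ _
  have hgpos : 0 < Nat.gcd (p - 1) 12 := Nat.gcd_pos_of_pos_left _ hpos
  exact (Nat.div_pos (Nat.le_of_dvd hpos hg) hgpos).ne'

/-- `v_l(n) = v_l(p-1) - min(v_l(p-1), v_l(12))`. -/
theorem padicValNat_eisensteinNumerator (p l : ℕ) [hl : Fact l.Prime] (hp : 2 ≤ p) :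
    padicValNat l (eisensteinNumerator p) =
      padicValNat l (p - 1) - min (padicValNat l (p - 1)) (padicValNat l 12) := by
  unfold eisensteinNumerator
  have hpos : p - 1 ≠ 0 := by omega
  rw [padicValNat.div_of_dvd (Nat.gcd_dvd_left _ _)]
  congr 1
  have h := Nat.factorization_gcd hpos (by norm_num : (12 : ℕ) ≠ 0)
  have h' := congrArg (fun f => f l) h
  simp only [Finsupp.inf_apply] at h'
  rw [Nat.factorization_def _ hl.out, Nat.factorization_def _ hl.out,
    Nat.factorization_def _ hl.out] at h'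
  exact h'

/-- **The numerical bridge**: if `l ^ a ∤ n = (p-1)/gcd(p-1,12)` then
`e(p,l) + v_l(p-1) ≤ a + v_l(24)`. -/
theorem eExp_add_le (p l a : ℕ) [hpp : Fact p.Prime] [hl : Fact l.Prime] (hp : 5 ≤ p)
    (h : ¬ l ^ a ∣ eisensteinNumerator p) :
    eExp p l + padicValNat l (p - 1) ≤ a + padicValNat l 24 := by
  have hn0 := eisensteinNumerator_ne_zero (p := p) (by omega)
  have hlt : padicValNat l (eisensteinNumerator p) < a := by
    by_contra hcon
    exact h ((padicValNat_dvd_iff_le hn0).mpr (not_lt.mp hcon))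
  rw [padicValNat_eisensteinNumerator p l (by omega)] at hlt
  by_cases h2 : l = 2
  · subst h2
    rw [padicValNat_two_12] at hlt
    rw [padicValNat_two_24]
    have hodd : p % 2 = 1 := by
      rcases hpp.out.eq_two_or_odd with h | h
      · omega
      · exact h
    by_cases hp4 : p % 4 = 1
    · rw [eExp_two_of_one_mod_four hp4]; omega
    · have hp4' : p % 4 = 3 := by omega
      rw [eExp_two_of_three_mod_four hp4']
      have hv : padicValNat 2 (p - 1) = 1 := by
        obtain ⟨m, hm⟩ : ∃ m, p - 1 = 2 ^ 1 * m ∧ ¬ 2 ∣ m := ⟨(p - 1) / 2, by omega, by omega⟩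
        rw [hm.1, padicValNat.mul (by norm_num) (by rintro rfl; omega), padicValNat.prime_pow,
          padicValNat.eq_zero_of_not_dvd hm.2]
      rw [hv] at hlt ⊢
      omega
  · by_cases h3 : l = 3
    · subst h3
      rw [padicValNat_three_12] at hlt
      rw [padicValNat_three_24]
      by_cases hp3 : p % 3 = 1
      · rw [eExp_three_of_one_mod_three hp3]; omega
      · have hp3' : p % 3 = 2 := by
          have : p % 3 ≠ 0 := by
            intro h0
            have := (Nat.prime_dvd_prime_iff_eq Nat.prime_three hpp.out).mp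
              (Nat.dvd_of_mod_eq_zero h0)
            omega
          omega
        rw [eExp_three_of_two_mod_three hp3']
        have hv : padicValNat 3 (p - 1) = 0 :=
          padicValNat.eq_zero_of_not_dvd (by omega)
        rw [hv] at hlt ⊢
        omega
    · have h5 : 5 ≤ l := by
        have := hl.out.two_le
        have h4 : l ≠ 4 := by
          rintro rfl
          exact absurd hl.out (by norm_num)
        omega
      rw [eExp_of_five_le h5]
      rw [padicValNat.eq_zero_of_not_dvd (not_dvd_12_of_five_le hl.out h5)] at hlt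
      rw [padicValNat.eq_zero_of_not_dvd (not_dvd_24_of_five_le hl.out h5)]
      omega

/-- the rational form: `e(p,l) ≤ v_l(24 l^a c / (p-1))` for every nonzero integer `c`. -/
theorem eExp_le_padicValRat (p l a : ℕ) [hpp : Fact p.Prime] [hl : Fact l.Prime] (hp : 5 ≤ p)
    (h : ¬ l ^ a ∣ eisensteinNumerator p) (c : ℤ) (hc : c ≠ 0) :
    (eExp p l : ℤ) ≤ padicValRat l ((24 : ℚ) * (l : ℚ) ^ a * (c : ℚ) / ((p : ℚ) - 1)) := by
  have hmain := eExp_add_le p l a hp h
  have hp1 : ((p : ℚ) - 1) = ((p - 1 : ℕ) : ℚ) := by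
    rw [Nat.cast_sub (by omega)]; simp
  have hp1ne : ((p - 1 : ℕ) : ℚ) ≠ 0 := by
    have : p - 1 ≠ 0 := by omega
    exact_mod_cast this
  have hl0 : (l : ℚ) ≠ 0 := by exact_mod_cast hl.out.ne_zero
  have hc0 : (c : ℚ) ≠ 0 := by exact_mod_cast hc
  have h24 : ((24 : ℕ) : ℚ) ≠ 0 := by norm_num
  have hnum : ((24 : ℕ) : ℚ) * (l : ℚ) ^ a * (c : ℚ) ≠ 0 :=
    mul_ne_zero (mul_ne_zero h24 (pow_ne_zero _ hl0)) hc0
  have h24' : (24 : ℚ) = ((24 : ℕ) : ℚ) := by norm_num
  rw [hp1, h24', padicValRat.div hnum hp1ne, padicValRat.mul (mul_ne_zero h24 (pow_ne_zero _ hl0)) hc0,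
    padicValRat.mul h24 (pow_ne_zero _ hl0), padicValRat.pow, padicValRat.self hl.out.one_lt,
    padicValRat.of_nat, padicValRat.of_nat, padicValRat.of_int]
  have hc' : (0 : ℤ) ≤ (padicValInt l c : ℤ) := Int.natCast_nonneg _
  have hmain' : (eExp p l : ℤ) + (padicValNat l (p - 1) : ℤ) ≤ (a : ℤ) + (padicValNat l 24 : ℤ) := by
    exact_mod_cast hmain
  rw [mul_one]
  linarith

end Fermat.Agent.Eis.UpperArith
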