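/-
Program E (S16), BRIDGE (helper6): a cusp form congruent to the Eisenstein series `∑ σ*(k) q^k`
modulo a prime power `l ^ k` not dividing the Eisenstein numerator yields a weight two form
on `Γ₀(p)` congruent to `1` modulo `l ^ eExp p l`:  `u := E - (24/(p-1)) f`, where
`E = 1 + (24/(p-1)) ∑ σ*(k) q^k` is the normalised Eisenstein series.
-/
import Fermat.Agent.Eis.Defs
import Fermat.Agent.Eis.E2LevelInt
import Fermat.Agent.Eis.UpperArith

set_option autoImplicit false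

open CongruenceSubgroup ModularFormClass UpperHalfPlane ModularCurve CuspForm
open scoped MatrixGroups

namespace Fermat.Agent.Eis.Bridge

open Fermat.Agent.Eis Fermat.Agent.Eis.E2L Fermat.Agent.Eis.UpperArith

noncomputable section

theorem congCusp_mono {p M M' : ℕ} (h : M' ∣ M) (hc : CongCusp p M) : CongCusp p M' := by
  obtain ⟨f, hf⟩ := hc
  refine ⟨f, fun k hk => ?_⟩
  obtain ⟨a, ha, hd⟩ := hf k hk
  exact ⟨a, ha, dvd_trans (Int.natCast_dvd_natCast.mpr h) hd⟩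

variable (p : ℕ) [NeZero p]

/-- The form `E - (24/(p-1)) f`. -/
def bridgeForm (f : CuspForm (Gamma0 p) 2) : ModularForm (Gamma0 p) 2 :=
  eisNorm p - (24 / ((p : ℂ) - 1)) • CuspForm.toModularFormₗ f

theorem qCoeff_bridgeForm (f : CuspForm (Gamma0 p) 2) (m : ℕ) :
    qCoeff (bridgeForm p f) m =
      qCoeff (eisNorm p) m - (24 / ((p : ℂ) - 1)) * qCoeff f m := by
  have hΓ := one_mem_strictPeriods_Gamma0' p
  have h1 : (⇑(bridgeForm p f) : ℍ → ℂ) =
      ⇑(eisNorm p) - ⇑((24 / ((p : ℂ) - 1)) • CuspForm.toModularFormₗ f) := rfl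
  have h2 : (⇑((24 / ((p : ℂ) - 1)) • CuspForm.toModularFormₗ f) : ℍ → ℂ) =
      (24 / ((p : ℂ) - 1)) • ⇑(CuspForm.toModularFormₗ f) := rfl
  have h3 : (⇑(CuspForm.toModularFormₗ f) : ℍ → ℂ) = ⇑f := rfl
  unfold qCoeff
  rw [h1, ModularForm.qExpansion_sub one_pos hΓ, h2,
    ModularForm.qExpansion_smul one_pos hΓ, h3, map_sub, PowerSeries.coeff_smul, smul_eq_mul]

omit [NeZero p] in
/-- Valuation bookkeeping: `r = -(24/(p-1)) d` with `l ^ k ∣ d`. -/
theorem padicValRat_bridge_coeff (l k e : ℕ) [hl : Fact l.Prime] (hp2 : 2 ≤ p)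
    (he : e + padicValNat l (p - 1) ≤ k + padicValNat l 24) (d : ℤ)
    (hd : ((l ^ k : ℕ) : ℤ) ∣ d) :
    (-(24 : ℚ) / ((p : ℚ) - 1) * (d : ℚ) = 0) ∨
      (e : ℤ) ≤ padicValRat l (-(24 : ℚ) / ((p : ℚ) - 1) * (d : ℚ)) := by
  by_cases hd0 : d = 0
  · left
    rw [hd0]
    simp
  · right
    have hp1 : ((p : ℚ) - 1) = ((p - 1 : ℕ) : ℚ) := by
      rw [Nat.cast_sub (by omega)]
      simp
    have hp1ne : ((p - 1 : ℕ) : ℚ) ≠ 0 := by
      have : p - 1 ≠ 0 := by omega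
      exact_mod_cast this
    have h24 : (-(24 : ℚ)) ≠ 0 := by norm_num
    have hdq : (d : ℚ) ≠ 0 := by exact_mod_cast hd0
    rw [hp1, padicValRat.mul (div_ne_zero h24 hp1ne) hdq, padicValRat.div h24 hp1ne,
      padicValRat.neg, show (24 : ℚ) = ((24 : ℕ) : ℚ) by norm_num, padicValRat.of_nat,
      padicValRat.of_nat, padicValRat.of_int]
    have hdv : (k : ℤ) ≤ padicValInt l d := by
      have h1 : ((l : ℤ)) ^ k ∣ d := by
        have : ((l ^ k : ℕ) : ℤ) = (l : ℤ) ^ k := by push_cast; rfl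
        rwa [this] at hd
      rcases (padicValInt_dvd_iff k d).mp h1 with h | h
      · exact absurd h hd0
      · exact_mod_cast h
    have he' : (e : ℤ) + (padicValNat l (p - 1) : ℤ) ≤ (k : ℤ) + (padicValNat l 24 : ℤ) := by
      exact_mod_cast he
    linarith

/-- **BRIDGE.** For a prime `p ≥ 5`, a prime `l` and a power `l ^ k` not dividing the Eisenstein
numerator `n = (p-1)/gcd(p-1,12)`: a cusp form congruent to `∑ σ*(m) q^m` modulo `l ^ k` gives a
weight two form congruent to `1` modulo `l ^ eExp p l`. -/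
theorem unitCong_of_congCusp (p : ℕ) [hp : Fact p.Prime] (hp5 : 5 ≤ p) (l : ℕ)
    [hl : Fact l.Prime] (k : ℕ) (hk : ¬ l ^ k ∣ eisensteinNumerator p)
    (h : CongCusp p (l ^ k)) : UnitCong p l (eExp p l) := by
  have : NeZero p := ⟨hp.out.ne_zero⟩
  have hp2 : 2 ≤ p := by omega
  obtain ⟨f, hf⟩ := h
  have hΓ := one_mem_strictPeriods_Gamma0' p
  have hf0 : qCoeff f 0 = 0 := CuspFormClass.qExpansion_coeff_zero f one_pos hΓ
  refine ⟨bridgeForm p f, ?_, fun m hm => ?_⟩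
  · rw [qCoeff_bridgeForm, qCoeff_eisNorm p hp2, if_pos rfl, hf0, mul_zero, sub_zero]
  · obtain ⟨a, ha, hd⟩ := hf m hm
    have hm0 : m ≠ 0 := by omega
    refine ⟨-(24 : ℚ) / ((p : ℚ) - 1) * ((a - (sigmaStar p m : ℤ) : ℤ) : ℚ), ?_, ?_⟩
    · rw [qCoeff_bridgeForm, qCoeff_eisNorm p hp2, if_neg hm0, ha]
      push_cast
      ring
    · exact padicValRat_bridge_coeff p l k (eExp p l) hp2 (eExp_add_le p l k hp5 hk) _ hd

end

end Fermat.Agent.Eis.Bridge
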