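/-
Program E (S16), BRIDGE in the general-exponent shape (helper6): for any `e` with
`e ≤ a + v_l(24) - v_l(p-1)`, a cusp form congruent to the Eisenstein series modulo `l ^ a`
gives a weight two form on `Γ₀(p)` congruent to `1` modulo `l ^ e`.
(`Bridge.unitCong_of_congCusp` of `Eis/BridgeUnit.lean` is the special case `e = eExp p l`.)
-/
import Fermat.Agent.Eis.BridgeUnit

set_option autoImplicit false

open CongruenceSubgroup ModularFormClass UpperHalfPlane ModularCurve CuspForm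
open scoped MatrixGroups

namespace Fermat.Agent.Eis.Bridge

open Fermat.Agent.Eis Fermat.Agent.Eis.E2L

/-- **BRIDGE, general exponent.** -/
theorem bridge (p : ℕ) [hp : Fact p.Prime] (hp5 : 5 ≤ p) (l a e : ℕ) (hl : l.Prime)
    (_ha : 1 ≤ a)
    (he : (e : ℤ) ≤ a + padicValNat l 24 - padicValNat l (p - 1)) :
    CongCusp p (l ^ a) → UnitCong p l e := by
  intro h
  have : NeZero p := ⟨hp.out.ne_zero⟩
  have : Fact l.Prime := ⟨hl⟩
  have hp2 : 2 ≤ p := by omega
  have he' : e + padicValNat l (p - 1) ≤ a + padicValNat l 24 := by omega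
  obtain ⟨f, hf⟩ := h
  have hΓ := one_mem_strictPeriods_Gamma0' p
  have hf0 : qCoeff f 0 = 0 := CuspFormClass.qExpansion_coeff_zero f one_pos hΓ
  refine ⟨bridgeForm p f, ?_, fun m hm => ?_⟩
  · rw [qCoeff_bridgeForm, qCoeff_eisNorm p hp2, if_pos rfl, hf0, mul_zero, sub_zero]
  · obtain ⟨c, hc, hd⟩ := hf m hm
    have hm0 : m ≠ 0 := by omega
    refine ⟨-(24 : ℚ) / ((p : ℚ) - 1) * ((c - (sigmaStar p m : ℤ) : ℤ) : ℚ), ?_, ?_⟩
    · rw [qCoeff_bridgeForm, qCoeff_eisNorm p hp2, if_neg hm0, hc]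
      push_cast
      ring
    · exact padicValRat_bridge_coeff p l a e hp2 he' _ hd

end Fermat.Agent.Eis.Bridge
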