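import Mathlib

/-!
# Program E, node N7-alg (A1): `PSL₂(ℤ) = C₂ * C₃` in the form of a universal property

By the ping-pong lemma (`Monoid.CoprodI.lift_injective_of_ping_pong`) applied to the Möbius
action of `SL(2,ℤ)` on `ℝ ∪ {∞}` (ping-pong sets: positive / negative irrationals), the subgroup
of `Perm (OnePoint ℝ)` generated by the images of `S` and `U = S * T` is the free product
`C₂ * C₃`.  Consequence (the only statement used downstream):

* `exists_hom_SL2Z` : for every group `K` and `s u : K` with `s ^ 2 = 1`, `u ^ 3 = 1` there is a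
  homomorphism `φ : SL(2,ℤ) →* K` with `φ S = s` and `φ (S * T) = u`.
-/

set_option autoImplicit false

namespace Fermat.Agent.Eis.PSL2Free

open Matrix Matrix.SpecialLinearGroup ModularGroup OnePoint
open scoped MatrixGroups Pointwise

/-- The homomorphism `Multiplicative (ZMod n) →* G` attached to `g : G` with `g ^ n = 1`. -/
noncomputable def cyc {G : Type*} [Group G] (n : ℕ) (g : G) (hg : g ^ n = 1) :
    Multiplicative (ZMod n) →* G :=
  AddMonoidHom.toMultiplicativeLeft
    (ZMod.lift n ⟨zmultiplesHom (Additive G) (Additive.ofMul g), by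
      show (n : ℤ) • Additive.ofMul g = 0
      rw [natCast_zsmul, ← ofMul_pow, hg, ofMul_one]⟩)

theorem cyc_ofAdd_intCast {G : Type*} [Group G] (n : ℕ) (g : G) (hg : g ^ n = 1) (k : ℤ) :
    cyc n g hg (Multiplicative.ofAdd (k : ZMod n)) = g ^ k := by
  show Additive.toMul (ZMod.lift n _ (k : ZMod n)) = g ^ k
  rw [ZMod.lift_coe]
  show Additive.toMul (k • Additive.ofMul g) = g ^ k
  rw [← ofMul_zpow, toMul_ofMul]

theorem cyc_ofAdd_one {G : Type*} [Group G] (n : ℕ) (g : G) (hg : g ^ n = 1) :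
    cyc n g hg (Multiplicative.ofAdd (1 : ZMod n)) = g := by
  have := cyc_ofAdd_intCast n g hg 1
  simpa using this

theorem cyc_ofAdd_two {G : Type*} [Group G] (n : ℕ) (g : G) (hg : g ^ n = 1) :
    cyc n g hg (Multiplicative.ofAdd (2 : ZMod n)) = g ^ 2 := by
  have := cyc_ofAdd_intCast n g hg 2
  simpa using this

/-- Möbius action of `SL(2,ℤ)` on `ℝ ∪ {∞}`, as a homomorphism to permutations. -/
noncomputable def act : SL(2, ℤ) →* Equiv.Perm (OnePoint ℝ) :=
  (MulAction.toPermHom (GL (Fin 2) ℝ) (OnePoint ℝ)).comp (mapGL ℝ)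

theorem act_apply (g : SL(2, ℤ)) (x : OnePoint ℝ) : act g x = (mapGL ℝ g) • x := rfl

theorem mapGL_apply (g : SL(2, ℤ)) (i j : Fin 2) :
    ((mapGL ℝ g : GL (Fin 2) ℝ) : Matrix (Fin 2) (Fin 2) ℝ) i j = ((g i j : ℤ) : ℝ) := by
  simp [mapGL, Matrix.SpecialLinearGroup.map_apply_coe]

/-- the denominator of the Möbius transformation does not vanish at an irrational point -/
theorem denom_ne_zero (g : SL(2, ℤ)) {x : ℝ} (hx : Irrational x) :
    ((g 1 0 : ℤ) : ℝ) * x + ((g 1 1 : ℤ) : ℝ) ≠ 0 := by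
  intro h
  by_cases hc : g 1 0 = 0
  · have hdet := g.det_coe
    rw [Matrix.det_fin_two, hc, mul_zero, sub_zero] at hdet
    have hd : g 1 1 ≠ 0 := by
      intro hd
      rw [hd, mul_zero] at hdet
      exact zero_ne_one hdet
    rw [hc] at h
    simp only [Int.cast_zero, zero_mul, zero_add, Int.cast_eq_zero] at h
    exact hd h
  · have hc' : ((g 1 0 : ℤ) : ℝ) ≠ 0 := by exact_mod_cast hc
    have hx' : x = -((g 1 1 : ℤ) : ℝ) / ((g 1 0 : ℤ) : ℝ) := by
      field_simp
      linarith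
    apply hx
    rw [hx']
    exact ⟨-((g 1 1 : ℤ) : ℚ) / ((g 1 0 : ℤ) : ℚ), by push_cast; rfl⟩

theorem act_coe (g : SL(2, ℤ)) {x : ℝ} (hx : Irrational x) :
    act g (x : OnePoint ℝ) =
      (((((g 0 0 : ℤ) : ℝ) * x + ((g 0 1 : ℤ) : ℝ)) /
        (((g 1 0 : ℤ) : ℝ) * x + ((g 1 1 : ℤ) : ℝ)) : ℝ) : OnePoint ℝ) := by
  rw [act_apply, OnePoint.smul_some_eq_ite]
  simp only [mapGL_apply]
  rw [if_neg (denom_ne_zero g hx)]

theorem act_neg_one : act (-1) = 1 := by
  ext x
  induction x using OnePoint.rec with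
  | infty =>
    rw [act_apply, OnePoint.smul_infty_eq_ite]
    simp [mapGL_apply]
  | coe x =>
    rw [act_apply, OnePoint.smul_some_eq_ite]
    simp [mapGL_apply]

/-- `U = S * T`, of order `3` in `PSL₂(ℤ)`. -/
def U : SL(2, ℤ) := S * T

theorem S_sq : (S : SL(2, ℤ)) ^ 2 = -1 := by decide

theorem U_cube : U ^ 3 = -1 := by decide

theorem act_S_sq : act S ^ 2 = 1 := by
  rw [← map_pow, S_sq, act_neg_one]

theorem act_U_cube : act U ^ 3 = 1 := by
  rw [← map_pow, U_cube, act_neg_one]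

/-! ## The ping-pong sets -/

/-- positive irrationals -/
def Xpos : Set (OnePoint ℝ) := {y | ∃ x : ℝ, Irrational x ∧ 0 < x ∧ y = (x : OnePoint ℝ)}

/-- negative irrationals -/
def Xneg : Set (OnePoint ℝ) := {y | ∃ x : ℝ, Irrational x ∧ x < 0 ∧ y = (x : OnePoint ℝ)}

theorem Xpos_nonempty : Xpos.Nonempty :=
  ⟨((Real.sqrt 2 : ℝ) : OnePoint ℝ), Real.sqrt 2, irrational_sqrt_two, by positivity, rfl⟩

theorem Xneg_nonempty : Xneg.Nonempty :=
  ⟨((-Real.sqrt 2 : ℝ) : OnePoint ℝ), -Real.sqrt 2, irrational_sqrt_two.neg,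
    by simp, rfl⟩

theorem disjoint_Xpos_Xneg : Disjoint Xpos Xneg := by
  rw [Set.disjoint_left]
  rintro y ⟨x, -, hx, rfl⟩ ⟨x', -, hx', h⟩
  rw [OnePoint.coe_eq_coe] at h
  subst h
  exact lt_asymm hx hx'

theorem S_entries : (S : SL(2, ℤ)) 0 0 = 0 ∧ (S : SL(2, ℤ)) 0 1 = -1 ∧ (S : SL(2, ℤ)) 1 0 = 1 ∧
    (S : SL(2, ℤ)) 1 1 = 0 := by decide

theorem U_entries : U 0 0 = 0 ∧ U 0 1 = -1 ∧ U 1 0 = 1 ∧ U 1 1 = 1 := by decide

theorem U_sq_entries : (U ^ 2) 0 0 = -1 ∧ (U ^ 2) 0 1 = -1 ∧ (U ^ 2) 1 0 = 1 ∧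
    (U ^ 2) 1 1 = 0 := by decide

theorem act_S_mem {y : OnePoint ℝ} (hy : y ∈ Xneg) : act S y ∈ Xpos := by
  obtain ⟨x, hx, hneg, rfl⟩ := hy
  refine ⟨-x⁻¹, hx.inv.neg, ?_, ?_⟩
  · have : x⁻¹ < 0 := inv_lt_zero.mpr hneg
    linarith
  · rw [act_coe S hx]
    obtain ⟨h00, h01, h10, h11⟩ := S_entries
    rw [h00, h01, h10, h11]
    congr 1
    push_cast
    rw [zero_mul, zero_add, one_mul, add_zero, neg_div, one_div]

theorem act_U_mem {y : OnePoint ℝ} (hy : y ∈ Xpos) : act U y ∈ Xneg := by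
  obtain ⟨x, hx, hpos, rfl⟩ := hy
  have hx1 : Irrational (x + 1) := by
    have := hx.add_intCast 1
    simpa using this
  refine ⟨-(x + 1)⁻¹, hx1.inv.neg, ?_, ?_⟩
  · have : 0 < (x + 1)⁻¹ := inv_pos.mpr (by linarith)
    linarith
  · rw [act_coe U hx]
    obtain ⟨h00, h01, h10, h11⟩ := U_entries
    rw [h00, h01, h10, h11]
    congr 1
    push_cast
    rw [zero_mul, zero_add, one_mul, neg_div, one_div]

theorem act_U_sq_mem {y : OnePoint ℝ} (hy : y ∈ Xpos) : (act U ^ 2) y ∈ Xneg := by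
  obtain ⟨x, hx, hpos, rfl⟩ := hy
  have hx1 : Irrational (-x⁻¹ - 1) := by
    have := hx.inv.neg.sub_intCast 1
    simpa using this
  refine ⟨-x⁻¹ - 1, hx1, ?_, ?_⟩
  · have : 0 < x⁻¹ := inv_pos.mpr hpos
    linarith
  · rw [← map_pow, act_coe (U ^ 2) hx]
    obtain ⟨h00, h01, h10, h11⟩ := U_sq_entries
    rw [h00, h01, h10, h11]
    congr 1
    have hx0 : x ≠ 0 := hx.ne_zero
    push_cast
    rw [one_mul, add_zero]
    field_simp
    ring

/-! ## The free product `C₂ * C₃` and the ping-pong lemma -/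

/-- orders of the two cyclic factors -/
def ord (b : Bool) : ℕ := bif b then 2 else 3

/-- the two cyclic factors `C₂`, `C₃` -/
abbrev Cyc (b : Bool) : Type := Multiplicative (ZMod (ord b))

/-- the generators `act S`, `act U` -/
noncomputable def gen (b : Bool) : Equiv.Perm (OnePoint ℝ) := bif b then act S else act U

theorem gen_pow (b : Bool) : gen b ^ ord b = 1 := by
  cases b
  · exact act_U_cube
  · exact act_S_sq

/-- the maps of the two factors to permutations of `ℝ ∪ {∞}` -/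
noncomputable def fac (b : Bool) : Cyc b →* Equiv.Perm (OnePoint ℝ) :=
  cyc (ord b) (gen b) (gen_pow b)

/-- the ping-pong sets -/
def pp (b : Bool) : Set (OnePoint ℝ) := bif b then Xpos else Xneg

theorem cyc_two_cases (h : Multiplicative (ZMod 2)) :
    h = 1 ∨ h = Multiplicative.ofAdd (1 : ZMod 2) := by
  revert h
  decide

theorem cyc_three_cases (h : Multiplicative (ZMod 3)) :
    h = 1 ∨ h = Multiplicative.ofAdd (1 : ZMod 3) ∨ h = Multiplicative.ofAdd (2 : ZMod 3) := by
  revert h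
  decide

theorem fac_false_one : fac false (Multiplicative.ofAdd (1 : ZMod 3)) = act U :=
  cyc_ofAdd_one (ord false) (gen false) (gen_pow false)

theorem fac_false_two : fac false (Multiplicative.ofAdd (2 : ZMod 3)) = act U ^ 2 :=
  cyc_ofAdd_two (ord false) (gen false) (gen_pow false)

theorem fac_true_one : fac true (Multiplicative.ofAdd (1 : ZMod 2)) = act S :=
  cyc_ofAdd_one (ord true) (gen true) (gen_pow true)

theorem pingpong : Pairwise fun i j : Bool => ∀ h : Cyc i, h ≠ 1 → fac i h • pp j ⊆ pp i := by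
  intro i j hij h hh
  cases i <;> cases j
  · exact absurd rfl hij
  · -- `i = false` (`C₃`), `j = true`
    rcases cyc_three_cases h with rfl | rfl | rfl
    · exact absurd rfl hh
    · rintro y ⟨x, hx, rfl⟩
      exact (congrArg (fun σ : Equiv.Perm (OnePoint ℝ) => σ x ∈ Xneg) fac_false_one).mpr
        (act_U_mem hx)
    · rintro y ⟨x, hx, rfl⟩
      exact (congrArg (fun σ : Equiv.Perm (OnePoint ℝ) => σ x ∈ Xneg) fac_false_two).mpr
        (act_U_sq_mem hx)
  · -- `i = true` (`C₂`), `j = false`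
    rcases cyc_two_cases h with rfl | rfl
    · exact absurd rfl hh
    · rintro y ⟨x, hx, rfl⟩
      exact (congrArg (fun σ : Equiv.Perm (OnePoint ℝ) => σ x ∈ Xpos) fac_true_one).mpr
        (act_S_mem hx)
  · exact absurd rfl hij

theorem lift_fac_injective : Function.Injective (Monoid.CoprodI.lift fac) := by
  refine Monoid.CoprodI.lift_injective_of_ping_pong fac (Or.inr ⟨false, ?_⟩) pp ?_ ?_ pingpong
  · show (3 : Cardinal) ≤ Cardinal.mk (Multiplicative (ZMod 3))
    rw [Cardinal.mk_fintype]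
    simp [ZMod.card]
  · intro i
    cases i
    · exact Xneg_nonempty
    · exact Xpos_nonempty
  · intro i j hij
    cases i <;> cases j
    · exact absurd rfl hij
    · exact disjoint_Xpos_Xneg.symm
    · exact disjoint_Xpos_Xneg
    · exact absurd rfl hij

/-! ## The universal property -/

/-- `C₂ * C₃` -/
abbrev FreeProd : Type := Monoid.CoprodI Cyc

/-- the generator of the cyclic factor -/
def genC (b : Bool) : Cyc b := Multiplicative.ofAdd (1 : ZMod (ord b))

theorem fac_genC (b : Bool) : fac b (genC b) = gen b :=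
  cyc_ofAdd_one (ord b) (gen b) (gen_pow b)

/-- the embedding `C₂ * C₃ → Perm (ℝ ∪ {∞})` -/
noncomputable abbrev emb : FreeProd →* Equiv.Perm (OnePoint ℝ) := Monoid.CoprodI.lift fac

theorem emb_injective : Function.Injective emb := lift_fac_injective

theorem emb_of_genC (b : Bool) : emb (Monoid.CoprodI.of (genC b)) = gen b := by
  rw [Monoid.CoprodI.lift_of]
  exact fac_genC b

theorem T_eq : (T : SL(2, ℤ)) = S⁻¹ * U := by
  rw [U, inv_mul_cancel_left]

theorem act_mem_range (g : SL(2, ℤ)) : act g ∈ emb.range := by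
  have hS : act S ∈ emb.range := ⟨_, emb_of_genC true⟩
  have hU : act U ∈ emb.range := ⟨_, emb_of_genC false⟩
  have hT : act T ∈ emb.range := by
    rw [T_eq, map_mul, map_inv]
    exact emb.range.mul_mem (emb.range.inv_mem hS) hU
  have hle : Subgroup.closure ({S, T} : Set SL(2, ℤ)) ≤ emb.range.comap act := by
    rw [Subgroup.closure_le]
    rintro x (rfl | rfl)
    · exact hS
    · exact hT
  rw [SpecialLinearGroup.SL2Z_generators] at hle
  exact hle (Subgroup.mem_top g)

/-- `SL(2,ℤ) → C₂ * C₃` (the quotient map to `PSL₂(ℤ) = C₂ * C₃`) -/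
noncomputable def toFreeProd : SL(2, ℤ) →* FreeProd :=
  (MonoidHom.ofInjective emb_injective).symm.toMonoidHom.comp
    (act.codRestrict emb.range act_mem_range)

theorem toFreeProd_eq {g : SL(2, ℤ)} {w : FreeProd} (h : emb w = act g) : toFreeProd g = w := by
  show (MonoidHom.ofInjective emb_injective).symm (act.codRestrict emb.range act_mem_range g) = w
  rw [MulEquiv.symm_apply_eq]
  apply Subtype.ext
  rw [MonoidHom.ofInjective_apply]
  exact h.symm

theorem toFreeProd_S : toFreeProd S = Monoid.CoprodI.of (genC true) :=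
  toFreeProd_eq (emb_of_genC true)

theorem toFreeProd_U : toFreeProd U = Monoid.CoprodI.of (genC false) :=
  toFreeProd_eq (emb_of_genC false)

/-- **Universal property of `PSL₂(ℤ) = C₂ * C₃`**: for `s u : K` with `s ^ 2 = 1` and `u ^ 3 = 1`
there is a homomorphism `SL(2,ℤ) →* K` with `S ↦ s` and `S * T ↦ u`. -/
theorem exists_hom_SL2Z {K : Type*} [Group K] (s u : K) (hs : s ^ 2 = 1) (hu : u ^ 3 = 1) :
    ∃ φ : SL(2, ℤ) →* K, φ S = s ∧ φ (S * T) = u := by
  have hk : ∀ b : Bool, (bif b then s else u) ^ ord b = 1 := by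
    intro b
    cases b
    · exact hu
    · exact hs
  let k : ∀ b : Bool, Cyc b →* K := fun b => cyc (ord b) (bif b then s else u) (hk b)
  have hkg : ∀ b : Bool, k b (genC b) = bif b then s else u := fun b =>
    cyc_ofAdd_one (ord b) _ (hk b)
  refine ⟨(Monoid.CoprodI.lift k).comp toFreeProd, ?_, ?_⟩
  · rw [MonoidHom.comp_apply, toFreeProd_S, Monoid.CoprodI.lift_of]
    exact hkg true
  · rw [MonoidHom.comp_apply]
    show Monoid.CoprodI.lift k (toFreeProd U) = u
    rw [toFreeProd_U, Monoid.CoprodI.lift_of]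
    exact hkg false

end Fermat.Agent.Eis.PSL2Free
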