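import Mathlib

/-!
# Program E (S16), node N7-A3: the Shapiro dictionary

`G` a group, `Γ ≤ G`, `X := G ⧸ Γ` (left cosets, `G` acts by left multiplication), `A` an additive
commutative group.  The `G`-module `Map(X, A)` carries the action `(g • f) x = f (g⁻¹ • x)`; a
1-cocycle is a map `c : G → X → A` with `c (g * h) x = c g x + c h (g⁻¹ • x)` (`IsCocycle`).

* `sec Γ : G ⧸ Γ → G` : a section with `sec Γ ↑1 = 1`;
* `gam Γ g x : Γ` : the element `(sec x)⁻¹ * g * sec (g⁻¹ • x)`;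
* `ind Γ ψ : G → G ⧸ Γ → A` : the cocycle induced by a homomorphism `ψ : Additive Γ →+ A`
  (`isCocycle_ind`), with `ind Γ ψ γ ↑1 = ψ γ` for `γ ∈ Γ` (`ind_apply_coe_one`) and the value at
  fixed points `ind_apply_of_smul_eq`;
* `res Γ c hc : Additive Γ →+ A` : the homomorphism `γ ↦ c γ ↑1` of a cocycle `c`;
* `res_ind`, functoriality in `A` (`IsCocycle.comp`, `res_comp`, `ind_comp`), additivity
  (`IsCocycle.add`, `IsCocycle.neg`, `IsCocycle.sub`, `IsCocycle.zero`, `res_add`, ...);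
* cocycle calculus: `IsCocycle.map_one`, `map_inv`, `map_mul_inv`, `map_conj`, `map_pow`,
  `eq_of_eqOn_closure` (two cocycles that agree on a generating set agree).
-/

set_option autoImplicit false

namespace Fermat.Agent.Eis.Shapiro

open QuotientGroup

variable {G : Type*} [Group G] (Γ : Subgroup G) {A : Type*} [AddCommGroup A]

/-! ### The normalised section -/

open Classical in
/-- A section of `G → G ⧸ Γ` sending the base point `↑1` to `1`. -/
noncomputable def sec (x : G ⧸ Γ) : G :=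
  if x = ((1 : G) : G ⧸ Γ) then 1 else Quotient.out x

@[simp]
theorem mk_sec (x : G ⧸ Γ) : ((sec Γ x : G) : G ⧸ Γ) = x := by
  unfold sec
  split_ifs with h
  · exact h.symm
  · exact QuotientGroup.out_eq' x

@[simp]
theorem sec_one : sec Γ ((1 : G) : G ⧸ Γ) = 1 := by
  unfold sec
  rw [if_pos rfl]

theorem smul_mk_sec (g : G) (x : G ⧸ Γ) : ((g * sec Γ x : G) : G ⧸ Γ) = g • x := by
  conv_rhs => rw [← mk_sec Γ x]
  rfl

/-- `(sec x)⁻¹ * g * sec (g⁻¹ • x)` lies in `Γ`. -/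
theorem gam_mem (g : G) (x : G ⧸ Γ) : (sec Γ x)⁻¹ * g * sec Γ (g⁻¹ • x) ∈ Γ := by
  have h : ((sec Γ x : G) : G ⧸ Γ) = ((g * sec Γ (g⁻¹ • x) : G) : G ⧸ Γ) := by
    rw [smul_mk_sec, smul_inv_smul, mk_sec]
  have := QuotientGroup.eq.mp h
  rwa [← mul_assoc] at this

/-- The element `(sec x)⁻¹ * g * sec (g⁻¹ • x)` of `Γ`. -/
noncomputable def gam (g : G) (x : G ⧸ Γ) : Γ :=
  ⟨(sec Γ x)⁻¹ * g * sec Γ (g⁻¹ • x), gam_mem Γ g x⟩

@[simp]
theorem coe_gam (g : G) (x : G ⧸ Γ) :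
    ((gam Γ g x : Γ) : G) = (sec Γ x)⁻¹ * g * sec Γ (g⁻¹ • x) := rfl

theorem gam_mul (g h : G) (x : G ⧸ Γ) :
    gam Γ (g * h) x = gam Γ g x * gam Γ h (g⁻¹ • x) := by
  apply Subtype.ext
  simp only [coe_gam, Subgroup.coe_mul, mul_inv_rev, mul_smul]
  group

@[simp]
theorem gam_one (x : G ⧸ Γ) : gam Γ 1 x = 1 := by
  apply Subtype.ext
  simp

theorem coe_smul_one (γ : Γ) : (γ : G) • ((1 : G) : G ⧸ Γ) = ((1 : G) : G ⧸ Γ) := by
  change (((γ : G) * 1 : G) : G ⧸ Γ) = _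
  rw [mul_one]
  exact QuotientGroup.eq.mpr (by simp)

theorem coe_inv_smul_one (γ : Γ) : (γ : G)⁻¹ • ((1 : G) : G ⧸ Γ) = ((1 : G) : G ⧸ Γ) := by
  have := coe_smul_one Γ γ⁻¹
  simpa using this

/-- On `Γ` and at the base point, `gam` is the identity. -/
@[simp]
theorem gam_coe_one (γ : Γ) : gam Γ (γ : G) ((1 : G) : G ⧸ Γ) = γ := by
  apply Subtype.ext
  rw [coe_gam, coe_inv_smul_one, sec_one]
  simp

/-- If `g` fixes `x` then `gam g x` is the conjugate `(sec x)⁻¹ * g * sec x`. -/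
theorem coe_gam_of_smul_eq {g : G} {x : G ⧸ Γ} (hx : g • x = x) :
    ((gam Γ g x : Γ) : G) = (sec Γ x)⁻¹ * g * sec Γ x := by
  have : g⁻¹ • x = x := by
    conv_lhs => rw [← hx]
    exact inv_smul_smul g x
  rw [coe_gam, this]

/-- If `g` fixes `x`, the conjugate `(sec x)⁻¹ * g * sec x` lies in `Γ`. -/
theorem conj_mem_of_smul_eq {g : G} {x : G ⧸ Γ} (hx : g • x = x) :
    (sec Γ x)⁻¹ * g * sec Γ x ∈ Γ := by
  rw [← coe_gam_of_smul_eq Γ hx]
  exact (gam Γ g x).2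

/-! ### Cocycles with values in `Map(G ⧸ Γ, A)` -/

/-- `c : G → G ⧸ Γ → A` is a 1-cocycle for the action `(g • f) x = f (g⁻¹ • x)` on functions. -/
def IsCocycle (c : G → G ⧸ Γ → A) : Prop :=
  ∀ (g h : G) (x : G ⧸ Γ), c (g * h) x = c g x + c h (g⁻¹ • x)

namespace IsCocycle

variable {Γ} {c c' : G → G ⧸ Γ → A}

theorem map_mul (hc : IsCocycle Γ c) (g h : G) (x : G ⧸ Γ) :
    c (g * h) x = c g x + c h (g⁻¹ • x) := hc g h x

theorem map_one (hc : IsCocycle Γ c) (x : G ⧸ Γ) : c 1 x = 0 := by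
  have := hc 1 1 x
  simpa using this

theorem map_inv (hc : IsCocycle Γ c) (g : G) (x : G ⧸ Γ) : c g⁻¹ x = - c g (g • x) := by
  have := hc g g⁻¹ (g • x)
  rw [mul_inv_cancel, hc.map_one, inv_smul_smul] at this
  exact eq_neg_of_add_eq_zero_right this.symm

theorem map_mul_inv (hc : IsCocycle Γ c) (g h : G) (x : G ⧸ Γ) :
    c (g * h⁻¹) x = c g x - c h (h • g⁻¹ • x) := by
  rw [hc g h⁻¹ x, hc.map_inv, sub_eq_add_neg]

/-- The value of a cocycle on a conjugate. -/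
theorem map_conj (hc : IsCocycle Γ c) (g h : G) (x : G ⧸ Γ) :
    c (g * h * g⁻¹) x = c g x + c h (g⁻¹ • x) - c g (g • h⁻¹ • g⁻¹ • x) := by
  rw [hc.map_mul_inv, hc g h x, mul_inv_rev, mul_smul]

theorem map_pow_succ (hc : IsCocycle Γ c) (g : G) (n : ℕ) (x : G ⧸ Γ) :
    c (g ^ (n + 1)) x = c (g ^ n) x + c g ((g ^ n)⁻¹ • x) := by
  rw [pow_succ, hc (g ^ n) g x]

/-- The value of a cocycle on a power: `c (g ^ n) x = ∑_{k < n} c g ((g ^ k)⁻¹ • x)`. -/
theorem map_pow (hc : IsCocycle Γ c) (g : G) (n : ℕ) (x : G ⧸ Γ) :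
    c (g ^ n) x = ∑ k ∈ Finset.range n, c g ((g ^ k)⁻¹ • x) := by
  induction n with
  | zero => simp [hc.map_one]
  | succ n ih => rw [hc.map_pow_succ, ih, Finset.sum_range_succ]

/-- If `g` fixes `x` then `c (g ^ n) x = n • c g x`. -/
theorem map_pow_of_smul_eq (hc : IsCocycle Γ c) {g : G} {x : G ⧸ Γ} (hx : g • x = x) (n : ℕ) :
    c (g ^ n) x = n • c g x := by
  have hfix : ∀ m : ℕ, (g ^ m)⁻¹ • x = x := by
    intro m
    induction m with
    | zero => simp
    | succ m ih =>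
      rw [pow_succ', mul_inv_rev, mul_smul]
      have : g⁻¹ • x = x := by
        conv_lhs => rw [← hx]
        exact inv_smul_smul g x
      rw [this, ih]
  induction n with
  | zero => simp [hc.map_one]
  | succ n ih => rw [hc.map_pow_succ, ih, hfix, succ_nsmul]

theorem zero : IsCocycle Γ (fun (_ : G) (_ : G ⧸ Γ) => (0 : A)) := fun _ _ _ => by simp

theorem add (hc : IsCocycle Γ c) (hc' : IsCocycle Γ c') :
    IsCocycle Γ (fun g x => c g x + c' g x) := fun g h x => by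
  simp only [hc g h x, hc' g h x]
  abel

theorem neg (hc : IsCocycle Γ c) : IsCocycle Γ (fun g x => - c g x) := fun g h x => by
  simp only [hc g h x]
  abel

theorem sub (hc : IsCocycle Γ c) (hc' : IsCocycle Γ c') :
    IsCocycle Γ (fun g x => c g x - c' g x) := fun g h x => by
  simp only [hc g h x, hc' g h x]
  abel

theorem zsmul (hc : IsCocycle Γ c) (n : ℤ) : IsCocycle Γ (fun g x => n • c g x) :=
  fun g h x => by simp only [hc g h x, smul_add]

/-- Functoriality in the coefficients. -/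
theorem comp {B : Type*} [AddCommGroup B] (hc : IsCocycle Γ c) (f : A →+ B) :
    IsCocycle Γ (fun g x => f (c g x)) := fun g h x => by
  simp only [hc g h x, map_add]

/-- The set on which two cocycles agree is a subgroup. -/
def eqLocus (hc : IsCocycle Γ c) (hc' : IsCocycle Γ c') : Subgroup G where
  carrier := {g | c g = c' g}
  one_mem' := by
    funext x
    rw [hc.map_one, hc'.map_one]
  mul_mem' := by
    intro g h hg hh
    funext x
    rw [hc g h x, hc' g h x, congrFun hg x, congrFun hh (g⁻¹ • x)]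
  inv_mem' := by
    intro g hg
    funext x
    rw [hc.map_inv, hc'.map_inv, congrFun hg (g • x)]

/-- Two cocycles that agree on a generating set are equal. -/
theorem eq_of_eqOn_closure (hc : IsCocycle Γ c) (hc' : IsCocycle Γ c') {s : Set G}
    (hs : Subgroup.closure s = ⊤) (h : ∀ g ∈ s, c g = c' g) : c = c' := by
  funext g
  have hle : Subgroup.closure s ≤ eqLocus hc hc' := (Subgroup.closure_le _).mpr h
  have hg : g ∈ Subgroup.closure s := by rw [hs]; exact Subgroup.mem_top g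
  exact hle hg

end IsCocycle

/-! ### Induction and restriction -/

/-- The cocycle induced by a homomorphism `ψ : Γ → A`:
`ind ψ g x = ψ ((sec x)⁻¹ * g * sec (g⁻¹ • x))`. -/
noncomputable def ind (ψ : Additive Γ →+ A) : G → G ⧸ Γ → A :=
  fun g x => ψ (Additive.ofMul (gam Γ g x))

theorem ind_apply (ψ : Additive Γ →+ A) (g : G) (x : G ⧸ Γ) :
    ind Γ ψ g x = ψ (Additive.ofMul (gam Γ g x)) := rfl

theorem isCocycle_ind (ψ : Additive Γ →+ A) : IsCocycle Γ (ind Γ ψ) := by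
  intro g h x
  simp only [ind_apply, gam_mul, ofMul_mul, map_add]

/-- On `Γ` and at the base point the induced cocycle is `ψ`. -/
@[simp]
theorem ind_apply_coe_one (ψ : Additive Γ →+ A) (γ : Γ) :
    ind Γ ψ (γ : G) ((1 : G) : G ⧸ Γ) = ψ (Additive.ofMul γ) := by
  rw [ind_apply, gam_coe_one]

/-- **Value at a fixed point**: if `g • x = x` then `ind ψ g x` is `ψ` of the conjugate
`(sec x)⁻¹ * g * sec x ∈ Γ`. -/
theorem ind_apply_of_smul_eq (ψ : Additive Γ →+ A) {g : G} {x : G ⧸ Γ} (hx : g • x = x) :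
    ind Γ ψ g x =
      ψ (Additive.ofMul (⟨(sec Γ x)⁻¹ * g * sec Γ x, conj_mem_of_smul_eq Γ hx⟩ : Γ)) := by
  rw [ind_apply]
  congr 2
  exact Subtype.ext (coe_gam_of_smul_eq Γ hx)

/-- If `ψ` kills every element of `Γ` that is `G`-conjugate to `g`, and `g` fixes `x`, then
`ind ψ g x = 0`. -/
theorem ind_apply_eq_zero_of_smul_eq (ψ : Additive Γ →+ A) {g : G} {x : G ⧸ Γ} (hx : g • x = x)
    (hψ : ∀ (a : G) (ha : a⁻¹ * g * a ∈ Γ), ψ (Additive.ofMul (⟨a⁻¹ * g * a, ha⟩ : Γ)) = 0) :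
    ind Γ ψ g x = 0 := by
  rw [ind_apply_of_smul_eq Γ ψ hx]
  exact hψ _ _

theorem ind_add (ψ ψ' : Additive Γ →+ A) (g : G) (x : G ⧸ Γ) :
    ind Γ (ψ + ψ') g x = ind Γ ψ g x + ind Γ ψ' g x := rfl

theorem ind_zero (g : G) (x : G ⧸ Γ) : ind Γ (0 : Additive Γ →+ A) g x = 0 := rfl

theorem ind_neg (ψ : Additive Γ →+ A) (g : G) (x : G ⧸ Γ) :
    ind Γ (-ψ) g x = - ind Γ ψ g x := rfl

theorem ind_comp {B : Type*} [AddCommGroup B] (f : A →+ B) (ψ : Additive Γ →+ A) (g : G)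
    (x : G ⧸ Γ) : ind Γ (f.comp ψ) g x = f (ind Γ ψ g x) := rfl

/-- The homomorphism `γ ↦ c γ ↑1` attached to a cocycle. -/
def res (c : G → G ⧸ Γ → A) (hc : IsCocycle Γ c) : Additive Γ →+ A where
  toFun γ := c ((Additive.toMul γ : Γ) : G) ((1 : G) : G ⧸ Γ)
  map_zero' := by
    change c ((1 : Γ) : G) _ = 0
    rw [Subgroup.coe_one, hc.map_one]
  map_add' γ γ' := by
    change c (((Additive.toMul γ * Additive.toMul γ' : Γ)) : G) _ = _
    rw [Subgroup.coe_mul, hc, coe_inv_smul_one]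

@[simp]
theorem res_apply (c : G → G ⧸ Γ → A) (hc : IsCocycle Γ c) (γ : Γ) :
    res Γ c hc (Additive.ofMul γ) = c (γ : G) ((1 : G) : G ⧸ Γ) := rfl

/-- **Shapiro**: restriction of the induced cocycle gives back the homomorphism. -/
@[simp]
theorem res_ind (ψ : Additive Γ →+ A) : res Γ (ind Γ ψ) (isCocycle_ind Γ ψ) = ψ := by
  ext γ
  change ind Γ ψ ((Additive.toMul γ : Γ) : G) _ = ψ γ
  rw [ind_apply_coe_one]
  rfl

/-- Every homomorphism `Γ → A` is the restriction of a cocycle `G → Map(G ⧸ Γ, A)`. -/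
theorem exists_cocycle (ψ : Additive Γ →+ A) :
    ∃ (c : G → G ⧸ Γ → A) (hc : IsCocycle Γ c), res Γ c hc = ψ :=
  ⟨ind Γ ψ, isCocycle_ind Γ ψ, res_ind Γ ψ⟩

theorem res_congr {c c' : G → G ⧸ Γ → A} (hc : IsCocycle Γ c) (hc' : IsCocycle Γ c')
    (h : c = c') : res Γ c hc = res Γ c' hc' := by
  subst h
  rfl

theorem res_comp {B : Type*} [AddCommGroup B] (f : A →+ B) (c : G → G ⧸ Γ → A)
    (hc : IsCocycle Γ c) :
    res Γ (fun g x => f (c g x)) (hc.comp f) = f.comp (res Γ c hc) := rfl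

theorem res_add {c c' : G → G ⧸ Γ → A} (hc : IsCocycle Γ c) (hc' : IsCocycle Γ c') :
    res Γ (fun g x => c g x + c' g x) (hc.add hc') = res Γ c hc + res Γ c' hc' := rfl

theorem res_sub {c c' : G → G ⧸ Γ → A} (hc : IsCocycle Γ c) (hc' : IsCocycle Γ c') :
    res Γ (fun g x => c g x - c' g x) (hc.sub hc') = res Γ c hc - res Γ c' hc' := rfl

theorem res_zsmul {c : G → G ⧸ Γ → A} (hc : IsCocycle Γ c) (n : ℤ) :
    res Γ (fun g x => n • c g x) (hc.zsmul n) = n • res Γ c hc := rfl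

/-- **Lifting criterion** (the form used for `ℤ → ZMod n`): if `f : A →+ B`, `c̃` is an `A`-valued
cocycle whose reduction `f ∘ c̃` agrees with `ind ψ` on a generating set of `G`, then
`f ∘ res c̃ = ψ`. -/
theorem comp_res_eq_of_eqOn {B : Type*} [AddCommGroup B] (f : A →+ B) (ψ : Additive Γ →+ B)
    (c : G → G ⧸ Γ → A) (hc : IsCocycle Γ c) {s : Set G} (hs : Subgroup.closure s = ⊤)
    (h : ∀ g ∈ s, ∀ x, f (c g x) = ind Γ ψ g x) : f.comp (res Γ c hc) = ψ := by
  have heq : (fun g x => f (c g x)) = ind Γ ψ :=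
    (hc.comp f).eq_of_eqOn_closure (isCocycle_ind Γ ψ) hs (fun g hg => funext (h g hg))
  rw [← res_comp, res_congr Γ (hc.comp f) (isCocycle_ind Γ ψ) heq, res_ind]

end Fermat.Agent.Eis.Shapiro
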