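import Mathlib
import Fermat.Agent.Eis.PSL2Free
import Fermat.Agent.Eis.Shapiro

/-!
# Program E, node N7-alg (A2): cocycles of `SL(2,ℤ)` from their values at `S` and `U = S * T`

`Γ ≤ SL(2,ℤ)` with `-1 ∈ Γ`, `X := SL(2,ℤ) ⧸ Γ`, `A` an additive commutative group.
From `PSL₂(ℤ) = C₂ * C₃` (`PSL2Free.exists_hom_SL2Z`), applied to the group of permutations of
`X × A`:

* `exists_cocycle_of_pair` : for `α β : X → A` with `α x + α (S • x) = 0` and
  `β x + β (U • x) + β (U • U • x) = 0` there is a cocycle `c` (`Shapiro.IsCocycle Γ c`) with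
  `c S = α` and `c U = β`;
* `rel_S`, `rel_U` : conversely every cocycle with `c (-1) = 0` satisfies these relations;
* `closure_S_U` : `S`, `U` generate `SL(2,ℤ)`.
-/

set_option autoImplicit false

namespace Fermat.Agent.Eis.CocycleUP

open Matrix Matrix.SpecialLinearGroup ModularGroup
open Fermat.Agent.Eis.PSL2Free Fermat.Agent.Eis.Shapiro
open scoped MatrixGroups

variable (Γ : Subgroup SL(2, ℤ)) {A : Type*} [AddCommGroup A]

theorem closure_S_U : Subgroup.closure ({S, U} : Set SL(2, ℤ)) = ⊤ := by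
  rw [eq_top_iff, ← SpecialLinearGroup.SL2Z_generators, Subgroup.closure_le]
  rintro x (rfl | rfl)
  · exact Subgroup.subset_closure (Set.mem_insert _ _)
  · rw [SetLike.mem_coe, T_eq]
    exact Subgroup.mul_mem _ (Subgroup.inv_mem _ (Subgroup.subset_closure (Set.mem_insert _ _)))
      (Subgroup.subset_closure (Set.mem_insert_of_mem _ rfl))

variable {Γ}

/-- `-1` acts trivially on `SL(2,ℤ) ⧸ Γ` when `-1 ∈ Γ`. -/
theorem neg_one_smul (hneg : (-1 : SL(2, ℤ)) ∈ Γ) (x : SL(2, ℤ) ⧸ Γ) :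
    (-1 : SL(2, ℤ)) • x = x := by
  induction x using QuotientGroup.induction_on with
  | H g =>
    change (((-1 : SL(2, ℤ)) * g : SL(2, ℤ)) : SL(2, ℤ) ⧸ Γ) = (g : SL(2, ℤ) ⧸ Γ)
    rw [QuotientGroup.eq]
    have : ((-1 : SL(2, ℤ)) * g)⁻¹ * g = -1 := by
      have h1 : (-1 : SL(2, ℤ)) * g = g * (-1) := by
        ext i j
        simp
      rw [h1, _root_.mul_inv_rev, mul_assoc, inv_mul_cancel, mul_one]
      decide
    rw [this]
    exact hneg

theorem S_smul_S_smul (hneg : (-1 : SL(2, ℤ)) ∈ Γ) (x : SL(2, ℤ) ⧸ Γ) : S • S • x = x := by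
  rw [← mul_smul, ← pow_two, S_sq, neg_one_smul hneg]

theorem U_smul_U_smul_U_smul (hneg : (-1 : SL(2, ℤ)) ∈ Γ) (x : SL(2, ℤ) ⧸ Γ) :
    U • U • U • x = x := by
  rw [← mul_smul, ← mul_smul, ← pow_two, ← pow_succ, U_cube, neg_one_smul hneg]

theorem S_inv_smul (hneg : (-1 : SL(2, ℤ)) ∈ Γ) (x : SL(2, ℤ) ⧸ Γ) : S⁻¹ • x = S • x := by
  rw [inv_smul_eq_iff, S_smul_S_smul hneg]

theorem U_inv_smul (hneg : (-1 : SL(2, ℤ)) ∈ Γ) (x : SL(2, ℤ) ⧸ Γ) : U⁻¹ • x = U • U • x := by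
  rw [inv_smul_eq_iff, U_smul_U_smul_U_smul hneg]

/-! ## Decorated permutations of `X × A` -/

/-- the permutation `(x, a) ↦ (g • x, a + f (g • x))` of `X × A` -/
def deco (g : SL(2, ℤ)) (f : SL(2, ℤ) ⧸ Γ → A) : Equiv.Perm ((SL(2, ℤ) ⧸ Γ) × A) where
  toFun z := (g • z.1, z.2 + f (g • z.1))
  invFun z := (g⁻¹ • z.1, z.2 - f z.1)
  left_inv z := by
    ext
    · simp
    · simp
  right_inv z := by
    ext
    · simp
    · simp

@[simp]
theorem deco_apply (g : SL(2, ℤ)) (f : SL(2, ℤ) ⧸ Γ → A) (x : SL(2, ℤ) ⧸ Γ) (a : A) :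
    deco g f (x, a) = (g • x, a + f (g • x)) := rfl

theorem deco_S_sq (hneg : (-1 : SL(2, ℤ)) ∈ Γ) (α : SL(2, ℤ) ⧸ Γ → A)
    (hα : ∀ x, α x + α (S • x) = 0) : (deco S α) ^ 2 = 1 := by
  ext ⟨x, a⟩
  · simp [pow_two, S_smul_S_smul hneg]
  · simp only [pow_two, Equiv.Perm.coe_mul, Function.comp_apply, deco_apply, Equiv.Perm.coe_one,
      id_eq, S_smul_S_smul hneg]
    have := hα x
    calc _ = a + (α x + α (S • x)) := by abel
      _ = a := by rw [this, add_zero]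

theorem deco_U_cube (hneg : (-1 : SL(2, ℤ)) ∈ Γ) (β : SL(2, ℤ) ⧸ Γ → A)
    (hβ : ∀ x, β x + β (U • x) + β (U • U • x) = 0) : (deco U β) ^ 3 = 1 := by
  ext ⟨x, a⟩
  · simp [pow_succ, U_smul_U_smul_U_smul hneg]
  · simp only [pow_succ, pow_zero, one_mul, Equiv.Perm.coe_mul, Function.comp_apply, deco_apply,
      Equiv.Perm.coe_one, id_eq, U_smul_U_smul_U_smul hneg]
    have := hβ x
    calc _ = a + (β x + β (U • x) + β (U • U • x)) := by abel
      _ = a := by rw [this, add_zero]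

/-- the elements `g` on which a homomorphism `φ : SL(2,ℤ) →* Perm (X × A)` acts as a decorated
permutation covering the action of `g` on `X` -/
def formSubgroup (φ : SL(2, ℤ) →* Equiv.Perm ((SL(2, ℤ) ⧸ Γ) × A)) : Subgroup SL(2, ℤ) where
  carrier := {g | ∀ x a, φ g (x, a) = (g • x, a + (φ g (x, 0)).2)}
  one_mem' := by
    intro x a
    simp
  mul_mem' := by
    intro g h hg hh x a
    have e1 : φ (g * h) (x, a) = φ g (φ h (x, a)) := by rw [map_mul]; rfl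
    have e2 : φ (g * h) (x, 0) = φ g (φ h (x, 0)) := by rw [map_mul]; rfl
    rw [e1, e2, hh x a, hg, hh x 0, hg (h • x) (0 + (φ h (x, 0)).2), mul_smul]
    ext
    · rfl
    · simp only
      abel
  inv_mem' := by
    intro g hg x a
    -- write `φ g⁻¹ (x, a) = (y, b)`; then `φ g (y, b) = (x, a)`
    have key : ∀ (x : SL(2, ℤ) ⧸ Γ) (a : A),
        φ g⁻¹ (x, a) = (g⁻¹ • x, a - (φ g (g⁻¹ • x, 0)).2) := by
      intro x a
      have h1 : φ g (g⁻¹ • x, a - (φ g (g⁻¹ • x, 0)).2) = (x, a) := by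
        rw [hg]
        ext
        · simp
        · simp
      have h2 : φ g⁻¹ (φ g (g⁻¹ • x, a - (φ g (g⁻¹ • x, 0)).2)) =
          (g⁻¹ • x, a - (φ g (g⁻¹ • x, 0)).2) := by
        rw [map_inv]
        exact Equiv.symm_apply_apply _ _
      rw [h1] at h2
      exact h2
    rw [key x a, key x 0]
    ext
    · rfl
    · simp only
      abel

theorem mem_formSubgroup {φ : SL(2, ℤ) →* Equiv.Perm ((SL(2, ℤ) ⧸ Γ) × A)} {g : SL(2, ℤ)} :
    g ∈ formSubgroup φ ↔ ∀ x a, φ g (x, a) = (g • x, a + (φ g (x, 0)).2) := Iff.rfl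

/-- **Cocycles from their values at `S` and `U`.** -/
theorem exists_cocycle_of_pair (hneg : (-1 : SL(2, ℤ)) ∈ Γ) (α β : SL(2, ℤ) ⧸ Γ → A)
    (hα : ∀ x, α x + α (S • x) = 0) (hβ : ∀ x, β x + β (U • x) + β (U • U • x) = 0) :
    ∃ c : SL(2, ℤ) → SL(2, ℤ) ⧸ Γ → A, IsCocycle Γ c ∧ c S = α ∧ c U = β := by
  obtain ⟨φ, hφS, hφU⟩ := exists_hom_SL2Z (deco S α) (deco U β) (deco_S_sq hneg α hα)
    (deco_U_cube hneg β hβ)
  have hφU' : φ U = deco U β := hφU
  have hS : S ∈ formSubgroup φ := by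
    intro x a
    rw [hφS]
    simp
  have hU : U ∈ formSubgroup φ := by
    intro x a
    rw [hφU']
    simp
  have htop : formSubgroup φ = ⊤ := by
    rw [eq_top_iff, ← closure_S_U, Subgroup.closure_le]
    rintro x (rfl | rfl)
    · exact hS
    · exact hU
  have hform : ∀ g x a, φ g (x, a) = (g • x, a + (φ g (x, 0)).2) := by
    intro g
    have : g ∈ formSubgroup φ := by rw [htop]; exact Subgroup.mem_top g
    exact this
  refine ⟨fun g y => (φ g (g⁻¹ • y, 0)).2, ?_, ?_, ?_⟩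
  · intro g h y
    show (φ (g * h) ((g * h)⁻¹ • y, 0)).2 = (φ g (g⁻¹ • y, 0)).2 + (φ h (h⁻¹ • g⁻¹ • y, 0)).2
    have e1 : φ (g * h) ((g * h)⁻¹ • y, 0) = φ g (φ h ((g * h)⁻¹ • y, 0)) := by
      rw [map_mul]; rfl
    have e3 : (g * h)⁻¹ • y = h⁻¹ • g⁻¹ • y := by rw [_root_.mul_inv_rev, mul_smul]
    rw [e1, e3, hform h (h⁻¹ • g⁻¹ • y) 0, hform g, smul_inv_smul]
    simp only [zero_add]
    abel
  · funext y
    show (φ S (S⁻¹ • y, 0)).2 = α y
    rw [hφS]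
    simp
  · funext y
    show (φ U (U⁻¹ • y, 0)).2 = β y
    rw [hφU']
    simp

/-! ## The relations satisfied by every cocycle -/

theorem rel_S (hneg : (-1 : SL(2, ℤ)) ∈ Γ) {c : SL(2, ℤ) → SL(2, ℤ) ⧸ Γ → A}
    (hc : IsCocycle Γ c) (h1 : c (-1) = 0) (x : SL(2, ℤ) ⧸ Γ) : c S x + c S (S • x) = 0 := by
  have := hc S S x
  rw [← pow_two, S_sq, h1, S_inv_smul hneg] at this
  exact this.symm

theorem rel_U (hneg : (-1 : SL(2, ℤ)) ∈ Γ) {c : SL(2, ℤ) → SL(2, ℤ) ⧸ Γ → A}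
    (hc : IsCocycle Γ c) (h1 : c (-1) = 0) (x : SL(2, ℤ) ⧸ Γ) :
    c U x + c U (U • x) + c U (U • U • x) = 0 := by
  have h3 := hc.map_pow U 3 x
  rw [U_cube, h1] at h3
  simp only [Finset.sum_range_succ, Finset.sum_range_zero, zero_add, pow_zero, inv_one, one_smul,
    pow_one] at h3
  rw [U_inv_smul hneg] at h3
  have h2 : (U ^ 2)⁻¹ • x = U • x := by
    rw [inv_smul_eq_iff, pow_two, mul_smul, U_smul_U_smul_U_smul hneg]
  rw [h2] at h3
  have h3' : c U x + c U (U • U • x) + c U (U • x) = 0 := h3.symm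
  rw [← h3']
  abel

end Fermat.Agent.Eis.CocycleUP
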