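import Mathlib
import Fermat.Prelude.Def_ModularForm_HeckeOperatorForms
import Fermat.Prelude.Thm_ModularFormClass_qCoeff_heckeU
import Fermat.Prelude.Thm_CongruenceSubgroup_one_mem_strictPeriods_Gamma0
import Fermat.Agent.S23.Esymm

/-!
# Program E (S16), node N1a: the conjugates of a weight-2 form of prime level

For `u : ModularForm Γ₀(p) 2` (`p` prime) this file provides

* `Up u` (the operator `U_p`, Prelude `heckeULin`), `qCoeff_Up`;
* the enumeration `cosetEquiv : Option (Fin p) ≃ SL₂(ℤ)/Γ₀(p)` with the conjugates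
  `conjFam u (cosetEquiv none) = u`, `conjFam u (cosetEquiv (some b)) = conjS u b = u ∣[2] S T^b`;
* `trace_eq_zero` (no weight-2 forms of level one), the Fricke involution `vW u = u ∣[2] W_p`,
  `vW_eq : vW u = -U_p u`, `Up_Up : U_p² = 1`;
* the expansions in `Y = q^{1/p}`: `hasSum_cInf`, `hasSum_cB` (the conjugate `u ∣ S T^b` is
  `-(1/p) Σ a_n(U_p u) ζ^{bn} Y^n`), and the identity theorem `powerSeries_ext_of_hasSum`.
-/

set_option autoImplicit false
set_option linter.unusedSectionVars false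

open UpperHalfPlane ModularForm CongruenceSubgroup ModularFormClass Matrix.SpecialLinearGroup
open scoped MatrixGroups ModularForm

namespace Fermat.Agent.Eis.N1a

variable (p : ℕ) [Fact p.Prime]

/-- `Γ₀(p)` as a subgroup of `GL₂(ℝ)`. -/
abbrev G0 : Subgroup (GL (Fin 2) ℝ) := ((Gamma0 p : Subgroup SL(2, ℤ)) : Subgroup (GL (Fin 2) ℝ))

/-- The coset space `SL₂(ℤ) / Γ₀(p)` (inside `GL₂(ℝ)`). -/
abbrev Q0 : Type := (𝒮ℒ ⧸ (G0 p).subgroupOf 𝒮ℒ)

/-- An element of `SL(2,ℤ)` as an element of the subgroup `𝒮ℒ` of `GL₂(ℝ)`. -/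
def toSLR (g : SL(2, ℤ)) : (𝒮ℒ : Subgroup (GL (Fin 2) ℝ)) := ⟨mapGL ℝ g, ⟨g, rfl⟩⟩

theorem toSLR_mul (g h : SL(2, ℤ)) : toSLR (g * h) = toSLR g * toSLR h := by
  apply Subtype.ext; simp [toSLR]

theorem toSLR_inv (g : SL(2, ℤ)) : toSLR g⁻¹ = (toSLR g)⁻¹ := by
  apply Subtype.ext; simp [toSLR]

theorem toSLR_mem_iff (g : SL(2, ℤ)) :
    toSLR g ∈ (G0 p).subgroupOf 𝒮ℒ ↔ g ∈ Gamma0 p := by
  rw [Subgroup.mem_subgroupOf]
  constructor
  · rintro ⟨γ, hγ, h⟩
    have : γ = g := mapGL_injective (R := ℤ) (S := ℝ) h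
    exact this ▸ hγ
  · intro h
    exact ⟨g, h, rfl⟩

theorem mk_eq_mk_iff (g h : SL(2, ℤ)) :
    (QuotientGroup.mk (toSLR g) : Q0 p) = QuotientGroup.mk (toSLR h) ↔ g⁻¹ * h ∈ Gamma0 p := by
  rw [QuotientGroup.eq, ← toSLR_inv, ← toSLR_mul, toSLR_mem_iff]

theorem exists_toSLR (x : (𝒮ℒ : Subgroup (GL (Fin 2) ℝ))) : ∃ g : SL(2, ℤ), toSLR g = x := by
  obtain ⟨x, g, rfl⟩ := x
  exact ⟨g, rfl⟩

/-- `S T^b` -/
def st (b : ℕ) : SL(2, ℤ) := ModularGroup.S * ModularGroup.T ^ b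

theorem coe_st (b : ℕ) : (st b : Matrix (Fin 2) (Fin 2) ℤ) = !![0, -1; 1, (b : ℤ)] := by
  have hT : ((ModularGroup.T ^ b : SL(2, ℤ)) : Matrix (Fin 2) (Fin 2) ℤ) = !![1, (b : ℤ); 0, 1] := by
    have := ModularGroup.coe_T_zpow (b : ℤ)
    rwa [zpow_natCast] at this
  rw [st, Matrix.SpecialLinearGroup.coe_mul, hT, ModularGroup.coe_S]
  ext i j; fin_cases i <;> fin_cases j <;> simp [Matrix.mul_apply, Fin.sum_univ_two]

theorem st_mul_apply_one_zero (b : ℕ) (g : SL(2, ℤ)) :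
    (st b * g) 1 0 = g 0 0 + b * g 1 0 := by
  rw [Matrix.SpecialLinearGroup.coe_mul, coe_st]
  simp [Matrix.mul_apply, Fin.sum_univ_two]

theorem st_mul_inv_apply_one_zero (b b' : ℕ) :
    (st b * (st b')⁻¹) 1 0 = (b' : ℤ) - b := by
  rw [st_mul_apply_one_zero, Matrix.SpecialLinearGroup.coe_inv, coe_st, Matrix.adjugate_fin_two_of]
  simp; ring

/-- The enumeration of the cosets. -/
noncomputable def cosetFun : Option (Fin p) → Q0 p
  | none => QuotientGroup.mk (toSLR 1)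
  | some b => QuotientGroup.mk (toSLR (st b)⁻¹)

theorem one_ne_zero_zmod : (1 : ZMod p) ≠ 0 := by
  have : Fact (1 < p) := ⟨(Fact.out : p.Prime).one_lt⟩
  exact one_ne_zero

theorem cosetFun_injective : Function.Injective (cosetFun p) := by
  rintro (_ | b) (_ | b') h
  · rfl
  · exfalso
    simp only [cosetFun] at h
    rw [mk_eq_mk_iff, inv_one, one_mul, inv_mem_iff, Gamma0_mem, coe_st] at h
    simp at h
  · exfalso
    simp only [cosetFun] at h
    rw [mk_eq_mk_iff, inv_inv, mul_one, Gamma0_mem, coe_st] at h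
    simp at h
  · simp only [cosetFun] at h
    rw [mk_eq_mk_iff, inv_inv, Gamma0_mem, st_mul_inv_apply_one_zero] at h
    have h2 : ((b' : ℕ) : ZMod p) = ((b : ℕ) : ZMod p) := by
      have : (((b' : ℕ) : ℤ) - ((b : ℕ) : ℤ) : ZMod p) = 0 := by exact_mod_cast h
      push_cast at this
      exact sub_eq_zero.mp this
    have h3 := congrArg ZMod.val h2
    rw [ZMod.val_natCast_of_lt b'.2, ZMod.val_natCast_of_lt b.2] at h3
    congr 1
    exact (Fin.ext h3).symm

theorem cosetFun_surjective : Function.Surjective (cosetFun p) := by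
  intro x
  induction x using Quotient.inductionOn with
  | h r =>
    obtain ⟨g, rfl⟩ := exists_toSLR r
    by_cases hc : ((g 1 0 : ℤ) : ZMod p) = 0
    · refine ⟨none, ?_⟩
      show (QuotientGroup.mk (toSLR 1) : Q0 p) = QuotientGroup.mk (toSLR g)
      rw [mk_eq_mk_iff, inv_one, one_mul]
      exact Gamma0_mem.mpr hc
    · set t : ZMod p := -((g 0 0 : ℤ) : ZMod p) * (((g 1 0 : ℤ) : ZMod p))⁻¹ with ht
      have : NeZero p := ⟨(Fact.out : p.Prime).ne_zero⟩
      refine ⟨some ⟨t.val, ZMod.val_lt t⟩, ?_⟩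
      show (QuotientGroup.mk (toSLR (st t.val)⁻¹) : Q0 p) = QuotientGroup.mk (toSLR g)
      rw [mk_eq_mk_iff, inv_inv, Gamma0_mem, st_mul_apply_one_zero]
      push_cast
      rw [ZMod.natCast_zmod_val, ht]
      field_simp
      ring

/-- The cosets of `Γ₀(p)` in `SL₂(ℤ)` are enumerated by `ℙ¹(𝔽_p)`. -/
noncomputable def cosetEquiv : Option (Fin p) ≃ Q0 p :=
  Equiv.ofBijective (cosetFun p) ⟨cosetFun_injective p, cosetFun_surjective p⟩

theorem cosetEquiv_none : cosetEquiv p none = QuotientGroup.mk (toSLR 1) := rfl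

theorem cosetEquiv_some (b : Fin p) :
    cosetEquiv p (some b) = QuotientGroup.mk (toSLR (st b)⁻¹) := rfl

theorem card_cosets : Nat.card (Q0 p) = p + 1 := by
  rw [← Nat.card_congr (cosetEquiv p)]
  simp


/-! ### The conjugates of a weight-2 form -/

/-- The conjugate `u ∣[2] S T^b`. -/
noncomputable def conjS (u : ModularForm (Gamma0 p) 2) (b : ℕ) : ℍ → ℂ :=
  (u : ℍ → ℂ) ∣[(2 : ℤ)] (st b)

theorem toSLR_one : toSLR 1 = 1 := by
  apply Subtype.ext; simp [toSLR]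

theorem conjFam_none (u : ModularForm (Gamma0 p) 2) :
    S23.conjFam u (cosetEquiv p none) = ⇑u := by
  rw [cosetEquiv_none, toSLR_one]
  exact S23.conjFam_one u

theorem conjFam_some (u : ModularForm (Gamma0 p) 2) (b : Fin p) :
    S23.conjFam u (cosetEquiv p (some b)) = conjS p u b := by
  rw [cosetEquiv_some, S23.conjFam_mk, conjS, ModularForm.SL_slash]
  congr 1
  simp [toSLR]
  rfl

/-- The trace of a weight-2 form to level one vanishes. -/
theorem trace_eq_zero (u : ModularForm (Gamma0 p) 2) :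
    (u : ℍ → ℂ) + ∑ b ∈ Finset.range p, conjS p u b = 0 := by
  have h0 : ModularForm.trace 𝒮ℒ u = 0 := by
    have := ModularForm.levelOne_weight_two_rank_zero
    rw [rank_zero_iff_forall_zero] at this
    exact this _
  have h1 : (⇑(ModularForm.trace 𝒮ℒ u) : ℍ → ℂ) = 0 := by rw [h0]; rfl
  rw [ModularForm.coe_trace] at h1
  rw [← h1]
  symm
  calc (∑ q : Q0 p, SlashInvariantForm.quotientFunc u q)
      = ∑ o : Option (Fin p), S23.conjFam u (cosetEquiv p o) := by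
        rw [← Equiv.sum_comp (cosetEquiv p)]
        rfl
    _ = S23.conjFam u (cosetEquiv p none) + ∑ b : Fin p, S23.conjFam u (cosetEquiv p (some b)) := by
        rw [Fintype.sum_option]
    _ = (u : ℍ → ℂ) + ∑ b ∈ Finset.range p, conjS p u b := by
        rw [conjFam_none, ← Fin.sum_univ_eq_sum_range (fun b => conjS p u b) p]
        congr 1
        exact Finset.sum_congr rfl fun b _ => conjFam_some p u b


/-! ### The Fricke involution -/

/-- The Fricke matrix `[[0,-1],[p,0]]`. -/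
noncomputable def Wp : GL (Fin 2) ℝ :=
  Matrix.GeneralLinearGroup.mkOfDetNeZero !![0, -1; (p : ℝ), 0] (by
    rw [Matrix.det_fin_two_of]
    have : (p : ℝ) ≠ 0 := by exact_mod_cast (Fact.out : p.Prime).ne_zero
    simpa using this)

@[simp] theorem val_Wp : ((Wp p : GL (Fin 2) ℝ) : Matrix (Fin 2) (Fin 2) ℝ) = !![0, -1; (p : ℝ), 0] := rfl

theorem coe_mapGL (g : SL(2, ℤ)) :
    ((mapGL ℝ g : GL (Fin 2) ℝ) : Matrix (Fin 2) (Fin 2) ℝ) =
      !![(g 0 0 : ℝ), (g 0 1 : ℝ); (g 1 0 : ℝ), (g 1 1 : ℝ)] := by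
  rw [mapGL_coe_matrix]
  ext i j; fin_cases i <;> fin_cases j <;> simp

/-- The Fricke conjugate of an element of `Γ₀(p)`. -/
theorem exists_fricke_conj (γ : SL(2, ℤ)) (hγ : γ ∈ Gamma0 p) :
    ∃ γ' ∈ Gamma0 p, Wp p * mapGL ℝ γ = mapGL ℝ γ' * Wp p ∧
      mapGL ℝ γ * Wp p = Wp p * mapGL ℝ γ' := by
  rw [Gamma0_mem] at hγ
  obtain ⟨c', hc'⟩ : (p : ℤ) ∣ γ 1 0 := (ZMod.intCast_zmod_eq_zero_iff_dvd _ _).mp hγ
  have hdet : γ 0 0 * γ 1 1 - γ 0 1 * γ 1 0 = 1 := by
    have := γ.det_coe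
    rwa [Matrix.det_fin_two] at this
  let γ' : SL(2, ℤ) := ⟨!![γ 1 1, -c'; -(p : ℤ) * γ 0 1, γ 0 0], by
    rw [Matrix.det_fin_two_of]
    rw [hc'] at hdet
    linear_combination hdet⟩
  have h00 : γ' 0 0 = γ 1 1 := rfl
  have h01 : γ' 0 1 = -c' := rfl
  have h10 : γ' 1 0 = -(p : ℤ) * γ 0 1 := rfl
  have h11 : γ' 1 1 = γ 0 0 := rfl
  have hc'R : (γ 1 0 : ℝ) = (p : ℝ) * (c' : ℝ) := by exact_mod_cast congrArg (Int.cast : ℤ → ℝ) hc'
  refine ⟨γ', ?_, ?_, ?_⟩
  · rw [Gamma0_mem, h10]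
    simp
  · apply Matrix.GeneralLinearGroup.ext
    intro i j
    simp only [Matrix.GeneralLinearGroup.coe_mul, val_Wp, coe_mapGL, h00, h01, h10, h11]
    fin_cases i <;> fin_cases j <;> simp [Matrix.mul_apply, Fin.sum_univ_two, hc'R] <;> ring
  · apply Matrix.GeneralLinearGroup.ext
    intro i j
    simp only [Matrix.GeneralLinearGroup.coe_mul, val_Wp, coe_mapGL, h00, h01, h10, h11]
    fin_cases i <;> fin_cases j <;> simp [Matrix.mul_apply, Fin.sum_univ_two, hc'R] <;> ring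


open ConjAct Pointwise in
theorem conj_Wp_G0 : toConjAct (Wp p)⁻¹ • G0 p = G0 p := by
  ext x
  rw [Subgroup.mem_pointwise_smul_iff_inv_smul_mem, ← map_inv, inv_inv, ConjAct.toConjAct_smul]
  constructor
  · rintro ⟨γ, hγ, h⟩
    obtain ⟨γ', hγ', -, h2⟩ := exists_fricke_conj p γ hγ
    refine ⟨γ', hγ', ?_⟩
    have : x = (Wp p)⁻¹ * mapGL ℝ γ * Wp p := by
      rw [h]; group
    rw [this, mul_assoc, h2, ← mul_assoc, inv_mul_cancel, one_mul]
  · rintro ⟨γ, hγ, rfl⟩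
    obtain ⟨γ', hγ', h1, -⟩ := exists_fricke_conj p γ hγ
    refine ⟨γ', hγ', ?_⟩
    rw [h1, mul_assoc, mul_inv_cancel, mul_one]

/-- `u ∣[2] W_p` as a modular form of level `Γ₀(p)`. -/
noncomputable def vW (u : ModularForm (Gamma0 p) 2) : ModularForm (Gamma0 p) 2 :=
  ModularForm.mcast rfl (ModularForm.translate u (Wp p)) (conj_Wp_G0 p).symm

theorem coe_vW (u : ModularForm (Gamma0 p) 2) : ⇑(vW p u) = (u : ℍ → ℂ) ∣[(2 : ℤ)] Wp p := rfl


/-! ### Matrix identities -/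

instance instNeZeroP : NeZero p := ⟨(Fact.out : p.Prime).ne_zero⟩

/-- `p` as a unit of `ℝ`. -/
noncomputable def pUnit : ℝˣ := Units.mk0 (p : ℝ) (by exact_mod_cast (Fact.out : p.Prime).ne_zero)

theorem slash_scalar (f : ℍ → ℂ) (c : ℝˣ) :
    f ∣[(2 : ℤ)] (Matrix.GeneralLinearGroup.scalar (Fin 2) c) = f := by
  ext τ
  have hc : (c : ℝ) ≠ 0 := c.ne_zero
  have hdetv : (((Matrix.GeneralLinearGroup.scalar (Fin 2) c).det : ℝˣ) : ℝ) = (c : ℝ) ^ 2 := by
    rw [Matrix.GeneralLinearGroup.det_scalar]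
    simp
  have hdet : (0 : ℝ) < ((Matrix.GeneralLinearGroup.scalar (Fin 2) c).det : ℝˣ) := by
    rw [hdetv]; positivity
  rw [ModularForm.slash_apply, UpperHalfPlane.σ, if_pos hdet, hdetv, glScalar_smul, denom_scalar]
  have hcC : ((c : ℝ) : ℂ) ≠ 0 := by exact_mod_cast hc
  simp only [ContinuousAlgEquiv.refl_apply, abs_pow, Complex.ofReal_pow]
  have habs : ((|(c : ℝ)| : ℝ) : ℂ) ^ 2 = ((c : ℝ) : ℂ) ^ 2 := by
    rw [← Complex.ofReal_pow, sq_abs, Complex.ofReal_pow]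
  have h1 : f τ * ((|(c : ℝ)| : ℝ) : ℂ) ^ 2 * (((c : ℝ) : ℂ) ^ 2)⁻¹ = f τ := by
    rw [habs]; field_simp
  simpa [zpow_neg] using h1

theorem Wp_mul_heckeMatrix (b : ℕ) :
    Wp p * heckeMatrix p b =
      Matrix.GeneralLinearGroup.scalar (Fin 2) (pUnit p) * mapGL ℝ (st b) := by
  apply Matrix.GeneralLinearGroup.ext
  intro i j
  simp only [Matrix.GeneralLinearGroup.coe_mul, val_Wp, coe_mapGL,
    val_heckeMatrix (Fact.out : p.Prime).ne_zero, Matrix.GeneralLinearGroup.coe_scalar, coe_st]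
  fin_cases i <;> fin_cases j <;>
    simp [Matrix.mul_apply, Fin.sum_univ_two, pUnit, Matrix.natCast_apply]

theorem Wp_mul_Wp :
    Wp p * Wp p = Matrix.GeneralLinearGroup.scalar (Fin 2) (-(pUnit p)) := by
  apply Matrix.GeneralLinearGroup.ext
  intro i j
  simp only [Matrix.GeneralLinearGroup.coe_mul, val_Wp, Matrix.GeneralLinearGroup.coe_scalar]
  fin_cases i <;> fin_cases j <;> simp [Matrix.mul_apply, Fin.sum_univ_two, pUnit, Matrix.scalar_apply]


/-! ### `U_p` and the weight-2 structure -/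

/-- The operator `U_p` on `M₂(Γ₀(p))`. -/
noncomputable def Up (u : ModularForm (Gamma0 p) 2) : ModularForm (Gamma0 p) 2 :=
  ModularForm.heckeULin 2 (dvd_refl p) u

theorem coe_Up (u : ModularForm (Gamma0 p) 2) : ⇑(Up p u) = heckeU 2 p ⇑u := rfl

theorem Up_neg (u : ModularForm (Gamma0 p) 2) : Up p (-u) = -Up p u :=
  (ModularForm.heckeULin 2 (dvd_refl p)).map_neg u

theorem Up_add (u v : ModularForm (Gamma0 p) 2) : Up p (u + v) = Up p u + Up p v :=
  (ModularForm.heckeULin 2 (dvd_refl p)).map_add u v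

theorem Up_smul (c : ℂ) (u : ModularForm (Gamma0 p) 2) : Up p (c • u) = c • Up p u :=
  (ModularForm.heckeULin 2 (dvd_refl p)).map_smul c u

theorem qCoeff_Up (u : ModularForm (Gamma0 p) 2) (n : ℕ) :
    qCoeff (Up p u) n = qCoeff u (n * p) := by
  have := ModularFormClass.qCoeff_heckeU u (CongruenceSubgroup.one_mem_strictPeriods_Gamma0 p)
    (Fact.out : p.Prime).ne_zero n
  simpa [Up, ModularForm.coeffHeckeU] using this

theorem qCoeff_Up' (u : ModularForm (Gamma0 p) 2) (n : ℕ) :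
    qCoeff (Up p u) n = qCoeff u (p * n) := by
  rw [qCoeff_Up, mul_comm]

theorem conjS_eq (u : ModularForm (Gamma0 p) 2) (b : ℕ) :
    conjS p u b = ⇑(vW p u) ∣[(2 : ℤ)] heckeMatrix p b := by
  rw [coe_vW, ← SlashAction.slash_mul, Wp_mul_heckeMatrix, SlashAction.slash_mul, slash_scalar,
    conjS, ModularForm.SL_slash]
  rfl

theorem sum_conjS (u : ModularForm (Gamma0 p) 2) :
    ∑ b ∈ Finset.range p, conjS p u b = ⇑(Up p (vW p u)) := by
  simp only [conjS_eq, coe_Up, heckeU_def]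

theorem eq_neg_Up_vW (u : ModularForm (Gamma0 p) 2) : u = -Up p (vW p u) := by
  apply DFunLike.coe_injective
  have h := trace_eq_zero p u
  rw [sum_conjS] at h
  rw [FunLike.coe_neg]
  exact eq_neg_of_add_eq_zero_left h

theorem vW_vW (u : ModularForm (Gamma0 p) 2) : vW p (vW p u) = u := by
  apply DFunLike.coe_injective
  rw [coe_vW, coe_vW, ← SlashAction.slash_mul, Wp_mul_Wp, slash_scalar]

/-- In weight 2 the Fricke involution is `-U_p`. -/
theorem vW_eq (u : ModularForm (Gamma0 p) 2) : vW p u = -Up p u := by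
  have h := eq_neg_Up_vW p (vW p u)
  rwa [vW_vW] at h

theorem slash_W (u : ModularForm (Gamma0 p) 2) :
    (u : ℍ → ℂ) ∣[(2 : ℤ)] Wp p = -⇑(Up p u) := by
  rw [← coe_vW, vW_eq, FunLike.coe_neg]

/-- `U_p² = 1` on `M₂(Γ₀(p))`. -/
theorem Up_Up (u : ModularForm (Gamma0 p) 2) : Up p (Up p u) = u := by
  have h := eq_neg_Up_vW p u
  rw [vW_eq, Up_neg, neg_neg] at h
  exact h.symm

theorem qCoeff_eq_qCoeff_Up (u : ModularForm (Gamma0 p) 2) (n : ℕ) :
    qCoeff u n = qCoeff (Up p u) (p * n) := by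
  conv_lhs => rw [← Up_Up p u]
  rw [qCoeff_Up']

/-! ### Expansions in `Y = q^{1/p}` -/

/-- `ζ = exp(2πi/p)`. -/
noncomputable def zeta : ℂ := Complex.exp (2 * Real.pi * Complex.I / p)

/-- `Y = q^{1/p} = exp(2πiτ/p)`. -/
noncomputable def Yp (τ : ℍ) : ℂ := Function.Periodic.qParam (p : ℝ) τ

theorem Yp_def (τ : ℍ) : Yp p τ = Complex.exp (2 * Real.pi * Complex.I * τ / p) := by
  simp [Yp, Function.Periodic.qParam]

theorem zeta_pow_p : zeta p ^ p = 1 := by
  have hp : (p : ℂ) ≠ 0 := by exact_mod_cast (Fact.out : p.Prime).ne_zero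
  rw [zeta, ← Complex.exp_nat_mul, mul_div_cancel₀ _ hp, Complex.exp_two_pi_mul_I]

theorem Yp_pow_p (τ : ℍ) : Yp p τ ^ p = Function.Periodic.qParam 1 τ := by
  have hp : (p : ℂ) ≠ 0 := by exact_mod_cast (Fact.out : p.Prime).ne_zero
  rw [Yp_def, ← Complex.exp_nat_mul, mul_div_cancel₀ _ hp]
  simp [Function.Periodic.qParam]

theorem norm_Yp_lt_one (τ : ℍ) : ‖Yp p τ‖ < 1 :=
  Function.Periodic.norm_qParam_lt_one
    (by exact_mod_cast (Fact.out : p.Prime).pos) τ.im_pos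

theorem qParam_heckeMatrix_smul (b : ℕ) (τ : ℍ) :
    Function.Periodic.qParam 1 ((heckeMatrix p b • τ : ℍ) : ℂ) = zeta p ^ b * Yp p τ := by
  have hp : (p : ℂ) ≠ 0 := by exact_mod_cast (Fact.out : p.Prime).ne_zero
  rw [coe_heckeMatrix_smul (Fact.out : p.Prime).ne_zero, Yp_def, zeta, ← Complex.exp_nat_mul,
    ← Complex.exp_add]
  simp only [Function.Periodic.qParam]
  congr 1
  push_cast
  field_simp
  ring

/-- The coefficient series of `u` in the variable `Y`. -/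
noncomputable def cInf (u : ModularForm (Gamma0 p) 2) : PowerSeries ℂ :=
  PowerSeries.mk fun m => if p ∣ m then qCoeff u (m / p) else 0

/-- The coefficient series of `u ∣ S T^b` in the variable `Y`. -/
noncomputable def cB (u : ModularForm (Gamma0 p) 2) (b : ℕ) : PowerSeries ℂ :=
  PowerSeries.mk fun n => -(1 / (p : ℂ)) * qCoeff (Up p u) n * zeta p ^ (b * n)

@[simp] theorem coeff_cInf (u : ModularForm (Gamma0 p) 2) (m : ℕ) :
    (cInf p u).coeff m = if p ∣ m then qCoeff u (m / p) else 0 := by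
  simp [cInf]

@[simp] theorem coeff_cB (u : ModularForm (Gamma0 p) 2) (b n : ℕ) :
    (cB p u b).coeff n = -(1 / (p : ℂ)) * qCoeff (Up p u) n * zeta p ^ (b * n) := by
  simp [cB]

theorem hasSum_qExp (u : ModularForm (Gamma0 p) 2) (τ : ℍ) :
    HasSum (fun m => qCoeff u m * Function.Periodic.qParam 1 τ ^ m) (u τ) :=
  ModularForm.hasSum_qExpansion (f := u) (h := 1) one_pos
    (CongruenceSubgroup.one_mem_strictPeriods_Gamma0 p) τ

theorem hasSum_cInf (u : ModularForm (Gamma0 p) 2) (τ : ℍ) :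
    HasSum (fun m => (cInf p u).coeff m * Yp p τ ^ m) (u τ) := by
  have hpos : 0 < p := (Fact.out : p.Prime).pos
  have hinj : Function.Injective (fun n : ℕ => p * n) := fun a b h =>
    Nat.eq_of_mul_eq_mul_left hpos h
  rw [← hinj.hasSum_iff]
  · convert hasSum_qExp p u τ using 2 with n
    simp only [Function.comp_apply, coeff_cInf, dvd_mul_right, if_true,
      Nat.mul_div_cancel_left _ hpos]
    rw [pow_mul, Yp_pow_p]
  · intro m hm
    have : ¬ p ∣ m := fun ⟨n, hn⟩ => hm ⟨n, hn.symm⟩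
    simp [this]

theorem hasSum_cB (u : ModularForm (Gamma0 p) 2) (b : ℕ) (τ : ℍ) :
    HasSum (fun n => (cB p u b).coeff n * Yp p τ ^ n) (conjS p u b τ) := by
  have hp : p ≠ 0 := (Fact.out : p.Prime).ne_zero
  have h1 : conjS p u b τ = -(1 / (p : ℂ)) * (Up p u) (heckeMatrix p b • τ) := by
    rw [conjS_eq, slash_heckeMatrix_apply 2 hp, vW_eq, FunLike.coe_neg, Pi.neg_apply]
    ring
  rw [h1]
  have h2 := (hasSum_qExp p (Up p u) (heckeMatrix p b • τ)).mul_left (-(1 / (p : ℂ)))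
  have h3 : (fun n => (cB p u b).coeff n * Yp p τ ^ n) = fun i => -(1 / (p : ℂ)) *
      (qCoeff (⇑(Up p u)) i * Function.Periodic.qParam 1 ((heckeMatrix p b • τ : ℍ) : ℂ) ^ i) := by
    funext n
    rw [qParam_heckeMatrix_smul, coeff_cB, mul_pow, ← pow_mul]
    ring
  rw [h3]
  exact h2

/-! ### Identity theorem in the variable `Y` -/

theorem p_mem_strictPeriods : (p : ℝ) ∈ (G0 p).strictPeriods := by
  have h := AddSubgroup.nsmul_mem _ (CongruenceSubgroup.one_mem_strictPeriods_Gamma0 p) p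
  simpa using h

theorem powerSeries_eq_zero_of_hasSum {C : PowerSeries ℂ}
    (h : ∀ τ : ℍ, HasSum (fun n => C.coeff n * Yp p τ ^ n) 0) : C = 0 := by
  have hpos : (0 : ℝ) < p := by exact_mod_cast (Fact.out : p.Prime).pos
  have hf : ∀ τ : ℍ, HasSum
      (fun n => (PowerSeries.coeff n C) • Function.Periodic.qParam (p : ℝ) τ ^ n)
      ((0 : ModularForm (Gamma0 p) 2) τ) := by
    intro τ
    have := h τ
    simp only [Yp] at this
    simpa only [smul_eq_mul, zero_apply] using this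
  have key : ∀ m, PowerSeries.coeff m C = 0 := by
    intro m
    have := ModularFormClass.qExpansion_coeff_unique (c := fun n => PowerSeries.coeff n C)
      hpos (p_mem_strictPeriods p) (f := (0 : ModularForm (Gamma0 p) 2)) hf m
    rw [this, FunLike.coe_zero, UpperHalfPlane.qExpansion_zero]
    simp
  exact PowerSeries.ext (by simpa using key)

theorem powerSeries_ext_of_hasSum {A B : PowerSeries ℂ}
    (h : ∀ τ : ℍ, ∃ s, HasSum (fun n => A.coeff n * Yp p τ ^ n) s ∧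
      HasSum (fun n => B.coeff n * Yp p τ ^ n) s) : A = B := by
  rw [← sub_eq_zero]
  apply powerSeries_eq_zero_of_hasSum p
  intro τ
  obtain ⟨s, hA, hB⟩ := h τ
  have := hA.sub hB
  simpa [sub_mul] using this

end Fermat.Agent.Eis.N1a
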