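import Fermat.Agent.Eis.ConjA
import Fermat.Agent.Eis.Defs

/-!
# Program E (S16), node N1a: bridge from `Eis/ConjA.lean` to the shared vocabulary of `Eis/Defs.lean`

`N1a.cB p u b = Eis.conjFin p (U_p u) b`, `N1a.cInf p u = Eis.conjInf p _ u`, `N1a.zeta p = Eis.zetaC p`,
and the two coefficient relations of `Eis.ConjPackage` for `ut := N1a.Up p u`.
-/

set_option autoImplicit false
set_option linter.unusedSectionVars false

open UpperHalfPlane CongruenceSubgroup ModularFormClass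
open scoped MatrixGroups ModularForm

namespace Fermat.Agent.Eis.N1a

variable (p : ℕ) [Fact p.Prime]

theorem zeta_eq_zetaC : zeta p = Fermat.Agent.Eis.zetaC p := rfl

theorem cB_eq_conjFin (u : ModularForm (Gamma0 p) 2) (b : ℕ) :
    cB p u b = Fermat.Agent.Eis.conjFin p (⇑(Up p u)) b := rfl

theorem cInf_eq_conjInf (hp : p ≠ 0) (u : ModularForm (Gamma0 p) 2) :
    cInf p u = Fermat.Agent.Eis.conjInf p hp (⇑u) := by
  ext m
  rw [coeff_cInf, Fermat.Agent.Eis.conjInf, PowerSeries.coeff_expand]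
  rfl

/-- The two coefficient relations required by `Eis.ConjPackage`, for `ut := U_p u`. -/
theorem conjPackage_coeffs (u : ModularForm (Gamma0 p) 2) :
    (∀ n : ℕ, qCoeff (Up p u) n = qCoeff u (p * n)) ∧
      (∀ n : ℕ, qCoeff u n = qCoeff (Up p u) (p * n)) :=
  ⟨qCoeff_Up' p u, qCoeff_eq_qCoeff_Up p u⟩

/-- `Y`-expansion of the conjugate `u ∣ S T^b` in the vocabulary of `Eis/Defs.lean`. -/
theorem hasSum_conjFin (u : ModularForm (Gamma0 p) 2) (b : ℕ) (τ : ℍ) :
    HasSum (fun n => (Fermat.Agent.Eis.conjFin p (⇑(Up p u)) b).coeff n * Yp p τ ^ n)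
      (((u : ℍ → ℂ) ∣[(2 : ℤ)] (ModularGroup.S * ModularGroup.T ^ b)) τ) :=
  hasSum_cB p u b τ

/-- `Y`-expansion of `u` itself in the vocabulary of `Eis/Defs.lean`. -/
theorem hasSum_conjInf (hp : p ≠ 0) (u : ModularForm (Gamma0 p) 2) (τ : ℍ) :
    HasSum (fun n => (Fermat.Agent.Eis.conjInf p hp (⇑u)).coeff n * Yp p τ ^ n) (u τ) := by
  rw [← cInf_eq_conjInf]
  exact hasSum_cInf p u τ

end Fermat.Agent.Eis.N1a
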