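/-
Program E: congruences of the conjugates of a form `u ≡ 1 mod l^e` (shared by N3–N6).
-/
import Fermat.Agent.Eis.Defs

set_option autoImplicit false

open CongruenceSubgroup ModularFormClass UpperHalfPlane

namespace Fermat.Agent.Eis

/-- A rational number of `l`-adic valuation at least `e`, divided by `l ^ e`, is `l`-integral. -/
theorem ratCast_div_pow_mem_IntAt {l : ℕ} [hl : Fact l.Prime] (e : ℕ) {r : ℚ}
    (hr : r = 0 ∨ (e : ℤ) ≤ padicValRat l r) : ((r : ℂ) / (l : ℂ) ^ e) ∈ IntAt l := by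
  have h : (((r / (l : ℚ) ^ e : ℚ)) : ℂ) ∈ IntAt l := by
    apply ratCast_mem_IntAt_of_padicValRat
    rcases hr with rfl | hr
    · left; simp
    · by_cases h0 : r = 0
      · left; simp [h0]
      · right
        have hl0 : ((l : ℚ) ^ e) ≠ 0 := pow_ne_zero _ (by exact_mod_cast hl.out.ne_zero)
        rw [padicValRat.div h0 hl0, padicValRat.pow]
        have : padicValRat l (l : ℚ) = 1 := padicValRat.self hl.out.one_lt
        rw [this]
        simpa using hr
  simpa using h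

/-- The predicate "`u ≡ 1` modulo `l ^ e`" on `q`-coefficients used in `UnitCong`. -/
def IsUnitCong (l e : ℕ) (u : ℍ → ℂ) : Prop :=
  qCoeff u 0 = 1 ∧ ∀ k : ℕ, 1 ≤ k →
    ∃ r : ℚ, qCoeff u k = (r : ℂ) ∧ (r = 0 ∨ (e : ℤ) ≤ padicValRat l r)

theorem unitCong_iff (p l e : ℕ) :
    UnitCong p l e ↔ ∃ u : ModularForm (Gamma0 p) 2, IsUnitCong l e u := Iff.rfl

/-- The conjugate at infinity is `≡ 1` modulo `l ^ e`. -/
theorem conjInf_cong {l : ℕ} [hl : Fact l.Prime] (e p : ℕ) (hp : p ≠ 0) (u : ℍ → ℂ)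
    (hu : IsUnitCong l e u) :
    ∃ H ∈ psSub (IntAt l), conjInf p hp u - 1 = PowerSeries.C ((l : ℂ) ^ e) * H := by
  obtain ⟨h0, hk⟩ := hu
  have hl0 : ((l : ℂ) ^ e) ≠ 0 := pow_ne_zero _ (by exact_mod_cast hl.out.ne_zero)
  let H0 : PowerSeries ℂ := PowerSeries.mk fun n => if n = 0 then 0 else qCoeff u n / (l : ℂ) ^ e
  have hH0 : H0 ∈ psSub (IntAt l) := by
    intro n
    simp only [H0, PowerSeries.coeff_mk]
    split_ifs with hn
    · exact (IntAt l).zero_mem
    · obtain ⟨r, hr, hv⟩ := hk n (Nat.one_le_iff_ne_zero.2 hn)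
      rw [hr]
      exact ratCast_div_pow_mem_IntAt e hv
  have hq : qExpansion 1 u - 1 = PowerSeries.C ((l : ℂ) ^ e) * H0 := by
    ext n
    rw [PowerSeries.coeff_C_mul, map_sub, PowerSeries.coeff_one]
    simp only [H0, PowerSeries.coeff_mk]
    by_cases hn : n = 0
    · subst hn
      have : (PowerSeries.coeff 0) (qExpansion 1 u) = 1 := h0
      simp [this]
    · simp only [hn, if_false]
      have : (PowerSeries.coeff n) (qExpansion 1 u) = qCoeff u n := rfl
      rw [this]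
      field_simp
      ring
  refine ⟨PowerSeries.expand p hp H0, expand_mem_psSub p hp hH0, ?_⟩
  unfold conjInf
  have := congrArg (PowerSeries.expand p hp) hq
  rw [map_sub, map_one, map_mul, PowerSeries.expand_C] at this
  exact this

/-- The finite conjugates are `≡ -1/p` modulo `l ^ e` (for `l ≠ p`). -/
theorem conjFin_cong {l : ℕ} [hl : Fact l.Prime] (e p : ℕ) (hp : p ≠ 0) (hlp : ¬ l ∣ p)
    (u ut : ℍ → ℂ) (hu : IsUnitCong l e u) (hut : ∀ n : ℕ, qCoeff ut n = qCoeff u (p * n))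
    (b : ℕ) :
    ∃ H ∈ psSub (IntAt l),
      conjFin p ut b - PowerSeries.C (-(1 / (p : ℂ))) = PowerSeries.C ((l : ℂ) ^ e) * H := by
  obtain ⟨h0, hk⟩ := hu
  have hl0 : ((l : ℂ) ^ e) ≠ 0 := pow_ne_zero _ (by exact_mod_cast hl.out.ne_zero)
  have hpinv : (1 / (p : ℂ)) ∈ IntAt l := by
    rw [one_div]; exact inv_natCast_mem_IntAt hlp
  have hz : zetaC p ∈ IntAt l := zetaC_mem_IntAt p hp l
  let H0 : PowerSeries ℂ := PowerSeries.mk fun n =>
    if n = 0 then 0 else -(1 / (p : ℂ)) * (qCoeff ut n / (l : ℂ) ^ e) * zetaC p ^ (b * n)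
  refine ⟨H0, ?_, ?_⟩
  · intro n
    simp only [H0, PowerSeries.coeff_mk]
    split_ifs with hn
    · exact (IntAt l).zero_mem
    · have hpn : 1 ≤ p * n :=
        Nat.one_le_iff_ne_zero.2 (Nat.mul_ne_zero hp hn)
      obtain ⟨r, hr, hv⟩ := hk (p * n) hpn
      rw [hut n, hr]
      exact (IntAt l).mul_mem ((IntAt l).mul_mem ((IntAt l).neg_mem hpinv)
        (ratCast_div_pow_mem_IntAt e hv)) ((IntAt l).pow_mem hz _)
  · ext n
    rw [PowerSeries.coeff_C_mul, map_sub, PowerSeries.coeff_C]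
    simp only [conjFin, H0, PowerSeries.coeff_mk]
    by_cases hn : n = 0
    · subst hn
      have : qCoeff ut 0 = 1 := by rw [hut 0, Nat.mul_zero, h0]
      simp [this]
    · simp only [hn, if_false]
      field_simp
      ring

end Fermat.Agent.Eis
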