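import Mathlib

/-!
# Program E (S16), node N1b: coset enumeration `Γ₀(p) \ SL(2,ℤ)` for Mathlib's `NormTrace`

For a prime `p` we enumerate the index type
`𝒬 = 𝒮ℒ ⧸ (Γ₀(p)).subgroupOf 𝒮ℒ` of Mathlib's `SlashInvariantForm.quotientFunc`,
`ModularForm.trace`, `ModularForm.norm` by `Option (Fin p)`:
`none ↦ 1`, `some b ↦ S * T ^ b` (right coset representatives), so that
`quotientFunc f (cosetEquiv p o) = f ∣[k] repSL p o`.
-/

set_option autoImplicit false

namespace Fermat.Agent.Eis.ConjSym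

open UpperHalfPlane CongruenceSubgroup Matrix.SpecialLinearGroup
open scoped MatrixGroups ModularForm

variable (p : ℕ)

/-- The level group `Γ₀(p)` as a subgroup of `GL(2,ℝ)`. -/
abbrev Gam : Subgroup (GL (Fin 2) ℝ) := ((Gamma0 p : Subgroup SL(2, ℤ)) : Subgroup (GL (Fin 2) ℝ))

/-- The index type of Mathlib's norm/trace from `Γ₀(p)` to level one. -/
abbrev Quo : Type := ↥𝒮ℒ ⧸ (Gam p).subgroupOf 𝒮ℒ

/-- Right coset representatives of `Γ₀(p) \ SL(2,ℤ)`: `1` and `S * T ^ b`, `0 ≤ b < p`. -/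
noncomputable def repSL : Option (Fin p) → SL(2, ℤ)
  | none => 1
  | some b => ModularGroup.S * ModularGroup.T ^ (b : ℕ)

@[simp] theorem repSL_none : repSL p none = 1 := rfl

@[simp] theorem repSL_some (b : Fin p) :
    repSL p (some b) = ModularGroup.S * ModularGroup.T ^ (b : ℕ) := rfl

theorem coe_S_mul_T_pow (b : ℕ) :
    ((ModularGroup.S * ModularGroup.T ^ b : SL(2, ℤ)) : Matrix (Fin 2) (Fin 2) ℤ) =
      !![0, -1; 1, (b : ℤ)] := by
  rw [Matrix.SpecialLinearGroup.coe_mul, ← zpow_natCast, ModularGroup.coe_T_zpow, ModularGroup.coe_S]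
  ext i j
  fin_cases i <;> fin_cases j <;> simp [Matrix.mul_apply, Fin.sum_univ_two]

theorem repSL_some_one_zero (b : Fin p) : (repSL p (some b)) 1 0 = 1 := by
  rw [repSL_some, coe_S_mul_T_pow]; rfl

theorem repSL_some_one_one (b : Fin p) : (repSL p (some b)) 1 1 = (b : ℤ) := by
  rw [repSL_some, coe_S_mul_T_pow]; rfl

theorem repSL_none_one_zero : (repSL p none) 1 0 = 0 := by simp

theorem repSL_none_one_one : (repSL p none) 1 1 = 1 := by simp

/-- The class of `γ⁻¹` in `𝒮ℒ ⧸ Γ₀(p)`; the conjugate attached to it is `f ∣[k] γ`. -/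
noncomputable def mkQ (γ : SL(2, ℤ)) : Quo p :=
  QuotientGroup.mk (⟨mapGL ℝ γ⁻¹, ⟨γ⁻¹, rfl⟩⟩ : ↥𝒮ℒ)

theorem mkQ_surjective : Function.Surjective (mkQ p) := by
  intro q
  induction q using QuotientGroup.induction_on with
  | H h =>
    obtain ⟨h, γ, rfl⟩ := h
    refine ⟨γ⁻¹, ?_⟩
    simp only [mkQ, inv_inv]

theorem mul_inv_one_zero (γ δ : SL(2, ℤ)) :
    (γ * δ⁻¹) 1 0 = γ 1 0 * δ 1 1 - γ 1 1 * δ 1 0 := by
  rw [Matrix.SpecialLinearGroup.coe_mul, Matrix.SpecialLinearGroup.coe_inv,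
    Matrix.adjugate_fin_two, Matrix.mul_apply, Fin.sum_univ_two]
  simp only [Matrix.of_apply, Matrix.cons_val', Matrix.cons_val_zero, Matrix.cons_val_one,
    Matrix.cons_val_fin_one]
  ring

theorem mkQ_eq_mkQ_iff (γ δ : SL(2, ℤ)) :
    mkQ p γ = mkQ p δ ↔ (p : ℤ) ∣ γ 1 0 * δ 1 1 - γ 1 1 * δ 1 0 := by
  rw [mkQ, mkQ, QuotientGroup.eq, Subgroup.mem_subgroupOf]
  have h1 : (((⟨mapGL ℝ γ⁻¹, ⟨γ⁻¹, rfl⟩⟩ : ↥𝒮ℒ)⁻¹ * (⟨mapGL ℝ δ⁻¹, ⟨δ⁻¹, rfl⟩⟩ : ↥𝒮ℒ) : ↥𝒮ℒ) :
      GL (Fin 2) ℝ) = mapGL ℝ (γ * δ⁻¹) := by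
    simp [map_mul, map_inv]
  rw [h1, Subgroup.mem_map_iff_mem (mapGL_injective), Gamma0_mem, mul_inv_one_zero,
    ZMod.intCast_zmod_eq_zero_iff_dvd]

variable [hp : Fact p.Prime]

theorem mkQ_repSL_injective : Function.Injective fun o => mkQ p (repSL p o) := by
  have hp2 : (2 : ℤ) ≤ p := by exact_mod_cast hp.out.two_le
  rintro (_ | b) (_ | b') h
  · rfl
  · exfalso
    have h' := (mkQ_eq_mkQ_iff p _ _).mp h
    rw [repSL_none_one_zero, repSL_none_one_one, repSL_some_one_zero] at h'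
    have : (p : ℤ) ∣ 1 := by simpa using (dvd_neg.mpr h')
    have := Int.le_of_dvd one_pos this
    omega
  · exfalso
    have h' := (mkQ_eq_mkQ_iff p _ _).mp h
    rw [repSL_none_one_zero, repSL_none_one_one, repSL_some_one_zero] at h'
    have : (p : ℤ) ∣ 1 := by simpa using h'
    have := Int.le_of_dvd one_pos this
    omega
  · have h' := (mkQ_eq_mkQ_iff p _ _).mp h
    rw [repSL_some_one_zero, repSL_some_one_one, repSL_some_one_zero, repSL_some_one_one] at h'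
    have hb := b.isLt
    have hb' := b'.isLt
    have : (b' : ℤ) = b := by
      obtain ⟨c, hc⟩ := h'
      have hc' : (b' : ℤ) - b = p * c := by linarith
      have h1 : -(p : ℤ) < p * c := by rw [← hc']; omega
      have h2 : (p : ℤ) * c < p := by rw [← hc']; omega
      have hp0 : (0 : ℤ) < p := by omega
      have hc1 : -1 < c := by
        by_contra hcon
        have : c ≤ -1 := by omega
        nlinarith
      have hc2 : c < 1 := by
        by_contra hcon
        have : 1 ≤ c := by omega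
        nlinarith
      have : c = 0 := by omega
      rw [this] at hc'
      linarith
    congr 1
    apply Fin.ext
    exact_mod_cast this.symm

theorem mkQ_repSL_surjective : Function.Surjective fun o => mkQ p (repSL p o) := by
  intro q
  obtain ⟨γ, rfl⟩ := mkQ_surjective p q
  by_cases hc : (p : ℤ) ∣ γ 1 0
  · refine ⟨none, ?_⟩
    show mkQ p (repSL p none) = mkQ p γ
    rw [eq_comm, mkQ_eq_mkQ_iff, repSL_none_one_zero, repSL_none_one_one]
    simpa using hc
  · have hcz : ((γ 1 0 : ℤ) : ZMod p) ≠ 0 := by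
      rwa [Ne, ZMod.intCast_zmod_eq_zero_iff_dvd]
    let β : ZMod p := ((γ 1 1 : ℤ) : ZMod p) * ((γ 1 0 : ℤ) : ZMod p)⁻¹
    have hβ : ((γ 1 0 : ℤ) : ZMod p) * β = ((γ 1 1 : ℤ) : ZMod p) := by
      simp only [β]
      field_simp
    have : NeZero p := ⟨hp.out.ne_zero⟩
    refine ⟨some ⟨β.val, ZMod.val_lt β⟩, ?_⟩
    show mkQ p (repSL p (some _)) = mkQ p γ
    rw [eq_comm, mkQ_eq_mkQ_iff, repSL_some_one_zero, repSL_some_one_one,
      ← ZMod.intCast_zmod_eq_zero_iff_dvd]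
    push_cast
    rw [ZMod.natCast_zmod_val, hβ]
    ring

/-- Enumeration of `𝒮ℒ ⧸ Γ₀(p)` by `Option (Fin p)`. -/
noncomputable def cosetEquiv : Option (Fin p) ≃ Quo p :=
  Equiv.ofBijective (fun o => mkQ p (repSL p o)) ⟨mkQ_repSL_injective p, mkQ_repSL_surjective p⟩

theorem cosetEquiv_apply (o : Option (Fin p)) : cosetEquiv p o = mkQ p (repSL p o) := rfl

omit hp in
theorem quotientFunc_mkQ {F : Type*} [FunLike F ℍ ℂ] {k : ℤ} (f : F)
    [SlashInvariantFormClass F (Gam p) k] (γ : SL(2, ℤ)) :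
    SlashInvariantForm.quotientFunc f (mkQ p γ) = (f : ℍ → ℂ) ∣[k] γ := by
  rw [mkQ, SlashInvariantForm.quotientFunc_mk]
  simp only [map_inv, inv_inv]
  rfl

theorem quotientFunc_cosetEquiv {F : Type*} [FunLike F ℍ ℂ] {k : ℤ} (f : F)
    [SlashInvariantFormClass F (Gam p) k] (o : Option (Fin p)) :
    SlashInvariantForm.quotientFunc f (cosetEquiv p o) = (f : ℍ → ℂ) ∣[k] (repSL p o) := by
  rw [cosetEquiv_apply, quotientFunc_mkQ]

/-- The trace to level one as an explicit sum over `1` and `S * T ^ b`. -/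
theorem coe_trace_eq {k : ℤ} (u : ModularForm (Gamma0 p) k) :
    (⇑(ModularForm.trace 𝒮ℒ u) : ℍ → ℂ) =
      ⇑u + ∑ b ∈ Finset.range p, (⇑u : ℍ → ℂ) ∣[k] (ModularGroup.S * ModularGroup.T ^ b) := by
  rw [ModularForm.coe_trace]
  let _ : Fintype (Quo p) := Fintype.ofFinite _
  have h := Fintype.sum_equiv (cosetEquiv p).symm
    (fun q => SlashInvariantForm.quotientFunc u q)
    (fun o => (⇑u : ℍ → ℂ) ∣[k] (repSL p o))
    (fun q => by rw [← quotientFunc_cosetEquiv, Equiv.apply_symm_apply])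
  refine h.trans ?_
  · rw [Fintype.sum_option, repSL_none, SlashAction.slash_one, ← Fin.sum_univ_eq_sum_range
      (fun b => (⇑u : ℍ → ℂ) ∣[k] (ModularGroup.S * ModularGroup.T ^ b))]
    rfl

/-- The norm to level one as an explicit product over `1` and `S * T ^ b`. -/
theorem coe_norm_eq {k : ℤ} (u : ModularForm (Gamma0 p) k) :
    (⇑(ModularForm.norm 𝒮ℒ u) : ℍ → ℂ) =
      ⇑u * ∏ b ∈ Finset.range p, (⇑u : ℍ → ℂ) ∣[k] (ModularGroup.S * ModularGroup.T ^ b) := by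
  rw [ModularForm.coe_norm]
  let _ : Fintype (Quo p) := Fintype.ofFinite _
  have h := Fintype.prod_equiv (cosetEquiv p).symm
    (fun q => SlashInvariantForm.quotientFunc u q)
    (fun o => (⇑u : ℍ → ℂ) ∣[k] (repSL p o))
    (fun q => by rw [← quotientFunc_cosetEquiv, Equiv.apply_symm_apply])
  refine h.trans ?_
  · rw [Fintype.prod_option, repSL_none, SlashAction.slash_one, ← Fin.prod_univ_eq_prod_range
      (fun b => (⇑u : ℍ → ℂ) ∣[k] (ModularGroup.S * ModularGroup.T ^ b))]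
    rfl

theorem card_Quo : Nat.card (Quo p) = p + 1 := by
  rw [← Nat.card_congr (cosetEquiv p)]
  simp

end Fermat.Agent.Eis.ConjSym
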