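import Mathlib

/-!
# Program E (S16), node N1b: `q^{1/h}`-expansions of periodic holomorphic bounded functions

`IsNiceAt h F`: `F : ℍ → ℂ` is `h`-periodic, holomorphic and bounded at `i∞`.
On such functions `qExpansion h` is additive and multiplicative (also over finsets), it is
determined by any convergent expansion in `𝕢 h τ`, and for `1`-periodic functions
`qExpansion p F = PowerSeries.expand p _ (qExpansion 1 F)`.
Every `SL(2,ℤ)`-translate `f ∣[k] γ` of a modular form on `Γ ⊇ Γ(N)` is nice for `h = N`.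
-/

set_option autoImplicit false

namespace Fermat.Agent.Eis.ConjSym

open UpperHalfPlane Function CongruenceSubgroup Matrix.SpecialLinearGroup
open scoped MatrixGroups ModularForm Manifold

local notation "𝕢" => Periodic.qParam

/-- `F` is `h`-periodic, holomorphic on `ℍ` and bounded at `i∞`. -/
def IsNiceAt (h : ℝ) (F : ℍ → ℂ) : Prop :=
  Periodic (F ∘ ofComplex) h ∧ MDiff F ∧ IsBoundedAtImInfty F

variable {h : ℝ}

theorem IsNiceAt.analyticAt {F : ℍ → ℂ} (hF : IsNiceAt h F) (hh : 0 < h) :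
    AnalyticAt ℂ (cuspFunction h F) 0 :=
  analyticAt_cuspFunction_zero hh hF.1 hF.2.1 hF.2.2

theorem isNiceAt_const (h : ℝ) (c : ℂ) : IsNiceAt h (fun _ => c) := by
  refine ⟨fun w => rfl, mdifferentiable_const, ?_⟩
  exact Filter.const_boundedAtFilter _ c

theorem isNiceAt_zero (h : ℝ) : IsNiceAt h (0 : ℍ → ℂ) := isNiceAt_const h 0

theorem isNiceAt_one (h : ℝ) : IsNiceAt h (1 : ℍ → ℂ) := isNiceAt_const h 1

theorem IsNiceAt.add {F G : ℍ → ℂ} (hF : IsNiceAt h F) (hG : IsNiceAt h G) :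
    IsNiceAt h (F + G) := by
  refine ⟨?_, hF.2.1.add hG.2.1, hF.2.2.add hG.2.2⟩
  intro w
  have h1 := hF.1 w
  have h2 := hG.1 w
  simp only [comp_apply, Pi.add_apply] at h1 h2 ⊢
  rw [h1, h2]

theorem IsNiceAt.neg {F : ℍ → ℂ} (hF : IsNiceAt h F) : IsNiceAt h (-F) := by
  refine ⟨?_, hF.2.1.neg, hF.2.2.neg⟩
  intro w
  have h1 := hF.1 w
  simp only [comp_apply, Pi.neg_apply] at h1 ⊢
  rw [h1]

theorem IsNiceAt.sub {F G : ℍ → ℂ} (hF : IsNiceAt h F) (hG : IsNiceAt h G) :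
    IsNiceAt h (F - G) := by
  rw [sub_eq_add_neg]
  exact hF.add hG.neg

theorem IsNiceAt.mul {F G : ℍ → ℂ} (hF : IsNiceAt h F) (hG : IsNiceAt h G) :
    IsNiceAt h (F * G) := by
  refine ⟨?_, hF.2.1.mul hG.2.1, hF.2.2.mul hG.2.2⟩
  intro w
  have h1 := hF.1 w
  have h2 := hG.1 w
  simp only [comp_apply, Pi.mul_apply] at h1 h2 ⊢
  rw [h1, h2]

theorem IsNiceAt.smul {F : ℍ → ℂ} (hF : IsNiceAt h F) (c : ℂ) : IsNiceAt h (c • F) := by
  have : c • F = (fun _ => c) * F := by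
    funext z
    simp
  rw [this]
  exact (isNiceAt_const h c).mul hF

theorem IsNiceAt.finset_prod {ι : Type*} (s : Finset ι) (F : ι → ℍ → ℂ)
    (hF : ∀ i ∈ s, IsNiceAt h (F i)) : IsNiceAt h (∏ i ∈ s, F i) := by
  classical
  induction s using Finset.induction_on with
  | empty => simpa using isNiceAt_one h
  | insert a s ha ih =>
    rw [Finset.prod_insert ha]
    exact (hF a (Finset.mem_insert_self _ _)).mul
      (ih fun i hi => hF i (Finset.mem_insert_of_mem hi))

theorem IsNiceAt.finset_sum {ι : Type*} (s : Finset ι) (F : ι → ℍ → ℂ)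
    (hF : ∀ i ∈ s, IsNiceAt h (F i)) : IsNiceAt h (∑ i ∈ s, F i) := by
  classical
  induction s using Finset.induction_on with
  | empty => simpa using isNiceAt_zero h
  | insert a s ha ih =>
    rw [Finset.sum_insert ha]
    exact (hF a (Finset.mem_insert_self _ _)).add
      (ih fun i hi => hF i (Finset.mem_insert_of_mem hi))

/-- A `1`-periodic nice function is `n`-periodic nice for every natural `n`. -/
theorem IsNiceAt.of_one {F : ℍ → ℂ} (hF : IsNiceAt 1 F) (n : ℕ) : IsNiceAt (n : ℝ) F := by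
  refine ⟨?_, hF.2.1, hF.2.2⟩
  have h1 : Periodic (F ∘ ofComplex) (1 : ℂ) := by simpa using hF.1
  have := h1.nat_mul n
  simpa using this

section qexp

variable (hh : 0 < h)
include hh

theorem qExpansion_add_of_isNiceAt {F G : ℍ → ℂ} (hF : IsNiceAt h F) (hG : IsNiceAt h G) :
    qExpansion h (F + G) = qExpansion h F + qExpansion h G :=
  qExpansion_add (hF.analyticAt hh) (hG.analyticAt hh)

theorem qExpansion_mul_of_isNiceAt {F G : ℍ → ℂ} (hF : IsNiceAt h F) (hG : IsNiceAt h G) :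
    qExpansion h (F * G) = qExpansion h F * qExpansion h G :=
  qExpansion_mul (hF.analyticAt hh) (hG.analyticAt hh)

theorem qExpansion_neg_of_isNiceAt {F : ℍ → ℂ} (hF : IsNiceAt h F) :
    qExpansion h (-F) = -qExpansion h F :=
  qExpansion_neg (hF.analyticAt hh)

theorem qExpansion_sub_of_isNiceAt {F G : ℍ → ℂ} (hF : IsNiceAt h F) (hG : IsNiceAt h G) :
    qExpansion h (F - G) = qExpansion h F - qExpansion h G :=
  qExpansion_sub (hF.analyticAt hh) (hG.analyticAt hh)

theorem qExpansion_smul_of_isNiceAt {F : ℍ → ℂ} (hF : IsNiceAt h F) (c : ℂ) :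
    qExpansion h (c • F) = c • qExpansion h F :=
  qExpansion_smul (hF.analyticAt hh) c

theorem qExpansion_finset_prod {ι : Type*} (s : Finset ι) (F : ι → ℍ → ℂ)
    (hF : ∀ i ∈ s, IsNiceAt h (F i)) :
    qExpansion h (∏ i ∈ s, F i) = ∏ i ∈ s, qExpansion h (F i) := by
  classical
  induction s using Finset.induction_on with
  | empty => simpa using qExpansion_one h
  | insert a s ha ih =>
    rw [Finset.prod_insert ha, Finset.prod_insert ha,
      qExpansion_mul_of_isNiceAt hh (hF a (Finset.mem_insert_self _ _))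
        (IsNiceAt.finset_prod s F fun i hi => hF i (Finset.mem_insert_of_mem hi)),
      ih fun i hi => hF i (Finset.mem_insert_of_mem hi)]

theorem qExpansion_finset_sum {ι : Type*} (s : Finset ι) (F : ι → ℍ → ℂ)
    (hF : ∀ i ∈ s, IsNiceAt h (F i)) :
    qExpansion h (∑ i ∈ s, F i) = ∑ i ∈ s, qExpansion h (F i) := by
  classical
  induction s using Finset.induction_on with
  | empty => simpa using qExpansion_zero h
  | insert a s ha ih =>
    rw [Finset.sum_insert ha, Finset.sum_insert ha,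
      qExpansion_add_of_isNiceAt hh (hF a (Finset.mem_insert_self _ _))
        (IsNiceAt.finset_sum s F fun i hi => hF i (Finset.mem_insert_of_mem hi)),
      ih fun i hi => hF i (Finset.mem_insert_of_mem hi)]

/-- The `q^{1/h}`-expansion of a nice function is any power series converging to it. -/
theorem qExpansion_eq_mk_of_hasSum {F : ℍ → ℂ} (hF : IsNiceAt h F) (c : ℕ → ℂ)
    (hc : ∀ τ : ℍ, HasSum (fun n : ℕ => c n * 𝕢 h τ ^ n) (F τ)) :
    qExpansion h F = PowerSeries.mk c := by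
  ext m
  have key : ∀ τ : ℍ, HasSum (fun n : ℕ => c n • 𝕢 h τ ^ n) (F τ) := fun τ => by
    simpa only [smul_eq_mul] using hc τ
  have h1 := (hasFPowerSeriesOnBall_cuspFunction hh (hF.analyticAt hh) key).hasFPowerSeriesAt
  have h2 := (hF.analyticAt hh).hasFPowerSeriesAt
  have h3 := congr_arg (FormalMultilinearSeries.coeff · m) (h1.eq_formalMultilinearSeries h2)
  simp only [FormalMultilinearSeries.coeff_ofScalars] at h3
  rw [PowerSeries.coeff_mk, qExpansion_coeff, h3]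
  ring

/-- The `q^{1/h}`-expansion of a nice function is any power series converging to it. -/
theorem qExpansion_eq_of_hasSum {F : ℍ → ℂ} (hF : IsNiceAt h F) (c : PowerSeries ℂ)
    (hc : ∀ τ : ℍ, HasSum (fun n : ℕ => PowerSeries.coeff n c * 𝕢 h τ ^ n) (F τ)) :
    qExpansion h F = c := by
  rw [qExpansion_eq_mk_of_hasSum hh hF (fun n => PowerSeries.coeff n c) hc]
  ext n
  rw [PowerSeries.coeff_mk]

theorem hasSum_qExpansion_of_isNiceAt {F : ℍ → ℂ} (hF : IsNiceAt h F) (τ : ℍ) :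
    HasSum (fun n : ℕ => (qExpansion h F).coeff n * 𝕢 h τ ^ n) (F τ) := by
  simpa [smul_eq_mul] using hasSum_qExpansion hh hF.1 hF.2.1 hF.2.2 τ

end qexp

theorem qParam_pow_eq (p : ℕ) (hp : p ≠ 0) (z : ℂ) : 𝕢 (p : ℝ) z ^ p = 𝕢 1 z := by
  have hp' : (p : ℂ) ≠ 0 := by exact_mod_cast hp
  simp only [Periodic.qParam, ← Complex.exp_nat_mul]
  congr 1
  push_cast
  field_simp

/-- For a `1`-periodic nice function, the `q^{1/p}`-expansion is the expanded `q`-expansion. -/
theorem qExpansion_expand {F : ℍ → ℂ} (hF : IsNiceAt 1 F) (p : ℕ) (hp : p ≠ 0) :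
    qExpansion (p : ℝ) F = PowerSeries.expand p hp (qExpansion 1 F) := by
  have hp0 : (0 : ℝ) < p := by exact_mod_cast Nat.pos_of_ne_zero hp
  refine qExpansion_eq_of_hasSum hp0 (hF.of_one p) _ fun τ => ?_
  have h1 := hasSum_qExpansion_of_isNiceAt one_pos hF τ
  have hinj : Function.Injective fun n : ℕ => p * n := fun a b hab =>
    Nat.eq_of_mul_eq_mul_left (Nat.pos_of_ne_zero hp) hab
  rw [← hinj.hasSum_iff]
  · convert h1 using 2 with n
    simp only [comp_apply, PowerSeries.coeff_expand_mul]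
    rw [pow_mul, qParam_pow_eq p hp]
  · intro m hm
    have : ¬ p ∣ m := fun ⟨n, hn⟩ => hm ⟨n, hn.symm⟩
    rw [PowerSeries.coeff_expand_of_not_dvd p hp _ this, zero_mul]

section slash

variable {F : Type*} [FunLike F ℍ ℂ] {k : ℤ} {Γ : Subgroup SL(2, ℤ)}

/-- The translate `f ∣[k] γ` of a form on `Γ ⊇ Γ(N)` as a slash invariant form on `Γ(N)`. -/
noncomputable def slashGammaForm (N : ℕ) (hΓ : Gamma N ≤ Γ) (f : F)
    [SlashInvariantFormClass F (Γ : Subgroup (GL (Fin 2) ℝ)) k] (γ : SL(2, ℤ)) :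
    SlashInvariantForm (Gamma N : Subgroup (GL (Fin 2) ℝ)) k where
  toFun := (f : ℍ → ℂ) ∣[k] γ
  slash_action_eq' g hg := by
    obtain ⟨δ, hδ, rfl⟩ := hg
    have hmem : γ * δ * γ⁻¹ ∈ Γ := hΓ ((Gamma_normal N).conj_mem δ hδ γ)
    have h1 : (f : ℍ → ℂ) ∣[k] (γ * δ * γ⁻¹) = f :=
      SlashInvariantFormClass.slash_action_eq f (mapGL ℝ (γ * δ * γ⁻¹))
        (Subgroup.mem_map_of_mem _ hmem)
    show ((f : ℍ → ℂ) ∣[k] γ) ∣[k] δ = (f : ℍ → ℂ) ∣[k] γ
    rw [← SlashAction.slash_mul, show γ * δ = (γ * δ * γ⁻¹) * γ by group,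
      SlashAction.slash_mul, h1]

theorem Gamma_le_Gamma0 (N : ℕ) : Gamma N ≤ Gamma0 N := fun _ hg =>
  Gamma0_mem.mpr (Gamma_mem.mp hg).2.2.1

theorem periodic_slash (N : ℕ) (hΓ : Gamma N ≤ Γ) (f : F)
    [SlashInvariantFormClass F (Γ : Subgroup (GL (Fin 2) ℝ)) k] (γ : SL(2, ℤ)) :
    Periodic (((f : ℍ → ℂ) ∣[k] γ) ∘ ofComplex) (N : ℝ) := by
  have := SlashInvariantFormClass.periodic_comp_ofComplex (h := (N : ℝ))
    (slashGammaForm N hΓ f γ) (by simp [strictPeriods_Gamma])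
  exact this

theorem isNiceAt_slash (N : ℕ) [NeZero N] (hΓ : Gamma N ≤ Γ) (f : F)
    [ModularFormClass F (Γ : Subgroup (GL (Fin 2) ℝ)) k]
    [(Γ : Subgroup (GL (Fin 2) ℝ)).IsArithmetic] (γ : SL(2, ℤ)) :
    IsNiceAt (N : ℝ) ((f : ℍ → ℂ) ∣[k] γ) :=
  ⟨periodic_slash N hΓ f γ, (ModularForm.translate f (mapGL ℝ γ)).holo',
    ModularFormClass.bdd_at_infty_slash f γ⟩

/-- Conjugates of forms on `Γ₀(p)` are nice for `h = p`. -/
theorem isNiceAt_slash_Gamma0 (p : ℕ) [NeZero p] (f : F)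
    [ModularFormClass F (Gamma0 p : Subgroup (GL (Fin 2) ℝ)) k] (γ : SL(2, ℤ)) :
    IsNiceAt (p : ℝ) ((f : ℍ → ℂ) ∣[k] γ) :=
  isNiceAt_slash p (Gamma_le_Gamma0 p) f γ

/-- Forms on `Γ₀(p)` are nice for `h = 1`. -/
theorem isNiceAt_one_Gamma0 (p : ℕ) [NeZero p] (f : F)
    [ModularFormClass F (Gamma0 p : Subgroup (GL (Fin 2) ℝ)) k] :
    IsNiceAt 1 (f : ℍ → ℂ) := by
  refine ⟨?_, ModularFormClass.holo f, ?_⟩
  · exact SlashInvariantFormClass.periodic_comp_ofComplex (h := (1 : ℝ)) f (by simp)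
  · have := ModularFormClass.bdd_at_infty_slash f (1 : SL(2, ℤ))
    simpa using this

/-- Level one forms are nice for `h = 1`. -/
theorem isNiceAt_one_levelOne (f : F) [ModularFormClass F 𝒮ℒ k] : IsNiceAt 1 (f : ℍ → ℂ) := by
  refine ⟨?_, ModularFormClass.holo f, ?_⟩
  · exact SlashInvariantFormClass.periodic_comp_ofComplex (h := (1 : ℝ)) f (by simp)
  · exact ModularFormClass.bdd_at_infty f

end slash

end Fermat.Agent.Eis.ConjSym
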