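import Mathlib
import Fermat.Agent.S23.Esymm
import Fermat.Agent.Eis.ConjSymCosets
import Fermat.Agent.Eis.ConjSymQExp

/-!
# Program E (S16), node N1b: symmetric functions of the conjugates as level one forms

For `u : ModularForm Γ₀(p) k` (`p` prime) the elementary symmetric functions of the `p + 1`
conjugates `u`, `u ∣[k] S T^b` (`0 ≤ b < p`) are level one modular forms `symForm p u j` of weight
`k * j`, and in `(PowerSeries ℂ)[X]` (power series in `Y = q^{1/p}`):
`(X - u(Y^p)) * ∏_b (X - qExpansion p (u ∣ S T^b)) = ∑_j (-1)^j symForm_j(Y^p) X^(p+1-j)`.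
-/

set_option autoImplicit false

namespace Fermat.Agent.Eis.ConjSym

open UpperHalfPlane CongruenceSubgroup Matrix.SpecialLinearGroup Polynomial
open scoped MatrixGroups ModularForm

variable (p : ℕ) [hp : Fact p.Prime] {k : ℤ}

/-- The `j`-th elementary symmetric function of the conjugates of `u`, a level one form. -/
noncomputable def symForm (u : ModularForm (Gamma0 p) k) (j : ℕ) : ModularForm 𝒮ℒ (k * j) :=
  (S23.esymmFun_isMF u j).choose

theorem coe_symForm (u : ModularForm (Gamma0 p) k) (j : ℕ) :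
    ⇑(symForm p u j) = S23.esymmFun u j :=
  (S23.esymmFun_isMF u j).choose_spec

omit hp in
theorem conjFam_mkQ (u : ModularForm (Gamma0 p) k) (γ : SL(2, ℤ)) :
    S23.conjFam u (mkQ p γ) = (⇑u : ℍ → ℂ) ∣[k] γ :=
  quotientFunc_mkQ p u γ

theorem conjFam_cosetEquiv (u : ModularForm (Gamma0 p) k) (o : Option (Fin p)) :
    S23.conjFam u (cosetEquiv p o) = (⇑u : ℍ → ℂ) ∣[k] (repSL p o) :=
  quotientFunc_cosetEquiv p u o

theorem isNiceAt_conjFam (u : ModularForm (Gamma0 p) k) (q : Quo p) :
    IsNiceAt (p : ℝ) (S23.conjFam u q) := by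
  have : NeZero p := ⟨hp.out.ne_zero⟩
  obtain ⟨γ, rfl⟩ := mkQ_surjective p q
  rw [conjFam_mkQ]
  exact isNiceAt_slash_Gamma0 p u γ

theorem symForm_zero_apply (u : ModularForm (Gamma0 p) k) (z : ℍ) : symForm p u 0 z = 1 := by
  rw [coe_symForm, S23.esymmFun_eq_sum]
  simp

/-- `qExpansion p` of the `j`-th symmetric function is the `j`-th elementary symmetric function
of the `qExpansion p` of the conjugates. -/
theorem qExpansion_symForm (u : ModularForm (Gamma0 p) k) (j : ℕ) :
    qExpansion (p : ℝ) (symForm p u j) =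
      ((Finset.univ : Finset (Quo p)).val.map
        fun q => qExpansion (p : ℝ) (S23.conjFam u q)).esymm j := by
  have hp0 : (0 : ℝ) < p := by exact_mod_cast hp.out.pos
  rw [coe_symForm, S23.esymmFun_eq_sum, Finset.esymm_map_val,
    qExpansion_finset_sum hp0 _ _ fun t _ =>
      IsNiceAt.finset_prod t _ fun q _ => isNiceAt_conjFam p u q]
  refine Finset.sum_congr rfl fun t _ => ?_
  rw [qExpansion_finset_prod hp0 _ _ fun q _ => isNiceAt_conjFam p u q]

theorem qExpansion_symForm_expand (u : ModularForm (Gamma0 p) k) (j : ℕ) :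
    qExpansion (p : ℝ) (symForm p u j) =
      PowerSeries.expand p hp.out.ne_zero (qExpansion 1 (symForm p u j)) :=
  qExpansion_expand (isNiceAt_one_levelOne (symForm p u j)) p hp.out.ne_zero

theorem qExpansion_self_expand (u : ModularForm (Gamma0 p) k) :
    qExpansion (p : ℝ) u = PowerSeries.expand p hp.out.ne_zero (qExpansion 1 u) := by
  have : NeZero p := ⟨hp.out.ne_zero⟩
  exact qExpansion_expand (isNiceAt_one_Gamma0 p u) p hp.out.ne_zero

/-- **Vieta for the conjugates**, indexed by the cosets. -/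
theorem prod_X_sub_C_conjFam (u : ModularForm (Gamma0 p) k) :
    ∏ q : Quo p, (X - C (qExpansion (p : ℝ) (S23.conjFam u q))) =
      ∑ j ∈ Finset.range (p + 2),
        (-1) ^ j * C (PowerSeries.expand p hp.out.ne_zero (qExpansion 1 (symForm p u j))) *
          X ^ (p + 1 - j) := by
  have h := Multiset.prod_X_sub_X_eq_sum_esymm
    ((Finset.univ : Finset (Quo p)).val.map fun q => qExpansion (p : ℝ) (S23.conjFam u q))
  rw [Multiset.map_map, Multiset.card_map, Finset.card_val, Finset.card_univ,
    ← Nat.card_eq_fintype_card, card_Quo] at h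
  rw [Finset.prod]
  refine (Eq.trans (by rfl) h).trans ?_
  refine Finset.sum_congr rfl fun j _ => ?_
  rw [← qExpansion_symForm_expand, qExpansion_symForm, mul_assoc]

/-- **Vieta for the conjugates** `u`, `u ∣[k] S T^b`. -/
theorem prod_X_sub_C_conj (u : ModularForm (Gamma0 p) k) :
    (X - C (PowerSeries.expand p hp.out.ne_zero (qExpansion 1 u))) *
        ∏ b ∈ Finset.range p,
          (X - C (qExpansion (p : ℝ) ((⇑u : ℍ → ℂ) ∣[k] (ModularGroup.S * ModularGroup.T ^ b)))) =
      ∑ j ∈ Finset.range (p + 2),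
        (-1) ^ j * C (PowerSeries.expand p hp.out.ne_zero (qExpansion 1 (symForm p u j))) *
          X ^ (p + 1 - j) := by
  rw [← prod_X_sub_C_conjFam]
  have h := Fintype.prod_equiv (cosetEquiv p)
    (fun o => X - C (qExpansion (p : ℝ) ((⇑u : ℍ → ℂ) ∣[k] (repSL p o))))
    (fun q => X - C (qExpansion (p : ℝ) (S23.conjFam u q)))
    (fun o => by rw [conjFam_cosetEquiv])
  rw [← h, Fintype.prod_option, repSL_none, SlashAction.slash_one, qExpansion_self_expand,
    ← Fin.prod_univ_eq_prod_range
      (fun b => X - C (qExpansion (p : ℝ)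
        ((⇑u : ℍ → ℂ) ∣[k] (ModularGroup.S * ModularGroup.T ^ b))))]
  rfl

end Fermat.Agent.Eis.ConjSym
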