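import Mathlib
import Fermat.Agent.Eis.Defs
import Fermat.Agent.Eis.ConjA
import Fermat.Agent.Eis.ConjABridge
import Fermat.Agent.Eis.ConjSymMain

/-!
# Program E (S16), node N1: the conjugates package `Eis.ConjPackage` for every weight two form

Assembly of N1a (`Eis/ConjA.lean`: `U_p`, the `Y = q^{1/p}`-expansion of `u ∣ S T^b`) and
N1b (`Eis/ConjSymMain.lean`: the level one symmetric functions and the Vieta identity).
-/

set_option autoImplicit false

namespace Fermat.Agent.Eis.ConjSym

open UpperHalfPlane CongruenceSubgroup Matrix.SpecialLinearGroup Polynomial ModularFormClass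
open scoped MatrixGroups ModularForm

variable (p : ℕ) [hp : Fact p.Prime]

/-- The `q^{1/p}`-expansion of the conjugate `u ∣ S T^b` is `Eis.conjFin p (U_p u) b`. -/
theorem qExpansion_conjS (u : ModularForm (Gamma0 p) 2) (b : ℕ) :
    qExpansion (p : ℝ) ((⇑u : ℍ → ℂ) ∣[(2 : ℤ)] (ModularGroup.S * ModularGroup.T ^ b)) =
      Fermat.Agent.Eis.conjFin p (⇑(N1a.Up p u)) b := by
  have hp0 : (0 : ℝ) < p := by exact_mod_cast hp.out.pos
  have : NeZero p := ⟨hp.out.ne_zero⟩
  exact qExpansion_eq_of_hasSum hp0 (isNiceAt_slash_Gamma0 p u _) _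
    fun τ => N1a.hasSum_conjFin p u b τ

/-- The level one symmetric functions of the conjugates in the weight shape of `ConjPackage`. -/
noncomputable def symTwo (u : ModularForm (Gamma0 p) 2) (j : ℕ) :
    ModularForm 𝒮ℒ ((2 : ℤ) * (j : ℤ)) :=
  symForm p u j

theorem qExpansion_symTwo_zero (u : ModularForm (Gamma0 p) 2) :
    qExpansion 1 (symTwo p u 0) = 1 := by
  have h : (⇑(symTwo p u 0) : ℍ → ℂ) = 1 := by
    funext z
    exact symForm_zero_apply p u z
  rw [h, qExpansion_one]

/-- `S₁ = 0`: there are no nonzero level one forms of weight two. -/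
theorem symTwo_one_eq_zero (u : ModularForm (Gamma0 p) 2) : symTwo p u 1 = 0 := by
  have h : Module.rank ℂ (ModularForm 𝒮ℒ ((2 : ℤ) * ((1 : ℕ) : ℤ))) = 0 := by
    have : ((2 : ℤ) * ((1 : ℕ) : ℤ)) = 2 := by norm_num
    rw [this]
    exact ModularForm.levelOne_weight_two_rank_zero
  exact (rank_zero_iff_forall_zero.mp h) _

/-- **N1: the conjugates package** for every `u : ModularForm Γ₀(p) 2`, `p` prime. -/
theorem conjPackage (hp0 : p ≠ 0) (u : ModularForm (Gamma0 p) 2) :
    Fermat.Agent.Eis.ConjPackage p hp0 u := by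
  refine ⟨N1a.Up p u, symTwo p u, (N1a.conjPackage_coeffs p u).1, (N1a.conjPackage_coeffs p u).2,
    qExpansion_symTwo_zero p u, ?_⟩
  have h := prod_X_sub_C_conj p u
  simp only [qExpansion_conjS] at h
  exact h

end Fermat.Agent.Eis.ConjSym
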