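/-
Program E (S16), node N7-A4par (helper8): classification of the parabolic elements of `Γ₀(p)`,
`p` prime.  Every `γ ∈ Γ₀(p)` with `(tr γ)² = 4` is, up to sign, `Γ₀(p)`-conjugate to a power of
`T = [1,1;0,1]` or of `c₀ = [1,0;p,1]`.  Consequently an additive character of `Γ₀(p)` which kills
`-1`, `T` and `c₀` is parabolic (lies in `Lam`).
Mathlib + Prelude only.
-/
import Mathlib
import Fermat.Prelude.Def_ModularCurve_PeriodMap

set_option autoImplicit false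

namespace Fermat.Agent.Eis.ParClass

open Matrix CongruenceSubgroup ModularGroup
open scoped MatrixGroups

/-! ### Elementary facts on `SL(2,ℤ)` -/

theorem det_entries (γ : SL(2, ℤ)) : γ 0 0 * γ 1 1 - γ 0 1 * γ 1 0 = 1 := by
  have h := γ.det_coe
  rw [Matrix.det_fin_two] at h
  exact h

theorem trace_entries (γ : SL(2, ℤ)) :
    (γ : Matrix (Fin 2) (Fin 2) ℤ).trace = γ 0 0 + γ 1 1 := by
  rw [Matrix.trace_fin_two]

/-- entries of a conjugate `σ⁻¹ γ σ`. -/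
theorem conj_apply (γ σ : SL(2, ℤ)) (i j : Fin 2) :
    (σ⁻¹ * γ * σ) i j =
      ∑ k : Fin 2, ∑ l : Fin 2, (σ⁻¹ : SL(2, ℤ)) i k * γ k l * σ l j := by
  simp only [Matrix.SpecialLinearGroup.coe_mul, Matrix.mul_apply, Finset.sum_mul]
  rw [Finset.sum_comm]

theorem inv_entries (σ : SL(2, ℤ)) :
    (σ⁻¹ : SL(2, ℤ)) 0 0 = σ 1 1 ∧ (σ⁻¹ : SL(2, ℤ)) 0 1 = - σ 0 1 ∧
    (σ⁻¹ : SL(2, ℤ)) 1 0 = - σ 1 0 ∧ (σ⁻¹ : SL(2, ℤ)) 1 1 = σ 0 0 := by
  simp [Matrix.SpecialLinearGroup.coe_inv, Matrix.adjugate_fin_two]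

/-- A matrix in `SL(2,ℤ)` whose first column is `e₁` is a power of `T`. -/
theorem eq_T_zpow_of_col (M : SL(2, ℤ)) (h00 : M 0 0 = 1) (h10 : M 1 0 = 0) :
    M = T ^ (M 0 1) := by
  have hdet := det_entries M
  rw [h00, h10] at hdet
  have h11 : M 1 1 = 1 := by linarith
  apply Subtype.ext
  rw [coe_T_zpow]
  ext i j
  fin_cases i <;> fin_cases j <;> simp [h00, h10, h11]

/-- the matrix `c₀ = [1,0;p,1]` in `SL(2,ℤ)`. -/
def c0SL (p : ℕ) : SL(2, ℤ) := ⟨!![1, 0; (p : ℤ), 1], by simp [Matrix.det_fin_two]⟩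

theorem coe_c0SL (p : ℕ) : (c0SL p).1 = !![1, 0; (p : ℤ), 1] := rfl

theorem coe_c0SL_inv (p : ℕ) : ((c0SL p)⁻¹).1 = !![1, 0; -(p : ℤ), 1] := by
  simp [Matrix.SpecialLinearGroup.coe_inv, coe_c0SL, Matrix.adjugate_fin_two]

theorem coe_c0SL_zpow (p : ℕ) (n : ℤ) : ((c0SL p) ^ n).1 = !![1, 0; (p : ℤ) * n, 1] := by
  induction n with
  | zero => rw [zpow_zero, Matrix.SpecialLinearGroup.coe_one, Matrix.one_fin_two]; simp
  | succ n h =>
    simp_rw [_root_.zpow_add, zpow_one, Matrix.SpecialLinearGroup.coe_mul, h, coe_c0SL,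
      Matrix.mul_fin_two]
    congrm !![?_, ?_; ?_, ?_] <;> push_cast <;> ring
  | pred n h =>
    simp_rw [_root_.zpow_sub, zpow_one, Matrix.SpecialLinearGroup.coe_mul, h, coe_c0SL_inv,
      Matrix.mul_fin_two]
    congrm !![?_, ?_; ?_, ?_] <;> push_cast <;> ring

/-- A matrix in `SL(2,ℤ)` whose second column is `e₂` and whose lower left entry is `p m` is
`c₀ ^ m`. -/
theorem eq_c0_zpow_of_col (p : ℕ) (M : SL(2, ℤ)) (h01 : M 0 1 = 0) (h11 : M 1 1 = 1)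
    (m : ℤ) (hm : M 1 0 = (p : ℤ) * m) : M = (c0SL p) ^ m := by
  have hdet := det_entries M
  rw [h01, h11] at hdet
  have h00 : M 0 0 = 1 := by linarith
  apply Subtype.ext
  rw [coe_c0SL_zpow]
  ext i j
  fin_cases i <;> fin_cases j <;> simp [h00, h01, h11, hm]

/-! ### The fixed primitive vector of a unipotent matrix -/

/-- A matrix of trace `2` in `SL(2,ℤ)` fixes a primitive vector. -/
theorem exists_fixed_vector (γ : SL(2, ℤ)) (htr : γ 0 0 + γ 1 1 = 2) :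
    ∃ x y : ℤ, IsCoprime x y ∧ γ 0 0 * x + γ 0 1 * y = x ∧ γ 1 0 * x + γ 1 1 * y = y := by
  have hdet := det_entries γ
  set a := γ 0 0 with ha
  set b := γ 0 1 with hb
  set c := γ 1 0 with hc
  set d := γ 1 1 with hd
  by_cases h0 : b = 0 ∧ a = 1
  · obtain ⟨hb0, ha1⟩ := h0
    refine ⟨0, 1, isCoprime_zero_left.mpr isUnit_one, by simp [hb0], ?_⟩
    have : d = 1 := by linarith
    simp [this]
  · have hpos : 0 < Int.gcd b (1 - a) := by
      rw [Int.gcd_pos_iff]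
      by_contra hcon
      rw [not_or, not_not, not_not] at hcon
      exact h0 ⟨hcon.1, by linarith [hcon.2]⟩
    obtain ⟨x, y, hxy, hbx, hay⟩ := Int.exists_gcd_one hpos
    set g : ℤ := (Int.gcd b (1 - a) : ℤ) with hg
    have hg0 : g ≠ 0 := by
      have : (0 : ℤ) < g := Int.natCast_pos.mpr hpos
      exact this.ne'
    refine ⟨x, y, Int.isCoprime_iff_gcd_eq_one.mpr hxy, ?_, ?_⟩
    · have h1 : g * (a * x + b * y - x) = 0 := by
        have : g * (a * x + b * y - x) = (a - 1) * (x * g) + b * (y * g) := by ring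
        rw [this, ← hbx, ← hay]; ring
      have := (mul_eq_zero.mp h1).resolve_left hg0
      linarith
    · have hd1 : d = 2 - a := by linarith
      have h1 : g * (c * x + d * y - y) = 0 := by
        have : g * (c * x + d * y - y) = c * (x * g) + (d - 1) * (y * g) := by ring
        rw [this, ← hbx, ← hay, hd1]
        have hbc : b * c = a * (2 - a) - 1 := by rw [← hd1]; linarith
        linear_combination hbc
      have := (mul_eq_zero.mp h1).resolve_left hg0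
      linarith

/-- completing a primitive vector to a first column. -/
theorem exists_SL_col0 (x y : ℤ) (h : IsCoprime x y) :
    ∃ σ : SL(2, ℤ), σ 0 0 = x ∧ σ 1 0 = y := by
  obtain ⟨s, t, hst⟩ := h
  refine ⟨⟨!![x, -t; y, s], ?_⟩, rfl, rfl⟩
  rw [Matrix.det_fin_two_of]; linarith

/-- completing a primitive vector `(x,y)`, `p ∤ y`, to the second column of an element of
`Γ₀(p)`. -/
theorem exists_SL_col1 (p : ℕ) (hp : p.Prime) (x y : ℤ) (h : IsCoprime x y)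
    (hy : ¬ (p : ℤ) ∣ y) :
    ∃ δ : SL(2, ℤ), δ 0 1 = x ∧ δ 1 1 = y ∧ (p : ℤ) ∣ δ 1 0 := by
  obtain ⟨s, t, hst⟩ := h
  have hpy : IsCoprime (p : ℤ) y :=
    (Prime.coprime_iff_not_dvd (Nat.prime_iff_prime_int.mp hp)).mpr hy
  obtain ⟨u, w, huw⟩ := hpy
  refine ⟨⟨!![t + s * w * x, x; -s + s * w * y, y], ?_⟩, rfl, rfl, ?_⟩
  · rw [Matrix.det_fin_two_of]; linear_combination hst
  · refine ⟨-s * u, ?_⟩
    show -s + s * w * y = (p : ℤ) * (-s * u)
    linear_combination s * huw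

/-! ### Classification in `SL(2,ℤ)` -/

theorem mem_Gamma0_iff_dvd (p : ℕ) (A : SL(2, ℤ)) : A ∈ Gamma0 p ↔ (p : ℤ) ∣ A 1 0 := by
  rw [Gamma0_mem, ZMod.intCast_zmod_eq_zero_iff_dvd]

theorem T_mem_Gamma0 (p : ℕ) : (T : SL(2, ℤ)) ∈ Gamma0 p := by
  rw [mem_Gamma0_iff_dvd]
  simp [ModularGroup.coe_T]

theorem c0SL_mem_Gamma0 (p : ℕ) : c0SL p ∈ Gamma0 p := by
  rw [mem_Gamma0_iff_dvd]
  simp [c0SL]

theorem neg_one_mem_Gamma0 (p : ℕ) : (-1 : SL(2, ℤ)) ∈ Gamma0 p := by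
  rw [mem_Gamma0_iff_dvd]
  simp

/-- trace `2` case of the classification. -/
theorem classification_tr_two (p : ℕ) (hp : p.Prime) (γ : SL(2, ℤ)) (hγ : γ ∈ Gamma0 p)
    (htr : γ 0 0 + γ 1 1 = 2) :
    ∃ δ : SL(2, ℤ), δ ∈ Gamma0 p ∧ ∃ k : ℤ,
      (γ = δ * T ^ k * δ⁻¹ ∨ γ = δ * (c0SL p) ^ k * δ⁻¹) := by
  obtain ⟨x, y, hxy, h1, h2⟩ := exists_fixed_vector γ htr
  by_cases hy : (p : ℤ) ∣ y
  · obtain ⟨σ, hσ0, hσ1⟩ := exists_SL_col0 x y hxy
    have hσ : σ ∈ Gamma0 p := by rw [mem_Gamma0_iff_dvd, hσ1]; exact hy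
    refine ⟨σ, hσ, (σ⁻¹ * γ * σ) 0 1, Or.inl ?_⟩
    obtain ⟨i00, i01, i10, i11⟩ := inv_entries σ
    have hdσ := det_entries σ
    have hM := eq_T_zpow_of_col (σ⁻¹ * γ * σ)
      (by
        rw [conj_apply]
        simp only [Fin.sum_univ_two, i00, i01, hσ0, hσ1]
        rw [hσ0, hσ1] at hdσ
        linear_combination (σ 1 1) * h1 - (σ 0 1) * h2 + hdσ)
      (by
        rw [conj_apply]
        simp only [Fin.sum_univ_two, i10, i11, hσ0, hσ1]
        linear_combination (-y) * h1 + x * h2)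
    rw [← hM]; group
  · obtain ⟨δ, hδ0, hδ1, hδp⟩ := exists_SL_col1 p hp x y hxy hy
    have hδ : δ ∈ Gamma0 p := by rw [mem_Gamma0_iff_dvd]; exact hδp
    have hMmem : δ⁻¹ * γ * δ ∈ Gamma0 p :=
      (Gamma0 p).mul_mem ((Gamma0 p).mul_mem ((Gamma0 p).inv_mem hδ) hγ) hδ
    obtain ⟨m, hm⟩ := (mem_Gamma0_iff_dvd p _).mp hMmem
    refine ⟨δ, hδ, m, Or.inr ?_⟩
    obtain ⟨i00, i01, i10, i11⟩ := inv_entries δ
    have hdδ := det_entries δ
    have hM := eq_c0_zpow_of_col p (δ⁻¹ * γ * δ)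
      (by
        rw [conj_apply]
        simp only [Fin.sum_univ_two, i00, i01, hδ0, hδ1]
        linear_combination y * h1 - x * h2)
      (by
        rw [conj_apply]
        simp only [Fin.sum_univ_two, i10, i11, hδ0, hδ1]
        rw [hδ0, hδ1] at hdδ
        linear_combination (-(δ 1 0)) * h1 + (δ 0 0) * h2 + hdδ)
      m hm
    rw [← hM]; group

/-- the classification of parabolic elements of `Γ₀(p)` inside `SL(2,ℤ)`. -/
theorem classification_SL (p : ℕ) (hp : p.Prime) (γ : SL(2, ℤ)) (hγ : γ ∈ Gamma0 p)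
    (htr : (γ : Matrix (Fin 2) (Fin 2) ℤ).trace ^ 2 = 4) :
    ∃ δ : SL(2, ℤ), δ ∈ Gamma0 p ∧ ∃ k : ℤ, ∃ ε : SL(2, ℤ), (ε = 1 ∨ ε = -1) ∧
      (γ = ε * (δ * T ^ k * δ⁻¹) ∨ γ = ε * (δ * (c0SL p) ^ k * δ⁻¹)) := by
  rw [trace_entries] at htr
  have h2 : γ 0 0 + γ 1 1 = 2 ∨ γ 0 0 + γ 1 1 = -2 := by
    have : (γ 0 0 + γ 1 1 - 2) * (γ 0 0 + γ 1 1 + 2) = 0 := by linear_combination htr
    rcases mul_eq_zero.mp this with h | h
    · left; linarith
    · right; linarith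
  rcases h2 with h | h
  · obtain ⟨δ, hδ, k, hk⟩ := classification_tr_two p hp γ hγ h
    refine ⟨δ, hδ, k, 1, Or.inl rfl, ?_⟩
    simpa using hk
  · have hneg : -γ ∈ Gamma0 p := by
      rw [mem_Gamma0_iff_dvd, Matrix.SpecialLinearGroup.coe_neg, Matrix.neg_apply, dvd_neg]
      exact (mem_Gamma0_iff_dvd p γ).mp hγ
    have htr' : (-γ) 0 0 + (-γ) 1 1 = 2 := by
      simp only [Matrix.SpecialLinearGroup.coe_neg, Matrix.neg_apply]; linarith
    obtain ⟨δ, hδ, k, hk⟩ := classification_tr_two p hp (-γ) hneg htr'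
    refine ⟨δ, hδ, k, -1, Or.inr rfl, ?_⟩
    rcases hk with hk | hk
    · left; rw [neg_one_mul, ← hk, neg_neg]
    · right; rw [neg_one_mul, ← hk, neg_neg]

/-! ### Statement for the subtype `Γ₀(p)` and consequences for characters -/

/-- `T = [1,1;0,1]` as an element of `Γ₀(p)`. -/
def Tg (p : ℕ) : Gamma0 p := ⟨T, T_mem_Gamma0 p⟩

/-- `c₀ = [1,0;p,1]` as an element of `Γ₀(p)`. -/
def c0 (p : ℕ) : Gamma0 p := ⟨c0SL p, c0SL_mem_Gamma0 p⟩

/-- `-1` as an element of `Γ₀(p)`. -/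
def negOne (p : ℕ) : Gamma0 p := ⟨-1, neg_one_mem_Gamma0 p⟩

@[simp] theorem coe_Tg (p : ℕ) : ((Tg p : Gamma0 p) : SL(2, ℤ)) = T := rfl
@[simp] theorem coe_c0 (p : ℕ) : ((c0 p : Gamma0 p) : SL(2, ℤ)) = c0SL p := rfl
@[simp] theorem coe_negOne (p : ℕ) : ((negOne p : Gamma0 p) : SL(2, ℤ)) = -1 := rfl

theorem negOne_mul_negOne (p : ℕ) : negOne p * negOne p = 1 := by
  apply Subtype.ext
  simp

/-- **Classification of the parabolic elements of `Γ₀(p)`**, `p` prime: up to the sign they are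
the `Γ₀(p)`-conjugates of the powers of `T` (cusp `∞`, width `1`) and of `c₀` (cusp `0`,
width `p`). -/
theorem parabolic_classification (p : ℕ) [hp : Fact p.Prime] (γ : Gamma0 p)
    (hγ : (((γ : SL(2, ℤ)) : Matrix (Fin 2) (Fin 2) ℤ)).trace ^ 2 = 4) :
    ∃ (δ : Gamma0 p) (k : ℤ) (ε : Gamma0 p), (ε = 1 ∨ ε = negOne p) ∧
      (γ = ε * (δ * Tg p ^ k * δ⁻¹) ∨ γ = ε * (δ * c0 p ^ k * δ⁻¹)) := by
  obtain ⟨δ, hδ, k, ε, hε, h⟩ := classification_SL p hp.out γ.1 γ.2 hγ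
  have hεmem : ε ∈ Gamma0 p := by
    rcases hε with rfl | rfl
    · exact (Gamma0 p).one_mem
    · exact neg_one_mem_Gamma0 p
  refine ⟨⟨δ, hδ⟩, k, ⟨ε, hεmem⟩, ?_, ?_⟩
  · rcases hε with rfl | rfl
    · left; rfl
    · right; rfl
  · rcases h with h | h
    · left; apply Subtype.ext; simpa using h
    · right; apply Subtype.ext; simpa using h

section Hom

variable {A : Type*} [AddCommGroup A]

theorem hom_conj_zpow (p : ℕ) (φ : Additive (Gamma0 p) →+ A) (ε δ X : Gamma0 p) (k : ℤ) :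
    φ (Additive.ofMul (ε * (δ * X ^ k * δ⁻¹))) =
      φ (Additive.ofMul ε) + k • φ (Additive.ofMul X) := by
  simp only [ofMul_mul, ofMul_zpow, ofMul_inv, map_add, map_zsmul, map_neg]
  abel

/-- A character of `Γ₀(p)` (`p` prime) killing `-1`, `T` and `c₀` is parabolic. -/
theorem isParabolicHom_of_T_c0 (p : ℕ) [Fact p.Prime] (φ : Additive (Gamma0 p) →+ A)
    (hneg : φ (Additive.ofMul (negOne p)) = 0) (hT : φ (Additive.ofMul (Tg p)) = 0)
    (hc : φ (Additive.ofMul (c0 p)) = 0) :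
    ModularCurve.Period.IsParabolicHom (Gamma0 p) φ := by
  intro γ hγ
  obtain ⟨δ, k, ε, hε, h⟩ := parabolic_classification p γ hγ
  have hε0 : φ (Additive.ofMul ε) = 0 := by
    rcases hε with rfl | rfl
    · exact map_zero φ
    · exact hneg
  rcases h with h | h
  · rw [h, hom_conj_zpow, hε0, hT, smul_zero, add_zero]
  · rw [h, hom_conj_zpow, hε0, hc, smul_zero, add_zero]

/-- `2 φ(-1) = 0` for every character. -/
theorem two_nsmul_hom_negOne (p : ℕ) (φ : Additive (Gamma0 p) →+ A) :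
    φ (Additive.ofMul (negOne p)) + φ (Additive.ofMul (negOne p)) = 0 := by
  rw [← map_add, ← ofMul_mul, negOne_mul_negOne, ofMul_one, map_zero]

/-- version for a group without `2`-torsion. -/
theorem isParabolicHom_of_T_c0' (p : ℕ) [Fact p.Prime] (φ : Additive (Gamma0 p) →+ A)
    (h2 : ∀ a : A, a + a = 0 → a = 0) (hT : φ (Additive.ofMul (Tg p)) = 0)
    (hc : φ (Additive.ofMul (c0 p)) = 0) :
    ModularCurve.Period.IsParabolicHom (Gamma0 p) φ :=
  isParabolicHom_of_T_c0 p φ (h2 _ (two_nsmul_hom_negOne p φ)) hT hc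

/-- conversely a parabolic character kills `T` and `c₀`. -/
theorem hom_Tg_eq_zero_of_isParabolicHom (p : ℕ) (φ : Additive (Gamma0 p) →+ A)
    (hφ : ModularCurve.Period.IsParabolicHom (Gamma0 p) φ) :
    φ (Additive.ofMul (Tg p)) = 0 := by
  apply hφ
  rw [coe_Tg, trace_entries]
  simp [ModularGroup.coe_T]

theorem hom_c0_eq_zero_of_isParabolicHom (p : ℕ) (φ : Additive (Gamma0 p) →+ A)
    (hφ : ModularCurve.Period.IsParabolicHom (Gamma0 p) φ) :
    φ (Additive.ofMul (c0 p)) = 0 := by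
  apply hφ
  rw [coe_c0, trace_entries]
  simp [c0SL]

end Hom

/-- An integral character of `Γ₀(p)` (`p` prime) killing `T` and `c₀` lies in
`Lam = parabolicHoms ℤ (Γ₀(p)) ℤ`. -/
theorem mem_Lam_of_T_c0 (p : ℕ) [Fact p.Prime] (φ : Additive (Gamma0 p) →+ ℤ)
    (hT : φ (Additive.ofMul (Tg p)) = 0) (hc : φ (Additive.ofMul (c0 p)) = 0) :
    φ ∈ ModularCurve.Period.parabolicHoms ℤ (Gamma0 p) ℤ := by
  rw [ModularCurve.Period.mem_parabolicHoms_iff]
  exact isParabolicHom_of_T_c0' p φ (fun a ha => by omega) hT hc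

theorem mem_Lam_iff_T_c0 (p : ℕ) [Fact p.Prime] (φ : Additive (Gamma0 p) →+ ℤ) :
    φ ∈ ModularCurve.Period.parabolicHoms ℤ (Gamma0 p) ℤ ↔
      φ (Additive.ofMul (Tg p)) = 0 ∧ φ (Additive.ofMul (c0 p)) = 0 :=
  ⟨fun h => ⟨hom_Tg_eq_zero_of_isParabolicHom p φ h, hom_c0_eq_zero_of_isParabolicHom p φ h⟩,
    fun h => mem_Lam_of_T_c0 p φ h.1 h.2⟩

end Fermat.Agent.Eis.ParClass
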