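import Mathlib
import Fermat.Agent.Eis.ParClass

/-!
# Program E (S16), node N7-A4a: the coset space `SL(2,ℤ) ⧸ Γ₀(p)`

`X p := SL(2,ℤ) ⧸ Γ₀(p)` (left cosets; `SL(2,ℤ)` acts by left multiplication: this is the `G`-set
of `Eis/Shapiro.lean`).  For `p` prime it is `ℙ¹(𝔽_p)`: the points are `xInf p = ↑1` and
`xFin p k = ↑(T ^ k * S)`, `k < p`.

* `mk_eq_mk_iff`, `mk_eq_xInf_iff`, `mk_eq_xFin_iff` : coset equality in terms of entries;
* `eq_xInf_or_xFin`, `xFin_inj`, `xInf_ne_xFin` : the points;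
* `T_pow_smul`, `neg_one_smul`, `S_inv_smul`, `T_smul_xInf`, `T_smul_xFin`, `xFin_add`, `xFin_mod`,
  `S_smul_xInf`, `ST_smul_xFin_zero`, `ST_smul_xFin_zero_ne`, `T_pow_inv_smul_xFin_zero`;
* `pointEquiv p : Option (Fin p) ≃ X p`, `fintypeX`, `sum_eq` (`∑ x, f x = f ∞ + ∑_{k<p} f x_k`).
-/

set_option autoImplicit false

namespace Fermat.Agent.Eis.CosetP

open Matrix CongruenceSubgroup ModularGroup Fermat.Agent.Eis.ParClass
open scoped MatrixGroups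

variable (p : ℕ)

/-- The coset space `SL(2,ℤ) ⧸ Γ₀(p)`. -/
abbrev X : Type := SL(2, ℤ) ⧸ Gamma0 p

/-- The base point `∞ = ↑1`. -/
def xInf : X p := ((1 : SL(2, ℤ)) : SL(2, ℤ) ⧸ Gamma0 p)

/-- The point `k = ↑(T ^ k * S)`. -/
def xFin (k : ℕ) : X p := ((T ^ k * S : SL(2, ℤ)) : SL(2, ℤ) ⧸ Gamma0 p)

theorem smul_mk (g h : SL(2, ℤ)) :
    g • ((h : SL(2, ℤ)) : X p) = ((g * h : SL(2, ℤ)) : SL(2, ℤ) ⧸ Gamma0 p) := rfl

/-! ### Entries -/

theorem mul_apply_one_zero (g h : SL(2, ℤ)) :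
    (g * h) 1 0 = g 1 0 * h 0 0 + g 1 1 * h 1 0 := by
  simp [Matrix.SpecialLinearGroup.coe_mul, Matrix.mul_apply, Fin.sum_univ_two]

theorem mul_apply_zero_zero (g h : SL(2, ℤ)) :
    (g * h) 0 0 = g 0 0 * h 0 0 + g 0 1 * h 1 0 := by
  simp [Matrix.SpecialLinearGroup.coe_mul, Matrix.mul_apply, Fin.sum_univ_two]

theorem T_pow_entries (k : ℕ) :
    (T ^ k : SL(2, ℤ)) 0 0 = 1 ∧ (T ^ k : SL(2, ℤ)) 0 1 = k ∧ (T ^ k : SL(2, ℤ)) 1 0 = 0 ∧
      (T ^ k : SL(2, ℤ)) 1 1 = 1 := by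
  have h := coe_T_zpow (k : ℤ)
  rw [zpow_natCast] at h
  rw [h]
  simp

theorem S_entries : (S : SL(2, ℤ)) 0 0 = 0 ∧ (S : SL(2, ℤ)) 0 1 = -1 ∧ (S : SL(2, ℤ)) 1 0 = 1 ∧
    (S : SL(2, ℤ)) 1 1 = 0 := by decide

theorem T_pow_mul_S_entries (k : ℕ) :
    (T ^ k * S : SL(2, ℤ)) 0 0 = k ∧ (T ^ k * S : SL(2, ℤ)) 1 0 = 1 := by
  obtain ⟨h00, h01, h10, h11⟩ := T_pow_entries k
  obtain ⟨s00, s01, s10, s11⟩ := S_entries
  rw [mul_apply_zero_zero, mul_apply_one_zero, h00, h01, h10, h11, s00, s10]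
  constructor <;> ring

/-! ### Equality of cosets -/

theorem mk_eq_mk_iff (g h : SL(2, ℤ)) :
    ((g : SL(2, ℤ)) : X p) = ((h : SL(2, ℤ)) : X p) ↔
      (p : ℤ) ∣ g 0 0 * h 1 0 - g 1 0 * h 0 0 := by
  rw [QuotientGroup.eq, mem_Gamma0_iff_dvd, mul_apply_one_zero]
  obtain ⟨-, -, h10, h11⟩ := inv_entries g
  rw [h10, h11]
  constructor <;> intro hd <;> convert hd using 1 <;> ring

theorem mk_eq_xInf_iff (g : SL(2, ℤ)) : ((g : SL(2, ℤ)) : X p) = xInf p ↔ (p : ℤ) ∣ g 1 0 := by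
  unfold xInf
  rw [mk_eq_mk_iff]
  have h00 : (1 : SL(2, ℤ)) 0 0 = 1 := by simp
  have h10 : (1 : SL(2, ℤ)) 1 0 = 0 := by simp
  rw [h00, h10, mul_zero, zero_sub, mul_one, dvd_neg]

theorem mk_eq_xFin_iff (g : SL(2, ℤ)) (k : ℕ) :
    ((g : SL(2, ℤ)) : X p) = xFin p k ↔ (p : ℤ) ∣ g 0 0 - g 1 0 * k := by
  unfold xFin
  rw [mk_eq_mk_iff]
  obtain ⟨h00, h10⟩ := T_pow_mul_S_entries k
  rw [h00, h10, mul_one]

theorem xFin_eq_xFin_iff (j k : ℕ) : xFin p j = xFin p k ↔ (p : ℤ) ∣ (j : ℤ) - k := by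
  conv_lhs => rw [xFin]
  rw [mk_eq_xFin_iff]
  obtain ⟨h00, h10⟩ := T_pow_mul_S_entries j
  rw [h00, h10, one_mul]

theorem xFin_inj {j k : ℕ} (hj : j < p) (hk : k < p) (h : xFin p j = xFin p k) : j = k := by
  rw [xFin_eq_xFin_iff] at h
  have h1 : (j : ℤ) ≡ k [ZMOD p] := (Int.modEq_iff_dvd.mpr h).symm
  have h2 : j ≡ k [MOD p] := Int.natCast_modEq_iff.mp h1
  exact Nat.ModEq.eq_of_lt_of_lt h2 hj hk

theorem xFin_add (k : ℕ) : xFin p (k + p) = xFin p k := by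
  rw [xFin_eq_xFin_iff]
  push_cast
  simp

theorem xFin_mod (k : ℕ) : xFin p (k % p) = xFin p k := by
  rw [xFin_eq_xFin_iff]
  have := Int.emod_emod_of_dvd (k : ℤ) (dvd_refl (p : ℤ))
  have h : ((k % p : ℕ) : ℤ) ≡ k [ZMOD p] := by
    push_cast
    exact Int.mod_modEq _ _
  exact (Int.modEq_iff_dvd.mp h.symm)

theorem xInf_ne_xFin [hp : Fact p.Prime] (k : ℕ) : xInf p ≠ xFin p k := by
  intro h
  unfold xInf at h
  rw [mk_eq_xFin_iff] at h
  have h00 : (1 : SL(2, ℤ)) 0 0 = 1 := by simp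
  have h10 : (1 : SL(2, ℤ)) 1 0 = 0 := by simp
  rw [h00, h10, zero_mul, sub_zero] at h
  have := Int.natCast_dvd_natCast.mp (by simpa using h : ((p : ℕ) : ℤ) ∣ ((1 : ℕ) : ℤ))
  exact hp.out.one_lt.ne' (Nat.dvd_one.mp this)

/-- Every point is `∞` or some `x_k`, `k < p`. -/
theorem eq_xInf_or_xFin [hp : Fact p.Prime] (x : X p) :
    x = xInf p ∨ ∃ k, k < p ∧ x = xFin p k := by
  induction x using QuotientGroup.induction_on with
  | H g =>
    by_cases hc : (p : ℤ) ∣ g 1 0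
    · exact Or.inl ((mk_eq_xInf_iff p g).mpr hc)
    · right
      have : NeZero p := ⟨hp.out.ne_zero⟩
      have hc' : ((g 1 0 : ℤ) : ZMod p) ≠ 0 := by
        rwa [Ne, ZMod.intCast_zmod_eq_zero_iff_dvd]
      refine ⟨(((g 0 0 : ℤ) : ZMod p) / ((g 1 0 : ℤ) : ZMod p)).val, ZMod.val_lt _, ?_⟩
      rw [mk_eq_xFin_iff, ← ZMod.intCast_zmod_eq_zero_iff_dvd]
      push_cast
      rw [ZMod.natCast_zmod_val, mul_div_cancel₀ _ hc', sub_self]

/-! ### The action of `T`, `S`, `U = S * T`, `-1` -/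

theorem neg_one_smul (x : X p) : (-1 : SL(2, ℤ)) • x = x := by
  induction x using QuotientGroup.induction_on with
  | H g =>
    rw [smul_mk, mk_eq_mk_iff]
    have h00 : (-1 * g : SL(2, ℤ)) 0 0 = - g 0 0 := by simp
    have h10 : (-1 * g : SL(2, ℤ)) 1 0 = - g 1 0 := by simp
    rw [h00, h10]
    exact ⟨0, by ring⟩

theorem T_pow_smul (x : X p) : (T ^ p : SL(2, ℤ)) • x = x := by
  induction x using QuotientGroup.induction_on with
  | H g =>
    rw [smul_mk, mk_eq_mk_iff]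
    obtain ⟨h00, h01, h10, h11⟩ := T_pow_entries p
    rw [mul_apply_zero_zero, mul_apply_one_zero, h00, h01, h10, h11]
    exact ⟨g 1 0 * g 1 0, by ring⟩

theorem T_pow_inv_smul (x : X p) : (T ^ p : SL(2, ℤ))⁻¹ • x = x := by
  conv_lhs => rw [← T_pow_smul p x]
  exact inv_smul_smul _ x

theorem S_inv_eq : (S : SL(2, ℤ))⁻¹ = -1 * S := by decide

theorem S_inv_smul (x : X p) : (S : SL(2, ℤ))⁻¹ • x = S • x := by
  rw [S_inv_eq, mul_smul, neg_one_smul]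

theorem S_smul_S_smul (x : X p) : (S : SL(2, ℤ)) • (S : SL(2, ℤ)) • x = x := by
  conv_lhs => rw [← S_inv_smul p (S • x)]
  exact inv_smul_smul _ x

theorem T_smul_xInf : (T : SL(2, ℤ)) • xInf p = xInf p := by
  unfold xInf
  rw [smul_mk, mul_one]
  exact (mk_eq_xInf_iff p T).mpr ((mem_Gamma0_iff_dvd p T).mp (T_mem_Gamma0 p))

theorem T_smul_xFin (k : ℕ) : (T : SL(2, ℤ)) • xFin p k = xFin p (k + 1) := by
  unfold xFin
  rw [smul_mk, ← mul_assoc, ← pow_succ']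

theorem T_pow_smul_xFin (j k : ℕ) : (T ^ j : SL(2, ℤ)) • xFin p k = xFin p (k + j) := by
  unfold xFin
  rw [smul_mk, ← mul_assoc, ← pow_add, add_comm]

theorem S_smul_xInf : (S : SL(2, ℤ)) • xInf p = xFin p 0 := by
  unfold xInf xFin
  rw [smul_mk, mul_one, pow_zero, one_mul]

theorem S_smul_xFin_zero : (S : SL(2, ℤ)) • xFin p 0 = xInf p := by
  rw [← S_smul_xInf, S_smul_S_smul]

/-- `(T ^ k)⁻¹ • x_0 = x_{p - k}` for `k ≤ p`. -/
theorem T_pow_inv_smul_xFin_zero {k : ℕ} (hk : k ≤ p) :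
    (T ^ k : SL(2, ℤ))⁻¹ • xFin p 0 = xFin p (p - k) := by
  rw [inv_smul_eq_iff, T_pow_smul_xFin, Nat.sub_add_cancel hk]
  have := xFin_add p 0
  rw [zero_add] at this
  exact this.symm

/-- `U • x_0 = x_{p-1}` for `U = S * T`. -/
theorem ST_smul_xFin_zero (hp : 1 ≤ p) : (S * T : SL(2, ℤ)) • xFin p 0 = xFin p (p - 1) := by
  conv_lhs => rw [xFin]
  rw [smul_mk, mk_eq_xFin_iff]
  have h00 : (S * T * (T ^ 0 * S) : SL(2, ℤ)) 0 0 = -1 := by decide
  have h10 : (S * T * (T ^ 0 * S) : SL(2, ℤ)) 1 0 = 1 := by decide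
  rw [h00, h10]
  refine ⟨-1, ?_⟩
  push_cast [Nat.cast_sub hp]
  ring

theorem ST_smul_xFin_zero_ne [hp : Fact p.Prime] :
    (S * T : SL(2, ℤ)) • xFin p 0 ≠ xFin p 0 := by
  rw [ST_smul_xFin_zero p hp.out.one_lt.le]
  intro h
  have := xFin_inj p (Nat.sub_lt hp.out.pos one_pos) hp.out.pos h
  have h2 := hp.out.two_le
  omega

/-! ### Enumeration and sums -/

/-- The points of `X p` indexed by `Option (Fin p)`. -/
def pointFun : Option (Fin p) → X p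
  | none => xInf p
  | some k => xFin p k

theorem pointFun_injective [Fact p.Prime] : Function.Injective (pointFun p) := by
  intro a b h
  cases a with
  | none =>
    cases b with
    | none => rfl
    | some k => exact absurd h (xInf_ne_xFin p k)
  | some j =>
    cases b with
    | none => exact absurd h.symm (xInf_ne_xFin p j)
    | some k =>
      have := xFin_inj p j.2 k.2 h
      rw [Fin.ext this]

theorem pointFun_surjective [Fact p.Prime] : Function.Surjective (pointFun p) := by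
  intro x
  rcases eq_xInf_or_xFin p x with h | ⟨k, hk, h⟩
  · exact ⟨none, h.symm⟩
  · exact ⟨some ⟨k, hk⟩, h.symm⟩

/-- `Option (Fin p) ≃ SL(2,ℤ) ⧸ Γ₀(p)` for `p` prime. -/
noncomputable def pointEquiv [Fact p.Prime] : Option (Fin p) ≃ X p :=
  Equiv.ofBijective (pointFun p) ⟨pointFun_injective p, pointFun_surjective p⟩

@[simp]
theorem pointEquiv_none [Fact p.Prime] : pointEquiv p none = xInf p := rfl

@[simp]
theorem pointEquiv_some [Fact p.Prime] (k : Fin p) : pointEquiv p (some k) = xFin p k := rfl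

/-- The `Fintype` structure on `X p` (a definition, to be used as a local instance). -/
@[reducible] noncomputable def fintypeX [Fact p.Prime] : Fintype (X p) :=
  Fintype.ofEquiv _ (pointEquiv p)

/-- `∑_{x ∈ X} f x = f ∞ + ∑_{k < p} f x_k` (for any `Fintype` structure on `X p`). -/
theorem sum_eq [Fact p.Prime] [Fintype (X p)] {A : Type*} [AddCommMonoid A] (f : X p → A) :
    ∑ x, f x = f (xInf p) + ∑ k ∈ Finset.range p, f (xFin p k) := by
  rw [← Equiv.sum_comp (pointEquiv p) f, Fintype.sum_option, pointEquiv_none]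
  congr 1
  rw [Finset.sum_range]
  rfl

end Fermat.Agent.Eis.CosetP
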