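import Fermat.Statements.S16

/-!
# Program E, algebra half of N0 / N8: the quotient `T/I` of S16 is cyclic

* `heckeEvalForms_surjective`: `ℤ[X_ℓ] → heckeAlgebra N k ∅` is onto.
* `intCast_surjective_quot`: `ℤ → T/I` is onto, `T = heckeLatticeAlgebra p ∅`, `I` the image of the
  Eisenstein ideal.
* `natCard_eq_of_cyclic`: abstract counting lemma: if `ℤ → Q` is onto, every ring hom `Q → ℤ/M`
  (`M ≥ 1`) forces `M ∣ n`, and `Q` surjects onto some `ℤ/n'` with `n ∣ n'`, then `|Q| = n`.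
-/

set_option autoImplicit false
open ModularCurve CuspForm

namespace Fermat.Agent.Eis.CyclicQuot

/-- The evaluation `ℤ[X_ℓ : ℓ prime] → heckeAlgebra N k ∅` is surjective. -/
theorem heckeEvalForms_surjective (N : ℕ) [NeZero N] (k : ℤ) :
    Function.Surjective (heckeEvalForms N k) := by
  rintro ⟨x, hx⟩
  induction hx using Algebra.adjoin_induction with
  | mem x hx =>
    rcases hx with ⟨ℓ, hℓ, hℓN, -, rfl⟩ | ⟨q, hqN, hq, -, rfl⟩
    · refine ⟨heckeGen ⟨ℓ, hℓ⟩, ?_⟩
      rw [heckeEvalForms_heckeGen_of_not_dvd (ℓ := ⟨ℓ, hℓ⟩) hℓN]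
      rfl
    · refine ⟨heckeGen ⟨q, hq⟩, ?_⟩
      rw [heckeEvalForms_heckeGen_of_dvd (q := ⟨q, hq⟩) hqN]
      rfl
  | algebraMap r =>
    refine ⟨MvPolynomial.C r, ?_⟩
    rw [heckeEvalForms_C]
    rfl
  | add x y hx hy ihx ihy =>
    obtain ⟨a, ha⟩ := ihx
    obtain ⟨b, hb⟩ := ihy
    refine ⟨a + b, ?_⟩
    rw [map_add, ha, hb]
    rfl
  | mul x y hx hy ihx ihy =>
    obtain ⟨a, ha⟩ := ihx
    obtain ⟨b, hb⟩ := ihy
    refine ⟨a * b, ?_⟩
    rw [map_mul, ha, hb]
    rfl

/-- Every element of `ℤ[X_ℓ]` is congruent to an integer constant modulo the Eisenstein ideal. -/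
theorem sub_C_mem_eisensteinIdeal (N : ℕ) (t : HeckeAlg) :
    t - MvPolynomial.C (MvPolynomial.aeval (R := ℤ) (eisensteinSystem N) t) ∈ eisensteinIdeal N := by
  rw [eisensteinIdeal, mem_eigenIdeal_iff, map_sub, MvPolynomial.aeval_C, sub_eq_zero]
  rfl

/-- The ring hom `ℤ[X_ℓ] → heckeLatticeAlgebra p ∅` of the statement S16 is surjective. -/
theorem evalLattice_surjective (N : ℕ) [NeZero N] :
    Function.Surjective ((latticeRestrictHom N ∅).toRingHom.comp (heckeEvalForms N 2)) := by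
  intro x
  obtain ⟨y, rfl⟩ := latticeRestrictHom_surjective N ∅ x
  obtain ⟨t, rfl⟩ := heckeEvalForms_surjective N 2 y
  exact ⟨t, rfl⟩

/-- Abstract form: if every element of `A` is congruent to an integer modulo `I` and `g : A → B`
is onto, then `ℤ → B / g(I)` is onto. -/
theorem intCast_surjective_of {A B : Type*} [CommRing A] [CommRing B] (g : A →+* B)
    (hg : Function.Surjective g) (I : Ideal A) (hI : ∀ t : A, ∃ c : ℤ, t - (c : A) ∈ I) :
    Function.Surjective (Int.castRingHom (B ⧸ Ideal.map g I)) := by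
  intro x
  obtain ⟨y, rfl⟩ := Ideal.Quotient.mk_surjective x
  obtain ⟨t, rfl⟩ := hg y
  obtain ⟨c, hc⟩ := hI t
  refine ⟨c, ?_⟩
  have h1 : g (t - (c : A)) ∈ Ideal.map g I := Ideal.mem_map_of_mem g hc
  have h2 : Ideal.Quotient.mk (Ideal.map g I) (g (t - (c : A))) = 0 :=
    Ideal.Quotient.eq_zero_iff_mem.mpr h1
  rw [map_sub, map_sub, sub_eq_zero, map_intCast, map_intCast] at h2
  rw [h2]
  rfl

/-- `ℤ → T/I` is onto (`T` the integral Hecke algebra of weight 2 and level `N`, `I` the ideal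
generated by the image of the Eisenstein ideal): `T/I` is a cyclic ring. -/
theorem intCast_surjective_quot (N : ℕ) [NeZero N] :
    Function.Surjective (Int.castRingHom (↥(heckeLatticeAlgebra N ∅) ⧸
        Ideal.map ((latticeRestrictHom N ∅).toRingHom.comp (heckeEvalForms N 2))
          (eisensteinIdeal N))) := by
  refine intCast_surjective_of _ (evalLattice_surjective N) _ fun t => ?_
  refine ⟨MvPolynomial.aeval (R := ℤ) (eisensteinSystem N) t, ?_⟩
  have h := sub_C_mem_eisensteinIdeal N t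
  rwa [eq_intCast (MvPolynomial.C : ℤ →+* HeckeAlg)] at h

section Abstract

variable {Q : Type*} [CommRing Q]

/-- A ring onto which `ℤ` surjects has a ring hom to `ℤ/M` as soon as `M` divides its
characteristic. -/
theorem exists_ringHom_zmod (hQ : Function.Surjective (Int.castRingHom Q)) (M : ℕ)
    (hM : M ∣ ringChar Q) : Nonempty (Q →+* ZMod M) := by
  refine ⟨RingHom.liftOfSurjective (Int.castRingHom Q) hQ
    ⟨Int.castRingHom (ZMod M), fun x hx => ?_⟩⟩
  rw [RingHom.mem_ker, eq_intCast] at hx ⊢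
  rw [CharP.intCast_eq_zero_iff Q (ringChar Q)] at hx
  rw [ZMod.intCast_zmod_eq_zero_iff_dvd]
  exact (Int.natCast_dvd_natCast.mpr hM).trans hx

/-- A ring onto which `ℤ` surjects has as many elements as its characteristic. -/
theorem natCard_eq_ringChar (hQ : Function.Surjective (Int.castRingHom Q)) :
    Nat.card Q = ringChar Q := by
  have : CharP Q (ringChar Q) := ringChar.charP Q
  have hbij : Function.Bijective (ZMod.castHom (dvd_refl (ringChar Q)) Q) := by
    refine ⟨ZMod.castHom_injective Q, fun x => ?_⟩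
    obtain ⟨c, rfl⟩ := hQ x
    exact ⟨(c : ZMod (ringChar Q)), by simp⟩
  rw [← Nat.card_congr (Equiv.ofBijective _ hbij), Nat.card_zmod]

/-- **Counting lemma.** Let `ℤ → Q` be onto, `n ≥ 1`, and `CC` a property of moduli such that every
ring hom `Q → ℤ/M` (`M ≥ 1`) yields `CC M`, `CC M` forces `M ∣ n`, and `Q` surjects onto some
`ℤ/n'` with `n ∣ n'`.  Then `Q` has exactly `n` elements. -/
theorem natCard_eq_of_cyclic (hQ : Function.Surjective (Int.castRingHom Q)) (n : ℕ) (hn : 1 ≤ n)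
    (CC : ℕ → Prop) (hD : ∀ M : ℕ, 1 ≤ M → (Q →+* ZMod M) → CC M)
    (hU : ∀ M : ℕ, 1 ≤ M → CC M → M ∣ n)
    (hL : ∃ n' : ℕ, n ∣ n' ∧ ∃ χ : Q →+* ZMod n', Function.Surjective χ) :
    Nat.card Q = n := by
  rw [natCard_eq_ringChar hQ]
  set m := ringChar Q with hm
  have : CharP Q m := ringChar.charP Q
  -- `m ≠ 0`
  have hm0 : m ≠ 0 := by
    intro h0
    obtain ⟨χ⟩ := exists_ringHom_zmod hQ (n + 1) (by rw [← hm, h0]; exact dvd_zero _)
    have h1 := hU (n + 1) (Nat.succ_le_succ (Nat.zero_le n)) (hD _ (Nat.succ_le_succ (Nat.zero_le n)) χ)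
    have h2 := Nat.le_of_dvd (by omega) h1
    omega
  -- `m ∣ n`
  have hmn : m ∣ n := by
    obtain ⟨χ⟩ := exists_ringHom_zmod hQ m (dvd_refl _)
    exact hU m (Nat.one_le_iff_ne_zero.mpr hm0) (hD _ (Nat.one_le_iff_ne_zero.mpr hm0) χ)
  -- `n ∣ m`
  have hnm : n ∣ m := by
    obtain ⟨n', hnn', χ, -⟩ := hL
    refine hnn'.trans ?_
    have h1 : ((m : ℕ) : Q) = 0 := CharP.cast_eq_zero Q m
    have h2 : χ ((m : ℕ) : Q) = 0 := by rw [h1, map_zero]
    rw [map_natCast] at h2
    exact (ZMod.natCast_eq_zero_iff m n').mp h2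
  exact Nat.dvd_antisymm hmn hnm

end Abstract

theorem one_le_eisensteinNumerator {p : ℕ} (hp : p.Prime) : 1 ≤ eisensteinNumerator p := by
  have h1 : 0 < p - 1 := Nat.sub_pos_of_lt hp.one_lt
  have h2 : Nat.gcd (p - 1) 12 ∣ p - 1 := Nat.gcd_dvd_left _ _
  have h3 : 0 < Nat.gcd (p - 1) 12 := Nat.gcd_pos_of_pos_left _ h1
  rw [eisensteinNumerator]
  exact (Nat.one_le_div_iff h3).mpr (Nat.le_of_dvd h1 h2)

/-- **S16 from its three inputs** (hypothesis form; `CC M` stands for `Eis.CongCusp p M`):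
duality `hD`, the upper bound `hU` and the lower bound `hL`. -/
theorem s16_of (p : ℕ) [Fact p.Prime] (CC : ℕ → Prop)
    (hD : ∀ M : ℕ, 1 ≤ M → ((↥(heckeLatticeAlgebra p ∅) ⧸
        Ideal.map ((latticeRestrictHom p ∅).toRingHom.comp (heckeEvalForms p 2))
          (eisensteinIdeal p)) →+* ZMod M) → CC M)
    (hU : ∀ M : ℕ, 1 ≤ M → CC M → M ∣ eisensteinNumerator p)
    (hL : ∃ n' : ℕ, eisensteinNumerator p ∣ n' ∧ ∃ χ : (↥(heckeLatticeAlgebra p ∅) ⧸
        Ideal.map ((latticeRestrictHom p ∅).toRingHom.comp (heckeEvalForms p 2))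
          (eisensteinIdeal p)) →+* ZMod n', Function.Surjective χ) :
    Nat.card (↥(heckeLatticeAlgebra p ∅) ⧸
        Ideal.map ((latticeRestrictHom p ∅).toRingHom.comp (heckeEvalForms p 2))
          (eisensteinIdeal p)) =
      eisensteinNumerator p :=
  natCard_eq_of_cyclic (intCast_surjective_quot p) _
    (one_le_eisensteinNumerator (Fact.out : p.Prime)) CC hD hU hL

end Fermat.Agent.Eis.CyclicQuot
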