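import Mathlib

/-!
# Program E (S16), node N6a / shared: the weight-2 Eisenstein series of level `Γ₀(N)`

`e2Fun N z = N * E₂(N z) - E₂(z)` is a modular form of weight `2` on `Γ₀(N)` (`e2Level N`), with
`q`-expansion `(N - 1) + 24 ∑_{n ≥ 1} (σ(n) - N σ(n / N)) q ^ n` (second term only if `N ∣ n`).

Only Mathlib is used (the quasi-modular `E2` and its transformation law `E2_slash_action`).
-/

set_option autoImplicit false

open UpperHalfPlane hiding I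
open EisensteinSeries ModularForm CongruenceSubgroup Filter OnePoint Complex
open scoped MatrixGroups Manifold Real

noncomputable section

namespace Fermat.Agent.Eis.E2L

/-! ### `D2 γ` and `E2` at the cusps -/

theorem isBoundedAtImInfty_D2 (γ : SL(2, ℤ)) : IsBoundedAtImInfty (D2 γ) := by
  rw [UpperHalfPlane.isBoundedAtImInfty_iff]
  refine ⟨2 * π, 1, fun z hz => ?_⟩
  by_cases hc : γ 1 0 = 0
  · simp [D2, hc, Real.pi_nonneg]
  · have hcR : ((γ 1 0 : ℤ) : ℝ) ≠ 0 := by exact_mod_cast hc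
    have hden : |((γ 1 0 : ℤ) : ℝ)| * z.im ≤ ‖denom γ z‖ := by
      have h1 : (denom γ z).im = ((γ 1 0 : ℤ) : ℝ) * z.im := by
        simp [ModularGroup.denom_apply]
      calc |((γ 1 0 : ℤ) : ℝ)| * z.im = |(denom γ z).im| := by
            rw [h1, abs_mul, abs_of_pos z.im_pos]
        _ ≤ ‖denom γ z‖ := Complex.abs_im_le_norm _
    have hpos : 0 < |((γ 1 0 : ℤ) : ℝ)| * z.im := mul_pos (abs_pos.mpr hcR) z.im_pos
    have hnum : ‖(2 * π * I * (γ 1 0 : ℂ))‖ = 2 * π * |((γ 1 0 : ℤ) : ℝ)| := by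
      rw [norm_mul, norm_mul, norm_mul, Complex.norm_I, mul_one]
      simp [abs_of_pos Real.pi_pos]
    simp only [D2, norm_div, hnum]
    rw [div_le_iff₀ (lt_of_lt_of_le hpos hden)]
    calc 2 * π * |((γ 1 0 : ℤ) : ℝ)| ≤ 2 * π * (|((γ 1 0 : ℤ) : ℝ)| * z.im) := by
          have : |((γ 1 0 : ℤ) : ℝ)| ≤ |((γ 1 0 : ℤ) : ℝ)| * z.im :=
            le_mul_of_one_le_right (abs_nonneg _) hz
          exact mul_le_mul_of_nonneg_left this (by positivity)
      _ ≤ 2 * π * ‖denom γ z‖ := mul_le_mul_of_nonneg_left hden (by positivity)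

theorem isBoundedAtImInfty_E2_slash (γ : SL(2, ℤ)) : IsBoundedAtImInfty (E2 ∣[(2 : ℤ)] γ) := by
  rw [E2_slash_action]
  exact isBoundedAtImInfty_E2.sub ((isBoundedAtImInfty_D2 γ).const_smul_left _)

/-- `E2` is bounded at every cusp of `SL(2, ℤ)`. -/
theorem isBoundedAt_E2 {c : OnePoint ℝ} (hc : IsCusp c 𝒮ℒ) : c.IsBoundedAt E2 2 := by
  rw [OnePoint.isBoundedAt_iff_forall_SL2Z hc]
  exact fun γ _ => isBoundedAtImInfty_E2_slash γ

/-! ### The matrix `diag(N, 1)` -/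

variable (N : ℕ) [NeZero N]

/-- `diag(N, 1)` as an element of `GL(2, ℚ)`. -/
def diagQ : GL (Fin 2) ℚ :=
  Matrix.GeneralLinearGroup.mkOfDetNeZero !![(N : ℚ), 0; 0, 1]
    (by simp [Matrix.det_fin_two, NeZero.ne N])

/-- `diag(N, 1)` as an element of `GL(2, ℝ)`. -/
def diagR : GL (Fin 2) ℝ :=
  Matrix.GeneralLinearGroup.mkOfDetNeZero !![(N : ℝ), 0; 0, 1]
    (by simp [Matrix.det_fin_two, NeZero.ne N])

@[simp] theorem diagR_coe : (diagR N : Matrix (Fin 2) (Fin 2) ℝ) = !![(N : ℝ), 0; 0, 1] := rfl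

theorem diagR_eq_map : diagR N = Matrix.GeneralLinearGroup.map (Rat.castHom ℝ) (diagQ N) := by
  ext i j
  fin_cases i <;> fin_cases j <;> simp [diagR, diagQ, Matrix.GeneralLinearGroup.map]

theorem det_diagR : (Matrix.GeneralLinearGroup.det (diagR N) : ℝ) = N := by
  simp [diagR, Matrix.det_fin_two]

theorem det_diagR_pos : 0 < (Matrix.GeneralLinearGroup.det (diagR N) : ℝ) := by
  rw [det_diagR]
  exact Nat.cast_pos.mpr (NeZero.pos N)

theorem denom_diagR (z : ℂ) : denom (diagR N) z = 1 := by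
  simp [denom]

theorem num_diagR (z : ℂ) : num (diagR N) z = N * z := by
  simp [num]

@[simp] theorem coe_diagR_smul (z : ℍ) : ((diagR N • z : ℍ) : ℂ) = N * z := by
  rw [UpperHalfPlane.coe_smul_of_det_pos (det_diagR_pos N), denom_diagR, num_diagR, div_one]

theorem sigma_diagR : σ (diagR N) = ContinuousAlgEquiv.refl ℝ ℂ := by
  rw [σ, if_pos (det_diagR_pos N)]

/-- Weight `2` slash by `diag(N, 1)` is `f(z) ↦ N f(N z)`. -/
theorem slash_diagR_apply (f : ℍ → ℂ) (z : ℍ) :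
    (f ∣[(2 : ℤ)] diagR N) z = N * f (diagR N • z) := by
  rw [ModularForm.slash_apply, sigma_diagR, det_diagR, denom_diagR]
  simp [mul_comm]

/-- `diag(N, 1)` preserves the cusps of `SL(2, ℤ)`. -/
theorem isCusp_diagR_smul {c : OnePoint ℝ} (hc : IsCusp c 𝒮ℒ) : IsCusp (diagR N • c) 𝒮ℒ := by
  rw [isCusp_SL2Z_iff] at hc ⊢
  obtain ⟨c, rfl⟩ := hc
  refine ⟨diagQ N • c, ?_⟩
  rw [← Rat.coe_castHom, OnePoint.map_smul, diagR_eq_map]

/-! ### Conjugating `Γ₀(N)` by `diag(N, 1)` -/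

/-- For `γ = [a, b; c, d] ∈ Γ₀(N)`, the matrix `γ' = [a, N b; c / N, d] ∈ SL(2, ℤ)`. -/
def conjGamma0 (γ : SL(2, ℤ)) (hγ : γ ∈ Gamma0 N) : SL(2, ℤ) :=
  ⟨!![γ 0 0, N * γ 0 1; γ 1 0 / N, γ 1 1], by
    have hdvd : (N : ℤ) ∣ γ 1 0 := by
      rw [Gamma0_mem] at hγ
      exact (ZMod.intCast_zmod_eq_zero_iff_dvd _ _).mp hγ
    obtain ⟨c, hc⟩ := hdvd
    have hN : (N : ℤ) ≠ 0 := by exact_mod_cast NeZero.ne N
    have hdet := γ.det_coe
    rw [Matrix.det_fin_two] at hdet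
    rw [Matrix.det_fin_two_of, hc, Int.mul_ediv_cancel_left _ hN]
    rw [hc] at hdet
    linarith⟩

theorem conjGamma0_10_mul (γ : SL(2, ℤ)) (hγ : γ ∈ Gamma0 N) :
    (N : ℤ) * (conjGamma0 N γ hγ) 1 0 = γ 1 0 := by
  have hdvd : (N : ℤ) ∣ γ 1 0 := by
    rw [Gamma0_mem] at hγ
    exact (ZMod.intCast_zmod_eq_zero_iff_dvd _ _).mp hγ
  simp only [conjGamma0]
  exact Int.mul_ediv_cancel' hdvd

theorem conjGamma0_11 (γ : SL(2, ℤ)) (hγ : γ ∈ Gamma0 N) :
    (conjGamma0 N γ hγ) 1 1 = γ 1 1 := rfl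

theorem conjGamma0_00 (γ : SL(2, ℤ)) (hγ : γ ∈ Gamma0 N) :
    (conjGamma0 N γ hγ) 0 0 = γ 0 0 := rfl

theorem conjGamma0_01 (γ : SL(2, ℤ)) (hγ : γ ∈ Gamma0 N) :
    (conjGamma0 N γ hγ) 0 1 = N * γ 0 1 := rfl

theorem conjGamma0_mul_diagR (γ : SL(2, ℤ)) (hγ : γ ∈ Gamma0 N) :
    Matrix.SpecialLinearGroup.mapGL ℝ (conjGamma0 N γ hγ) * diagR N =
      diagR N * Matrix.SpecialLinearGroup.mapGL ℝ γ := by
  have h10 := conjGamma0_10_mul N γ hγ
  have h10R : (N : ℝ) * (((conjGamma0 N γ hγ) 1 0 : ℤ) : ℝ) = ((γ 1 0 : ℤ) : ℝ) := by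
    exact_mod_cast h10
  ext i j
  fin_cases i <;> fin_cases j
  · simp [conjGamma0_00, Matrix.mul_apply, Fin.sum_univ_two, mul_comm]
  · simp [conjGamma0_01, Matrix.mul_apply, Fin.sum_univ_two]
  · simp only [Fin.mk_one, Fin.zero_eta, Matrix.GeneralLinearGroup.coe_mul, diagR_coe,
      Matrix.mul_apply, Fin.sum_univ_two]
    simp [← h10R, mul_comm]
  · simp [conjGamma0_11, Matrix.mul_apply, Fin.sum_univ_two]

theorem denom_mapGL (γ : SL(2, ℤ)) (w : ℂ) :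
    denom (Matrix.SpecialLinearGroup.toGL
      ((Matrix.SpecialLinearGroup.map (Int.castRingHom ℝ)) γ)) w =
      ((γ 1 0 : ℤ) : ℂ) * w + ((γ 1 1 : ℤ) : ℂ) := by
  simp [denom]

/-- `(D2 γ') ∣[2] diag(N, 1) = D2 γ`. -/
theorem D2_conjGamma0_slash (γ : SL(2, ℤ)) (hγ : γ ∈ Gamma0 N) :
    (D2 (conjGamma0 N γ hγ)) ∣[(2 : ℤ)] diagR N = D2 γ := by
  have h10 := conjGamma0_10_mul N γ hγ
  have h10C : (N : ℂ) * (((conjGamma0 N γ hγ) 1 0 : ℤ) : ℂ) = ((γ 1 0 : ℤ) : ℂ) := by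
    exact_mod_cast h10
  ext z
  rw [slash_diagR_apply]
  simp only [D2, coe_diagR_smul, denom_mapGL, conjGamma0_11]
  rw [← h10C]
  have hd : ((conjGamma0 N γ hγ) 1 0 : ℂ) * (N * z) + (γ 1 1 : ℂ) =
      N * ((conjGamma0 N γ hγ) 1 0 : ℂ) * z + (γ 1 1 : ℂ) := by ring
  rw [hd]
  ring

/-! ### The modular form `N E₂(N z) - E₂(z)` -/

/-- The function `z ↦ N E₂(N z) - E₂(z)`. -/
def e2Fun : ℍ → ℂ := E2 ∣[(2 : ℤ)] diagR N - E2

theorem e2Fun_apply (z : ℍ) : e2Fun N z = N * E2 (diagR N • z) - E2 z := by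
  simp [e2Fun, slash_diagR_apply]

theorem e2Fun_slash (γ : SL(2, ℤ)) (hγ : γ ∈ Gamma0 N) : e2Fun N ∣[(2 : ℤ)] γ = e2Fun N := by
  have h1 : (E2 ∣[(2 : ℤ)] diagR N) ∣[(2 : ℤ)] γ =
      E2 ∣[(2 : ℤ)] diagR N - (1 / (2 * riemannZeta 2)) • D2 γ := by
    rw [ModularForm.SL_slash, ← SlashAction.slash_mul]
    change E2 ∣[(2 : ℤ)] (diagR N * Matrix.SpecialLinearGroup.mapGL ℝ γ) = _
    rw [← conjGamma0_mul_diagR N γ hγ, SlashAction.slash_mul]
    change (E2 ∣[(2 : ℤ)] (conjGamma0 N γ hγ)) ∣[(2 : ℤ)] diagR N = _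
    rw [E2_slash_action, sub_eq_add_neg, SlashAction.add_slash, SlashAction.neg_slash,
      ModularForm.smul_slash, D2_conjGamma0_slash, sigma_diagR, ← sub_eq_add_neg]
    rfl
  rw [e2Fun, sub_eq_add_neg, SlashAction.add_slash, SlashAction.neg_slash, h1, E2_slash_action]
  abel

theorem mdifferentiable_e2Fun : MDiff (e2Fun N) :=
  (E2_mdifferentiable.slash 2 (diagR N)).sub E2_mdifferentiable

theorem isBoundedAt_e2Fun {c : OnePoint ℝ} (hc : IsCusp c 𝒮ℒ) : c.IsBoundedAt (e2Fun N) 2 := by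
  have h1 : c.IsBoundedAt (E2 ∣[(2 : ℤ)] diagR N) 2 :=
    OnePoint.IsBoundedAt.smul_iff.mp (isBoundedAt_E2 (isCusp_diagR_smul N hc))
  have h2 : c.IsBoundedAt E2 2 := isBoundedAt_E2 hc
  intro g hg
  rw [e2Fun, sub_eq_add_neg, SlashAction.add_slash, SlashAction.neg_slash, ← sub_eq_add_neg]
  exact (h1 g hg).sub (h2 g hg)

/-- `N E₂(N z) - E₂(z)` as a modular form of weight `2` on `Γ₀(N)`. -/
def e2Level : ModularForm (Gamma0 N) 2 where
  toFun := e2Fun N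
  slash_action_eq' A hA := by
    obtain ⟨A, (hA : A ∈ Gamma0 N), rfl⟩ := hA
    exact e2Fun_slash N A hA
  holo' := mdifferentiable_e2Fun N
  bdd_at_cusps' {c} hc := by
    rw [Subgroup.IsArithmetic.isCusp_iff_isCusp_SL2Z] at hc
    exact isBoundedAt_e2Fun N hc

@[simp] theorem coe_e2Level : ⇑(e2Level N) = e2Fun N := rfl

/-! ### The `q`-expansion -/

/-- The `q`-expansion coefficients of `E₂`. -/
def e2Coeff (m : ℕ) : ℂ := if m = 0 then 1 else -24 * (ArithmeticFunction.sigma 1 m : ℂ)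

/-- The `q`-expansion coefficients of `E₂(N z)`. -/
def e2CoeffScaled (m : ℕ) : ℂ := if N ∣ m then e2Coeff (m / N) else 0

theorem hasSum_E2_scaled (τ : ℍ) :
    HasSum (fun m : ℕ => e2CoeffScaled N m • cexp (2 * π * I * τ) ^ m) (E2 (diagR N • τ)) := by
  have hN : N ≠ 0 := NeZero.ne N
  have hinj : Function.Injective (fun m : ℕ => N * m) := fun a b h => by
    simpa [hN] using h
  have h0 : ∀ x ∉ Set.range (fun m : ℕ => N * m),
      e2CoeffScaled N x • cexp (2 * π * I * τ) ^ x = 0 := by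
    intro x hx
    have : ¬ N ∣ x := fun ⟨k, hk⟩ => hx ⟨k, hk.symm⟩
    simp [e2CoeffScaled, this]
  rw [← hinj.hasSum_iff h0]
  have h := hasSum_qExpansion_E2 (z := diagR N • τ)
  convert h using 2 with m
  simp only [Function.comp_apply, e2CoeffScaled, dvd_mul_right, if_true,
    Nat.mul_div_cancel_left _ (Nat.pos_of_ne_zero hN), e2Coeff, coe_diagR_smul]
  congr 1
  rw [← Complex.exp_nat_mul, ← Complex.exp_nat_mul]
  congr 1
  push_cast
  ring

theorem hasSum_e2Fun (τ : ℍ) :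
    HasSum (fun m : ℕ => ((N : ℂ) * e2CoeffScaled N m - e2Coeff m) •
      Function.Periodic.qParam 1 τ ^ m) (e2Fun N τ) := by
  have hq : Function.Periodic.qParam 1 (τ : ℂ) = cexp (2 * π * I * τ) := by
    simp [Function.Periodic.qParam]
  rw [hq, e2Fun_apply]
  have h1 := (hasSum_E2_scaled N τ).mul_left (N : ℂ)
  have h2 : HasSum (fun m : ℕ => e2Coeff m • cexp (2 * π * I * τ) ^ m) (E2 τ) := by
    simpa [e2Coeff] using hasSum_qExpansion_E2 (z := τ)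
  have h3 := h1.sub h2
  have hfun : (fun m : ℕ => ((N : ℂ) * e2CoeffScaled N m - e2Coeff m) •
      cexp (2 * π * I * τ) ^ m) = fun m : ℕ => (N : ℂ) * e2CoeffScaled N m •
      cexp (2 * π * I * τ) ^ m - e2Coeff m • cexp (2 * π * I * τ) ^ m := by
    funext m
    simp only [smul_eq_mul]
    ring
  rw [hfun]
  exact h3

omit [NeZero N] in
theorem one_mem_strictPeriods_Gamma0' :
    (1 : ℝ) ∈ ((Gamma0 N : Subgroup SL(2, ℤ)) : Subgroup (GL (Fin 2) ℝ)).strictPeriods := by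
  rw [CongruenceSubgroup.strictPeriods_Gamma0]
  exact AddSubgroup.mem_zmultiples 1

/-- The `q`-expansion of `N E₂(N z) - E₂(z)`. -/
theorem qExpansion_e2Level_coeff (m : ℕ) :
    (qExpansion 1 (e2Level N)).coeff m = (N : ℂ) * e2CoeffScaled N m - e2Coeff m :=
  (ModularFormClass.qExpansion_coeff_unique (f := e2Level N) one_pos
    (one_mem_strictPeriods_Gamma0' N) (fun τ => hasSum_e2Fun N τ) m).symm

theorem qExpansion_e2Level_coeff_zero :
    (qExpansion 1 (e2Level N)).coeff 0 = (N : ℂ) - 1 := by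
  rw [qExpansion_e2Level_coeff]
  simp [e2CoeffScaled, e2Coeff]

theorem qExpansion_e2Level_coeff_of_not_dvd {m : ℕ} (hm : ¬ N ∣ m) :
    (qExpansion 1 (e2Level N)).coeff m = 24 * (ArithmeticFunction.sigma 1 m : ℂ) := by
  have hm0 : m ≠ 0 := fun h => hm (h ▸ dvd_zero N)
  rw [qExpansion_e2Level_coeff]
  simp [e2CoeffScaled, e2Coeff, hm, hm0]

theorem qExpansion_e2Level_coeff_of_dvd {m : ℕ} (hm0 : m ≠ 0) (hm : N ∣ m) :
    (qExpansion 1 (e2Level N)).coeff m =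
      24 * ((ArithmeticFunction.sigma 1 m : ℂ) - N * (ArithmeticFunction.sigma 1 (m / N) : ℂ)) := by
  have hmN : m / N ≠ 0 := by
    obtain ⟨k, rfl⟩ := hm
    have hk : k ≠ 0 := fun h => hm0 (by simp [h])
    rwa [Nat.mul_div_cancel_left _ (Nat.pos_of_ne_zero (NeZero.ne N))]
  rw [qExpansion_e2Level_coeff]
  simp only [e2CoeffScaled, e2Coeff, hm, if_true, hm0, hmN, if_false]
  ring

end Fermat.Agent.Eis.E2L
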