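import Fermat.Agent.Eis.E2LevelInt
import Fermat.Prelude.Def_ModularForm_HeckeOperator

/-!
# Program E (S16), node L2a: complements to `Eis/E2Level.lean` and `Eis/E2LevelInt.lean`

* `restrictLevelOne N f`: a modular form of level one, seen as a modular form on `Γ₀(N)`; same
  underlying function, hence same `q`-expansion (`qExpansion_restrictLevelOne`,
  `qCoeff_restrictLevelOne`); `E4N N`, `E6N N` are the restrictions of `E₄`, `E₆`;
* `eisA2 = eisNorm 3 = (3 E₂(3z) - E₂(z)) / 2` on `Γ₀(3)`, with integral `q`-expansion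
  `eisA2Z = 1 + 12 ∑ sigmaStar 3 m q ^ m` (`qExpansion_eisA2`);
* for general `N`: `qExpansion_eisNorm`, `qExpansion_eisStar` (as multiples of the integral series
  `e2LevelZ N`), `eisNorm_apply`, `eisStar_apply`;
* `diagR_eq_heckeDiagMatrix`: the matrix `diagR N` of `Eis/E2Level.lean` is the Prelude's
  `ModularForm.heckeDiagMatrix N`, so `e2Fun N = E2 ∣[2] heckeDiagMatrix N - E2`.
-/

set_option autoImplicit false

open UpperHalfPlane hiding I
open EisensteinSeries ModularForm CongruenceSubgroup Complex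
open scoped MatrixGroups Manifold Real

noncomputable section

namespace Fermat.Agent.Eis.EisForm

open Fermat.Agent.Eis Fermat.Agent.Eis.E2L

/-! ### Restriction of level one forms to `Γ₀(N)` -/

theorem gamma0_le_levelOne (N : ℕ) :
    ((Gamma0 N : Subgroup SL(2, ℤ)) : Subgroup (GL (Fin 2) ℝ)) ≤ 𝒮ℒ :=
  Subgroup.map_le_range _ _

/-- A modular form of level one, seen as a modular form on `Γ₀(N)`. -/
def restrictLevelOne (N : ℕ) {k : ℤ} (f : ModularForm 𝒮ℒ k) : ModularForm (Gamma0 N) k where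
  toFun := f
  holo' := f.holo'
  bdd_at_cusps' hc := f.bdd_at_cusps' (hc.mono (gamma0_le_levelOne N))
  slash_action_eq' γ hγ := f.slash_action_eq' γ (gamma0_le_levelOne N hγ)

@[simp] theorem coe_restrictLevelOne (N : ℕ) {k : ℤ} (f : ModularForm 𝒮ℒ k) :
    ⇑(restrictLevelOne N f) = ⇑f := rfl

theorem restrictLevelOne_apply (N : ℕ) {k : ℤ} (f : ModularForm 𝒮ℒ k) (z : ℍ) :
    restrictLevelOne N f z = f z := rfl

theorem qExpansion_restrictLevelOne (N : ℕ) {k : ℤ} (f : ModularForm 𝒮ℒ k) (h : ℝ) :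
    qExpansion h (restrictLevelOne N f) = qExpansion h f := rfl

theorem qCoeff_restrictLevelOne (N : ℕ) {k : ℤ} (f : ModularForm 𝒮ℒ k) (n : ℕ) :
    ModularFormClass.qCoeff (restrictLevelOne N f) n = ModularFormClass.qCoeff f n := rfl

theorem restrictLevelOne_injective (N : ℕ) {k : ℤ} :
    Function.Injective (restrictLevelOne N : ModularForm 𝒮ℒ k → ModularForm (Gamma0 N) k) := by
  intro f g h
  ext z
  exact DFunLike.congr_fun h z

theorem restrictLevelOne_add (N : ℕ) {k : ℤ} (f g : ModularForm 𝒮ℒ k) :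
    restrictLevelOne N (f + g) = restrictLevelOne N f + restrictLevelOne N g := rfl

theorem restrictLevelOne_smul (N : ℕ) {k : ℤ} (c : ℂ) (f : ModularForm 𝒮ℒ k) :
    restrictLevelOne N (c • f) = c • restrictLevelOne N f := rfl

theorem restrictLevelOne_mul (N : ℕ) {k l : ℤ} (f : ModularForm 𝒮ℒ k) (g : ModularForm 𝒮ℒ l) :
    ⇑(restrictLevelOne N (f.mul g)) = ⇑((restrictLevelOne N f).mul (restrictLevelOne N g)) := rfl

/-- `E₄` as a modular form on `Γ₀(N)`. -/
def E4N (N : ℕ) : ModularForm (Gamma0 N) 4 := restrictLevelOne N E₄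

/-- `E₆` as a modular form on `Γ₀(N)`. -/
def E6N (N : ℕ) : ModularForm (Gamma0 N) 6 := restrictLevelOne N E₆

@[simp] theorem coe_E4N (N : ℕ) : ⇑(E4N N) = ⇑E₄ := rfl

@[simp] theorem coe_E6N (N : ℕ) : ⇑(E6N N) = ⇑E₆ := rfl

theorem qExpansion_E4N (N : ℕ) : qExpansion 1 (E4N N) = qExpansion 1 E₄ := rfl

theorem qExpansion_E6N (N : ℕ) : qExpansion 1 (E6N N) = qExpansion 1 E₆ := rfl

/-! ### The normalised series for general `N` -/

/-- `qExpansion (eisNorm N)` is `(N - 1)⁻¹` times the integral series `e2LevelZ N`. -/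
theorem qExpansion_eisNorm (N : ℕ) [NeZero N] :
    qExpansion 1 (eisNorm N) = ((N : ℂ) - 1)⁻¹ • (e2LevelZ N).map (Int.castRingHom ℂ) := by
  have h : qExpansion 1 (eisNorm N) = ((N : ℂ) - 1)⁻¹ • qExpansion 1 (e2Level N) :=
    ModularForm.qExpansion_smul one_pos (one_mem_strictPeriods_Gamma0' N) _ (e2Level N)
  rw [h, qExpansion_e2Level]

/-- `qExpansion (eisStar N)` is `1/24` times the integral series `e2LevelZ N`. -/
theorem qExpansion_eisStar (N : ℕ) [NeZero N] :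
    qExpansion 1 (eisStar N) = (1 / 24 : ℂ) • (e2LevelZ N).map (Int.castRingHom ℂ) := by
  have h : qExpansion 1 (eisStar N) = (1 / 24 : ℂ) • qExpansion 1 (e2Level N) :=
    ModularForm.qExpansion_smul one_pos (one_mem_strictPeriods_Gamma0' N) _ (e2Level N)
  rw [h, qExpansion_e2Level]

theorem eisNorm_apply (N : ℕ) [NeZero N] (z : ℍ) :
    eisNorm N z = ((N : ℂ) - 1)⁻¹ * ((N : ℂ) * E2 (diagR N • z) - E2 z) := by
  change (((N : ℂ) - 1)⁻¹ • e2Fun N) z = _
  rw [Pi.smul_apply, e2Fun_apply, smul_eq_mul]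

theorem eisStar_apply (N : ℕ) [NeZero N] (z : ℍ) :
    eisStar N z = (1 / 24 : ℂ) * ((N : ℂ) * E2 (diagR N • z) - E2 z) := by
  change ((1 / 24 : ℂ) • e2Fun N) z = _
  rw [Pi.smul_apply, e2Fun_apply, smul_eq_mul]

/-! ### The level three form `A₂ = (3 E₂(3z) - E₂(z)) / 2` -/

/-- `A₂ = (3 E₂(3z) - E₂(z)) / 2 ∈ M₂(Γ₀(3))`. -/
def eisA2 : ModularForm (Gamma0 3) 2 := eisNorm 3

/-- The integral `q`-expansion `1 + 12 ∑ σ^{(3)}(m) q ^ m` of `A₂`. -/
def eisA2Z : PowerSeries ℤ :=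
  PowerSeries.mk fun m => if m = 0 then 1 else 12 * (sigmaStar 3 m : ℤ)

@[simp] theorem coeff_eisA2Z (m : ℕ) :
    eisA2Z.coeff m = if m = 0 then 1 else 12 * (sigmaStar 3 m : ℤ) :=
  PowerSeries.coeff_mk _ _

theorem constantCoeff_eisA2Z : PowerSeries.constantCoeff eisA2Z = 1 := by
  rw [← PowerSeries.coeff_zero_eq_constantCoeff_apply, coeff_eisA2Z, if_pos rfl]

theorem eisA2_apply (z : ℍ) :
    eisA2 z = (3 * E2 (diagR 3 • z) - E2 z) / 2 := by
  rw [eisA2, eisNorm_apply]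
  norm_num
  ring

theorem qCoeff_eisA2 (m : ℕ) :
    ModularFormClass.qCoeff eisA2 m = if m = 0 then 1 else 12 * (sigmaStar 3 m : ℂ) := by
  rw [eisA2, qCoeff_eisNorm 3 (by norm_num)]
  split_ifs
  · rfl
  · norm_num

/-- **The `q`-expansion of `A₂`** is `1 + 12 ∑ σ^{(3)}(m) q ^ m`. -/
theorem qExpansion_eisA2 : qExpansion 1 eisA2 = eisA2Z.map (Int.castRingHom ℂ) := by
  ext m
  rw [PowerSeries.coeff_map, coeff_eisA2Z]
  have h := qCoeff_eisA2 m
  rw [ModularFormClass.qCoeff] at h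
  rw [h]
  split_ifs <;> simp

/-- `12 ∣ A₂ - 1`. -/
theorem dvd_coeff_eisA2Z_sub_one (m : ℕ) : (12 : ℤ) ∣ (eisA2Z - 1).coeff m := by
  rw [map_sub, coeff_eisA2Z, PowerSeries.coeff_one]
  split_ifs
  · simp
  · simp

/-! ### Comparison with the Prelude's `heckeDiagMatrix` -/

theorem diagR_eq_heckeDiagMatrix (N : ℕ) [NeZero N] : diagR N = heckeDiagMatrix N := by
  apply Matrix.GeneralLinearGroup.ext
  intro i j
  rw [val_heckeDiagMatrix (NeZero.ne N), diagR_coe]

theorem e2Fun_eq_slash_heckeDiagMatrix (N : ℕ) [NeZero N] :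
    e2Fun N = E2 ∣[(2 : ℤ)] heckeDiagMatrix N - E2 := by
  rw [e2Fun, diagR_eq_heckeDiagMatrix]

end Fermat.Agent.Eis.EisForm
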