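import Mathlib
import Fermat.Agent.Eis.Defs

/-!
# Program E (S16): a residue field of `IntAt l` (shared by N3, N4)

`IntAt l ⊆ ℂ` is the integral closure of `ℤ_(l)`.  The element `l` is not a unit of `IntAt l`
(`inv_prime_not_mem_IntAt`), hence lies in a maximal ideal `m`; the quotient `K := IntAt l ⧸ m` is a
field of characteristic `l` and `φ := Ideal.Quotient.mk m : IntAt l →+* K` kills `l`.

Exports (namespace `Fermat.Agent.Eis.IntAtRes`):
* `not_isUnit_prime`, `exists_maximal`;
* `maxIdeal l`, `ResField l` (a `Field` with `CharP (ResField l) l`), `resMap l`, `resMap_prime`,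
  `resMap_surjective`, `resMap_natCast_ne_zero`;
* `exists_residue` : the existential package in the `(S, φ, K)` shape of N2/N3;
* `inv_natCast_mem` : the hypothesis `hS` of the level one theorems for `S = IntAt l`.
-/

set_option autoImplicit false

namespace Fermat.Agent.Eis.IntAtRes

open Fermat.Agent.Eis

variable (l : ℕ) [hl : Fact l.Prime]

/-- `l` is not a unit of `IntAt l`. -/
theorem not_isUnit_prime : ¬ IsUnit ((l : ℕ) : IntAt l) := by
  intro h
  obtain ⟨v, hv⟩ := h.exists_right_inv
  have hv' : (l : ℂ) * (v : ℂ) = 1 := by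
    have := congrArg (Subtype.val) hv
    simpa using this
  have hl0 : (l : ℂ) ≠ 0 := by exact_mod_cast hl.out.ne_zero
  have : ((l : ℂ))⁻¹ = (v : ℂ) := by
    exact inv_eq_of_mul_eq_one_right hv'
  exact inv_prime_not_mem_IntAt (l := l) (this ▸ v.2)

/-- There is a maximal ideal of `IntAt l` containing `l`. -/
theorem exists_maximal : ∃ m : Ideal (IntAt l), m.IsMaximal ∧ ((l : ℕ) : IntAt l) ∈ m := by
  have hne : Ideal.span {((l : ℕ) : IntAt l)} ≠ ⊤ := by
    rw [Ne, Ideal.span_singleton_eq_top]
    exact not_isUnit_prime l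
  obtain ⟨m, hm, hle⟩ := Ideal.exists_le_maximal _ hne
  exact ⟨m, hm, hle (Ideal.subset_span (Set.mem_singleton _))⟩

/-- A chosen maximal ideal of `IntAt l` containing `l`. -/
noncomputable def maxIdeal : Ideal (IntAt l) := (exists_maximal l).choose

instance maxIdeal_isMaximal : (maxIdeal l).IsMaximal := (exists_maximal l).choose_spec.1

theorem prime_mem_maxIdeal : ((l : ℕ) : IntAt l) ∈ maxIdeal l := (exists_maximal l).choose_spec.2

/-- The residue field `IntAt l ⧸ maxIdeal l`. -/
abbrev ResField : Type := IntAt l ⧸ maxIdeal l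

noncomputable instance resField_field : Field (ResField l) := Ideal.Quotient.field (maxIdeal l)

/-- The reduction map `IntAt l →+* ResField l`. -/
noncomputable def resMap : IntAt l →+* ResField l := Ideal.Quotient.mk (maxIdeal l)

theorem resMap_surjective : Function.Surjective (resMap l) := Ideal.Quotient.mk_surjective

theorem resMap_prime : resMap l ((l : ℕ) : IntAt l) = 0 :=
  Ideal.Quotient.eq_zero_iff_mem.mpr (prime_mem_maxIdeal l)

theorem natCast_prime_eq_zero : ((l : ℕ) : ResField l) = 0 := by
  have h := resMap_prime l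
  rwa [map_natCast] at h

/-- Generic: a field in which the prime `l` vanishes has characteristic `l`. -/
theorem charP_of_natCast_eq_zero {K : Type*} [Field K] (h : ((l : ℕ) : K) = 0) : CharP K l := by
  have hdvd : ringChar K ∣ l := (CharP.cast_eq_zero_iff K (ringChar K) l).mp h
  have h1 : ringChar K ≠ 1 := CharP.ringChar_ne_one
  have heq : ringChar K = l := ((Nat.dvd_prime hl.out).mp hdvd).resolve_left h1
  exact ringChar.of_eq heq

instance resField_charP : CharP (ResField l) l := charP_of_natCast_eq_zero l (natCast_prime_eq_zero l)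

/-- Natural numbers prime to `l` stay nonzero in the residue field. -/
theorem resMap_natCast_ne_zero {N : ℕ} (hN : ¬ l ∣ N) : resMap l ((N : ℕ) : IntAt l) ≠ 0 := by
  rw [map_natCast]
  intro h
  exact hN ((CharP.cast_eq_zero_iff (ResField l) l N).mp h)

/-- The hypothesis `hS` of the level one theorems for `S = IntAt l`. -/
theorem inv_natCast_mem (N : ℕ) (hN : ¬ l ∣ N) : ((N : ℂ))⁻¹ ∈ IntAt l :=
  inv_natCast_mem_IntAt hN

/-- Generic version for any ring hom `φ : IntAt l →+* K` into a field killing `l`: `CharP K l`. -/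
theorem charP_of_map_prime_eq_zero {K : Type*} [Field K] (φ : IntAt l →+* K)
    (hφ : φ ((l : ℕ) : IntAt l) = 0) : CharP K l := by
  apply charP_of_natCast_eq_zero l
  rwa [map_natCast] at hφ

/-- **The residue field package** in the `(S, φ, K)` shape: a field `K` of characteristic `l` with a
surjective ring hom `φ : IntAt l →+* K` killing `l`. -/
theorem exists_residue :
    ∃ (K : Type) (_ : Field K) (_ : CharP K l) (φ : IntAt l →+* K),
      Function.Surjective φ ∧ φ ((l : ℕ) : IntAt l) = 0 :=
  ⟨ResField l, inferInstance, inferInstance, resMap l, resMap_surjective l, resMap_prime l⟩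

end Fermat.Agent.Eis.IntAtRes
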