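import Mathlib
import Fermat.Agent.Eis.L1Basis

set_option autoImplicit false

/-!
# Program E, node L4, second part: corollaries of the integral triangular basis

* `tri_coeff_eq_zero`: triangular elimination for a family `b c = q ^ c + ...`.
* `map_eq_zero_of_coeff_lt`, `coeff_mem_ideal_of_lt`: the Sturm bound of level one modulo a ring
  homomorphism or an ideal of a subring `S` of `ℂ`.
* `qExpansion_mem_isoSpan`: the `q`-expansion of a level one form of weight `k` lies in the
  complex span of the monomials `E₄ ^ a * E₆ ^ b`, `4 a + 6 b = k`.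
* `exists_isobaric_sum`, `exists_isobaric_sum_two_mul`: the same as an explicit double sum.
-/

namespace Fermat.Agent.Eis.L1B

open UpperHalfPlane ModularForm CongruenceSubgroup PowerSeries Finset
open scoped MatrixGroups

noncomputable section

/-! ## Triangular elimination -/

/-- If `b c = q ^ c + ...` and the combination `∑ c < d, a c * b c` has vanishing coefficients
in degrees `< d`, then all `a c`, `c < d`, vanish. -/
theorem tri_coeff_eq_zero {K : Type*} [CommRing K] (b : ℕ → PowerSeries K)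
    (hb : ∀ c n, n ≤ c → coeff n (b c) = if n = c then 1 else 0) (d : ℕ) (a : ℕ → K)
    (h : ∀ n < d, coeff n (∑ c ∈ range d, C (a c) * b c) = 0) : ∀ c < d, a c = 0 := by
  intro c
  induction c using Nat.strong_induction_on with
  | _ c ih =>
    intro hc
    have h1 := h c hc
    rw [map_sum, Finset.sum_eq_single c] at h1
    · rw [coeff_C_mul, hb c c le_rfl, if_pos rfl, mul_one] at h1
      exact h1
    · intro c' hc' hne
      rw [coeff_C_mul]
      rcases lt_or_gt_of_ne hne with hlt | hgt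
      · rw [ih c' hlt (Finset.mem_range.mp hc'), zero_mul]
      · rw [hb c' c hgt.le, if_neg (by omega), mul_zero]
    · intro hnot
      exact absurd (Finset.mem_range.mpr hc) hnot

/-- Consequently the whole combination vanishes. -/
theorem tri_sum_eq_zero {K : Type*} [CommRing K] (b : ℕ → PowerSeries K)
    (hb : ∀ c n, n ≤ c → coeff n (b c) = if n = c then 1 else 0) (d : ℕ) (a : ℕ → K)
    (h : ∀ n < d, coeff n (∑ c ∈ range d, C (a c) * b c) = 0) :
    ∑ c ∈ range d, C (a c) * b c = 0 := by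
  apply Finset.sum_eq_zero
  intro c hc
  rw [tri_coeff_eq_zero b hb d a h c (Finset.mem_range.mp hc), map_zero, zero_mul]

/-! ## The Sturm bound modulo a ring homomorphism or an ideal -/

section IntModel

variable {Qs Rs Ds : PowerSeries ℤ}

/-- **Sturm bound of level one modulo a ring homomorphism.**  If `φ : S →+* K` kills the first
`dimL k` coefficients of a level one form of weight `k` with coefficients in `S`, it kills all
of them. -/
theorem map_eq_zero_of_coeff_lt (hQ : Qs.map (Int.castRingHom ℂ) = qExpansion 1 E₄)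
    (hR : Rs.map (Int.castRingHom ℂ) = qExpansion 1 E₆)
    (hD : Ds.map (Int.castRingHom ℂ) = qExpansion 1 ModularForm.discriminant)
    (S : Subring ℂ) {K : Type*} [CommRing K] (φ : S →+* K) {k : ℤ} (F : ModularForm 𝒮ℒ k)
    (f : PowerSeries S) (hf : f.map S.subtype = qExpansion 1 F)
    (h0 : ∀ n < dimL k.toNat, φ (coeff n f) = 0) : f.map φ = 0 := by
  obtain ⟨o, ho⟩ := exists_coords_map hQ hR hD S φ F f hf
  rw [ho]
  apply tri_sum_eq_zero _ (fun c n hn => coeff_bas_map hQ hR hD k.toNat c n hn)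
  intro n hn
  rw [← ho, coeff_map]
  exact h0 n hn

/-- **Sturm bound of level one modulo an ideal.** -/
theorem coeff_mem_ideal_of_lt (hQ : Qs.map (Int.castRingHom ℂ) = qExpansion 1 E₄)
    (hR : Rs.map (Int.castRingHom ℂ) = qExpansion 1 E₆)
    (hD : Ds.map (Int.castRingHom ℂ) = qExpansion 1 ModularForm.discriminant)
    (S : Subring ℂ) (I : Ideal S) {k : ℤ} (F : ModularForm 𝒮ℒ k)
    (f : PowerSeries S) (hf : f.map S.subtype = qExpansion 1 F)
    (h0 : ∀ n < dimL k.toNat, coeff n f ∈ I) : ∀ n, coeff n f ∈ I := by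
  have h := map_eq_zero_of_coeff_lt hQ hR hD S (Ideal.Quotient.mk I) F f hf
    (fun n hn => Ideal.Quotient.eq_zero_iff_mem.mpr (h0 n hn))
  intro n
  have h1 := congrArg (coeff n) h
  rw [coeff_map, map_zero] at h1
  exact Ideal.Quotient.eq_zero_iff_mem.mp h1

/-- **Sturm bound modulo an ideal, complex form**: `F` has coefficients in `S`, and the first
`dimL k` of them lie in `I` (as elements of `S`); then all do. -/
theorem coeff_mem_ideal_of_lt' (hQ : Qs.map (Int.castRingHom ℂ) = qExpansion 1 E₄)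
    (hR : Rs.map (Int.castRingHom ℂ) = qExpansion 1 E₆)
    (hD : Ds.map (Int.castRingHom ℂ) = qExpansion 1 ModularForm.discriminant)
    (S : Subring ℂ) (I : Ideal S) {k : ℤ} (F : ModularForm 𝒮ℒ k)
    (hF : ∀ n, coeff n (qExpansion 1 F) ∈ S)
    (h0 : ∀ n < dimL k.toNat, (⟨coeff n (qExpansion 1 F), hF n⟩ : S) ∈ I) :
    ∀ n, (⟨coeff n (qExpansion 1 F), hF n⟩ : S) ∈ I := by
  set f : PowerSeries S := PowerSeries.mk fun n => ⟨coeff n (qExpansion 1 F), hF n⟩ with hfdef
  have hf : f.map S.subtype = qExpansion 1 F := by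
    ext n
    rw [coeff_map, hfdef, coeff_mk]
    rfl
  have := coeff_mem_ideal_of_lt hQ hR hD S I F f hf (fun n hn => by
    rw [hfdef, coeff_mk]; exact h0 n hn)
  intro n
  have h1 := this n
  rw [hfdef, coeff_mk] at h1
  exact h1

end IntModel

/-! ## Every level one form is an isobaric polynomial in `E₄`, `E₆` -/

/-- `1728 Δ = E₄ ^ 3 - E₆ ^ 2` for `q`-expansions. -/
theorem DC_eq : C (1728 : ℂ) * DC = QC ^ 3 - RC ^ 2 := by
  have h3 : qExpansion 1 (monoForm 12 3 0 (by norm_num)) = QC ^ 3 := by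
    rw [qExpansion_monoForm]; simp
  have h2 : qExpansion 1 (monoForm 12 0 2 (by norm_num)) = RC ^ 2 := by
    rw [qExpansion_monoForm]; simp
  have hsub := ModularForm.qExpansion_sub (h := 1) one_pos one_mem_strictPeriods_SL
    (monoForm 12 3 0 (by norm_num)) (monoForm 12 0 2 (by norm_num))
  rw [h3, h2] at hsub
  rw [← hsub]
  have hfun : ((monoForm 12 3 0 (by norm_num) : ModularForm 𝒮ℒ 12) : ℍ → ℂ) -
      ((monoForm 12 0 2 (by norm_num) : ModularForm 𝒮ℒ 12) : ℍ → ℂ) =
      (1728 : ℂ) • (CuspForm.discriminant : ℍ → ℂ) := by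
    funext z
    have hz := ModularForm.discriminant_eq_E₄_cube_sub_E₆_sq z
    simp only [monoForm, Pi.sub_apply, Pi.smul_apply, smul_eq_mul, ModularForm.mcast_apply,
      ModularForm.coe_mul, ModularForm.coe_pow, Pi.mul_apply, Pi.pow_apply, pow_zero,
      Pi.one_apply, CuspForm.coe_discriminant]
    rw [hz]; ring
  rw [hfun, ModularForm.qExpansion_smul one_pos one_mem_strictPeriods_SL (1728 : ℂ)
    CuspForm.discriminant, smul_eq_C_mul, CuspForm.coe_discriminant]

/-- The complex span of the monomials `E₄ ^ a * E₆ ^ b` of weight `k`. -/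
def isoSpan (k : ℕ) : Submodule ℂ (PowerSeries ℂ) :=
  Submodule.span ℂ {x | ∃ a b : ℕ, 4 * a + 6 * b = k ∧ x = QC ^ a * RC ^ b}

theorem mono_mem_isoSpan {k a b : ℕ} (h : 4 * a + 6 * b = k) : QC ^ a * RC ^ b ∈ isoSpan k :=
  Submodule.subset_span ⟨a, b, h, rfl⟩

theorem DC_mul_mem_isoSpan {k : ℕ} {x : PowerSeries ℂ} (hx : x ∈ isoSpan k) :
    DC * x ∈ isoSpan (k + 12) := by
  have hDC : DC = C (1 / 1728 : ℂ) * (QC ^ 3 - RC ^ 2) := by
    rw [← DC_eq, ← mul_assoc, ← map_mul]
    norm_num
  induction hx using Submodule.span_induction with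
  | mem x hx =>
    obtain ⟨a, b, hab, rfl⟩ := hx
    have : DC * (QC ^ a * RC ^ b) =
        (1 / 1728 : ℂ) • (QC ^ (a + 3) * RC ^ b - QC ^ a * RC ^ (b + 2)) := by
      rw [hDC, smul_eq_C_mul]; ring
    rw [this]
    refine Submodule.smul_mem _ _ (Submodule.sub_mem _ ?_ ?_)
    · exact mono_mem_isoSpan (by omega)
    · exact mono_mem_isoSpan (by omega)
  | zero => rw [mul_zero]; exact Submodule.zero_mem _
  | add x y _ _ hx hy => rw [mul_add]; exact Submodule.add_mem _ hx hy
  | smul r x _ hx =>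
    rw [mul_smul_comm]; exact Submodule.smul_mem _ _ hx

theorem bas_mem_isoSpan (c k' : ℕ) (hk : Even k') (hk2 : k' ≠ 2) :
    bas QC RC DC (k' + 12 * c) c ∈ isoSpan (k' + 12 * c) := by
  induction c with
  | zero =>
    rw [Nat.mul_zero, Nat.add_zero, bas_zero]
    exact mono_mem_isoSpan (eA_eB_spec hk hk2)
  | succ c ih =>
    have : k' + 12 * (c + 1) = (k' + 12 * c) + 12 := by ring
    rw [this, bas_succ]
    exact DC_mul_mem_isoSpan ih

/-- **Every level one form of weight `k` is an isobaric complex polynomial in `E₄`, `E₆`**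
(span form). -/
theorem qExpansion_mem_isoSpan {k : ℤ} (F : ModularForm 𝒮ℒ k) :
    qExpansion 1 F ∈ isoSpan k.toNat := by
  have hzero : F = 0 → qExpansion 1 F ∈ isoSpan k.toNat := by
    intro h0
    rw [h0, show ((0 : ModularForm 𝒮ℒ k) : ℍ → ℂ) = 0 from rfl, UpperHalfPlane.qExpansion_zero]
    exact Submodule.zero_mem _
  rcases lt_or_ge k 0 with hneg | hnonneg
  · exact hzero (DFunLike.coe_injective (ModularFormClass.levelOne_neg_weight_eq_zero hneg F))
  rcases Int.even_or_odd k with heven | hodd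
  swap
  · exact hzero (ModularForm.levelOne_odd_weight_eq_zero hodd F)
  obtain ⟨o, -, ho⟩ := exists_coords_complex ⊤ (fun _ => Subring.mem_top _) F
    (fun _ => Subring.mem_top _)
  rw [ho]
  have hev : Even k.toNat := by
    lift k to ℕ using hnonneg
    simpa using (by exact_mod_cast heven : Even k)
  apply Submodule.sum_mem
  intro c hc
  have hc' := Finset.mem_range.mp hc
  rw [← smul_eq_C_mul]
  apply Submodule.smul_mem
  set n := k.toNat with hn
  have h12 : 12 * c ≤ n ∧ n - 12 * c ≠ 2 := by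
    unfold dimL at hc'
    split_ifs at hc' with h <;> omega
  obtain ⟨k', hk'⟩ : ∃ k', n = k' + 12 * c := ⟨n - 12 * c, by omega⟩
  rw [hk']
  apply bas_mem_isoSpan
  · have : Even (12 * c) := ⟨6 * c, by ring⟩
    rw [hk'] at hev
    exact (Nat.even_add.mp hev).mpr this
  · omega

/-! ## Explicit double sums -/

/-- The isobaric double sum with coefficient function `c`. -/
def isoSum (k : ℕ) (m : ℕ) (c : ℕ → ℕ → ℂ) : PowerSeries ℂ :=
  ∑ a ∈ range m, ∑ b ∈ range m,
    if 4 * a + 6 * b = k then C (c a b) * QC ^ a * RC ^ b else 0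

theorem isoSum_add (k m : ℕ) (c c' : ℕ → ℕ → ℂ) :
    isoSum k m (c + c') = isoSum k m c + isoSum k m c' := by
  unfold isoSum
  rw [← Finset.sum_add_distrib]
  apply Finset.sum_congr rfl; intro a _
  rw [← Finset.sum_add_distrib]
  apply Finset.sum_congr rfl; intro b _
  split_ifs
  · simp only [Pi.add_apply, map_add]; ring
  · rw [add_zero]

theorem isoSum_smul (k m : ℕ) (r : ℂ) (c : ℕ → ℕ → ℂ) :
    isoSum k m (r • c) = r • isoSum k m c := by
  unfold isoSum
  rw [Finset.smul_sum]
  apply Finset.sum_congr rfl; intro a _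
  rw [Finset.smul_sum]
  apply Finset.sum_congr rfl; intro b _
  split_ifs
  · simp only [Pi.smul_apply, smul_eq_mul, map_mul, smul_eq_C_mul]; ring
  · rw [smul_zero]

theorem isoSum_zero (k m : ℕ) : isoSum k m 0 = 0 := by
  unfold isoSum
  apply Finset.sum_eq_zero; intro a _
  apply Finset.sum_eq_zero; intro b _
  split_ifs <;> simp

theorem mem_isoSpan_exists_isoSum {k m : ℕ}
    (hm : ∀ a b : ℕ, 4 * a + 6 * b = k → a < m ∧ b < m) {x : PowerSeries ℂ}
    (hx : x ∈ isoSpan k) : ∃ c : ℕ → ℕ → ℂ, x = isoSum k m c := by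
  induction hx using Submodule.span_induction with
  | mem x hx =>
    obtain ⟨a, b, hab, rfl⟩ := hx
    refine ⟨fun a' b' => if a' = a ∧ b' = b then 1 else 0, ?_⟩
    unfold isoSum
    rw [Finset.sum_eq_single a, Finset.sum_eq_single b]
    · simp [hab]
    · intro b' _ hb'
      simp [hb']
    · intro hb; exact absurd (Finset.mem_range.mpr (hm a b hab).2) hb
    · intro a' _ ha'
      apply Finset.sum_eq_zero
      intro b' _
      simp [ha']
    · intro ha; exact absurd (Finset.mem_range.mpr (hm a b hab).1) ha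
  | zero => exact ⟨0, (isoSum_zero k m).symm⟩
  | add x y _ _ hx hy =>
    obtain ⟨c, rfl⟩ := hx
    obtain ⟨c', rfl⟩ := hy
    exact ⟨c + c', (isoSum_add k m c c').symm⟩
  | smul r x _ hx =>
    obtain ⟨c, rfl⟩ := hx
    exact ⟨r • c, (isoSum_smul k m r c).symm⟩

/-- **Every level one form of weight `k` is an isobaric complex polynomial in `E₄`, `E₆`**
(explicit double sum). -/
theorem exists_isobaric_sum {k : ℤ} (F : ModularForm 𝒮ℒ k) :
    ∃ c : ℕ → ℕ → ℂ, qExpansion 1 F =
      ∑ a ∈ range (k.toNat + 1), ∑ b ∈ range (k.toNat + 1),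
        if 4 * a + 6 * b = k.toNat then C (c a b) * QC ^ a * RC ^ b else 0 :=
  mem_isoSpan_exists_isoSum (fun a b h => by omega) (qExpansion_mem_isoSpan F)

/-- The shape used by node N6: weight `2 j`, monomials with `2 a + 3 b = j`, `a, b ≤ j`. -/
theorem exists_isobaric_sum_two_mul (j : ℕ) (F : ModularForm 𝒮ℒ ((2 : ℤ) * (j : ℤ))) :
    ∃ c : ℕ → ℕ → ℂ, qExpansion 1 F =
      ∑ a ∈ range (j + 1), ∑ b ∈ range (j + 1),
        if 2 * a + 3 * b = j then
          C (c a b) * (qExpansion 1 E₄) ^ a * (qExpansion 1 E₆) ^ b else 0 := by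
  have hto : ((2 : ℤ) * (j : ℤ)).toNat = 2 * j := by
    have : ((2 : ℤ) * (j : ℤ)) = ((2 * j : ℕ) : ℤ) := by push_cast; ring
    rw [this, Int.toNat_natCast]
  have hmem := qExpansion_mem_isoSpan F
  rw [hto] at hmem
  obtain ⟨c, hc⟩ := mem_isoSpan_exists_isoSum (m := j + 1) (k := 2 * j)
    (x := qExpansion 1 F) (fun a b h => by omega) hmem
  refine ⟨c, ?_⟩
  rw [hc]
  unfold isoSum
  apply Finset.sum_congr rfl; intro a _
  apply Finset.sum_congr rfl; intro b _
  have : (4 * a + 6 * b = 2 * j) ↔ (2 * a + 3 * b = j) := by omega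
  rw [if_congr this rfl rfl]

end

end Fermat.Agent.Eis.L1B
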