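import Mathlib

/-!
# Program E (S16), node N2-alg: level-one forms mod `ℓ ≥ 5`, the algebraic core

`K` a field of characteristic `ℓ ≥ 5`, `K[Q,R] = MvPolynomial (Fin 2) K` with weights `4, 6`
(`wt`), Ramanujan's derivation `ramD` (`∂Q = -4R`, `∂R = -6Q²`).

* `rootMultiplicity_le_one_of_ode` : simple roots from a second order ODE in one variable.
* `specQ`, `specR` : the charts `Q = 1`, `R = 1`; `specQ_ramD` : in the chart `Q = 1` the
  derivation is `6 (X² - 1) d/dX - n X` on weight `n`.
* `dvd_of_pow_eq_of_ode` : **the core**: `K` algebraically closed of characteristic `ℓ ≥ 5`,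
  `A` of weight `ℓ - 1` with `A(1,1) ≠ 0` and `∂∂A = -Q A`, `F ^ (ℓ-1) = c A ^ k` with `c ≠ 0`
  `⟹ (ℓ - 1) ∣ k`.
-/

set_option autoImplicit false

namespace Fermat.Agent.Eis.L1

/-! ### One variable -/

section OneVar

open Polynomial

variable {K : Type*} [Field K]

/-- **Simple roots from a second order ODE.**  If `b = G a' + H₁ a` and `G b' + H₂ b = c a`,
`G t ≠ 0`, and every `2 ≤ e ≤ mult_t(a)` has `e ≠ 0`, `e - 1 ≠ 0` in `K`, then the multiplicity of
the root `t` of `a` is at most `1`. -/
theorem rootMultiplicity_le_one_of_ode {a b G H₁ H₂ c : K[X]} {t : K} (ha : a ≠ 0)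
    (h1 : b = G * derivative a + H₁ * a)
    (h2 : G * derivative b + H₂ * b = c * a)
    (hG : G.eval t ≠ 0)
    (hchar : ∀ e : ℕ, 2 ≤ e → e ≤ a.rootMultiplicity t → (e : K) ≠ 0 ∧ ((e - 1 : ℕ) : K) ≠ 0) :
    a.rootMultiplicity t ≤ 1 := by
  by_contra hlt
  push Not at hlt
  set e := a.rootMultiplicity t with he
  obtain ⟨a₀, ha₀, hnd⟩ := exists_eq_pow_rootMultiplicity_mul_and_not_dvd a ha t
  rw [← he] at ha₀
  have ha₀t : a₀.eval t ≠ 0 := by
    intro h
    exact hnd (dvd_iff_isRoot.mpr h)
  obtain ⟨he0, he1⟩ := hchar e hlt le_rfl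
  obtain ⟨m, hm⟩ : ∃ m, e = m + 2 := ⟨e - 2, by omega⟩
  set L : K[X] := X - C t with hL
  have hLt : L.eval t = 0 := by simp [hL]
  have hL' : derivative L = 1 := by simp [hL]
  set a₁ : K[X] := C (e : K) * a₀ + L * derivative a₀ with ha₁
  have hda : derivative a = L ^ (m + 1) * a₁ := by
    rw [ha₀, hm, derivative_mul, show m + 2 = (m + 1) + 1 from rfl, derivative_pow_succ, hL', ha₁,
      hm]
    simp only [Nat.cast_add, Nat.cast_ofNat, Nat.cast_one, map_add, map_one, map_natCast,
      map_ofNat]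
    ring
  have ha₁t : a₁.eval t = (e : K) * a₀.eval t := by
    simp [ha₁, hLt]
  set b₀ : K[X] := G * a₁ + H₁ * L * a₀ with hb₀
  have hb : b = L ^ (m + 1) * b₀ := by
    rw [h1, hda, ha₀, hm, hb₀]; ring
  have hb₀t : b₀.eval t ≠ 0 := by
    simp only [hb₀, eval_add, eval_mul, hLt, mul_zero, zero_mul, add_zero, ha₁t]
    exact mul_ne_zero hG (mul_ne_zero he0 ha₀t)
  set b₁ : K[X] := C ((m + 1 : ℕ) : K) * b₀ + L * derivative b₀ with hb₁
  have hdb : derivative b = L ^ m * b₁ := by
    rw [hb, derivative_mul, derivative_pow_succ, hL', hb₁]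
    simp only [Nat.cast_add, Nat.cast_one, map_add, map_one, map_natCast]
    ring
  have hm1 : ((m + 1 : ℕ) : K) ≠ 0 := by
    have : e - 1 = m + 1 := by omega
    rw [← this]; exact he1
  have hb₁t : b₁.eval t ≠ 0 := by
    simp only [hb₁, eval_add, eval_mul, eval_C, hLt, zero_mul, add_zero]
    exact mul_ne_zero hm1 hb₀t
  have key : L ^ m * (G * b₁ + H₂ * L * b₀) = L ^ m * (c * L ^ 2 * a₀) := by
    have := h2
    rw [hdb, hb, ha₀, hm] at this
    calc L ^ m * (G * b₁ + H₂ * L * b₀) = G * (L ^ m * b₁) + H₂ * (L ^ (m + 1) * b₀) := by ring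
      _ = c * (L ^ (m + 2) * a₀) := this
      _ = L ^ m * (c * L ^ 2 * a₀) := by ring
  have hLne : L ^ m ≠ 0 := pow_ne_zero _ (X_sub_C_ne_zero t)
  have key2 := mul_left_cancel₀ hLne key
  have := congrArg (eval t) key2
  simp only [eval_add, eval_mul, eval_pow, hLt, mul_zero, zero_mul, add_zero, ne_eq,
    OfNat.ofNat_ne_zero, not_false_eq_true, zero_pow] at this
  exact (mul_ne_zero hG hb₁t) this

/-- Root multiplicities of powers. -/
theorem rootMultiplicity_pow' (p : K[X]) (n : ℕ) (t : K) :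
    (p ^ n).rootMultiplicity t = n * p.rootMultiplicity t := by
  classical
  rw [← count_roots, roots_pow, Multiset.count_nsmul, count_roots]

theorem rootMultiplicity_C_mul' {c : K} (hc : c ≠ 0) (p : K[X]) (t : K) :
    (C c * p).rootMultiplicity t = p.rootMultiplicity t := by
  classical
  rw [← count_roots, roots_C_mul _ hc, count_roots]

theorem rootMultiplicity_le_natDegree' {p : K[X]} (t : K) :
    p.rootMultiplicity t ≤ p.natDegree := by
  classical
  rw [← count_roots]
  exact (Multiset.count_le_card _ _).trans (card_roots' p)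

end OneVar

/-! ### Two variables -/

section TwoVar

open MvPolynomial

variable {K : Type*} [Field K]

/-- The weights of `Q = X 0` (weight 4) and `R = X 1` (weight 6). -/
def wt : Fin 2 → ℕ := ![4, 6]

@[simp] theorem wt_zero : wt 0 = 4 := rfl
@[simp] theorem wt_one : wt 1 = 6 := rfl

theorem weight_wt (m : Fin 2 →₀ ℕ) : Finsupp.weight wt m = 4 * m 0 + 6 * m 1 := by
  rw [Finsupp.weight_apply, Finsupp.sum_fintype _ _ (fun i => by simp), Fin.sum_univ_two]
  simp [mul_comm]

/-- Ramanujan's derivation on `K[Q,R]`: `∂Q = -4R`, `∂R = -6Q²`. -/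
noncomputable def ramD (φ : MvPolynomial (Fin 2) K) : MvPolynomial (Fin 2) K :=
  -4 * X 1 * pderiv 0 φ - 6 * X 0 ^ 2 * pderiv 1 φ

/-- The Euler operator `4 Q ∂_Q + 6 R ∂_R`. -/
noncomputable def eulerW (φ : MvPolynomial (Fin 2) K) : MvPolynomial (Fin 2) K :=
  4 * X 0 * pderiv 0 φ + 6 * X 1 * pderiv 1 φ

theorem ramD_add (φ ψ : MvPolynomial (Fin 2) K) : ramD (φ + ψ) = ramD φ + ramD ψ := by
  simp only [ramD, map_add]; ring

theorem ramD_mul (φ ψ : MvPolynomial (Fin 2) K) : ramD (φ * ψ) = φ * ramD ψ + ψ * ramD φ := by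
  simp only [ramD, Derivation.leibniz, smul_eq_mul]; ring

theorem ramD_C (c : K) : ramD (C c : MvPolynomial (Fin 2) K) = 0 := by
  simp [ramD]

theorem ramD_X0 : ramD (X 0 : MvPolynomial (Fin 2) K) = -4 * X 1 := by
  simp [ramD, pderiv_X]

theorem ramD_X1 : ramD (X 1 : MvPolynomial (Fin 2) K) = -6 * X 0 ^ 2 := by
  simp [ramD, pderiv_X]

theorem eulerW_add (φ ψ : MvPolynomial (Fin 2) K) : eulerW (φ + ψ) = eulerW φ + eulerW ψ := by
  simp only [eulerW, map_add]; ring

theorem eulerW_mul (φ ψ : MvPolynomial (Fin 2) K) :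
    eulerW (φ * ψ) = φ * eulerW ψ + ψ * eulerW φ := by
  simp only [eulerW, Derivation.leibniz, smul_eq_mul]; ring

theorem eulerW_C (c : K) : eulerW (C c : MvPolynomial (Fin 2) K) = 0 := by
  simp [eulerW]

theorem eulerW_X0 : eulerW (X 0 : MvPolynomial (Fin 2) K) = 4 * X 0 := by
  simp [eulerW, pderiv_X]

theorem eulerW_X1 : eulerW (X 1 : MvPolynomial (Fin 2) K) = 6 * X 1 := by
  simp [eulerW, pderiv_X]

theorem eulerW_of_isWeightedHomogeneous {φ : MvPolynomial (Fin 2) K} {n : ℕ}
    (h : IsWeightedHomogeneous wt φ n) : eulerW φ = (n : MvPolynomial (Fin 2) K) * φ := by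
  have := h.sum_weight_X_mul_pderiv
  rw [Fin.sum_univ_two] at this
  simp only [wt_zero, wt_one, nsmul_eq_mul, Nat.cast_ofNat] at this
  rw [eulerW, ← this]; ring

theorem isWeightedHomogeneous_X0 : IsWeightedHomogeneous wt (X 0 : MvPolynomial (Fin 2) K) 4 :=
  isWeightedHomogeneous_X (R := K) wt 0

theorem isWeightedHomogeneous_X1 : IsWeightedHomogeneous wt (X 1 : MvPolynomial (Fin 2) K) 6 :=
  isWeightedHomogeneous_X (R := K) wt 1

/-- `ψ * ∂_i φ` is weighted homogeneous of weight `n + s` if `ψ` has weight `s + wt i`. -/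
theorem isWeightedHomogeneous_mul_pderiv {φ ψ : MvPolynomial (Fin 2) K} {n s : ℕ} (i : Fin 2)
    (h : IsWeightedHomogeneous wt φ n) (hψ : IsWeightedHomogeneous wt ψ (s + wt i)) :
    IsWeightedHomogeneous wt (ψ * pderiv i φ) (n + s) := by
  by_cases hn : wt i ≤ n
  · have h1 : IsWeightedHomogeneous wt (pderiv i φ) (n - wt i) :=
      h.pderiv (by omega)
    have := hψ.mul h1
    convert this using 1
    omega
  · have h0 : pderiv i φ = 0 := by
      rw [← mem_weightedHomogeneousSubmodule, weightedHomogeneousSubmodule_eq_finsupp_supported,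
        AddMonoidAlgebra.supported_eq_span_single] at h
      refine Submodule.span_induction ?_ ?_ (fun p q _ _ hp hq ↦ ?_) (fun r p _ h ↦ ?_) h
      · rintro _ ⟨m, hm, rfl⟩
        simp_rw [single_eq_monomial, pderiv_monomial]
        have hmi : m i = 0 := by
          by_contra hne
          have hle : wt i ≤ Finsupp.weight wt m := Finsupp.le_weight_of_ne_zero' wt hne
          have : Finsupp.weight wt m = n := by simpa using hm
          omega
        simp [hmi]
      · simp
      · rw [map_add, hp, hq, add_zero]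
      · rw [(pderiv i).map_smul, h, smul_zero]
    rw [h0, mul_zero]
    exact isWeightedHomogeneous_zero K wt _

theorem ramD_isWeightedHomogeneous {φ : MvPolynomial (Fin 2) K} {n : ℕ}
    (h : IsWeightedHomogeneous wt φ n) : IsWeightedHomogeneous wt (ramD φ) (n + 2) := by
  unfold ramD
  apply IsWeightedHomogeneous.sub
  · have hψ : IsWeightedHomogeneous wt (-4 * X 1 : MvPolynomial (Fin 2) K) (2 + wt 0) := by
      have : (-4 * X 1 : MvPolynomial (Fin 2) K) = C (-4 : K) * X 1 := by
        simp [map_neg, map_ofNat]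
      rw [this]
      exact (isWeightedHomogeneous_X1).C_mul _
    exact isWeightedHomogeneous_mul_pderiv 0 h hψ
  · have hψ : IsWeightedHomogeneous wt (6 * X 0 ^ 2 : MvPolynomial (Fin 2) K) (2 + wt 1) := by
      have : (6 * X 0 ^ 2 : MvPolynomial (Fin 2) K) = C (6 : K) * X 0 ^ 2 := by
        simp [map_ofNat]
      rw [this]
      exact ((isWeightedHomogeneous_X0).pow 2).C_mul _
    exact isWeightedHomogeneous_mul_pderiv 1 h hψ

/-- The total degree of a polynomial of weight `n` is at most `n`. -/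
theorem totalDegree_le_of_isWeightedHomogeneous {φ : MvPolynomial (Fin 2) K} {n : ℕ}
    (h : IsWeightedHomogeneous wt φ n) : φ.totalDegree ≤ n := by
  rw [totalDegree]
  apply Finset.sup_le
  intro d hd
  have hw : Finsupp.weight wt d = n := h (mem_support_iff.mp hd)
  rw [weight_wt] at hw
  rw [Finsupp.sum_fintype _ _ (fun i => by simp), Fin.sum_univ_two]
  omega

/-! ### The chart `Q = 1` -/

/-- Specialisation `Q ↦ 1`, `R ↦ X`. -/
noncomputable def specQ : MvPolynomial (Fin 2) K →ₐ[K] Polynomial K :=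
  aeval ![1, Polynomial.X]

@[simp] theorem specQ_X0 : specQ (X 0 : MvPolynomial (Fin 2) K) = 1 := by simp [specQ]
@[simp] theorem specQ_X1 : specQ (X 1 : MvPolynomial (Fin 2) K) = Polynomial.X := by simp [specQ]

/-- Specialisation `Q ↦ X`, `R ↦ 1`. -/
noncomputable def specR : MvPolynomial (Fin 2) K →ₐ[K] Polynomial K :=
  aeval ![Polynomial.X, 1]

@[simp] theorem specR_X0 : specR (X 0 : MvPolynomial (Fin 2) K) = Polynomial.X := by simp [specR]
@[simp] theorem specR_X1 : specR (X 1 : MvPolynomial (Fin 2) K) = 1 := by simp [specR]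

/-- Chain rule for a specialisation `X i ↦ g i`. -/
theorem derivative_aeval (g : Fin 2 → Polynomial K) (φ : MvPolynomial (Fin 2) K) :
    Polynomial.derivative (aeval g φ) =
      aeval g (pderiv 0 φ) * Polynomial.derivative (g 0) +
        aeval g (pderiv 1 φ) * Polynomial.derivative (g 1) := by
  induction φ using MvPolynomial.induction_on with
  | C a => simp
  | add p q hp hq => simp only [map_add, hp, hq]; ring
  | mul_X p i hp =>
    simp only [map_mul, aeval_X, Polynomial.derivative_mul, hp, Derivation.leibniz, smul_eq_mul,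
      map_add, pderiv_X]
    fin_cases i <;> simp <;> ring

theorem derivative_specQ (φ : MvPolynomial (Fin 2) K) :
    Polynomial.derivative (specQ φ) = specQ (pderiv 1 φ) := by
  rw [specQ, derivative_aeval]
  simp

/-- The derivation `ramD` in the chart `Q = 1`: for `φ` of weight `n`,
`(∂φ)(1,X) = 6 (X² - 1) f' - n X f` with `f = φ(1,X)`. -/
theorem specQ_ramD {φ : MvPolynomial (Fin 2) K} {n : ℕ} (h : IsWeightedHomogeneous wt φ n) :
    specQ (ramD φ) = (6 * (Polynomial.X ^ 2 - 1)) * Polynomial.derivative (specQ φ) +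
      (-(n : Polynomial K) * Polynomial.X) * specQ φ := by
  have h1 := congrArg specQ (eulerW_of_isWeightedHomogeneous h)
  simp only [eulerW, map_add, map_mul, specQ_X0, specQ_X1, map_ofNat, map_natCast] at h1
  rw [derivative_specQ]
  simp only [ramD, map_sub, map_mul, map_neg, map_pow, specQ_X0, specQ_X1, map_ofNat]
  linear_combination (-Polynomial.X) * h1

theorem eval_specQ (φ : MvPolynomial (Fin 2) K) (t : K) :
    (specQ φ).eval t = eval ![1, t] φ := by
  induction φ using MvPolynomial.induction_on with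
  | C a => simp [specQ]
  | add p q hp hq => simp only [map_add, Polynomial.eval_add, hp, hq]
  | mul_X p i hp =>
    simp only [map_mul, Polynomial.eval_mul, hp, eval_X]
    fin_cases i <;> simp [specQ]

/-- Parity: a polynomial of weight `n` satisfies `φ(1,-1) = (-1)^(n/2) φ(1,1)`. -/
theorem eval_one_neg_one {φ : MvPolynomial (Fin 2) K} {n : ℕ}
    (h : IsWeightedHomogeneous wt φ n) :
    eval ![1, -1] φ = (-1) ^ (n / 2) * eval ![1, 1] φ := by
  rw [← mem_weightedHomogeneousSubmodule, weightedHomogeneousSubmodule_eq_finsupp_supported,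
    AddMonoidAlgebra.supported_eq_span_single] at h
  refine Submodule.span_induction ?_ ?_ (fun p q _ _ hp hq ↦ ?_) (fun r p _ h ↦ ?_) h
  · rintro _ ⟨m, hm, rfl⟩
    have hw : 4 * m 0 + 6 * m 1 = n := by
      have : Finsupp.weight wt m = n := by simpa using hm
      rw [weight_wt] at this; exact this
    simp_rw [single_eq_monomial, eval_monomial]
    rw [Finsupp.prod_fintype _ _ (fun i => by simp), Finsupp.prod_fintype _ _ (fun i => by simp),
      Fin.prod_univ_two, Fin.prod_univ_two]
    simp only [Matrix.cons_val_zero, Matrix.cons_val_one, one_pow, one_mul, mul_one]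
    have : n / 2 = 2 * m 0 + 3 * m 1 := by omega
    have h3 : ((-1 : K) ^ 3) = -1 := by norm_num
    rw [this, pow_add, pow_mul, pow_mul, h3]
    simp
  · simp
  · simp only [map_add, hp, hq]; ring
  · simp only [smul_eval, h]; ring

end TwoVar

end Fermat.Agent.Eis.L1
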