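import Fermat.Agent.Eis.L1ModAlg

/-!
# Program E (S16), node N2-alg: the core divisibility statement and the abstract `q`-expansion layer

* `dvd_of_pow_eq_of_ode` : `K` algebraically closed of characteristic `ℓ ≥ 5`, `A` of weight `ℓ - 1`
  with `A(1,1) ≠ 0` and `∂∂A = -Q A`, `F ^ (ℓ-1) = c A ^ k`, `c ≠ 0` `⟹ (ℓ - 1) ∣ k`.
* `theta`, `evQR`, `evQR_ramD` : `θ = q d/dq`, the evaluation `Q ↦ E4, R ↦ E6` and the compatibility
  `ev (∂φ) = 12 θ (ev φ) - n E2 ev φ` on weight `n` (from Ramanujan's identities for `E4`, `E6`).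
-/

set_option autoImplicit false

namespace Fermat.Agent.Eis.L1

section Core

open MvPolynomial

variable {K : Type*} [Field K] (ℓ : ℕ) [hℓ : Fact ℓ.Prime] [CharP K ℓ]

omit hℓ in
theorem natCast_ne_zero_of_lt {n : ℕ} (h0 : 0 < n) (hn : n < ℓ) : (n : K) ≠ 0 := by
  rw [Ne, CharP.cast_eq_zero_iff K ℓ]
  intro hdvd
  exact absurd (Nat.le_of_dvd h0 hdvd) (by omega)

theorem natCast_pred_prime : ((ℓ - 1 : ℕ) : K) = -1 := by
  have h1 : 1 ≤ ℓ := hℓ.out.one_lt.le
  rw [Nat.cast_sub h1, CharP.cast_eq_zero K ℓ]; simp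

theorem natCast_succ_prime : ((ℓ - 1 + 2 : ℕ) : K) = 1 := by
  have h1 : 1 ≤ ℓ := hℓ.out.one_lt.le
  have : ℓ - 1 + 2 = ℓ + 1 := by omega
  rw [this, Nat.cast_add, CharP.cast_eq_zero K ℓ]; simp

variable [IsAlgClosed K]

/-- **Core of N2.**  `A` of weight `ℓ - 1` with `A(1,1) ≠ 0` and `∂∂A = -Q A`;
`F ^ (ℓ-1) = c A ^ k` with `c ≠ 0`.  Then `(ℓ - 1) ∣ k`. -/
theorem dvd_of_pow_eq_of_ode (h5 : 5 ≤ ℓ) {A F : MvPolynomial (Fin 2) K} {k : ℕ} {c : K}
    (hA : IsWeightedHomogeneous wt A (ℓ - 1)) (hA1 : eval ![1, 1] A ≠ 0)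
    (hode : ramD (ramD A) = -(X 0) * A)
    (hc : c ≠ 0) (hF : F ^ (ℓ - 1) = C c * A ^ k) : (ℓ - 1) ∣ k := by
  classical
  have h6 : (6 : K) ≠ 0 := by
    have h2 : (2 : K) ≠ 0 := by
      have := natCast_ne_zero_of_lt (K := K) ℓ (n := 2) (by norm_num) (by omega)
      exact_mod_cast this
    have h3 : (3 : K) ≠ 0 := by
      have := natCast_ne_zero_of_lt (K := K) ℓ (n := 3) (by norm_num) (by omega)
      exact_mod_cast this
    have : (6 : K) = 2 * 3 := by norm_num
    rw [this]; exact mul_ne_zero h2 h3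
  set a : Polynomial K := specQ A with ha
  set B := ramD A with hB
  have hBw : IsWeightedHomogeneous wt B (ℓ - 1 + 2) := ramD_isWeightedHomogeneous hA
  set b : Polynomial K := specQ B with hb
  have ha1 : a.eval 1 ≠ 0 := by rw [ha, eval_specQ]; exact hA1
  have ha0 : a ≠ 0 := fun h => ha1 (by rw [h]; simp)
  have ham1 : a.eval (-1) ≠ 0 := by
    rw [ha, eval_specQ, eval_one_neg_one hA]
    exact mul_ne_zero (pow_ne_zero _ (by norm_num)) hA1
  set G : Polynomial K := 6 * (Polynomial.X ^ 2 - 1) with hG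
  set H₁ : Polynomial K := -((ℓ - 1 : ℕ) : Polynomial K) * Polynomial.X with hH₁
  set H₂ : Polynomial K := -((ℓ - 1 + 2 : ℕ) : Polynomial K) * Polynomial.X with hH₂
  have h1 : b = G * Polynomial.derivative a + H₁ * a := specQ_ramD hA
  have h2 : G * Polynomial.derivative b + H₂ * b = (-1) * a := by
    have := specQ_ramD hBw
    rw [hode] at this
    rw [← this]
    simp [ha]
  have hF' : (specQ F) ^ (ℓ - 1) = Polynomial.C c * a ^ k := by
    have := congrArg specQ hF
    simpa [ha] using this
  have hdeg : a.natDegree ≤ ℓ - 1 := by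
    have := aeval_natDegree_le A (totalDegree_le_of_isWeightedHomogeneous hA)
      (![1, Polynomial.X] : Fin 2 → Polynomial K) (n := 1) (fun i => by
        fin_cases i <;> simp)
    simpa [ha, specQ] using this
  by_cases hroot : ∃ t, a.IsRoot t
  · obtain ⟨t, ht⟩ := hroot
    have ht1 : t ≠ 1 := fun h => ha1 (h ▸ ht)
    have htm1 : t ≠ -1 := fun h => ham1 (h ▸ ht)
    have hGt : G.eval t ≠ 0 := by
      simp only [hG, Polynomial.eval_mul, Polynomial.eval_sub, Polynomial.eval_pow,
        Polynomial.eval_X, Polynomial.eval_one, Polynomial.eval_ofNat]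
      refine mul_ne_zero h6 ?_
      intro h
      have : (t - 1) * (t + 1) = 0 := by linear_combination h
      rcases mul_eq_zero.mp this with h | h
      · exact ht1 (by linear_combination h)
      · exact htm1 (by linear_combination h)
    have hle : a.rootMultiplicity t ≤ 1 := by
      apply rootMultiplicity_le_one_of_ode ha0 h1 h2 hGt
      intro e he2 hele
      have helt : e < ℓ := by
        have := rootMultiplicity_le_natDegree' (p := a) t
        have h1 : 1 ≤ ℓ := hℓ.out.one_lt.le
        omega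
      exact ⟨natCast_ne_zero_of_lt ℓ (by omega) helt, natCast_ne_zero_of_lt ℓ (by omega) (by omega)⟩
    have hpos : 0 < a.rootMultiplicity t := (Polynomial.rootMultiplicity_pos ha0).mpr ht
    have hone : a.rootMultiplicity t = 1 := by omega
    have := congrArg (Polynomial.rootMultiplicity t) hF'
    rw [rootMultiplicity_pow', rootMultiplicity_C_mul' hc, rootMultiplicity_pow', hone,
      mul_one] at this
    exact ⟨_, this.symm⟩
  · -- `a` is constant, which forces `ℓ = 5`
    have hdeg0 : a.degree = 0 := by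
      by_contra hne
      exact hroot (IsAlgClosed.exists_root a hne)
    obtain ⟨a₀, ha₀⟩ : ∃ a₀ : K, a = Polynomial.C a₀ :=
      ⟨_, Polynomial.eq_C_of_degree_eq_zero hdeg0⟩
    have ha₀0 : a₀ ≠ 0 := by
      intro h; apply ha0; rw [ha₀, h]; simp
    have hl5 : ℓ = 5 := by
      have e1 : b = H₁ * Polynomial.C a₀ := by rw [h1, ha₀]; simp
      have hcast1 : ((ℓ - 1 : ℕ) : Polynomial K) = Polynomial.C (-1 : K) := by
        rw [← natCast_pred_prime (K := K) ℓ]; simp
      have e2 : b = Polynomial.C a₀ * Polynomial.X := by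
        rw [e1, hH₁, hcast1]; simp
      have e3 := congrArg (Polynomial.eval 0) h2
      rw [e2, ha₀] at e3
      simp [hG, hH₂] at e3
      have h5z : (5 : K) = 0 := by
        have : (5 : K) * a₀ = 0 := by linear_combination e3
        rcases mul_eq_zero.mp this with h | h
        · exact h
        · exact absurd h ha₀0
      have : ((5 : ℕ) : K) = 0 := by exact_mod_cast h5z
      rw [CharP.cast_eq_zero_iff K ℓ] at this
      exact ((Nat.prime_dvd_prime_iff_eq hℓ.out (by norm_num)).mp this)
    subst hl5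
    -- `A = c₀ Q`
    have hA' : A = monomial (Finsupp.single 0 1) (coeff (Finsupp.single 0 1) A) := by
      apply hA.eq_monomial_of_unique_weight
      intro d hd
      rw [weight_wt] at hd
      ext i
      fin_cases i
      · show d 0 = (Finsupp.single (0 : Fin 2) 1) 0
        rw [Finsupp.single_eq_same]; omega
      · show d 1 = (Finsupp.single (0 : Fin 2) 1) 1
        rw [Finsupp.single_eq_of_ne (by decide)]; omega
    set c₀ := coeff (Finsupp.single 0 1) A with hc₀
    have hAX : A = C c₀ * X 0 := by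
      rw [hA', ← C_mul_X_eq_monomial]
    have hc₀0 : c₀ ≠ 0 := by
      intro h; apply hA1; rw [hAX, h]; simp
    have hF2 := congrArg specR hF
    rw [hAX] at hF2
    simp only [map_pow, map_mul, specR_X0, algHom_C, Polynomial.algebraMap_eq] at hF2
    have := congrArg (Polynomial.rootMultiplicity 0) hF2
    rw [rootMultiplicity_pow', rootMultiplicity_C_mul' hc, rootMultiplicity_pow',
      rootMultiplicity_C_mul' hc₀0] at this
    have hX : (Polynomial.X : Polynomial K).rootMultiplicity 0 = 1 := by
      have := Polynomial.rootMultiplicity_X_sub_C_self (R := K) (x := 0)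
      simpa using this
    rw [hX, mul_one] at this
    exact ⟨_, this.symm⟩

end Core

section Abstract

open MvPolynomial

variable {K : Type*} [Field K]

open PowerSeries in
/-- The derivation `θ = q d/dq` on power series. -/
noncomputable def theta (f : PowerSeries K) : PowerSeries K :=
  PowerSeries.X * PowerSeries.derivative K f

theorem theta_add (f g : PowerSeries K) : theta (f + g) = theta f + theta g := by
  simp only [theta, map_add]; ring

theorem theta_mul (f g : PowerSeries K) : theta (f * g) = f * theta g + g * theta f := by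
  simp only [theta, Derivation.leibniz, smul_eq_mul]; ring

theorem theta_C (c : K) : theta (PowerSeries.C c : PowerSeries K) = 0 := by
  simp [theta]

theorem theta_one : theta (1 : PowerSeries K) = 0 := by
  simp [theta]

variable (E2 E4 E6 : PowerSeries K)

/-- Evaluation `Q ↦ E4`, `R ↦ E6`. -/
noncomputable def evQR : MvPolynomial (Fin 2) K →ₐ[K] PowerSeries K :=
  aeval ![E4, E6]

@[simp] theorem evQR_X0 : evQR E4 E6 (X 0) = E4 := by simp [evQR]
@[simp] theorem evQR_X1 : evQR E4 E6 (X 1) = E6 := by simp [evQR]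
@[simp] theorem evQR_C (c : K) : evQR E4 E6 (C c) = PowerSeries.C c := by
  simp [evQR]

theorem constantCoeff_evQR (h4 : PowerSeries.constantCoeff E4 = 1)
    (h6 : PowerSeries.constantCoeff E6 = 1) (φ : MvPolynomial (Fin 2) K) :
    PowerSeries.constantCoeff (evQR E4 E6 φ) = eval ![1, 1] φ := by
  induction φ using MvPolynomial.induction_on with
  | C a => simp
  | add p q hp hq => simp only [map_add, hp, hq]
  | mul_X p i hp =>
    simp only [map_mul, hp, eval_X]
    fin_cases i <;> simp [h4, h6]

variable {E2 E4 E6}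

/-- Ramanujan's derivation is `12 θ - E2 · (Euler operator)` on `q`-expansions. -/
theorem evQR_ramD (ram4 : 3 * theta E4 = E2 * E4 - E6) (ram6 : 2 * theta E6 = E2 * E6 - E4 ^ 2)
    (φ : MvPolynomial (Fin 2) K) :
    evQR E4 E6 (ramD φ) = 12 * theta (evQR E4 E6 φ) - E2 * evQR E4 E6 (eulerW φ) := by
  induction φ using MvPolynomial.induction_on with
  | C a => simp [ramD_C, eulerW_C, theta_C]
  | add p q hp hq => simp only [ramD_add, eulerW_add, map_add, theta_add, hp, hq]; ring
  | mul_X p i hp =>
    rw [ramD_mul, eulerW_mul]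
    simp only [map_add, map_mul, theta_mul, hp]
    fin_cases i
    · simp only [Fin.zero_eta, Fin.isValue, ramD_X0, eulerW_X0, map_mul, map_neg, map_ofNat,
        evQR_X0, evQR_X1]
      linear_combination (-4 * evQR E4 E6 p) * ram4
    · simp only [Fin.mk_one, Fin.isValue, ramD_X1, eulerW_X1, map_mul, map_neg, map_ofNat, map_pow,
        evQR_X0, evQR_X1]
      linear_combination (-6 * evQR E4 E6 p) * ram6

theorem evQR_ramD_of_isWeightedHomogeneous (ram4 : 3 * theta E4 = E2 * E4 - E6)
    (ram6 : 2 * theta E6 = E2 * E6 - E4 ^ 2) {φ : MvPolynomial (Fin 2) K} {n : ℕ}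
    (h : IsWeightedHomogeneous wt φ n) :
    evQR E4 E6 (ramD φ) = 12 * theta (evQR E4 E6 φ) - (n : PowerSeries K) * E2 * evQR E4 E6 φ := by
  rw [evQR_ramD ram4 ram6, eulerW_of_isWeightedHomogeneous h]
  simp only [map_mul, map_natCast]
  ring

end Abstract

end Fermat.Agent.Eis.L1
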