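import Mathlib
import Fermat.Prelude.Thm_ModularForm_sturm_bound_Gamma0
import Fermat.Agent.Eis.E2Level
import Fermat.Agent.Eis.Defs

/-!
# Program E (S16), node N6a: the level-3 ring relation

For `A2 = (3 E₂(3z) - E₂(z))/2 ∈ M₂(Γ₀(3))`, `B4' = (E₄ - A2²)/8`, `B6' = (A2³ - 20 A2 B4' - E₆)/8`
one has `B4'² = A2 * B6'`.  Equivalently (clearing denominators) the weight-8 identity
`E₄² + 18 A2² E₄ + 8 A2 E₆ - 27 A2⁴ = 0` on `Γ₀(3)`, which we prove from the Sturm bound
(`ModularForm.sturm_bound_Gamma0 3`, weight 8, index ≤ 4: coefficients `q⁰, q¹, q²`).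
-/

set_option autoImplicit false
set_option linter.unusedSectionVars false

open CongruenceSubgroup ModularForm UpperHalfPlane EisensteinSeries
open scoped MatrixGroups ModularForm ArithmeticFunction.sigma

namespace Fermat.Agent.Eis.L3R

/-! ### The index of `Γ₀(3)` -/

/-- `[0, 1; -1, 0]`. -/
def mS : SL(2, ℤ) := ⟨!![0, 1; -1, 0], by simp [Matrix.det_fin_two]⟩
/-- `[1, 0; 1, 1]`. -/
def mP : SL(2, ℤ) := ⟨!![1, 0; 1, 1], by simp [Matrix.det_fin_two]⟩
/-- `[1, 0; -1, 1]`. -/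
def mM : SL(2, ℤ) := ⟨!![1, 0; -1, 1], by simp [Matrix.det_fin_two]⟩

theorem coe_mS : (mS : Matrix (Fin 2) (Fin 2) ℤ) = !![0, 1; -1, 0] := rfl
theorem coe_mP : (mP : Matrix (Fin 2) (Fin 2) ℤ) = !![1, 0; 1, 1] := rfl
theorem coe_mM : (mM : Matrix (Fin 2) (Fin 2) ℤ) = !![1, 0; -1, 1] := rfl

/-- Inverses of coset representatives of `Γ₀(3)` in `SL(2, ℤ)`. -/
def cosetRepInv3 : Fin 4 → SL(2, ℤ)
  | 0 => 1
  | 1 => mS
  | 2 => mP
  | 3 => mM

theorem index_Gamma0_three_le : (Gamma0 3).index ≤ 4 := by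
  classical
  have hsurj : Function.Surjective
      (fun i : Fin 4 => (QuotientGroup.mk (cosetRepInv3 i)⁻¹ : SL(2, ℤ) ⧸ Gamma0 3)) := by
    intro q
    induction q using QuotientGroup.induction_on with
    | H g =>
      have key : ∀ x y : ZMod 3, y ≠ 0 → x ≠ 0 → (x + y = 0 ∨ -x + y = 0) := by decide
      by_cases hc : ((g 1 0 : ℤ) : ZMod 3) = 0
      · refine ⟨0, ?_⟩
        show (QuotientGroup.mk (cosetRepInv3 0)⁻¹ : _ ⧸ Gamma0 3) = QuotientGroup.mk g
        rw [QuotientGroup.eq, inv_inv]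
        simpa [cosetRepInv3] using hc
      · by_cases ha : ((g 0 0 : ℤ) : ZMod 3) = 0
        · refine ⟨1, ?_⟩
          show (QuotientGroup.mk (cosetRepInv3 1)⁻¹ : _ ⧸ Gamma0 3) = QuotientGroup.mk g
          rw [QuotientGroup.eq, inv_inv, Gamma0_mem]
          simp [cosetRepInv3, Matrix.SpecialLinearGroup.coe_mul, coe_mS, Matrix.mul_apply,
            Fin.sum_univ_two, ha]
        · rcases key _ _ hc ha with h | h
          · refine ⟨2, ?_⟩
            show (QuotientGroup.mk (cosetRepInv3 2)⁻¹ : _ ⧸ Gamma0 3) = QuotientGroup.mk g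
            rw [QuotientGroup.eq, inv_inv, Gamma0_mem]
            simpa [cosetRepInv3, Matrix.SpecialLinearGroup.coe_mul, coe_mP, Matrix.mul_apply,
              Fin.sum_univ_two] using h
          · refine ⟨3, ?_⟩
            show (QuotientGroup.mk (cosetRepInv3 3)⁻¹ : _ ⧸ Gamma0 3) = QuotientGroup.mk g
            rw [QuotientGroup.eq, inv_inv, Gamma0_mem]
            simpa [cosetRepInv3, Matrix.SpecialLinearGroup.coe_mul, coe_mM, Matrix.mul_apply,
              Fin.sum_univ_two] using h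
  have := Nat.card_le_card_of_surjective _ hsurj
  simpa [Subgroup.index] using this


/-! ### Restriction of level-one forms to `Γ₀(N)` -/

theorem gamma0_le_SL (N : ℕ) :
    ((Gamma0 N : Subgroup SL(2, ℤ)) : Subgroup (GL (Fin 2) ℝ)) ≤ 𝒮ℒ := by
  rintro _ ⟨γ, _, rfl⟩
  exact ⟨γ, rfl⟩

/-- A level-one modular form, viewed as a modular form on `Γ₀(N)`. -/
def restr (N : ℕ) {k : ℤ} (f : ModularForm 𝒮ℒ k) : ModularForm (Gamma0 N) k where
  toFun := f
  slash_action_eq' γ hγ := f.slash_action_eq' γ (gamma0_le_SL N hγ)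
  holo' := f.holo'
  bdd_at_cusps' hc := f.bdd_at_cusps' (hc.mono (gamma0_le_SL N))

@[simp] theorem coe_restr (N : ℕ) {k : ℤ} (f : ModularForm 𝒮ℒ k) : ⇑(restr N f) = ⇑f := rfl

theorem qExpansion_restr (N : ℕ) {k : ℤ} (f : ModularForm 𝒮ℒ k) :
    qExpansion 1 (restr N f) = qExpansion 1 f := rfl

/-! ### The first coefficients of `E₄`, `E₆` -/

theorem E4_coeff (m : ℕ) : (qExpansion 1 E₄).coeff m = if m = 0 then 1 else 240 * (σ 3 m : ℂ) := by
  rw [E_qExpansion_coeff _ ⟨2, rfl⟩]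
  split_ifs with h
  · rfl
  · norm_num [show bernoulli 4 = -1 / 30 by decide +kernel]

theorem E6_coeff (m : ℕ) :
    (qExpansion 1 E₆).coeff m = if m = 0 then 1 else -504 * (σ 5 m : ℂ) := by
  rw [E_qExpansion_coeff _ ⟨3, rfl⟩]
  split_ifs with h
  · rfl
  · norm_num [show bernoulli 6 = 1 / 42 by decide +kernel]

theorem sigma3_two : σ 3 2 = 9 := by decide
theorem sigma5_two : σ 5 2 = 33 := by decide


/-! ### Low coefficients of products -/

theorem c0_mul {R : Type*} [CommRing R] (f g : PowerSeries R) :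
    PowerSeries.coeff 0 (f * g) = PowerSeries.coeff 0 f * PowerSeries.coeff 0 g := by
  simp [PowerSeries.coeff_mul]

theorem c1_mul {R : Type*} [CommRing R] (f g : PowerSeries R) :
    PowerSeries.coeff 1 (f * g) =
      PowerSeries.coeff 0 f * PowerSeries.coeff 1 g + PowerSeries.coeff 1 f * PowerSeries.coeff 0 g := by
  simp [PowerSeries.coeff_mul, Finset.Nat.antidiagonal_succ]

theorem c2_mul {R : Type*} [CommRing R] (f g : PowerSeries R) :
    PowerSeries.coeff 2 (f * g) =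
      PowerSeries.coeff 0 f * PowerSeries.coeff 2 g + PowerSeries.coeff 1 f * PowerSeries.coeff 1 g
        + PowerSeries.coeff 2 f * PowerSeries.coeff 0 g := by
  simp [PowerSeries.coeff_mul, Finset.Nat.antidiagonal_succ]
  ring

/-! ### The weight-8 relation on `Γ₀(3)` via the Sturm bound -/

theorem one_mem_strictPeriods_Gamma0 (N : ℕ) :
    (1 : ℝ) ∈ ((Gamma0 N : Subgroup SL(2, ℤ)) : Subgroup (GL (Fin 2) ℝ)).strictPeriods := by
  rw [strictPeriods_Gamma0]
  exact AddSubgroup.mem_zmultiples 1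

/-- The weight-8 form `E₄² + 18 A² E₄ + 8 A E₆ - 27 A⁴` on `Γ₀(3)`. -/
noncomputable def relForm (A : ModularForm (Gamma0 3) 2) : ModularForm (Gamma0 3) 8 :=
  ModularForm.mcast (show (4 : ℤ) + 4 = 8 by norm_num) ((restr 3 E₄).mul (restr 3 E₄))
  + (18 : ℂ) • ModularForm.mcast (show ((2 : ℤ) + 2) + 4 = 8 by norm_num)
      ((A.mul A).mul (restr 3 E₄))
  + (8 : ℂ) • ModularForm.mcast (show (2 : ℤ) + 6 = 8 by norm_num) (A.mul (restr 3 E₆))
  - (27 : ℂ) • ModularForm.mcast (show ((2 : ℤ) + 2) + (2 + 2) = 8 by norm_num)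
      ((A.mul A).mul (A.mul A))

theorem qExpansion_relForm (A : ModularForm (Gamma0 3) 2) :
    qExpansion 1 (relForm A) =
      qExpansion 1 E₄ * qExpansion 1 E₄
      + (18 : ℂ) • (qExpansion 1 A * qExpansion 1 A * qExpansion 1 E₄)
      + (8 : ℂ) • (qExpansion 1 A * qExpansion 1 E₆)
      - (27 : ℂ) • (qExpansion 1 A * qExpansion 1 A * (qExpansion 1 A * qExpansion 1 A)) := by
  have h1 : (0 : ℝ) < 1 := one_pos
  have hΓ := one_mem_strictPeriods_Gamma0 3
  unfold relForm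
  rw [FunLike.coe_sub, ModularForm.qExpansion_sub h1 hΓ, FunLike.coe_add,
    ModularForm.qExpansion_add h1 hΓ, FunLike.coe_add, ModularForm.qExpansion_add h1 hΓ,
    FunLike.coe_smul, FunLike.coe_smul, FunLike.coe_smul,
    ModularForm.qExpansion_smul h1 hΓ,
    ModularForm.qExpansion_smul h1 hΓ, ModularForm.qExpansion_smul h1 hΓ,
    ModularForm.qExpansion_mcast, ModularForm.qExpansion_mcast, ModularForm.qExpansion_mcast,
    ModularForm.qExpansion_mcast]
  simp only [ModularForm.qExpansion_mul h1 hΓ, qExpansion_restr]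

/-- **The level-3 relation** `E₄² + 18 A² E₄ + 8 A E₆ = 27 A⁴` for any `A ∈ M₂(Γ₀(3))` whose
`q`-expansion starts `1 + 12 q + 36 q² + ...` (e.g. `A = (3 E₂(3z) - E₂(z))/2`). -/
theorem relForm_eq_zero (A : ModularForm (Gamma0 3) 2)
    (h0 : (qExpansion 1 A).coeff 0 = 1) (h1 : (qExpansion 1 A).coeff 1 = 12)
    (h2 : (qExpansion 1 A).coeff 2 = 36) : relForm A = 0 := by
  apply ModularForm.sturm_bound_Gamma0 3
  intro n hn
  have hidx : ((8 : ℤ) * ((Gamma0 3).index : ℤ)).toNat / 12 ≤ 2 := by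
    have := index_Gamma0_three_le
    omega
  have hn2 : n ≤ 2 := hn.trans hidx
  have e40 : (qExpansion 1 E₄).coeff 0 = 1 := by simpa using E4_coeff 0
  have e41 : (qExpansion 1 E₄).coeff 1 = 240 := by simpa using E4_coeff 1
  have e42 : (qExpansion 1 E₄).coeff 2 = 2160 := by
    rw [E4_coeff 2, sigma3_two]; norm_num
  have e60 : (qExpansion 1 E₆).coeff 0 = 1 := by simpa using E6_coeff 0
  have e61 : (qExpansion 1 E₆).coeff 1 = -504 := by simpa using E6_coeff 1
  have e62 : (qExpansion 1 E₆).coeff 2 = -16632 := by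
    rw [E6_coeff 2, sigma5_two]; norm_num
  rw [qExpansion_relForm]
  interval_cases n
  · simp only [map_add, map_sub, PowerSeries.coeff_smul, c0_mul, h0, e40, e60]
    norm_num
  · simp only [map_add, map_sub, PowerSeries.coeff_smul, c0_mul, c1_mul, h0, h1, e40, e41, e60, e61]
    norm_num
  · simp only [map_add, map_sub, PowerSeries.coeff_smul, c0_mul, c1_mul, c2_mul, h0, h1, h2, e40, e41,
      e42, e60, e61, e62]
    norm_num

/-- The relation as an identity of `q`-expansions. -/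
theorem qExpansion_relation (A : ModularForm (Gamma0 3) 2)
    (h0 : (qExpansion 1 A).coeff 0 = 1) (h1 : (qExpansion 1 A).coeff 1 = 12)
    (h2 : (qExpansion 1 A).coeff 2 = 36) :
    qExpansion 1 E₄ ^ 2 + 18 * (qExpansion 1 A) ^ 2 * qExpansion 1 E₄
      + 8 * qExpansion 1 A * qExpansion 1 E₆ = 27 * (qExpansion 1 A) ^ 4 := by
  have h := qExpansion_relForm A
  rw [relForm_eq_zero A h0 h1 h2] at h
  have hz : qExpansion 1 (⇑(0 : ModularForm (Gamma0 3) 8)) = 0 := by
    rw [FunLike.coe_zero]; exact qExpansion_zero 1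
  rw [hz] at h
  have h' := h.symm
  simp only [Algebra.smul_def, map_ofNat] at h'
  linear_combination h'


/-! ### Integral `q`-series: `A2 = 1 + 12 S`, `E₄ = 1 + 240 T₃`, `E₆ = 1 - 504 T₅` -/

/-- `σ^{(3)}(n)`: the sum of the divisors of `n` prime to `3`. -/
def sigmaPrime3 (n : ℕ) : ℕ := ∑ d ∈ n.divisors with ¬ 3 ∣ d, d

/-- `S = ∑ σ^{(3)}(n) qⁿ`. -/
def serS : PowerSeries ℤ := PowerSeries.mk fun n => (sigmaPrime3 n : ℤ)
/-- `T₃ = ∑ σ₃(n) qⁿ`. -/
def serT3 : PowerSeries ℤ := PowerSeries.mk fun n => ((σ 3 n : ℕ) : ℤ)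
/-- `T₅ = ∑ σ₅(n) qⁿ`. -/
def serT5 : PowerSeries ℤ := PowerSeries.mk fun n => ((σ 5 n : ℕ) : ℤ)

/-- `A2 = 1 + 12 S` (the `q`-expansion of `(3 E₂(3z) - E₂(z))/2`). -/
noncomputable def serA2 : PowerSeries ℤ := 1 + 12 * serS
/-- `E₄ = 1 + 240 T₃`. -/
noncomputable def serE4 : PowerSeries ℤ := 1 + 240 * serT3
/-- `E₆ = 1 - 504 T₅`. -/
noncomputable def serE6 : PowerSeries ℤ := 1 - 504 * serT5

/-- `B4 = (E₄ - A2²)/8 = 30 T₃ - 3 S - 18 S²` (`= 27 a b` in terms of the weight 1, 3 forms). -/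
noncomputable def serB4 : PowerSeries ℤ := 30 * serT3 - 3 * serS - 18 * serS ^ 2
/-- `B6 = (A2³ - 20 A2 B4 - E₆)/8` (`= 729 b²`). -/
noncomputable def serB6 : PowerSeries ℤ :=
  12 * serS + 189 * serS ^ 2 + 756 * serS ^ 3 - 75 * serT3 - 900 * serS * serT3 + 63 * serT5

theorem eight_mul_serB4 : 8 * serB4 = serE4 - serA2 ^ 2 := by
  unfold serB4 serE4 serA2; ring

theorem eight_mul_serB6 : 8 * serB6 = serA2 ^ 3 - 20 * serA2 * serB4 - serE6 := by
  unfold serB6 serB4 serE6 serA2; ring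

theorem serE4_eq : serE4 = serA2 ^ 2 + 8 * serB4 := by rw [eight_mul_serB4]; ring

theorem serE6_eq : serE6 = serA2 ^ 3 - 20 * serA2 * serB4 - 8 * serB6 := by
  rw [eight_mul_serB6]; ring

theorem sigmaPrime3_zero : sigmaPrime3 0 = 0 := by simp [sigmaPrime3]
theorem sigmaPrime3_one : sigmaPrime3 1 = 1 := by decide
theorem sigmaPrime3_two : sigmaPrime3 2 = 3 := by decide

@[simp] theorem coeff_serS (n : ℕ) : PowerSeries.coeff n serS = (sigmaPrime3 n : ℤ) :=
  PowerSeries.coeff_mk _ _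
@[simp] theorem coeff_serT3 (n : ℕ) : PowerSeries.coeff n serT3 = ((σ 3 n : ℕ) : ℤ) :=
  PowerSeries.coeff_mk _ _
@[simp] theorem coeff_serT5 (n : ℕ) : PowerSeries.coeff n serT5 = ((σ 5 n : ℕ) : ℤ) :=
  PowerSeries.coeff_mk _ _

theorem coeff_serA2 (n : ℕ) :
    PowerSeries.coeff n serA2 = if n = 0 then 1 else 12 * (sigmaPrime3 n : ℤ) := by
  unfold serA2
  rw [map_add, PowerSeries.coeff_one, show (12 : PowerSeries ℤ) = PowerSeries.C (12 : ℤ) from rfl,
    PowerSeries.coeff_C_mul, coeff_serS]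
  split_ifs with h
  · subst h; simp [sigmaPrime3_zero]
  · simp

theorem coeff_serE4 (n : ℕ) :
    PowerSeries.coeff n serE4 = if n = 0 then 1 else 240 * ((σ 3 n : ℕ) : ℤ) := by
  unfold serE4
  rw [map_add, PowerSeries.coeff_one, show (240 : PowerSeries ℤ) = PowerSeries.C (240 : ℤ) from rfl,
    PowerSeries.coeff_C_mul, coeff_serT3]
  split_ifs with h
  · subst h; simp
  · simp

theorem coeff_serE6 (n : ℕ) :
    PowerSeries.coeff n serE6 = if n = 0 then 1 else -504 * ((σ 5 n : ℕ) : ℤ) := by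
  unfold serE6
  rw [map_sub, PowerSeries.coeff_one, show (504 : PowerSeries ℤ) = PowerSeries.C (504 : ℤ) from rfl,
    PowerSeries.coeff_C_mul, coeff_serT5]
  split_ifs with h
  · subst h; simp
  · simp

theorem qExpansion_E4 : qExpansion 1 E₄ = serE4.map (Int.castRingHom ℂ) := by
  ext n
  rw [E4_coeff, PowerSeries.coeff_map, coeff_serE4]
  split_ifs <;> simp

theorem qExpansion_E6 : qExpansion 1 E₆ = serE6.map (Int.castRingHom ℂ) := by
  ext n
  rw [E6_coeff, PowerSeries.coeff_map, coeff_serE6]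
  split_ifs <;> simp


/-! ### Divisor sums prime to `3` -/

theorem sum_filter_dvd3 (m : ℕ) (hm : 3 ∣ m) (hm0 : m ≠ 0) :
    ∑ d ∈ m.divisors with 3 ∣ d, d = 3 * ∑ d ∈ (m / 3).divisors, d := by
  rw [Finset.mul_sum]
  refine (Finset.sum_nbij' (fun d => 3 * d) (fun d => d / 3) ?_ ?_ ?_ ?_ ?_).symm
  · intro d hd
    obtain ⟨c, rfl⟩ := hm
    simp only [Nat.mem_divisors, Finset.mem_filter] at hd ⊢
    rw [Nat.mul_div_cancel_left _ (by norm_num)] at hd
    exact ⟨⟨Nat.mul_dvd_mul_left 3 hd.1, hm0⟩, Dvd.intro _ rfl⟩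
  · intro d hd
    obtain ⟨c, rfl⟩ := hm
    simp only [Nat.mem_divisors, Finset.mem_filter] at hd ⊢
    obtain ⟨⟨h1, h2⟩, e, rfl⟩ := hd
    rw [Nat.mul_div_cancel_left _ (by norm_num), Nat.mul_div_cancel_left _ (by norm_num)]
    exact ⟨(Nat.mul_dvd_mul_iff_left (by norm_num)).mp h1, by omega⟩
  · intro d _
    simp
  · intro d hd
    simp only [Finset.mem_filter] at hd
    exact Nat.mul_div_cancel' hd.2
  · intro d _
    rfl

/-- `σ₁(m) = σ^{(3)}(m) + 3 σ₁(m/3)·[3 ∣ m]`. -/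
theorem sigma_one_eq_sigmaPrime3_add (m : ℕ) (hm0 : m ≠ 0) :
    (σ 1 m : ℕ) = sigmaPrime3 m + if 3 ∣ m then 3 * σ 1 (m / 3) else 0 := by
  unfold sigmaPrime3
  rw [ArithmeticFunction.sigma_one_apply, ← Finset.sum_filter_not_add_sum_filter _ (fun d => 3 ∣ d)]
  congr 1
  split_ifs with h
  · rw [sum_filter_dvd3 m h hm0, ArithmeticFunction.sigma_one_apply]
  · apply Finset.sum_eq_zero
    intro d hd
    simp only [Finset.mem_filter, Nat.mem_divisors] at hd
    exact absurd (hd.2.trans hd.1.1) h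

/-! ### The form `A = (3 E₂(3z) - E₂(z))/2 ∈ M₂(Γ₀(3))` -/

/-- `A = (3 E₂(3z) - E₂(z))/2`, a modular form of weight 2 on `Γ₀(3)` (from `Eis/E2Level.lean`). -/
noncomputable def formA3 : ModularForm (Gamma0 3) 2 := (1 / 2 : ℂ) • E2L.e2Level 3

theorem qExpansion_formA3 :
    qExpansion 1 formA3 = (1 / 2 : ℂ) • qExpansion 1 (E2L.e2Level 3) := by
  unfold formA3
  rw [FunLike.coe_smul]
  exact ModularForm.qExpansion_smul one_pos (one_mem_strictPeriods_Gamma0 3) _ _

theorem qExpansion_formA3_coeff (m : ℕ) :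
    (qExpansion 1 formA3).coeff m = if m = 0 then 1 else 12 * (sigmaPrime3 m : ℂ) := by
  rw [qExpansion_formA3, PowerSeries.coeff_smul]
  split_ifs with h0
  · subst h0
    rw [E2L.qExpansion_e2Level_coeff_zero]; norm_num
  · have hs := sigma_one_eq_sigmaPrime3_add m h0
    by_cases h3 : 3 ∣ m
    · rw [E2L.qExpansion_e2Level_coeff_of_dvd 3 h0 h3]
      rw [if_pos h3] at hs
      have hs' : (σ 1 m : ℂ) = (sigmaPrime3 m : ℂ) + 3 * (σ 1 (m / 3) : ℂ) := by exact_mod_cast hs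
      rw [hs']; push_cast; ring
    · rw [E2L.qExpansion_e2Level_coeff_of_not_dvd 3 h3]
      rw [if_neg h3, add_zero] at hs
      have hs' : (σ 1 m : ℂ) = (sigmaPrime3 m : ℂ) := by exact_mod_cast hs
      rw [hs']; ring

theorem qExpansion_formA3_eq : qExpansion 1 formA3 = serA2.map (Int.castRingHom ℂ) := by
  ext m
  rw [qExpansion_formA3_coeff, PowerSeries.coeff_map, coeff_serA2]
  split_ifs <;> simp

/-! ### The relation over `ℤ`, and the uniformiser `y = (E₄ - A²)/(8 A²) = 27 q + ...` -/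

theorem map_intCast_injective :
    Function.Injective (PowerSeries.map (Int.castRingHom ℂ)) := by
  intro f g h
  ext n
  have := congrArg (PowerSeries.coeff n) h
  simpa [PowerSeries.coeff_map] using this

/-- **N6a, the weight-8 identity on `Γ₀(3)`**, over `ℤ`:
`E₄² + 18 A² E₄ + 8 A E₆ = 27 A⁴` for `A = 1 + 12 ∑ σ^{(3)}(n) qⁿ`. -/
theorem ser_relation :
    serE4 ^ 2 + 18 * serA2 ^ 2 * serE4 + 8 * serA2 * serE6 = 27 * serA2 ^ 4 := by
  apply map_intCast_injective
  have h := qExpansion_relation formA3 (by simpa using qExpansion_formA3_coeff 0)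
    (by simpa [sigmaPrime3_one] using qExpansion_formA3_coeff 1)
    (by rw [qExpansion_formA3_coeff 2, sigmaPrime3_two]; norm_num)
  rw [qExpansion_formA3_eq, qExpansion_E4, qExpansion_E6] at h
  simpa only [map_add, map_mul, map_pow, map_ofNat] using h

/-- The same identity in the form requested by N6: `8 A E₆ = 27 A⁴ - 18 A² E₄ - E₄²`. -/
theorem ser_relation' :
    8 * serA2 * serE6 = 27 * serA2 ^ 4 - 18 * serA2 ^ 2 * serE4 - serE4 ^ 2 := by
  linear_combination ser_relation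

/-- `B4² = A2 · B6`. -/
theorem serB4_sq : serB4 ^ 2 = serA2 * serB6 := by
  have h : (64 : PowerSeries ℤ) * (serB4 ^ 2 - serA2 * serB6) = 0 := by
    have e4 := eight_mul_serB4
    have e6 := eight_mul_serB6
    linear_combination (8 * serB4 + serE4 - serA2 ^ 2 + 20 * serA2 ^ 2) * e4 - 8 * serA2 * e6
      + ser_relation
  have h64 : (64 : PowerSeries ℤ) ≠ 0 := by
    intro h0
    have := congrArg (PowerSeries.constantCoeff) h0
    rw [← map_ofNat (PowerSeries.C (R := ℤ)) 64, PowerSeries.constantCoeff_C] at this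
    norm_num at this
  exact sub_eq_zero.mp ((mul_eq_zero.mp h).resolve_left h64)


theorem constantCoeff_serA2 : PowerSeries.constantCoeff serA2 = 1 := by
  rw [← PowerSeries.coeff_zero_eq_constantCoeff_apply, coeff_serA2]; simp

theorem isUnit_serA2 : IsUnit serA2 :=
  PowerSeries.isUnit_iff_constantCoeff.mpr (by rw [constantCoeff_serA2]; exact isUnit_one)

/-- The inverse of `A2` in `ℤ⟦q⟧`. -/
noncomputable def serA2inv : PowerSeries ℤ := ↑(isUnit_serA2.unit⁻¹)

theorem serA2_mul_inv : serA2 * serA2inv = 1 := by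
  unfold serA2inv
  exact isUnit_serA2.mul_val_inv

/-- `y = (E₄ - A²)/(8 A²) = B4 / A² = 27 q + ... ∈ ℤ⟦q⟧` (`y = 27 x`, `x = b/a³` the Hauptmodul-type
uniformiser of N6). -/
noncomputable def serY : PowerSeries ℤ := serB4 * serA2inv ^ 2

theorem serY_mul : serY * serA2 ^ 2 = serB4 := by
  unfold serY
  have h := serA2_mul_inv
  calc serB4 * serA2inv ^ 2 * serA2 ^ 2 = serB4 * (serA2 * serA2inv) ^ 2 := by ring
    _ = serB4 := by rw [h]; ring

/-- `E₄ = A² (1 + 8 y)`. -/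
theorem serE4_eq_mul : serE4 = serA2 ^ 2 * (1 + 8 * serY) := by
  rw [serE4_eq, ← serY_mul]; ring

theorem serB6_eq : serB6 = serY ^ 2 * serA2 ^ 3 := by
  have h := serB4_sq
  rw [← serY_mul] at h
  have h2 : serA2 * serB6 = serA2 * (serY ^ 2 * serA2 ^ 3) := by rw [← h]; ring
  have h3 := congrArg (fun t => serA2inv * t) h2
  simp only [← mul_assoc] at h3
  rw [mul_comm serA2inv serA2, serA2_mul_inv] at h3
  simpa using h3

/-- `E₆ = A³ (1 - 20 y - 8 y²)`. -/
theorem serE6_eq_mul : serE6 = serA2 ^ 3 * (1 - 20 * serY - 8 * serY ^ 2) := by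
  rw [serE6_eq, serB6_eq, ← serY_mul]; ring

theorem ofNat_eq_C (n : ℕ) [n.AtLeastTwo] :
    (OfNat.ofNat n : PowerSeries ℤ) = PowerSeries.C (OfNat.ofNat n : ℤ) :=
  (map_ofNat (PowerSeries.C (R := ℤ)) n).symm

theorem sigma3_one : σ 3 1 = 1 := by decide
theorem sigma5_one : σ 5 1 = 1 := by decide

theorem coeff_zero_serB4 : PowerSeries.coeff 0 serB4 = 0 := by
  unfold serB4
  rw [ofNat_eq_C 30, ofNat_eq_C 3, ofNat_eq_C 18]
  simp only [map_sub, PowerSeries.coeff_C_mul, pow_two, c0_mul, coeff_serS, coeff_serT3,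
    sigmaPrime3_zero, ArithmeticFunction.map_zero]
  norm_num

theorem coeff_one_serB4 : PowerSeries.coeff 1 serB4 = 27 := by
  unfold serB4
  rw [ofNat_eq_C 30, ofNat_eq_C 3, ofNat_eq_C 18]
  simp only [map_sub, PowerSeries.coeff_C_mul, pow_two, c1_mul, coeff_serS, coeff_serT3,
    sigmaPrime3_zero, sigmaPrime3_one, sigma3_one]
  norm_num

theorem coeff_zero_serY : PowerSeries.coeff 0 serY = 0 := by
  unfold serY
  rw [c0_mul, coeff_zero_serB4, zero_mul]

theorem coeff_one_serY : PowerSeries.coeff 1 serY = 27 := by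
  have h := congrArg (PowerSeries.coeff 1) serY_mul
  rw [c1_mul, coeff_zero_serY, zero_mul, zero_add, coeff_one_serB4, pow_two, c0_mul,
    PowerSeries.coeff_zero_eq_constantCoeff_apply, constantCoeff_serA2] at h
  simpa using h


/-! ### The same statements over a field of characteristic zero (`ℚ`, `ℂ`): `x = y / 27 = q + ...` -/

section Field

variable (K : Type*) [Field K] [CharZero K]

/-- `A`, `E₄`, `E₆` as power series over `K`. -/
noncomputable def kA : PowerSeries K := serA2.map (Int.castRingHom K)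
/-- `E₄` over `K`. -/
noncomputable def kE4 : PowerSeries K := serE4.map (Int.castRingHom K)
/-- `E₆` over `K`. -/
noncomputable def kE6 : PowerSeries K := serE6.map (Int.castRingHom K)
/-- `x = (E₄ - A²)/(216 A²) = q + ...`; `27 x ∈ ℤ⟦q⟧`. -/
noncomputable def kX : PowerSeries K := PowerSeries.C (1 / 27 : K) * serY.map (Int.castRingHom K)

theorem twentyseven_mul_kX : 27 * kX K = serY.map (Int.castRingHom K) := by
  unfold kX
  rw [← mul_assoc, ← map_ofNat (PowerSeries.C (R := K)) 27, ← map_mul]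
  norm_num

/-- **N6a**: `8 A E₆ = 27 A⁴ - 18 A² E₄ - E₄²`. -/
theorem k_relation :
    8 * kA K * kE6 K = 27 * kA K ^ 4 - 18 * kA K ^ 2 * kE4 K - kE4 K ^ 2 := by
  have h := congrArg (PowerSeries.map (Int.castRingHom K)) ser_relation'
  simp only [map_sub, map_mul, map_pow, map_ofNat] at h
  exact h

/-- `E₄ = A² (1 + 216 x)`. -/
theorem kE4_eq : kE4 K = kA K ^ 2 * (1 + 216 * kX K) := by
  have h := congrArg (PowerSeries.map (Int.castRingHom K)) serE4_eq_mul
  simp only [map_add, map_mul, map_pow, map_ofNat, map_one] at h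
  rw [← twentyseven_mul_kX] at h
  unfold kE4 kA
  rw [h]; ring

/-- `E₆ = A³ (1 - 540 x - 5832 x²)`. -/
theorem kE6_eq : kE6 K = kA K ^ 3 * (1 - 540 * kX K - 5832 * kX K ^ 2) := by
  have h := congrArg (PowerSeries.map (Int.castRingHom K)) serE6_eq_mul
  simp only [map_sub, map_mul, map_pow, map_ofNat, map_one] at h
  rw [← twentyseven_mul_kX] at h
  unfold kE6 kA
  rw [h]; ring

theorem coeff_zero_kX : PowerSeries.coeff 0 (kX K) = 0 := by
  unfold kX
  rw [PowerSeries.coeff_C_mul, PowerSeries.coeff_map, coeff_zero_serY]; simp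

theorem coeff_one_kX : PowerSeries.coeff 1 (kX K) = 1 := by
  unfold kX
  rw [PowerSeries.coeff_C_mul, PowerSeries.coeff_map, coeff_one_serY]; norm_num

theorem coeff_kX (n : ℕ) :
    PowerSeries.coeff n (kX K) = ((PowerSeries.coeff n serY : ℤ) : K) / 27 := by
  unfold kX
  rw [PowerSeries.coeff_C_mul, PowerSeries.coeff_map]
  simp only [eq_intCast]; ring

theorem coeff_zero_kA : PowerSeries.coeff 0 (kA K) = 1 := by
  unfold kA
  rw [PowerSeries.coeff_map, coeff_serA2]; simp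

theorem coeff_kA (n : ℕ) :
    PowerSeries.coeff n (kA K) = if n = 0 then 1 else 12 * (sigmaPrime3 n : K) := by
  unfold kA
  rw [PowerSeries.coeff_map, coeff_serA2]
  split_ifs <;> simp

end Field

/-! ### Compatibility with `Eis/Defs.lean`: `sigmaStar`, `IntAt` -/

theorem sigmaPrime3_eq_sigmaStar (n : ℕ) : sigmaPrime3 n = sigmaStar 3 n := rfl

/-- The coefficients of `x = q + ...` are `l`-integral for every prime `l ≠ 3` (they lie in
`(1/27) ℤ`). In particular for `l = 2`. -/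
theorem coeff_kX_mem_IntAt (l : ℕ) [hl : Fact l.Prime] (hl3 : l ≠ 3) (n : ℕ) :
    PowerSeries.coeff n (kX ℂ) ∈ IntAt l := by
  rw [coeff_kX, div_eq_mul_inv]
  refine (IntAt l).mul_mem (intCast_mem_IntAt _) ?_
  have h27 : ¬ l ∣ 27 := by
    intro h
    have h3 : l ∣ 3 := hl.out.dvd_of_dvd_pow (show l ∣ 3 ^ 3 by norm_num; exact h)
    exact hl3 ((Nat.prime_dvd_prime_iff_eq hl.out Nat.prime_three).mp h3)
  simpa using inv_natCast_mem_IntAt (l := l) h27

theorem kX_coeffsIn (l : ℕ) [Fact l.Prime] (hl3 : l ≠ 3) : CoeffsIn (IntAt l) (kX ℂ) :=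
  coeff_kX_mem_IntAt l hl3

theorem kA_coeffsIn (l : ℕ) [Fact l.Prime] : CoeffsIn (IntAt l) (kA ℂ) := by
  intro n
  unfold kA
  rw [PowerSeries.coeff_map]
  simp

theorem kE4_coeffsIn (l : ℕ) [Fact l.Prime] : CoeffsIn (IntAt l) (kE4 ℂ) := by
  intro n
  unfold kE4
  rw [PowerSeries.coeff_map]
  simp

theorem kE6_coeffsIn (l : ℕ) [Fact l.Prime] : CoeffsIn (IntAt l) (kE6 ℂ) := by
  intro n
  unfold kE6
  rw [PowerSeries.coeff_map]
  simp

/-- Link with the analytic objects: `q`-expansions of `A`, `E₄`, `E₆`. -/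
theorem qExpansion_formA3_eq_kA : qExpansion 1 formA3 = kA ℂ := qExpansion_formA3_eq
theorem qExpansion_E4_eq_kE4 : qExpansion 1 E₄ = kE4 ℂ := qExpansion_E4
theorem qExpansion_E6_eq_kE6 : qExpansion 1 E₆ = kE6 ℂ := qExpansion_E6

end Fermat.Agent.Eis.L3R
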