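import Mathlib
import Fermat.Agent.Eis.Level3Ring

/-!
# Program E (S16), node N6: the mod-8 congruence of the level-3 ring (plug-in for the N6 core)

On top of `Eis/Level3Ring.lean` (`A = kA`, `x = kX`, `E₄ = kE4`, `E₆ = kE6`): with
`s = ∑ σ^{(3)}(n) qⁿ`, `T₃ = ∑ σ₃(n) qⁿ` and `G := 39 s + 477 s² + 15 T₃ ∈ ℤ⟦q⟧`

* `27 (A - A²) - 4 B4 = -8 G`, hence `A - A² - 4 A² x = 8 * (-(1/27) G)`;
* `27 (A - 1) + 4 A y = 8 G A⁻¹`, hence `A (1 + 4 x) - 1 = 8 * ((1/27) G A⁻¹)`.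

Both are stated over `ℂ` with the cofactor in `psSub O` for every subring `O ∋ 1/3`, in the two
shapes used by the abstract cores of N6, together with the whole bundle of hypotheses on
`(A, x, E₄, E₆)` consumed there.
-/

set_option autoImplicit false
set_option linter.unusedSectionVars false

open CongruenceSubgroup ModularForm UpperHalfPlane EisensteinSeries
open scoped MatrixGroups ModularForm ArithmeticFunction.sigma

namespace Fermat.Agent.Eis.L3C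

open Fermat.Agent.Eis Fermat.Agent.Eis.L3R

/-! ### Integral identities -/

/-- `G = 39 s + 477 s² + 15 T₃ ∈ ℤ⟦q⟧`. -/
noncomputable def serG : PowerSeries ℤ := 39 * serS + 477 * serS ^ 2 + 15 * serT3

theorem ser_cong_int : 27 * (serA2 - serA2 ^ 2) - 4 * serB4 = -8 * serG := by
  unfold serA2 serB4 serG; ring

theorem ser_cong_int' : 27 * (serA2 - 1) * serA2 + 4 * serB4 = 8 * serG := by
  unfold serA2 serB4 serG; ring

/-- `27 (A - A²) - 4 A² y = -8 G`. -/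
theorem ser_cong_Y : 27 * (serA2 - serA2 ^ 2) - 4 * (serA2 ^ 2 * serY) = -8 * serG := by
  rw [mul_comm (serA2 ^ 2) serY, serY_mul]; exact ser_cong_int

/-- `27 (A - 1) + 4 A y = 8 G A⁻¹`. -/
theorem ser_cong_Y' : 27 * (serA2 - 1) + 4 * (serA2 * serY) = 8 * (serG * serA2inv) := by
  have h := serA2_mul_inv
  have e1 : 27 * (serA2 - 1) + 4 * (serA2 * serY)
      = (27 * (serA2 - 1) * serA2 + 4 * (serY * serA2 ^ 2)) * serA2inv := by
    calc 27 * (serA2 - 1) + 4 * (serA2 * serY)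
        = (27 * (serA2 - 1) + 4 * (serA2 * serY)) * 1 := by ring
      _ = (27 * (serA2 - 1) + 4 * (serA2 * serY)) * (serA2 * serA2inv) := by rw [h]
      _ = _ := by ring
  rw [e1, serY_mul, ser_cong_int']; ring

/-! ### Over `ℂ` -/

/-- The cofactor `-(1/27) G`. -/
noncomputable def cofH : PowerSeries ℂ :=
  PowerSeries.C (-(1 / 27 : ℂ)) * serG.map (Int.castRingHom ℂ)

/-- The cofactor `(1/27) G A⁻¹`. -/
noncomputable def cofH' : PowerSeries ℂ :=
  PowerSeries.C (1 / 27 : ℂ) * (serG * serA2inv).map (Int.castRingHom ℂ)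

theorem inv27_mem {O : Subring ℂ} (h3 : (3 : ℂ)⁻¹ ∈ O) : (1 / 27 : ℂ) ∈ O := by
  have h : (1 / 27 : ℂ) = (3 : ℂ)⁻¹ ^ 3 := by norm_num
  rw [h]; exact O.pow_mem h3 3

theorem cofH_mem {O : Subring ℂ} (h3 : (3 : ℂ)⁻¹ ∈ O) : cofH ∈ psSub O := by
  intro n
  unfold cofH
  rw [PowerSeries.coeff_C_mul, PowerSeries.coeff_map]
  refine O.mul_mem (O.neg_mem (inv27_mem h3)) ?_
  simp

theorem cofH'_mem {O : Subring ℂ} (h3 : (3 : ℂ)⁻¹ ∈ O) : cofH' ∈ psSub O := by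
  intro n
  unfold cofH'
  rw [PowerSeries.coeff_C_mul, PowerSeries.coeff_map]
  refine O.mul_mem (inv27_mem h3) ?_
  simp

theorem C27_mul_C_inv : (27 : PowerSeries ℂ) * PowerSeries.C (1 / 27 : ℂ) = 1 := by
  rw [← map_ofNat (PowerSeries.C (R := ℂ)) 27, ← map_mul]
  norm_num

/-- `A - A² - 4 A² x = 8 * cofH`. -/
theorem k_cong : kA ℂ - kA ℂ ^ 2 - 4 * kA ℂ ^ 2 * kX ℂ = 8 * cofH := by
  have h := congrArg (PowerSeries.map (Int.castRingHom ℂ)) ser_cong_Y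
  simp only [map_sub, map_mul, map_pow, map_ofNat, map_neg] at h
  rw [← twentyseven_mul_kX] at h
  have h27 : (27 : PowerSeries ℂ) * PowerSeries.C (1 / 27 : ℂ) = 1 := C27_mul_C_inv
  -- multiply `h` by `C (1/27)`
  have h' := congrArg (fun t => PowerSeries.C (1 / 27 : ℂ) * t) h
  beta_reduce at h'
  unfold cofH
  unfold kA
  have e1 : PowerSeries.C (1 / 27 : ℂ) *
      (27 * (PowerSeries.map (Int.castRingHom ℂ) serA2 - PowerSeries.map (Int.castRingHom ℂ) serA2 ^ 2) -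
        4 * (PowerSeries.map (Int.castRingHom ℂ) serA2 ^ 2 * (27 * kX ℂ)))
      = (27 * PowerSeries.C (1 / 27 : ℂ)) *
        (PowerSeries.map (Int.castRingHom ℂ) serA2 - PowerSeries.map (Int.castRingHom ℂ) serA2 ^ 2 -
        4 * PowerSeries.map (Int.castRingHom ℂ) serA2 ^ 2 * kX ℂ) := by ring
  rw [e1, h27, one_mul] at h'
  rw [h', map_neg]; ring

/-- `A (1 + 4 x) - 1 = 8 * cofH'`. -/
theorem k_cong' : kA ℂ * (1 + 4 * kX ℂ) - 1 = 8 * cofH' := by
  have h := congrArg (PowerSeries.map (Int.castRingHom ℂ)) ser_cong_Y'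
  simp only [map_sub, map_add, map_mul, map_ofNat, map_one] at h
  rw [← twentyseven_mul_kX] at h
  have h27 : (27 : PowerSeries ℂ) * PowerSeries.C (1 / 27 : ℂ) = 1 := C27_mul_C_inv
  have h' := congrArg (fun t => PowerSeries.C (1 / 27 : ℂ) * t) h
  beta_reduce at h'
  unfold cofH'
  unfold kA
  have e1 : PowerSeries.C (1 / 27 : ℂ) *
      (27 * (PowerSeries.map (Int.castRingHom ℂ) serA2 - 1) +
        4 * (PowerSeries.map (Int.castRingHom ℂ) serA2 * (27 * kX ℂ)))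
      = (27 * PowerSeries.C (1 / 27 : ℂ)) *
        (PowerSeries.map (Int.castRingHom ℂ) serA2 * (1 + 4 * kX ℂ) - 1) := by ring
  rw [e1, h27, one_mul] at h'
  rw [h', map_mul]; ring

/-! ### The two shapes of `hcong` -/

/-- `hcong` in the shape of `N6Core.false_of_package` (helper7). -/
theorem hcong_C (O : Subring ℂ) (h3 : (3 : ℂ)⁻¹ ∈ O) :
    ∃ H : PowerSeries ℂ, CoeffsIn O H ∧
      kA ℂ - kA ℂ ^ 2 - PowerSeries.C 4 * kA ℂ ^ 2 * kX ℂ = PowerSeries.C 8 * H := by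
  refine ⟨cofH, cofH_mem h3, ?_⟩
  rw [map_ofNat, map_ofNat]
  exact k_cong

/-- `hcong` in the shape of `TwoHard.core` (helper23). -/
theorem hcong_core (O : Subring ℂ) (h3 : (3 : ℂ)⁻¹ ∈ O) :
    ∃ H ∈ psSub O, kA ℂ * (1 + 4 * kX ℂ) - 1 = 8 * H :=
  ⟨cofH', cofH'_mem h3, k_cong'⟩

/-! ### The hypothesis bundle on `(A, x, E₄, E₆)` for a general subring `O ∋ 1/3` -/

theorem kA_mem (O : Subring ℂ) : kA ℂ ∈ psSub O := by
  intro n
  unfold kA
  rw [PowerSeries.coeff_map]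
  simp

theorem kE4_mem (O : Subring ℂ) : kE4 ℂ ∈ psSub O := by
  intro n
  unfold kE4
  rw [PowerSeries.coeff_map]
  simp

theorem kE6_mem (O : Subring ℂ) : kE6 ℂ ∈ psSub O := by
  intro n
  unfold kE6
  rw [PowerSeries.coeff_map]
  simp

theorem kX_mem (O : Subring ℂ) (h3 : (3 : ℂ)⁻¹ ∈ O) : kX ℂ ∈ psSub O := by
  intro n
  unfold kX
  rw [PowerSeries.coeff_C_mul, PowerSeries.coeff_map]
  refine O.mul_mem (inv27_mem h3) ?_
  simp

theorem constantCoeff_kA : PowerSeries.constantCoeff (kA ℂ) = 1 := by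
  rw [← PowerSeries.coeff_zero_eq_constantCoeff_apply]; exact coeff_zero_kA ℂ

theorem constantCoeff_kX : PowerSeries.constantCoeff (kX ℂ) = 0 := by
  rw [← PowerSeries.coeff_zero_eq_constantCoeff_apply]; exact coeff_zero_kX ℂ

/-- `E₄ = A² (1 + C 216 * x)` (constants spelled with `PowerSeries.C`). -/
theorem kE4_eq_C : kE4 ℂ = kA ℂ ^ 2 * (1 + PowerSeries.C 216 * kX ℂ) := by
  rw [map_ofNat]; exact kE4_eq ℂ

/-- `E₆ = A³ (1 - C 540 * x - C 5832 * x²)`. -/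
theorem kE6_eq_C :
    kE6 ℂ = kA ℂ ^ 3 * (1 - PowerSeries.C 540 * kX ℂ - PowerSeries.C 5832 * kX ℂ ^ 2) := by
  rw [map_ofNat, map_ofNat]; exact kE6_eq ℂ

/-- `1/3 ∈ IntAt l` for `l ≠ 3`; in particular for `l = 2`. -/
theorem inv_three_mem_IntAt (l : ℕ) [hl : Fact l.Prime] (hl3 : l ≠ 3) : (3 : ℂ)⁻¹ ∈ IntAt l := by
  have h : ¬ l ∣ 3 := fun h => hl3 ((Nat.prime_dvd_prime_iff_eq hl.out Nat.prime_three).mp h)
  simpa using inv_natCast_mem_IntAt (l := l) h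

end Fermat.Agent.Eis.L3C
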