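import Mathlib
import Fermat.Agent.Eis.ParClass

/-!
# Program E, node N7-alg (A4), final assembly: parabolic integral lifts of `ZMod n`-characters

Hypothesis form on the three group-theoretic inputs (all consequences of `PSL₂(ℤ) = C₂ * C₃`,
proved in `Eis/SumZero.lean`):

* `SumZeroStatement p`  : every `m : Γ₀(p) → ℤ` has `m T = m c₀`;
* `TStarStatement p`    : there is `t* : Γ₀(p) → ℤ` with `t* T = 1 = t* c₀`;
* `LiftStatement p`     : every `ψ : Γ₀(p) → ZMod n` killing the elements of finite order lifts to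
  `Γ₀(p) → ℤ`.

Export: `exists_lam_lift_of` : a `ZMod n`-valued character killing the elements of finite order,
`T` and `c₀` is the reduction of an element of `Lam = parabolicHoms ℤ (Γ₀(p)) ℤ`.
-/

set_option autoImplicit false

namespace Fermat.Agent.Eis.LiftParabolic

open CongruenceSubgroup Fermat.Agent.Eis.ParClass
open scoped MatrixGroups

/-- (i) every integral character takes the same value at `T` and `c₀`. -/
def SumZeroStatement (p : ℕ) : Prop :=
  ∀ m : Additive (Gamma0 p) →+ ℤ, m (Additive.ofMul (Tg p)) = m (Additive.ofMul (c0 p))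

/-- (ii) there is an integral character with value `1` at `T` (and at `c₀`). -/
def TStarStatement (p : ℕ) : Prop :=
  ∃ t : Additive (Gamma0 p) →+ ℤ, t (Additive.ofMul (Tg p)) = 1 ∧ t (Additive.ofMul (c0 p)) = 1

/-- (iii) `ZMod n`-valued characters killing the elements of finite order lift to `ℤ`. -/
def LiftStatement (p : ℕ) : Prop :=
  ∀ (n : ℕ) (ψ : Additive (Gamma0 p) →+ ZMod n),
    (∀ γ : Gamma0 p, IsOfFinOrder γ → ψ (Additive.ofMul γ) = 0) →
    ∃ ψ' : Additive (Gamma0 p) →+ ℤ, ∀ γ, ((ψ' γ : ℤ) : ZMod n) = ψ γ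

/-- **The lifting theorem** (hypothesis form). -/
theorem exists_lam_lift_of (p : ℕ) [Fact p.Prime] (hi : SumZeroStatement p)
    (hii : TStarStatement p) (hiii : LiftStatement p) (n : ℕ)
    (ψ : Additive (Gamma0 p) →+ ZMod n)
    (hfin : ∀ γ : Gamma0 p, IsOfFinOrder γ → ψ (Additive.ofMul γ) = 0)
    (hT : ψ (Additive.ofMul (Tg p)) = 0) :
    ∃ lam ∈ ModularCurve.Period.parabolicHoms ℤ (Gamma0 p) ℤ,
      ∀ γ, ((lam γ : ℤ) : ZMod n) = ψ γ := by
  obtain ⟨ψ', hψ'⟩ := hiii n ψ hfin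
  obtain ⟨t, htT, htc⟩ := hii
  have hdvd : (n : ℤ) ∣ ψ' (Additive.ofMul (Tg p)) := by
    rw [← ZMod.intCast_zmod_eq_zero_iff_dvd, hψ', hT]
  obtain ⟨k, hk⟩ := hdvd
  refine ⟨ψ' - ((n : ℤ) * k) • t, ?_, ?_⟩
  · apply mem_Lam_of_T_c0
    · rw [AddMonoidHom.sub_apply, AddMonoidHom.smul_apply, htT, hk, smul_eq_mul, mul_one, sub_self]
    · rw [AddMonoidHom.sub_apply, AddMonoidHom.smul_apply, htc, ← hi ψ', hk, smul_eq_mul, mul_one,
        sub_self]
  · intro γ
    rw [AddMonoidHom.sub_apply, AddMonoidHom.smul_apply, smul_eq_mul]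
    push_cast
    rw [hψ', ZMod.natCast_self, zero_mul, zero_mul, sub_zero]

end Fermat.Agent.Eis.LiftParabolic
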