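/-
Program E (S16), node N7-A4orb (helper8): orbitwise lifting of `ZMod n`-valued functions
satisfying the relations `(1 + σ) f = 0` (`σ² = 1`) resp. `(1 + σ + σ²) f = 0` (`σ³ = 1`) and
vanishing at the fixed points of `σ`, to `ℤ`-valued functions with the same properties.
Used for the lifting theorem of parabolic characters `Γ₀(p) → ℤ/n` to `ℤ`.
Mathlib only.
-/
import Mathlib

set_option autoImplicit false

namespace Fermat.Agent.Eis.OrbitLift

/-- the set-theoretic section `ZMod n → ℤ`. -/
noncomputable def sec (n : ℕ) (a : ZMod n) : ℤ := ZMod.cast a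

theorem cast_sec (n : ℕ) (a : ZMod n) : ((sec n a : ℤ) : ZMod n) = a :=
  ZMod.intCast_zmod_cast a

/-- **Lifting along an involution.** -/
theorem exists_lift_two {X : Type*} (σ : Equiv.Perm X) (hσ : ∀ x, σ (σ x) = x) (n : ℕ)
    (f : X → ZMod n) (hrel : ∀ x, f x + f (σ x) = 0) (hfix : ∀ x, σ x = x → f x = 0) :
    ∃ F : X → ℤ, (∀ x, ((F x : ℤ) : ZMod n) = f x) ∧ (∀ x, F x + F (σ x) = 0) ∧
      (∀ x, σ x = x → F x = 0) := by
  classical
  let _ : LinearOrder X := linearOrderOfSTO (WellOrderingRel (α := X))
  let F : X → ℤ := fun x =>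
    if σ x = x then 0 else if x < σ x then sec n (f x) else - sec n (f (σ x))
  have hF : ∀ x, F x =
      if σ x = x then 0 else if x < σ x then sec n (f x) else - sec n (f (σ x)) := fun _ => rfl
  refine ⟨F, ?_, ?_, ?_⟩
  · intro x
    rw [hF]
    split_ifs with h1 h2
    · rw [hfix x h1]; simp
    · exact cast_sec n _
    · rw [Int.cast_neg, cast_sec]
      have := hrel x
      linear_combination (-1 : ZMod n) * this
  · intro x
    rw [hF x, hF (σ x), hσ x]
    by_cases h1 : σ x = x
    · rw [if_pos h1, if_pos h1.symm]; simp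
    · have h1' : ¬ x = σ x := fun h => h1 h.symm
      rw [if_neg h1, if_neg h1']
      by_cases h2 : x < σ x
      · rw [if_pos h2, if_neg (not_lt.mpr h2.le)]; ring
      · have h3 : σ x < x := lt_of_le_of_ne (not_lt.mp h2) h1
        rw [if_neg h2, if_pos h3]; ring
  · intro x hx
    rw [hF, if_pos hx]

/-- **Lifting along a permutation of order three.** -/
theorem exists_lift_three {X : Type*} (σ : Equiv.Perm X) (hσ : ∀ x, σ (σ (σ x)) = x) (n : ℕ)
    (f : X → ZMod n) (hrel : ∀ x, f x + f (σ x) + f (σ (σ x)) = 0)
    (hfix : ∀ x, σ x = x → f x = 0) :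
    ∃ F : X → ℤ, (∀ x, ((F x : ℤ) : ZMod n) = f x) ∧
      (∀ x, F x + F (σ x) + F (σ (σ x)) = 0) ∧ (∀ x, σ x = x → F x = 0) := by
  classical
  let _ : LinearOrder X := linearOrderOfSTO (WellOrderingRel (α := X))
  let F : X → ℤ := fun x =>
    if σ x = x then 0 else
      if σ x < x ∧ σ (σ x) < x then - sec n (f (σ x)) - sec n (f (σ (σ x))) else sec n (f x)
  have hF : ∀ x, F x =
      if σ x = x then 0 else
        if σ x < x ∧ σ (σ x) < x then - sec n (f (σ x)) - sec n (f (σ (σ x)))
        else sec n (f x) := fun _ => rfl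
  refine ⟨F, ?_, ?_, ?_⟩
  · intro x
    rw [hF]
    split_ifs with h1 h2
    · rw [hfix x h1]; simp
    · rw [Int.cast_sub, Int.cast_neg, cast_sec, cast_sec]
      have := hrel x
      linear_combination (-1 : ZMod n) * this
    · exact cast_sec n _
  · intro x
    by_cases h1 : σ x = x
    · have h2 : σ (σ x) = σ x := by rw [h1, h1]
      rw [hF x, hF (σ x), hF (σ (σ x)), if_pos h1, if_pos h2]
      have h3 : σ (σ (σ x)) = σ (σ x) := by rw [h2, h2]
      rw [if_pos h3]; simp
    · -- the three points are distinct
      set y := σ x with hy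
      set z := σ y with hz
      have hzx : σ z = x := hσ x
      have hxy : y ≠ x := h1
      have hyz : z ≠ y := by
        intro h
        apply h1
        have : σ (σ y) = σ y := by rw [← hz, h, ← hz, h]
        have h4 : σ y = y := σ.injective this
        exact σ.injective h4
      have hzx' : x ≠ z := by
        intro h
        apply hyz
        have : σ z = σ y := by rw [hzx, ← hz]; exact h
        have h4 : z = y := σ.injective this
        exact h4
      rw [hF x, hF y, hF z, ← hy, ← hz, hzx, ← hy]
      rw [if_neg hxy, if_neg hyz, if_neg hzx']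
      rcases lt_trichotomy x y with hxy1 | hxy1 | hxy1
      · rcases lt_trichotomy y z with hyz1 | hyz1 | hyz1
        · -- x < y < z : z is the maximum
          rw [if_neg (fun h => absurd h.1 (not_lt.mpr hxy1.le)),
            if_neg (fun h => absurd h.1 (not_lt.mpr hyz1.le)),
            if_pos ⟨hxy1.trans hyz1, hyz1⟩]
          ring
        · exact absurd hyz1.symm hyz
        · -- x < y, z < y : y is the maximum
          rw [if_neg (fun h => absurd h.1 (not_lt.mpr hxy1.le)),
            if_pos ⟨hyz1, hxy1⟩]
          rcases lt_trichotomy x z with hxz1 | hxz1 | hxz1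
          · rw [if_neg (fun h => absurd h.2 (not_lt.mpr hyz1.le))]; ring
          · exact absurd hxz1 hzx'
          · rw [if_neg (fun h => absurd h.2 (not_lt.mpr hyz1.le))]; ring
      · exact absurd hxy1.symm hxy
      · rcases lt_trichotomy x z with hxz1 | hxz1 | hxz1
        · -- y < x < z : z is the maximum
          rw [if_neg (fun h => absurd h.2 (not_lt.mpr hxz1.le)),
            if_neg (fun h => absurd h.2 (not_lt.mpr hxy1.le)),
            if_pos ⟨hxz1, hxy1.trans hxz1⟩]
          ring
        · exact absurd hxz1 hzx'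
        · -- y < x, z < x : x is the maximum
          rw [if_pos ⟨hxy1, hxz1⟩,
            if_neg (fun h => absurd h.2 (not_lt.mpr hxy1.le)),
            if_neg (fun h => absurd h.1 (not_lt.mpr hxz1.le))]
          ring
  · intro x hx
    rw [hF, if_pos hx]

end Fermat.Agent.Eis.OrbitLift
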