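import Mathlib
import Fermat.Agent.Eis.CocycleUP
import Fermat.Agent.Eis.OrbitLift
import Fermat.Agent.Eis.LiftParabolic

/-!
# Program E, node N7-alg (A4 (iii)): lifting `ZMod n`-valued characters to `ℤ`

`Γ ≤ SL(2,ℤ)` with `-1 ∈ Γ`.  A character `ψ : Γ → ZMod n` killing the elements of finite order is
the reduction of a character `Γ → ℤ`.

Proof: Shapiro (`ind ψ` is a cocycle of `SL(2,ℤ)` in `Map(SL(2,ℤ)/Γ, ZMod n)`), its values at `S`
and `U` satisfy the relations `(1 + S) α = 0`, `(1 + U + U²) β = 0` and vanish at the fixed points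
(there `α x = ψ (conjugate of S)`), hence lift orbitwise to `ℤ` (`OrbitLift`), the lifted pair is the
pair of values of an integral cocycle (`CocycleUP.exists_cocycle_of_pair`, i.e. `PSL₂(ℤ) = C₂ * C₃`),
and its restriction to `Γ` lifts `ψ` (`Shapiro.comp_res_eq_of_eqOn`).
-/

set_option autoImplicit false

namespace Fermat.Agent.Eis.LiftCharZ

open Matrix Matrix.SpecialLinearGroup ModularGroup CongruenceSubgroup
open Fermat.Agent.Eis.PSL2Free Fermat.Agent.Eis.Shapiro Fermat.Agent.Eis.CocycleUP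
open scoped MatrixGroups

variable {Γ : Subgroup SL(2, ℤ)}

theorem isOfFinOrder_conj_mem {g : SL(2, ℤ)} (hg : IsOfFinOrder g) (a : SL(2, ℤ))
    (ha : a⁻¹ * g * a ∈ Γ) : IsOfFinOrder (⟨a⁻¹ * g * a, ha⟩ : Γ) := by
  obtain ⟨k, hk, hgk⟩ := isOfFinOrder_iff_pow_eq_one.mp hg
  refine isOfFinOrder_iff_pow_eq_one.mpr ⟨k, hk, ?_⟩
  apply Subtype.ext
  rw [Subgroup.coe_pow, Subgroup.coe_one]
  show (a⁻¹ * g * a) ^ k = 1
  have : a⁻¹ * g * a = a⁻¹ * g * (a⁻¹)⁻¹ := by rw [inv_inv]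
  rw [this, conj_pow, hgk, mul_one, mul_inv_cancel]

theorem isOfFinOrder_S : IsOfFinOrder (S : SL(2, ℤ)) := by
  refine isOfFinOrder_iff_pow_eq_one.mpr ⟨4, by norm_num, ?_⟩
  have : (S : SL(2, ℤ)) ^ 4 = (S ^ 2) ^ 2 := by rw [← pow_mul]
  rw [this, S_sq]
  decide

theorem isOfFinOrder_U : IsOfFinOrder (U : SL(2, ℤ)) := by
  refine isOfFinOrder_iff_pow_eq_one.mpr ⟨6, by norm_num, ?_⟩
  have : (U : SL(2, ℤ)) ^ 6 = (U ^ 3) ^ 2 := by rw [← pow_mul]
  rw [this, U_cube]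
  decide

theorem isOfFinOrder_neg_one : IsOfFinOrder (-1 : SL(2, ℤ)) := by
  refine isOfFinOrder_iff_pow_eq_one.mpr ⟨2, by norm_num, ?_⟩
  decide

/-- **Lifting theorem** for characters of a subgroup `Γ ∋ -1` of `SL(2,ℤ)`. -/
theorem exists_int_lift (hneg : (-1 : SL(2, ℤ)) ∈ Γ) (n : ℕ) (ψ : Additive Γ →+ ZMod n)
    (hfin : ∀ γ : Γ, IsOfFinOrder γ → ψ (Additive.ofMul γ) = 0) :
    ∃ ψ' : Additive Γ →+ ℤ, ∀ γ, ((ψ' γ : ℤ) : ZMod n) = ψ γ := by
  have hc : IsCocycle Γ (ind Γ ψ) := isCocycle_ind Γ ψ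
  -- vanishing at fixed points of finite order elements
  have hfix : ∀ (g : SL(2, ℤ)), IsOfFinOrder g → ∀ x : SL(2, ℤ) ⧸ Γ, g • x = x →
      ind Γ ψ g x = 0 := by
    intro g hg x hx
    exact ind_apply_eq_zero_of_smul_eq Γ ψ hx
      (fun a ha => hfin _ (isOfFinOrder_conj_mem hg a ha))
  have h1 : ind Γ ψ (-1) = 0 := by
    funext x
    exact hfix _ isOfFinOrder_neg_one x (neg_one_smul hneg x)
  -- lift the values at `S`
  obtain ⟨α', hα'cast, hα'rel, -⟩ := OrbitLift.exists_lift_two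
    (MulAction.toPerm (S : SL(2, ℤ)) : Equiv.Perm (SL(2, ℤ) ⧸ Γ))
    (fun x => S_smul_S_smul hneg x) n (ind Γ ψ S)
    (fun x => rel_S hneg hc h1 x) (fun x hx => hfix _ isOfFinOrder_S x hx)
  -- lift the values at `U`
  obtain ⟨β', hβ'cast, hβ'rel, -⟩ := OrbitLift.exists_lift_three
    (MulAction.toPerm (U : SL(2, ℤ)) : Equiv.Perm (SL(2, ℤ) ⧸ Γ))
    (fun x => U_smul_U_smul_U_smul hneg x) n (ind Γ ψ U)
    (fun x => rel_U hneg hc h1 x) (fun x hx => hfix _ isOfFinOrder_U x hx)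
  obtain ⟨c', hc', hc'S, hc'U⟩ := exists_cocycle_of_pair hneg α' β' hα'rel hβ'rel
  have key : (Int.castAddHom (ZMod n)).comp (res Γ c' hc') = ψ := by
    apply comp_res_eq_of_eqOn Γ (Int.castAddHom (ZMod n)) ψ c' hc' closure_S_U
    intro g hg x
    rcases hg with rfl | hg
    · rw [hc'S]
      exact hα'cast x
    · rw [Set.mem_singleton_iff] at hg
      subst hg
      rw [hc'U]
      exact hβ'cast x
  refine ⟨res Γ c' hc', fun γ => ?_⟩
  exact DFunLike.congr_fun key γ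

/-- The statement (iii) of `LiftParabolic` for `Γ₀(p)`. -/
theorem liftStatement (p : ℕ) : LiftParabolic.LiftStatement p := by
  intro n ψ hfin
  exact exists_int_lift (ParClass.neg_one_mem_Gamma0 p) n ψ hfin

end Fermat.Agent.Eis.LiftCharZ
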