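/-
Program E, node (N7)(A5) (helper1): **the Shimura homomorphism** of `Γ₀(p)`, `p` prime.

`ψ : Γ₀(p) → ℤ/n`, `γ ↦ dlog (d(γ) mod p)`, `n = eisensteinNumerator p = (p-1)/gcd(p-1,12)`, where
`d(γ)` is the lower right entry and `dlog : (ℤ/p)ˣ → ℤ/n` is a surjective homomorphism killing the
`12`-torsion.  Everything is hypothesis free and holds for every prime `p`.

* general level `N`: `dUnit N : Γ₀(N) →* (ℤ/N)ˣ`, `dHom N L : γ ↦ L (d(γ))`,
  `IsLowerMod`, `dUnit_coc`, `transfer_dHom` (a coset system with representatives lower triangular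
  modulo `N` acts on `dHom N L` as its degree), `heckeTransfer_dHom_of_not_dvd` (`T_l = l + 1`),
  `heckeTransfer_dHom_of_dvd` (`U_l^* = l`);
* `pow_twelve_eq_one_of_pow_eq_one`, `SL2Z_pow_twelve_eq_one`, `Gamma0_pow_twelve_eq_one` : the
  elements of finite order of `SL₂(ℤ)` have order dividing `12`;
* `exists_dlog`, `dlog`, `dlog_surjective`, `dlog_eq_zero`;
* `psi`, `psi_surjective`, `psi_eq_zero_of_pow_eq_one`, `psi_eq_zero_of_isOfFinOrder`,
  `psi_isParabolicHom`, `psi_mem_parabolicHoms`, `psi_Tg`, `psi_c0`, `psi_negOne`,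
  `heckeTransfer_psi_of_ne`, `heckeTransfer_psi_self`, `heckeTransfer_psi`.
-/
import Mathlib
import Fermat.Prelude.Def_ModularCurve_ModularUnit
import Fermat.Prelude.Def_HeckeGalois_EichlerShimura
import Fermat.Agent.Jac.HeckeReps
import Fermat.Agent.Eis.ParClass

set_option autoImplicit false

namespace Fermat.Agent.Eis.ShimuraHom

open Fermat.Agent.Jac CongruenceSubgroup Matrix.SpecialLinearGroup ModularCurve ModularCurve.Period ModularForm
open scoped MatrixGroups
open P2MW.S_ModularForm_heckeT_slash_eq_self_of_mem_Gamma0.ModularForm.HeckeSlashInvariance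

/-- the lower right entry modulo `N`, as a character `Γ₀(N) → (ℤ/N)ˣ` -/
noncomputable def dUnit (N : ℕ) : Gamma0 N →* (ZMod N)ˣ := (Gamma0Map N).toHomUnits

theorem coe_dUnit (N : ℕ) (γ : Gamma0 N) :
    ((dUnit N γ : (ZMod N)ˣ) : ZMod N) = (((γ : SL(2, ℤ)) 1 1 : ℤ) : ZMod N) := rfl

/-- the homomorphism `γ ↦ L (d(γ) mod N)` -/
noncomputable def dHom (N : ℕ) {M : Type*} [AddCommGroup M] (L : Additive (ZMod N)ˣ →+ M) :
    Additive (Gamma0 N) →+ M :=
  L.comp (MonoidHom.toAdditive (dUnit N))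

theorem dHom_apply (N : ℕ) {M : Type*} [AddCommGroup M] (L : Additive (ZMod N)ˣ →+ M)
    (γ : Gamma0 N) : dHom N L (Additive.ofMul γ) = L (Additive.ofMul (dUnit N γ)) := rfl

section General

variable {N : ℕ} {ι : Type*} (D : CosetReps (embG N) ι)

/-- integrality datum for a coset system: every representative is an integral matrix, lower
triangular modulo `N`, with lower right entry the unit `u i` modulo `N` -/
def IsLowerMod (u : ι → (ZMod N)ˣ) : Prop :=
  ∀ i, ∃ a b c d : ℤ,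
    ((D.rep i : GL (Fin 2) ℝ) : Matrix (Fin 2) (Fin 2) ℝ) = !![(a : ℝ), (b : ℝ); (c : ℝ), (d : ℝ)] ∧
      (N : ℤ) ∣ c ∧ ((d : ℤ) : ZMod N) = u i

variable {D}

theorem dUnit_coc {u : ι → (ZMod N)ˣ} (hD : IsLowerMod D u) (γ : Gamma0 N) (i : ι) :
    dUnit N (D.coc γ i) * u (D.next γ i) = u i * dUnit N γ := by
  obtain ⟨a, b, c, d, hval, hc, hd⟩ := hD i
  obtain ⟨a', b', c', d', hval', hc', hd'⟩ := hD (D.next γ i)
  have hrel := D.rel γ i
  have h1 := val_mul_fin_two hval (val_mapGL (γ : SL(2, ℤ)))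
  have h2 := val_mul_fin_two (val_mapGL ((D.coc γ i : Gamma0 N) : SL(2, ℤ))) hval'
  rw [embG_apply] at hrel
  rw [embG_apply] at hrel
  rw [hrel, h2] at h1
  have h11 := congrFun (congrFun h1 1) 1
  simp only [Matrix.of_apply, Matrix.cons_val_one, Matrix.cons_val_zero] at h11
  have h11' : ((D.coc γ i : Gamma0 N) : SL(2, ℤ)) 1 0 * b' + ((D.coc γ i : Gamma0 N) : SL(2, ℤ)) 1 1 * d'
      = c * (γ : SL(2, ℤ)) 0 1 + d * (γ : SL(2, ℤ)) 1 1 := by exact_mod_cast h11
  have h3 := congrArg (Int.cast : ℤ → ZMod N) h11'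
  push_cast at h3
  have hc0 : ((c : ℤ) : ZMod N) = 0 := (ZMod.intCast_zmod_eq_zero_iff_dvd _ _).mpr hc
  have hγ0 : ((((D.coc γ i : Gamma0 N) : SL(2, ℤ)) 1 0 : ℤ) : ZMod N) = 0 :=
    (ZMod.intCast_zmod_eq_zero_iff_dvd _ _).mpr (gamma0_dvd N _)
  rw [hc0, hγ0, zero_mul, zero_mul, zero_add, zero_add, hd, hd'] at h3
  apply Units.ext
  rw [Units.val_mul, Units.val_mul, coe_dUnit, coe_dUnit, h3]

variable [Fintype ι] {M : Type*} [AddCommGroup M]

/-- **Eisenstein property, abstract form**: on the homomorphisms `γ ↦ L (d(γ))` the transfer of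
a coset system with representatives lower triangular modulo `N` acts as its degree. -/
theorem transfer_dHom {u : ι → (ZMod N)ˣ} (hD : IsLowerMod D u) (L : Additive (ZMod N)ˣ →+ M) :
    D.transfer (dHom N L) = Fintype.card ι • dHom N L := by
  refine AddMonoidHom.ext fun γ' => ?_
  obtain ⟨γ, rfl⟩ := Additive.ofMul.surjective γ'
  rw [CosetReps.transfer_apply, AddMonoidHom.smul_apply]
  have h1 : ∀ i, dHom N L (Additive.ofMul (D.coc γ i)) =
      dHom N L (Additive.ofMul γ) + (L (Additive.ofMul (u i)) -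
        L (Additive.ofMul (u (D.next γ i)))) := by
    intro i
    have h := congrArg (fun x => L (Additive.ofMul x)) (dUnit_coc hD γ i)
    simp only [ofMul_mul, map_add] at h
    rw [dHom_apply, dHom_apply]
    rw [eq_sub_of_add_eq h]
    abel
  rw [Finset.sum_congr rfl fun i _ => h1 i, Finset.sum_add_distrib, Finset.sum_sub_distrib]
  have h2 : ∑ i, L (Additive.ofMul (u (D.next γ i))) = ∑ i, L (Additive.ofMul (u i)) :=
    Equiv.sum_comp (D.nextEquiv γ) (fun i => L (Additive.ofMul (u i)))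
  rw [h2, sub_self, add_zero, Finset.sum_const, Finset.card_univ]

end General

section Hecke

variable (N : ℕ) {M : Type*} [AddCommGroup M]

/-- the lower right entries of the representatives of `T_l` -/
noncomputable def uT {l : ℕ} (hl : l.Prime) (hlN : ¬ l ∣ N) (x : OnePoint (ZMod l)) : (ZMod N)ˣ :=
  Option.elim x 1 (fun _ => ZMod.unitOfCoprime l ((Nat.Prime.coprime_iff_not_dvd hl).mpr hlN))

theorem isLowerMod_TReps {l : ℕ} (hl : l.Prime) (hlN : ¬ l ∣ N) :
    IsLowerMod (TReps N hl hlN) (uT N hl hlN) := by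
  intro x
  induction x using OnePoint.rec with
  | infty =>
    refine ⟨l, 0, 0, 1, ?_, dvd_zero _, ?_⟩
    · rw [TReps_rep, heckeRep_infty, val_heckeDiagMatrix hl.ne_zero]
      simp
    · show ((1 : ℤ) : ZMod N) = ((1 : (ZMod N)ˣ) : ZMod N)
      simp
  | coe j =>
    refine ⟨1, j.val, 0, l, ?_, dvd_zero _, ?_⟩
    · rw [TReps_rep, heckeRep_coe, val_heckeMatrix hl.ne_zero]
      simp
    · show (((l : ℕ) : ℤ) : ZMod N) = ((ZMod.unitOfCoprime l
        ((Nat.Prime.coprime_iff_not_dvd hl).mpr hlN) : (ZMod N)ˣ) : ZMod N)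
      rw [ZMod.coe_unitOfCoprime]
      simp

theorem isLowerMod_UStarReps [NeZero N] {q : ℕ} [NeZero q] (hqN : q ∣ N) :
    IsLowerMod (UStarReps N hqN) (fun _ => 1) := by
  intro j
  refine ⟨q, 0, -((N : ℤ) * j.val), 1, ?_, Dvd.dvd.neg_right (dvd_mul_right _ _), ?_⟩
  · rw [UStarReps_rep_eq, val_starMatrix]
    simp
  · simp

theorem card_onePoint_zmod (l : ℕ) [NeZero l] : Fintype.card (OnePoint (ZMod l)) = l + 1 := by
  rw [show Fintype.card (OnePoint (ZMod l)) = Fintype.card (Option (ZMod l)) from rfl,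
    Fintype.card_option, ZMod.card]

/-- `T_l (L ∘ d) = (l + 1) (L ∘ d)` for `l ∤ N` -/
theorem heckeTransfer_dHom_of_not_dvd [NeZero N] (l : Nat.Primes) (h : ¬ (l : ℕ) ∣ N)
    (L : Additive (ZMod N)ˣ →+ M) :
    heckeTransfer N l M (dHom N L) = ((l : ℕ) + 1) • dHom N L := by
  have : NeZero (l : ℕ) := ⟨l.2.ne_zero⟩
  rw [heckeTransfer_of_not_dvd M h, transfer_dHom (isLowerMod_TReps N l.2 h) L,
    card_onePoint_zmod]

/-- `U_l^* (L ∘ d) = l (L ∘ d)` for `l ∣ N` -/
theorem heckeTransfer_dHom_of_dvd [NeZero N] (l : Nat.Primes) (h : (l : ℕ) ∣ N)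
    (L : Additive (ZMod N)ˣ →+ M) :
    heckeTransfer N l M (dHom N L) = (l : ℕ) • dHom N L := by
  have : NeZero (l : ℕ) := ⟨l.2.ne_zero⟩
  rw [heckeTransfer_of_dvd M h, transfer_dHom (isLowerMod_UStarReps N h) L, ZMod.card]

end Hecke

section FiniteOrder

variable (A : Matrix (Fin 2) (Fin 2) ℤ)

theorem sq_eq_of_det_eq_one (hdet : A.det = 1) : A ^ 2 = A.trace • A - 1 := by
  rw [pow_two]
  exact mul_self_of_det_eq_one A hdet

theorem trace_pow_rec (hdet : A.det = 1) (k : ℕ) :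
    (A ^ (k + 2)).trace = A.trace * (A ^ (k + 1)).trace - (A ^ k).trace := by
  have h1 : A ^ (k + 2) = A.trace • A ^ (k + 1) - A ^ k := by
    rw [pow_add, sq_eq_of_det_eq_one A hdet, mul_sub, mul_one, Matrix.mul_smul, ← pow_succ]
  rw [h1, Matrix.trace_sub, Matrix.trace_smul, smul_eq_mul]

theorem trace_one_fin_two : (1 : Matrix (Fin 2) (Fin 2) ℤ).trace = 2 := by
  simp

/-- hyperbolic elements have infinite order: the traces of the powers grow -/
theorem abs_trace_pow_lt (hdet : A.det = 1) (ht : 3 ≤ |A.trace|) (k : ℕ) :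
    2 ≤ |(A ^ k).trace| ∧ |(A ^ k).trace| + 1 ≤ |(A ^ (k + 1)).trace| := by
  induction k with
  | zero =>
    rw [pow_zero, trace_one_fin_two, zero_add, pow_one]
    have : |(2 : ℤ)| = 2 := by norm_num
    rw [this]
    exact ⟨le_rfl, by linarith⟩
  | succ k ih =>
    refine ⟨by linarith [ih.1, ih.2], ?_⟩
    rw [trace_pow_rec A hdet k]
    have h1 : |A.trace * (A ^ (k + 1)).trace| - |(A ^ k).trace| ≤
        |A.trace * (A ^ (k + 1)).trace - (A ^ k).trace| := abs_sub_abs_le_abs_sub _ _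
    rw [abs_mul] at h1
    have h2 : 3 * |(A ^ (k + 1)).trace| ≤ |A.trace| * |(A ^ (k + 1)).trace| :=
      mul_le_mul_of_nonneg_right ht (abs_nonneg _)
    linarith [ih.1, ih.2]

theorem two_lt_abs_trace_pow (hdet : A.det = 1) (ht : 3 ≤ |A.trace|) (k : ℕ) (hk : k ≠ 0) :
    2 < |(A ^ k).trace| := by
  obtain ⟨j, rfl⟩ := Nat.exists_eq_succ_of_ne_zero hk
  have := abs_trace_pow_lt A hdet ht j
  linarith [this.1, this.2]

theorem one_add_pow_of_mul_self_eq_zero (X : Matrix (Fin 2) (Fin 2) ℤ) (hX : X * X = 0)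
    (k : ℕ) : (1 + X) ^ k = 1 + (k : ℤ) • X := by
  induction k with
  | zero => simp
  | succ k ih =>
    rw [pow_succ, ih, add_mul, mul_add, mul_add, one_mul, mul_one, one_mul, Matrix.smul_mul, hX,
      smul_zero, add_zero]
    push_cast
    rw [add_smul, one_smul]
    abel

/-- a unipotent element of finite order is trivial -/
theorem eq_one_of_trace_eq_two (hdet : A.det = 1) (ht : A.trace = 2) (m : ℕ) (hm : m ≠ 0)
    (h : A ^ m = 1) : A = 1 := by
  have hsq := sq_eq_of_det_eq_one A hdet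
  rw [ht] at hsq
  have hX : (A - 1) * (A - 1) = 0 := by
    rw [sub_mul, mul_sub, mul_one, one_mul, ← pow_two, hsq, two_smul]
    abel
  have hA : A = 1 + (A - 1) := by abel
  have hm1 := one_add_pow_of_mul_self_eq_zero (A - 1) hX m
  rw [← hA, h, eq_comm, add_eq_left] at hm1
  have hm' : (m : ℤ) ≠ 0 := by exact_mod_cast hm
  exact sub_eq_zero.mp ((smul_eq_zero.mp hm1).resolve_left hm')

/-- **Elements of finite order of `SL₂(ℤ)` have order dividing `12`** (matrix form). -/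
theorem pow_twelve_eq_one_of_pow_eq_one (hdet : A.det = 1) (m : ℕ) (hm : m ≠ 0)
    (h : A ^ m = 1) : A ^ 12 = 1 := by
  have hsq := sq_eq_of_det_eq_one A hdet
  have htm : (A ^ m).trace = 2 := by rw [h, trace_one_fin_two]
  by_cases ht : 3 ≤ |A.trace|
  · have := two_lt_abs_trace_pow A hdet ht m hm
    rw [htm] at this
    norm_num at this
  · rw [not_le] at ht
    have hlo : -2 ≤ A.trace := by have := neg_abs_le A.trace; linarith
    have hhi : A.trace ≤ 2 := by have := le_abs_self A.trace; linarith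
    have hcases : A.trace = -2 ∨ A.trace = -1 ∨ A.trace = 0 ∨ A.trace = 1 ∨ A.trace = 2 := by
      omega
    rcases hcases with h' | h' | h' | h' | h'
    · -- `-A` is unipotent of finite order
      have hdet' : (-A).det = 1 := by
        rw [Matrix.det_neg, Fintype.card_fin, hdet]
        norm_num
      have ht' : (-A).trace = 2 := by rw [Matrix.trace_neg, h']; norm_num
      have hpow : (-A) ^ (m * 2) = 1 := by
        rw [pow_mul, neg_pow, h, mul_one, ← pow_mul]
        exact Even.neg_one_pow ⟨m, by ring⟩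
      have := eq_one_of_trace_eq_two (-A) hdet' ht' (m * 2) (by omega) hpow
      have hA : A = -1 := by rw [← this, neg_neg]
      rw [hA]
      exact Even.neg_one_pow ⟨6, rfl⟩
    · rw [h'] at hsq
      have hsq' : A ^ 2 = -A - 1 := by rw [hsq, neg_one_smul]
      have h3 : A ^ 3 = 1 := by
        calc A ^ 3 = A ^ 2 * A := pow_succ A 2
          _ = -(A ^ 2) - A := by rw [hsq', sub_mul, neg_mul, one_mul, ← pow_two, hsq']
          _ = 1 := by rw [hsq']; abel
      calc A ^ 12 = (A ^ 3) ^ 4 := by rw [← pow_mul]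
        _ = 1 := by rw [h3, one_pow]
    · rw [h'] at hsq
      have h2 : A ^ 2 = -1 := by rw [hsq, zero_smul, zero_sub]
      calc A ^ 12 = (A ^ 2) ^ 6 := by rw [← pow_mul]
        _ = 1 := by rw [h2]; exact Even.neg_one_pow ⟨3, rfl⟩
    · rw [h'] at hsq
      have hsq' : A ^ 2 = A - 1 := by rw [hsq, one_smul]
      have h3 : A ^ 3 = -1 := by
        calc A ^ 3 = A ^ 2 * A := pow_succ A 2
          _ = A ^ 2 - A := by rw [hsq', sub_mul, one_mul, ← pow_two, hsq']
          _ = -1 := by rw [hsq']; abel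
      calc A ^ 12 = (A ^ 3) ^ 4 := by rw [← pow_mul]
        _ = 1 := by rw [h3]; exact Even.neg_one_pow ⟨2, rfl⟩
    · have := eq_one_of_trace_eq_two A hdet h' m hm h
      rw [this, one_pow]

end FiniteOrder

theorem SL2Z_pow_twelve_eq_one (g : SL(2, ℤ)) (hg : IsOfFinOrder g) : g ^ 12 = 1 := by
  obtain ⟨m, hm, h⟩ := isOfFinOrder_iff_pow_eq_one.mp hg
  apply Subtype.ext
  rw [Matrix.SpecialLinearGroup.coe_pow, Matrix.SpecialLinearGroup.coe_one]
  refine pow_twelve_eq_one_of_pow_eq_one _ g.det_coe m hm.ne' ?_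
  rw [← Matrix.SpecialLinearGroup.coe_pow, h, Matrix.SpecialLinearGroup.coe_one]

theorem Gamma0_pow_twelve_eq_one {N : ℕ} (γ : Gamma0 N) (hγ : IsOfFinOrder γ) : γ ^ 12 = 1 := by
  apply Subtype.ext
  rw [Subgroup.coe_pow, Subgroup.coe_one]
  refine SL2Z_pow_twelve_eq_one _ ?_
  exact (Subgroup.subtype (Gamma0 N)).isOfFinOrder hγ


section Dlog

theorem div_gcd_dvd_of_dvd_mul {m k : ℕ} (hm : 0 < m) (h : m ∣ 12 * k) :
    m / Nat.gcd m 12 ∣ k := by
  have hg : 0 < Nat.gcd m 12 := Nat.gcd_pos_of_pos_left _ hm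
  have hcop : Nat.Coprime (m / Nat.gcd m 12) (12 / Nat.gcd m 12) := Nat.coprime_div_gcd_div_gcd hg
  obtain ⟨m', hm'⟩ : Nat.gcd m 12 ∣ m := Nat.gcd_dvd_left m 12
  obtain ⟨t, ht⟩ : Nat.gcd m 12 ∣ 12 := Nat.gcd_dvd_right m 12
  have e1 : m / Nat.gcd m 12 = m' := Nat.div_eq_of_eq_mul_right hg hm'
  have e2 : 12 / Nat.gcd m 12 = t := Nat.div_eq_of_eq_mul_right hg ht
  rw [e1] at hcop ⊢
  rw [e2] at hcop
  have h2 : Nat.gcd m 12 * m' ∣ Nat.gcd m 12 * (t * k) := by
    have : Nat.gcd m 12 * (t * k) = 12 * k := by rw [← mul_assoc, ← ht]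
    rw [this, ← hm']
    exact h
  have h3 : m' ∣ t * k := (Nat.mul_dvd_mul_iff_left hg).mp h2
  exact hcop.dvd_of_dvd_mul_left h3

/-- discrete logarithm on a finite cyclic group `A` of order `m`, with values in
`ℤ / (m / gcd (m, 12))`: surjective, and killing the `12`-torsion -/
theorem exists_dlog (A : Type*) [AddCommGroup A] [Finite A] [hA : IsAddCyclic A] :
    ∃ L : A →+ ZMod (Nat.card A / Nat.gcd (Nat.card A) 12),
      Function.Surjective L ∧ ∀ x : A, 12 • x = 0 → L x = 0 := by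
  set m := Nat.card A with hm
  have hm0 : 0 < m := Nat.card_pos
  have : NeZero m := ⟨hm0.ne'⟩
  have hdvd : m / Nat.gcd m 12 ∣ m := Nat.div_dvd_of_dvd (Nat.gcd_dvd_left m 12)
  let e : ZMod m ≃+ A := zmodAddCyclicAddEquiv hA
  let c : ZMod m →+* ZMod (m / Nat.gcd m 12) := ZMod.castHom hdvd _
  refine ⟨c.toAddMonoidHom.comp e.symm.toAddMonoidHom, ?_, ?_⟩
  · intro y
    obtain ⟨k, hk⟩ := ZMod.ringHom_surjective c y
    exact ⟨e k, by simp [hk]⟩
  · intro x hx
    show c (e.symm x) = 0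
    set k := e.symm x with hk
    have h12 : (12 : ℕ) • k = 0 := by
      rw [hk, ← map_nsmul, hx, map_zero]
    have h1 : ((12 * k.val : ℕ) : ZMod m) = 0 := by
      rw [Nat.cast_mul, ZMod.natCast_zmod_val, ← nsmul_eq_mul]
      exact h12
    have h2 : m ∣ 12 * k.val := (ZMod.natCast_eq_zero_iff _ _).mp h1
    have h3 := div_gcd_dvd_of_dvd_mul hm0 h2
    have h4 : c k = ((k.val : ℕ) : ZMod (m / Nat.gcd m 12)) := by
      conv_lhs => rw [← ZMod.natCast_zmod_val k]
      rw [map_natCast]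
    rw [h4]
    exact (ZMod.natCast_eq_zero_iff _ _).mpr h3

variable (p : ℕ) [hp : Fact p.Prime]

theorem natCard_additive_units : Nat.card (Additive (ZMod p)ˣ) = p - 1 := by
  rw [Nat.card_congr Additive.toMul, Nat.card_eq_fintype_card]
  exact ZMod.card_units p

theorem exists_dlog_prime :
    ∃ L : Additive (ZMod p)ˣ →+ ZMod (eisensteinNumerator p),
      Function.Surjective L ∧ ∀ x : Additive (ZMod p)ˣ, 12 • x = 0 → L x = 0 := by
  have h := exists_dlog (Additive (ZMod p)ˣ)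
  rw [natCard_additive_units p] at h
  exact h

/-- the discrete logarithm `(ℤ/p)ˣ → ℤ/n`, `n = (p - 1) / gcd (p - 1, 12)` -/
noncomputable def dlog : Additive (ZMod p)ˣ →+ ZMod (eisensteinNumerator p) :=
  (exists_dlog_prime p).choose

theorem dlog_surjective : Function.Surjective (dlog p) := (exists_dlog_prime p).choose_spec.1

theorem dlog_eq_zero (x : (ZMod p)ˣ) (hx : x ^ 12 = 1) : dlog p (Additive.ofMul x) = 0 := by
  refine (exists_dlog_prime p).choose_spec.2 _ ?_
  rw [← ofMul_pow, hx, ofMul_one]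


/-- **The Shimura homomorphism** `ψ : Γ₀(p) → ℤ/n`, `γ ↦ dlog (d(γ) mod p)`,
`n = eisensteinNumerator p`. -/
noncomputable def psi : Additive (Gamma0 p) →+ ZMod (eisensteinNumerator p) := dHom p (dlog p)

theorem psi_apply (γ : Gamma0 p) :
    psi p (Additive.ofMul γ) = dlog p (Additive.ofMul (dUnit p γ)) := rfl

theorem dUnit_surjective : Function.Surjective (dUnit p) := by
  intro u
  have hcop : IsCoprime (((u : ZMod p).val : ℕ) : ℤ) ((p : ℕ) : ℤ) :=
    Nat.isCoprime_iff_coprime.mpr (ZMod.val_coe_unit_coprime u)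
  obtain ⟨a, b, hab⟩ := hcop
  have hdet : a * (((u : ZMod p).val : ℕ) : ℤ) - (-b) * (p : ℤ) = 1 := by linear_combination hab
  refine ⟨⟨mkSL a (-b) p ((u : ZMod p).val : ℕ) hdet,
    mkSL_mem_Gamma0 p _ _ _ _ hdet dvd_rfl⟩, ?_⟩
  apply Units.ext
  rw [coe_dUnit]
  show ((((u : ZMod p).val : ℕ) : ℤ) : ZMod p) = u
  rw [Int.cast_natCast, ZMod.natCast_zmod_val]

theorem psi_surjective : Function.Surjective (psi p) := by
  intro y
  obtain ⟨x, hx⟩ := dlog_surjective p y
  obtain ⟨γ, hγ⟩ := dUnit_surjective p (Additive.toMul x)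
  refine ⟨Additive.ofMul γ, ?_⟩
  rw [psi_apply, hγ]
  exact hx

/-- `ψ` kills the elements of order dividing `12` (all the elements of finite order) -/
theorem psi_eq_zero_of_pow_eq_one (γ : Gamma0 p) (h : γ ^ 12 = 1) :
    psi p (Additive.ofMul γ) = 0 := by
  rw [psi_apply]
  refine dlog_eq_zero p _ ?_
  rw [← map_pow, h, map_one]

theorem dUnit_sq_eq_one_of_trace (γ : Gamma0 p)
    (h : ((γ : SL(2, ℤ)) : Matrix (Fin 2) (Fin 2) ℤ).trace ^ 2 = 4) : dUnit p γ ^ 2 = 1 := by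
  have hdet : (γ : SL(2, ℤ)) 0 0 * (γ : SL(2, ℤ)) 1 1 - (γ : SL(2, ℤ)) 0 1 * (γ : SL(2, ℤ)) 1 0 = 1 := by
    have := (γ : SL(2, ℤ)).det_coe
    rw [Matrix.det_fin_two] at this
    exact this
  rw [Matrix.trace_fin_two] at h
  have hc : ((((γ : SL(2, ℤ)) 1 0 : ℤ)) : ZMod p) = 0 :=
    (ZMod.intCast_zmod_eq_zero_iff_dvd _ _).mpr (gamma0_dvd p γ)
  have h1 := congrArg (Int.cast : ℤ → ZMod p) hdet
  have h2 := congrArg (Int.cast : ℤ → ZMod p) h
  push_cast at h1 h2
  rw [hc, mul_zero, sub_zero] at h1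
  set a : ZMod p := (((γ : SL(2, ℤ)) 0 0 : ℤ) : ZMod p) with ha
  set d : ZMod p := (((γ : SL(2, ℤ)) 1 1 : ℤ) : ZMod p) with hd
  have h3 : (a - d) ^ 2 = 0 := by linear_combination h2 - 4 * h1
  have h4 : a = d := sub_eq_zero.mp ((pow_eq_zero_iff (two_ne_zero)).mp h3)
  apply Units.ext
  rw [Units.val_pow_eq_pow_val, coe_dUnit, Units.val_one, ← hd]
  rw [h4] at h1
  linear_combination h1

/-- `ψ` is a parabolic homomorphism -/
theorem psi_isParabolicHom : IsParabolicHom (Gamma0 p) (psi p) := by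
  intro γ h
  rw [psi_apply]
  refine dlog_eq_zero p _ ?_
  have h2 := dUnit_sq_eq_one_of_trace p γ h
  calc dUnit p γ ^ 12 = (dUnit p γ ^ 2) ^ 6 := by rw [← pow_mul]
    _ = 1 := by rw [h2, one_pow]

theorem psi_mem_parabolicHoms :
    psi p ∈ parabolicHoms ℤ (Gamma0 p) (ZMod (eisensteinNumerator p)) :=
  mem_parabolicHoms_iff.mpr (psi_isParabolicHom p)

/-- `ψ` kills the elements of finite order -/
theorem psi_eq_zero_of_isOfFinOrder (γ : Gamma0 p) (h : IsOfFinOrder γ) :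
    psi p (Additive.ofMul γ) = 0 :=
  psi_eq_zero_of_pow_eq_one p γ (Gamma0_pow_twelve_eq_one γ h)

theorem psi_Tg : psi p (Additive.ofMul (ParClass.Tg p)) = 0 :=
  ParClass.hom_Tg_eq_zero_of_isParabolicHom p (psi p) (psi_isParabolicHom p)

theorem psi_c0 : psi p (Additive.ofMul (ParClass.c0 p)) = 0 :=
  ParClass.hom_c0_eq_zero_of_isParabolicHom p (psi p) (psi_isParabolicHom p)

theorem psi_negOne : psi p (Additive.ofMul (ParClass.negOne p)) = 0 := by
  refine psi_eq_zero_of_pow_eq_one p _ ?_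
  calc ParClass.negOne p ^ 12 = (ParClass.negOne p ^ 2) ^ 6 := by rw [← pow_mul]
    _ = 1 := by rw [pow_two, ParClass.negOne_mul_negOne, one_pow]

theorem natCast_prime_smul (x : ZMod (eisensteinNumerator p)) : (p : ℕ) • x = x := by
  have hp1 : 1 ≤ p := hp.out.one_le
  have h1 : ((p - 1 : ℕ) : ZMod (eisensteinNumerator p)) = 0 :=
    (ZMod.natCast_eq_zero_iff _ _).mpr (eisensteinNumerator_dvd p)
  have h2 : ((p : ℕ) : ZMod (eisensteinNumerator p)) = ((p - 1 : ℕ) : ZMod (eisensteinNumerator p)) + 1 := by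
    rw [← Nat.cast_one (R := ZMod (eisensteinNumerator p)), ← Nat.cast_add, Nat.sub_add_cancel hp1]
  rw [nsmul_eq_mul, h2, h1, zero_add, one_mul]

/-- **Eisenstein property away from `p`**: `T_l ψ = (l + 1) ψ` -/
theorem heckeTransfer_psi_of_ne (l : Nat.Primes) (hl : (l : ℕ) ≠ p) :
    heckeTransfer p l (ZMod (eisensteinNumerator p)) (psi p) = ((l : ℕ) + 1) • psi p := by
  have hnd : ¬ (l : ℕ) ∣ p := fun h => hl ((Nat.prime_dvd_prime_iff_eq l.2 hp.out).mp h)
  exact heckeTransfer_dHom_of_not_dvd p l hnd (dlog p)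

/-- **Eisenstein property at `p`**: `U_p^* ψ = ψ` -/
theorem heckeTransfer_psi_self (l : Nat.Primes) (hl : (l : ℕ) = p) :
    heckeTransfer p l (ZMod (eisensteinNumerator p)) (psi p) = psi p := by
  have hd : (l : ℕ) ∣ p := hl ▸ dvd_rfl
  have h := heckeTransfer_dHom_of_dvd p l hd (dlog p)
  rw [show dHom p (dlog p) = psi p from rfl, hl] at h
  rw [h]
  refine AddMonoidHom.ext fun γ => ?_
  rw [AddMonoidHom.smul_apply]
  exact natCast_prime_smul p _

/-- **Eisenstein property**, uniform form: the Hecke operators act on `ψ` through the Eisenstein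
eigenvalue system. -/
theorem heckeTransfer_psi (l : Nat.Primes) :
    heckeTransfer p l (ZMod (eisensteinNumerator p)) (psi p) = eisensteinSystem p l • psi p := by
  by_cases hl : (l : ℕ) = p
  · rw [heckeTransfer_psi_self p l hl, eisensteinSystem_of_dvd (hl ▸ dvd_rfl), one_smul]
  · have hnd : ¬ (l : ℕ) ∣ p := fun h => hl ((Nat.prime_dvd_prime_iff_eq l.2 hp.out).mp h)
    rw [heckeTransfer_psi_of_ne p l hl, eisensteinSystem_of_not_dvd hnd]
    rw [show (1 + ((l : ℕ) : ℤ)) = (((l : ℕ) + 1 : ℕ) : ℤ) by push_cast; ring, natCast_zsmul]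

end Dlog

end Fermat.Agent.Eis.ShimuraHom
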