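import Mathlib
import Fermat.Agent.Eis.CocycleUP
import Fermat.Agent.Eis.CosetP

/-!
# Program E (S16), node N7-A4b: sum-zero and `t*` for `Γ₀(p)`

`p` prime, `X p = SL(2,ℤ) ⧸ Γ₀(p)`, cocycles as in `Eis/Shapiro.lean`.

* `cocycle_T` : `c T x = c U (S • x) - c S (S • x)` for every cocycle;
* `c0SL_eq` : `c₀ = S * (T ^ p)⁻¹ * S⁻¹`;  `cocycle_c0` : the value `c c₀ ∞` as a sum over the
  `T`-orbit of `0`;
* `sum_zero_cocycle` : for a `ℤ`-valued cocycle with `c (-1) = 0`, `c T ∞ = c c₀ ∞`;
* **(i)** `sum_zero` : every `m : Additive Γ₀(p) →+ ℤ` has `m T = m c₀`;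
* **(ii)** `exists_tStar` : there is `t : Additive Γ₀(p) →+ ℤ` with `t T = 1 = t c₀`.
-/

set_option autoImplicit false
set_option linter.unusedSectionVars false
set_option linter.style.haveILetI false

namespace Fermat.Agent.Eis.SumZero

open Matrix CongruenceSubgroup ModularGroup
open Fermat.Agent.Eis.ParClass Fermat.Agent.Eis.CosetP Fermat.Agent.Eis.Shapiro
open Fermat.Agent.Eis.PSL2Free (U)
open scoped MatrixGroups

variable (p : ℕ)

/-! ### Cocycle formulas -/

section General

variable {p} {A : Type*} [AddCommGroup A] {c : SL(2, ℤ) → X p → A}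

/-- `c T x = c U (S • x) - c S (S • x)`. -/
theorem cocycle_T (hc : IsCocycle (Gamma0 p) c) (x : X p) :
    c T x = c U (S • x) - c S (S • x) := by
  have hT : (T : SL(2, ℤ)) = S⁻¹ * U := PSL2Free.T_eq
  rw [hT, hc S⁻¹ U x, inv_inv, hc.map_inv]
  abel

variable (p) in
/-- `c₀ = S * (T ^ p)⁻¹ * S⁻¹`. -/
theorem c0SL_eq : c0SL p = S * (T ^ p)⁻¹ * S⁻¹ := by
  have hT : ((T ^ p : SL(2, ℤ)) : Matrix (Fin 2) (Fin 2) ℤ) = !![1, (p : ℤ); 0, 1] := by
    have h := coe_T_zpow (p : ℤ)
    rwa [zpow_natCast] at h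
  apply Subtype.ext
  rw [coe_c0SL]
  simp only [Matrix.SpecialLinearGroup.coe_mul, Matrix.SpecialLinearGroup.coe_inv, hT, coe_S,
    Matrix.adjugate_fin_two_of]
  ext i j
  fin_cases i <;> fin_cases j <;> simp [Matrix.mul_apply, Fin.sum_univ_two]

/-- The value of a cocycle at `c₀` and `∞` as a sum over the `T`-orbit of `0`. -/
theorem cocycle_c0 (hc : IsCocycle (Gamma0 p) c) :
    c (c0SL p) (xInf p) = - ∑ k ∈ Finset.range p, c T ((T ^ k : SL(2, ℤ))⁻¹ • xFin p 0) := by
  rw [c0SL_eq, hc.map_conj S (T ^ p)⁻¹ (xInf p), inv_inv, T_pow_smul, smul_inv_smul,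
    add_sub_cancel_left, S_inv_smul, S_smul_xInf, hc.map_inv, T_pow_smul, hc.map_pow]

end General

/-! ### Sum zero -/

section SumZero

variable [hp : Fact p.Prime]

/-- Sums over `X p` are invariant under translation by a group element. -/
theorem sum_smul [Fintype (X p)] {B : Type*} [AddCommMonoid B] (g : SL(2, ℤ)) (f : X p → B) :
    ∑ x, f (g • x) = ∑ x, f x :=
  Equiv.sum_comp (MulAction.toPerm g) f

/-- `∑_{k<p} G (p - k) = ∑_{k<p} G k` for a `p`-periodic... function with `G p = G 0`. -/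
theorem sum_range_sub {B : Type*} [AddCommGroup B] (G : ℕ → B) (hG : G p = G 0) :
    ∑ k ∈ Finset.range p, G (p - k) = ∑ k ∈ Finset.range p, G k := by
  have h1 : ∑ k ∈ Finset.range p, G (p - k) = ∑ k ∈ Finset.range p, G (p - 1 - k + 1) := by
    refine Finset.sum_congr rfl fun k hk => ?_
    have hk' := Finset.mem_range.mp hk
    congr 1
    omega
  rw [h1, Finset.sum_range_reflect (fun j => G (j + 1)) p]
  have h2 := Finset.sum_range_succ' G p
  have h3 := Finset.sum_range_succ G p
  rw [h3, hG] at h2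
  exact (add_right_cancel h2).symm

/-- For a `ℤ`-valued cocycle with `c (-1) = 0`: `c T ∞ = c c₀ ∞`. -/
theorem sum_zero_cocycle (c : SL(2, ℤ) → X p → ℤ) (hc : IsCocycle (Gamma0 p) c)
    (h1 : c (-1) = 0) : c T (xInf p) = c (c0SL p) (xInf p) := by
  letI : Fintype (X p) := fintypeX p
  have hneg : (-1 : SL(2, ℤ)) ∈ Gamma0 p := neg_one_mem_Gamma0 p
  have hS := CocycleUP.rel_S hneg hc h1
  have hU := CocycleUP.rel_U hneg hc h1
  -- the two sums vanish
  have hsumS : ∑ x, c S x = 0 := by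
    have h : ∑ x, (c S x + c S (S • x)) = 0 := Finset.sum_eq_zero (fun x _ => hS x)
    rw [Finset.sum_add_distrib, sum_smul p S (c S)] at h
    omega
  have hsumU : ∑ x, c U x = 0 := by
    have h : ∑ x, (c U x + c U (U • x) + c U (U • U • x)) = 0 :=
      Finset.sum_eq_zero (fun x _ => hU x)
    rw [Finset.sum_add_distrib, Finset.sum_add_distrib, sum_smul p U (c U)] at h
    have h' : ∑ x, c U (U • U • x) = ∑ x, c U x := by
      rw [sum_smul p U (fun x => c U (U • x)), sum_smul p U (c U)]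
    rw [h'] at h
    omega
  -- the function `F = c U - c S`
  set F : X p → ℤ := fun y => c U y - c S y with hF
  have hT : ∀ x, c T x = F (S • x) := fun x => cocycle_T hc x
  have hsumF : ∑ x, F x = 0 := by
    simp only [hF, Finset.sum_sub_distrib, hsumS, hsumU, sub_zero]
  -- `c c₀ ∞ = -(∑_{j<p} F (S • x_j))`
  have hc0 : c (c0SL p) (xInf p) = - ∑ k ∈ Finset.range p, F (S • xFin p k) := by
    rw [cocycle_c0 hc]
    congr 1
    have e1 : ∑ k ∈ Finset.range p, c T ((T ^ k : SL(2, ℤ))⁻¹ • xFin p 0) =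
        ∑ k ∈ Finset.range p, F (S • xFin p (p - k)) := by
      refine Finset.sum_congr rfl fun k hk => ?_
      rw [hT, T_pow_inv_smul_xFin_zero p (Finset.mem_range.mp hk).le]
    rw [e1]
    refine sum_range_sub p (fun j => F (S • xFin p j)) ?_
    show F (S • xFin p p) = F (S • xFin p 0)
    have := xFin_add p 0
    rw [zero_add] at this
    rw [this]
  -- the full sum
  have hfull := sum_eq p (fun x => F (S • x))
  rw [sum_smul p S F, hsumF, S_smul_xInf] at hfull
  rw [hc0, hT, S_smul_xInf]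
  linarith

/-- The induced cocycle of a homomorphism killing `-1` vanishes at `-1`. -/
theorem ind_neg_one {A : Type*} [AddCommGroup A] (m : Additive (Gamma0 p) →+ A)
    (hm : m (Additive.ofMul (negOne p)) = 0) : ind (Gamma0 p) m (-1) = 0 := by
  funext x
  rw [ind_apply]
  have hg : gam (Gamma0 p) (-1) x = negOne p := by
    apply Subtype.ext
    rw [coe_gam, inv_neg, inv_one, CosetP.neg_one_smul, coe_negOne]
    simp
  rw [hg, hm]
  rfl

/-- **(i) Sum zero**: every integral character of `Γ₀(p)` takes the same value at `T` and at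
`c₀ = [1,0;p,1]`. -/
theorem sum_zero (m : Additive (Gamma0 p) →+ ℤ) :
    m (Additive.ofMul (Tg p)) = m (Additive.ofMul (c0 p)) := by
  have hm : m (Additive.ofMul (negOne p)) = 0 := by
    have := two_nsmul_hom_negOne p m
    omega
  have h := sum_zero_cocycle p (ind (Gamma0 p) m) (isCocycle_ind (Gamma0 p) m)
    (ind_neg_one p m hm)
  have hT := ind_apply_coe_one (Gamma0 p) m (Tg p)
  have hc := ind_apply_coe_one (Gamma0 p) m (c0 p)
  rw [← hT, ← hc]
  exact h

/-! ### The class `t*` -/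

theorem U_smul_eq_iff (x y : X p) : U • x = y ↔ x = U • U • y := by
  have hneg : (-1 : SL(2, ℤ)) ∈ Gamma0 p := neg_one_mem_Gamma0 p
  constructor
  · rintro rfl
    exact (CocycleUP.U_smul_U_smul_U_smul hneg x).symm
  · rintro rfl
    exact CocycleUP.U_smul_U_smul_U_smul hneg y

/-- **(ii)** There is an integral character `t*` of `Γ₀(p)` with `t*(T) = 1 = t*(c₀)`. -/
theorem exists_tStar :
    ∃ t : Additive (Gamma0 p) →+ ℤ,
      t (Additive.ofMul (Tg p)) = 1 ∧ t (Additive.ofMul (c0 p)) = 1 := by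
  classical
  have hneg : (-1 : SL(2, ℤ)) ∈ Gamma0 p := neg_one_mem_Gamma0 p
  set a : X p := xFin p 0 with ha
  set b : X p := U • a with hb
  set d : X p := U • U • a with hd
  have hab : b ≠ a := ST_smul_xFin_zero_ne p
  let β : X p → ℤ := fun y => (if y = a then 1 else 0) - (if y = b then 1 else 0)
  have hβ : ∀ x, β x + β (U • x) + β (U • U • x) = 0 := by
    intro x
    have e1 : (U • x = a) ↔ x = d := U_smul_eq_iff p x a
    have e2 : (U • x = b) ↔ x = a := by
      rw [U_smul_eq_iff, hb, CocycleUP.U_smul_U_smul_U_smul hneg]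
    have e3 : (U • U • x = a) ↔ x = b := by
      rw [U_smul_eq_iff, U_smul_eq_iff, hb]
      constructor
      · intro h
        rw [h, CocycleUP.U_smul_U_smul_U_smul hneg]
      · intro h
        rw [h, CocycleUP.U_smul_U_smul_U_smul hneg]
    have e4 : (U • U • x = b) ↔ x = d := by
      rw [U_smul_eq_iff, hb, CocycleUP.U_smul_U_smul_U_smul hneg, U_smul_eq_iff]
    simp only [β, e1, e2, e3, e4]
    ring
  obtain ⟨c, hc, hcS, hcU⟩ := CocycleUP.exists_cocycle_of_pair hneg (0 : X p → ℤ) β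
    (fun x => by simp) hβ
  refine ⟨res (Gamma0 p) c hc, ?_⟩
  have hT : res (Gamma0 p) c hc (Additive.ofMul (Tg p)) = 1 := by
    rw [res_apply]
    show c T (xInf p) = 1
    rw [cocycle_T hc, hcS, hcU, S_smul_xInf]
    simp only [β, Pi.zero_apply, sub_zero]
    rw [if_pos rfl, if_neg (fun h => hab h.symm)]
    rfl
  refine ⟨hT, ?_⟩
  rw [← sum_zero p, hT]

end SumZero

end Fermat.Agent.Eis.SumZero
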