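import Mathlib
import Fermat.Agent.Eis.LiftParabolic
import Fermat.Agent.Eis.LiftCharZ
import Fermat.Agent.Eis.SumZero
import Fermat.Agent.Eis.ShimuraHom

/-!
# Program E, node N7-alg (A4), unconditional lifting theorem

* `exists_lam_lift` : for `p` prime, a character `ψ : Γ₀(p) → ZMod n` killing the elements of finite
  order and `T` is the reduction mod `n` of some `lam ∈ Lam = parabolicHoms ℤ (Γ₀(p)) ℤ`.
* `exists_lam_lift_psi` : the Shimura character `ShimuraHom.psi p : Γ₀(p) → ZMod (eisensteinNumerator p)`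
  is the reduction of some `lam ∈ Lam`.
-/

set_option autoImplicit false

namespace Fermat.Agent.Eis.LiftParabolic

open CongruenceSubgroup Fermat.Agent.Eis.ParClass
open scoped MatrixGroups

theorem sumZeroStatement (p : ℕ) [Fact p.Prime] : SumZeroStatement p :=
  fun m => SumZero.sum_zero p m

theorem tStarStatement (p : ℕ) [Fact p.Prime] : TStarStatement p :=
  SumZero.exists_tStar p

/-- **The lifting theorem.** -/
theorem exists_lam_lift (p : ℕ) [Fact p.Prime] (n : ℕ)
    (ψ : Additive (Gamma0 p) →+ ZMod n)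
    (hfin : ∀ γ : Gamma0 p, IsOfFinOrder γ → ψ (Additive.ofMul γ) = 0)
    (hT : ψ (Additive.ofMul (Tg p)) = 0) :
    ∃ lam ∈ ModularCurve.Period.parabolicHoms ℤ (Gamma0 p) ℤ,
      ∀ γ, ((lam γ : ℤ) : ZMod n) = ψ γ :=
  exists_lam_lift_of p (sumZeroStatement p) (tStarStatement p) (LiftCharZ.liftStatement p) n ψ
    hfin hT

/-- The Shimura character is the reduction of an integral parabolic character. -/
theorem exists_lam_lift_psi (p : ℕ) [Fact p.Prime] :
    ∃ lam ∈ ModularCurve.Period.parabolicHoms ℤ (Gamma0 p) ℤ,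
      ∀ γ, ((lam γ : ℤ) : ZMod (ModularCurve.eisensteinNumerator p)) = ShimuraHom.psi p γ :=
  exists_lam_lift p _ (ShimuraHom.psi p) (ShimuraHom.psi_eq_zero_of_isOfFinOrder p)
    (ShimuraHom.psi_Tg p)

end Fermat.Agent.Eis.LiftParabolic
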