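import Mathlib
import Fermat.Agent.Eis.SumZero
import Fermat.Agent.Eis.OrbitLift
import Fermat.Agent.Eis.LiftParabolic

/-!
# Program E (S16), node N7-A4 (iii): lifting of `ZMod n`-valued characters of `Γ₀(p)`

* `liftStatement p : LiftParabolic.LiftStatement p`: a character
  `ψ : Additive Γ₀(p) →+ ZMod n` killing all elements of finite order lifts to a character with
  values in `ℤ`;
* `exists_lam_lift` : the lifting theorem of `Eis/LiftParabolic.lean`, unconditional: if moreover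
  `ψ T = 0` then `ψ` is the reduction mod `n` of some `lam ∈ Lam = parabolicHoms ℤ Γ₀(p) ℤ`.
-/

set_option autoImplicit false

namespace Fermat.Agent.Eis.LiftStmt

open Matrix CongruenceSubgroup ModularGroup
open Fermat.Agent.Eis.ParClass Fermat.Agent.Eis.Shapiro
open Fermat.Agent.Eis.PSL2Free (U S_sq U_cube)
open scoped MatrixGroups

variable (p : ℕ)

theorem conj_pow' {G : Type*} [Group G] (a g : G) (n : ℕ) :
    (a⁻¹ * g * a) ^ n = a⁻¹ * g ^ n * a := by
  have := conj_pow (a := a⁻¹) (b := g) (i := n)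
  rwa [inv_inv] at this

theorem S_pow_four : (S : SL(2, ℤ)) ^ 4 = 1 := by decide

theorem U_pow_six : (U : SL(2, ℤ)) ^ 6 = 1 := by decide

/-- A `Γ₀(p)`-element conjugate in `SL(2,ℤ)` to `g` with `g ^ k = 1` has finite order. -/
theorem isOfFinOrder_conj {g : SL(2, ℤ)} {k : ℕ} (hk : 0 < k) (hg : g ^ k = 1) (a : SL(2, ℤ))
    (ha : a⁻¹ * g * a ∈ Gamma0 p) : IsOfFinOrder (⟨a⁻¹ * g * a, ha⟩ : Gamma0 p) := by
  rw [isOfFinOrder_iff_pow_eq_one]
  refine ⟨k, hk, Subtype.ext ?_⟩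
  rw [Subgroup.coe_pow, Subgroup.coe_one]
  show (a⁻¹ * g * a) ^ k = 1
  rw [conj_pow', hg, mul_one, inv_mul_cancel]

theorem isOfFinOrder_negOne : IsOfFinOrder (negOne p) := by
  rw [isOfFinOrder_iff_pow_eq_one]
  exact ⟨2, two_pos, by rw [pow_two, negOne_mul_negOne]⟩

/-- **(iii) Lifting**: `ZMod n`-valued characters of `Γ₀(p)` killing the elements of finite order
lift to `ℤ`-valued characters. -/
theorem liftStatement [Fact p.Prime] : LiftParabolic.LiftStatement p := by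
  intro n ψ hfin
  have hneg : (-1 : SL(2, ℤ)) ∈ Gamma0 p := neg_one_mem_Gamma0 p
  have hc := isCocycle_ind (Gamma0 p) ψ
  have h1 : ind (Gamma0 p) ψ (-1) = 0 :=
    SumZero.ind_neg_one p ψ (hfin (negOne p) (isOfFinOrder_negOne p))
  have hS := CocycleUP.rel_S hneg hc h1
  have hU := CocycleUP.rel_U hneg hc h1
  have hfixS : ∀ x : SL(2, ℤ) ⧸ Gamma0 p, S • x = x → ind (Gamma0 p) ψ S x = 0 := fun x hx =>
    ind_apply_eq_zero_of_smul_eq (Gamma0 p) ψ hx
      (fun a ha => hfin _ (isOfFinOrder_conj p (by norm_num) S_pow_four a ha))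
  have hfixU : ∀ x : SL(2, ℤ) ⧸ Gamma0 p, U • x = x → ind (Gamma0 p) ψ U x = 0 := fun x hx =>
    ind_apply_eq_zero_of_smul_eq (Gamma0 p) ψ hx
      (fun a ha => hfin _ (isOfFinOrder_conj p (by norm_num) U_pow_six a ha))
  obtain ⟨α', hα1, hα2, -⟩ := OrbitLift.exists_lift_two
    (MulAction.toPerm (S : SL(2, ℤ)) : Equiv.Perm (SL(2, ℤ) ⧸ Gamma0 p))
    (fun x => CocycleUP.S_smul_S_smul hneg x) n (ind (Gamma0 p) ψ S) hS hfixS
  obtain ⟨β', hβ1, hβ2, -⟩ := OrbitLift.exists_lift_three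
    (MulAction.toPerm (U : SL(2, ℤ)) : Equiv.Perm (SL(2, ℤ) ⧸ Gamma0 p))
    (fun x => CocycleUP.U_smul_U_smul_U_smul hneg x) n (ind (Gamma0 p) ψ U) hU hfixU
  obtain ⟨c', hc', hc'S, hc'U⟩ := CocycleUP.exists_cocycle_of_pair hneg α' β' hα2 hβ2
  refine ⟨res (Gamma0 p) c' hc', ?_⟩
  have key := comp_res_eq_of_eqOn (Gamma0 p) (Int.castAddHom (ZMod n)) ψ c' hc'
    CocycleUP.closure_S_U (by
      rintro g (rfl | rfl) x
      · rw [hc'S]
        exact hα1 x
      · rw [hc'U]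
        exact hβ1 x)
  intro γ
  exact DFunLike.congr_fun key γ

/-- **The lifting theorem, unconditional**: a `ZMod n`-valued character of `Γ₀(p)` (`p` prime)
killing the elements of finite order and `T` is the reduction mod `n` of some
`lam ∈ Lam = parabolicHoms ℤ Γ₀(p) ℤ`. -/
theorem exists_lam_lift [Fact p.Prime] (n : ℕ) (ψ : Additive (Gamma0 p) →+ ZMod n)
    (hfin : ∀ γ : Gamma0 p, IsOfFinOrder γ → ψ (Additive.ofMul γ) = 0)
    (hT : ψ (Additive.ofMul (Tg p)) = 0) :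
    ∃ lam ∈ ModularCurve.Period.parabolicHoms ℤ (Gamma0 p) ℤ,
      ∀ γ, ((lam γ : ℤ) : ZMod n) = ψ γ :=
  LiftParabolic.exists_lam_lift_of p (SumZero.sum_zero p) (SumZero.exists_tStar p)
    (liftStatement p) n ψ hfin hT

end Fermat.Agent.Eis.LiftStmt
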