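/-
Program E, node N7-A6b (helper15): from an Eisenstein eigenvector `ψ : Γ₀(N) → ℤ/n` of the transfer
operators which lifts to the lattice `Λ = Hom_par(Γ₀(N), ℤ)`, to a surjective ring homomorphism
`𝕋 ⧸ I → ℤ/n` of the (lattice) Hecke algebra of weight two cusp forms modulo the eigen-ideal.

Chain: `heckeLatticeAlgebra N ∅ ≃ heckeAlgebra N 2 ∅` (S23) `≃ TLamAlg N ∅` (`lamPsiEquiv`)
`→ ZMod n` (the scalar by which the lattice Hecke algebra acts on the line spanned by the reduction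
of the lift of `ψ`).
-/
import Fermat.Agent.Jac.LamPsiInj
import Fermat.Agent.S23
import Fermat.Prelude.Def_CuspForm_HeckeLocal
import Fermat.Prelude.Def_CuspForm_HeckeEvalForms
import Fermat.Prelude.Def_HeckeGalois_EichlerShimura

set_option autoImplicit false
set_option linter.style.haveILetI false
set_option linter.unusedSectionVars false

namespace Fermat.Agent.Eis.LowerChar

open CongruenceSubgroup ModularCurve ModularCurve.Period CuspForm Fermat.Agent.Jac
open scoped MatrixGroups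

noncomputable section

variable (N : ℕ) [NeZero N] (n : ℕ)

/-- reduction mod `n` of integral homomorphisms -/
def red : (Additive (Gamma0 N) →+ ℤ) →+ (Additive (Gamma0 N) →+ ZMod n) where
  toFun lam := (Int.castAddHom (ZMod n)).comp lam
  map_zero' := by ext; simp
  map_add' a b := by ext; simp

@[simp] theorem red_apply (lam : Additive (Gamma0 N) →+ ℤ) (γ : Additive (Gamma0 N)) :
    red N n lam γ = ((lam γ : ℤ) : ZMod n) := rfl

/-- reduction intertwines the transfer operators -/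
theorem heckeTransfer_red (l : Nat.Primes) (lam : Additive (Gamma0 N) →+ ℤ) :
    heckeTransfer N l (ZMod n) (red N n lam) = red N n (heckeTransfer N l ℤ lam) :=
  heckeTransfer_comp N l (Int.castAddHom (ZMod n)) lam

variable {N n}

/-- the pairs `(x, a)` such that `x` acts through the scalar `a` on the lattice vectors whose
reduction lies on the line spanned by `ψ` -/
def scalarPairs (ψ : Additive (Gamma0 N) →+ ZMod n) :
    Subalgebra ℤ (Module.End ℤ (Lam N) × ZMod n) where
  carrier := {x | ∀ (lam : Lam N) (b : ZMod n),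
    red N n (lam : Additive (Gamma0 N) →+ ℤ) = b • ψ →
      red N n ((x.1 lam : Lam N) : Additive (Gamma0 N) →+ ℤ) = (x.2 * b) • ψ}
  mul_mem' := by
    intro x y hx hy lam b hb
    show red N n ((x.1 (y.1 lam) : Lam N) : Additive (Gamma0 N) →+ ℤ) = ((x.2 * y.2) * b) • ψ
    rw [hx (y.1 lam) (y.2 * b) (hy lam b hb), mul_assoc]
  add_mem' := by
    intro x y hx hy lam b hb
    show red N n ((x.1 lam + y.1 lam : Lam N) : Additive (Gamma0 N) →+ ℤ) = ((x.2 + y.2) * b) • ψ
    rw [Submodule.coe_add, map_add, hx lam b hb, hy lam b hb, add_mul, add_smul]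
  algebraMap_mem' := by
    intro m lam b hb
    rw [eq_intCast]
    show red N n (((m : Module.End ℤ (Lam N)) lam : Lam N) : Additive (Gamma0 N) →+ ℤ) =
      (((m : ℤ) : ZMod n) * b) • ψ
    rw [Module.End.intCast_apply, Submodule.coe_smul, map_zsmul, hb, mul_smul]
    refine AddMonoidHom.ext fun γ => ?_
    simp

variable (a : Nat.Primes → ℤ)

/-- the generator pairs lie in `scalarPairs ψ` for an eigenvector `ψ` -/
theorem gen_mem_scalarPairs {ψ : Additive (Gamma0 N) →+ ZMod n}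
    (hψ : ∀ l : Nat.Primes, heckeTransfer N l (ZMod n) ψ = a l • ψ) (l : Nat.Primes) :
    (TLam N l, ((a l : ℤ) : ZMod n)) ∈ scalarPairs (N := N) (n := n) ψ := by
  intro lam b hb
  show red N n (heckeTransfer N l ℤ (lam : Additive (Gamma0 N) →+ ℤ)) =
    (((a l : ℤ) : ZMod n) * b) • ψ
  rw [← heckeTransfer_red, hb, heckeTransfer_smul, hψ l, mul_comm, mul_smul]
  refine AddMonoidHom.ext fun γ => ?_
  simp

/-- the scalar is determined by the endomorphism, as soon as `ψ` is surjective and lifts to `Λ` -/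
theorem snd_eq_of_mem_scalarPairs {ψ : Additive (Gamma0 N) →+ ZMod n}
    (hsurj : Function.Surjective ψ) (lam0 : Lam N)
    (hlam0 : red N n (lam0 : Additive (Gamma0 N) →+ ℤ) = ψ)
    (x : Module.End ℤ (Lam N) × ZMod n) (hx : x ∈ scalarPairs (N := N) (n := n) ψ)
    (y : Module.End ℤ (Lam N) × ZMod n) (hy : y ∈ scalarPairs (N := N) (n := n) ψ)
    (h : x.1 = y.1) : x.2 = y.2 := by
  have h1 := hx lam0 1 (by rw [hlam0, one_smul])
  have h2 := hy lam0 1 (by rw [hlam0, one_smul])
  rw [h, h2, mul_one, mul_one] at h1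
  obtain ⟨γ, hγ⟩ := hsurj 1
  have h3 := congrArg (fun φ : Additive (Gamma0 N) →+ ZMod n => φ γ) h1
  simp only [AddMonoidHom.smul_apply, hγ, smul_eq_mul, mul_one] at h3
  exact h3.symm

/-- the family of scalars away from `∅` -/
def scalarFam (i : PrimesAway (∅ : Set ℕ)) : ZMod n := ((a i.1 : ℤ) : ZMod n)

variable {a}

theorem gen_mem_scalarPairs' {ψ : Additive (Gamma0 N) →+ ZMod n}
    (hψ : ∀ l : Nat.Primes, heckeTransfer N l (ZMod n) ψ = a l • ψ)
    (i : PrimesAway (∅ : Set ℕ)) :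
    (TLfam N ∅ i, scalarFam (n := n) a i) ∈ scalarPairs (N := N) (n := n) ψ :=
  gen_mem_scalarPairs a hψ i.1

/-- the character of the lattice Hecke algebra, with values in the subalgebra generated by the
scalars -/
def lamCharAux {ψ : Additive (Gamma0 N) →+ ZMod n}
    (hψ : ∀ l : Nat.Primes, heckeTransfer N l (ZMod n) ψ = a l • ψ)
    (hsurj : Function.Surjective ψ) (lam0 : Lam N)
    (hlam0 : red N n (lam0 : Additive (Gamma0 N) →+ ℤ) = ψ) :
    TLamAlg N ∅ →ₐ[ℤ] Algebra.adjoin ℤ (Set.range (scalarFam (n := n) a)) :=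
  AdjoinLift.lift (gen_mem_scalarPairs' hψ) (snd_eq_of_mem_scalarPairs hsurj lam0 hlam0)

theorem lamCharAux_TLfam {ψ : Additive (Gamma0 N) →+ ZMod n}
    (hψ : ∀ l : Nat.Primes, heckeTransfer N l (ZMod n) ψ = a l • ψ)
    (hsurj : Function.Surjective ψ) (lam0 : Lam N)
    (hlam0 : red N n (lam0 : Additive (Gamma0 N) →+ ℤ) = ψ) (i : PrimesAway (∅ : Set ℕ)) :
    lamCharAux hψ hsurj lam0 hlam0 ⟨TLfam N ∅ i, Algebra.subset_adjoin ⟨i, rfl⟩⟩ =
      ⟨scalarFam (n := n) a i, Algebra.subset_adjoin ⟨i, rfl⟩⟩ :=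
  AdjoinLift.lift_gen (gen_mem_scalarPairs' hψ) (snd_eq_of_mem_scalarPairs hsurj lam0 hlam0) i

/-- the character of the lattice Hecke algebra: the scalar by which it acts on the `ψ`-line -/
def lamChar {ψ : Additive (Gamma0 N) →+ ZMod n}
    (hψ : ∀ l : Nat.Primes, heckeTransfer N l (ZMod n) ψ = a l • ψ)
    (hsurj : Function.Surjective ψ) (lam0 : Lam N)
    (hlam0 : red N n (lam0 : Additive (Gamma0 N) →+ ℤ) = ψ) :
    TLamAlg N ∅ →ₐ[ℤ] ZMod n :=
  (Subalgebra.val _).comp (lamCharAux hψ hsurj lam0 hlam0)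

theorem lamChar_TLam {ψ : Additive (Gamma0 N) →+ ZMod n}
    (hψ : ∀ l : Nat.Primes, heckeTransfer N l (ZMod n) ψ = a l • ψ)
    (hsurj : Function.Surjective ψ) (lam0 : Lam N)
    (hlam0 : red N n (lam0 : Additive (Gamma0 N) →+ ℤ) = ψ) (l : Nat.Primes) :
    lamChar hψ hsurj lam0 hlam0 ⟨TLam N l, TLam_mem_TLamAlg N ∅ (Set.notMem_empty _)⟩ =
      ((a l : ℤ) : ZMod n) := by
  unfold lamChar
  rw [AlgHom.comp_apply]
  have h := lamCharAux_TLfam hψ hsurj lam0 hlam0 (⟨l, Set.notMem_empty _⟩ : PrimesAway ∅)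
  have h' : (⟨TLam N l, TLam_mem_TLamAlg N ∅ (Set.notMem_empty _)⟩ : TLamAlg N ∅) =
      ⟨TLfam N ∅ ⟨l, Set.notMem_empty _⟩, Algebra.subset_adjoin ⟨⟨l, Set.notMem_empty _⟩, rfl⟩⟩ :=
    rfl
  rw [h', h]
  rfl

variable (N)

/-- S23: restriction to the integral lattice identifies the Hecke algebra of cusp forms with the
lattice Hecke algebra -/
def latticeEquiv : heckeAlgebra N 2 ∅ ≃ₐ[ℤ] heckeLatticeAlgebra N ∅ :=
  AlgEquiv.ofBijective (latticeRestrictHom N ∅)
    (latticeRestrictHom_bijective N ∅ (Fermat.Agent.S23.result N))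

theorem latticeEquiv_symm_latticeRestrictHom (y : heckeAlgebra N 2 ∅) :
    (latticeEquiv N).symm (latticeRestrictHom N ∅ y) = y :=
  (latticeEquiv N).symm_apply_apply y

/-- from the lattice Hecke algebra of cusp forms to the Hecke algebra of `Λ` -/
def toTLam : heckeLatticeAlgebra N ∅ →+* TLamAlg N ∅ :=
  ((lamPsiEquiv N ∅).symm : heckeAlgebra N 2 ∅ →+* TLamAlg N ∅).comp
    ((latticeEquiv N).symm : heckeLatticeAlgebra N ∅ →+* heckeAlgebra N 2 ∅)

theorem lamPsiEquiv_TLam (l : Nat.Primes) :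
    lamPsiEquiv N ∅ ⟨TLam N l, TLam_mem_TLamAlg N ∅ (Set.notMem_empty _)⟩ =
      heckeFormsGen N 2 l := by
  rw [lamPsiEquiv_apply]
  by_cases h : (l : ℕ) ∣ N
  · rw [heckeFormsGen_of_dvd h, lamPsi_TLam_of_dvd N ∅ h (Set.notMem_empty _)]
  · rw [heckeFormsGen_of_not_dvd h, lamPsi_TLam_of_not_dvd N ∅ h (Set.notMem_empty _)]

theorem toTLam_latticeRestrictHom_heckeFormsGen (l : Nat.Primes) :
    toTLam N (latticeRestrictHom N ∅ (heckeFormsGen N 2 l)) =
      ⟨TLam N l, TLam_mem_TLamAlg N ∅ (Set.notMem_empty _)⟩ := by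
  have h1 : (latticeEquiv N).symm (latticeRestrictHom N ∅ (heckeFormsGen N 2 l)) =
      heckeFormsGen N 2 l := latticeEquiv_symm_latticeRestrictHom N _
  have h2 : (lamPsiEquiv N ∅).symm (heckeFormsGen N 2 l) =
      ⟨TLam N l, TLam_mem_TLamAlg N ∅ (Set.notMem_empty _)⟩ := by
    rw [RingEquiv.symm_apply_eq]
    exact (lamPsiEquiv_TLam N l).symm
  have h3 : toTLam N (latticeRestrictHom N ∅ (heckeFormsGen N 2 l)) =
      (lamPsiEquiv N ∅).symm
        ((latticeEquiv N).symm (latticeRestrictHom N ∅ (heckeFormsGen N 2 l))) := rfl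
  exact h3.trans ((congrArg (lamPsiEquiv N ∅).symm h1).trans h2)

variable {N}

/-- a ring homomorphism of the lattice Hecke algebra to `ℤ/n` with the prescribed values `a l` on
the generators factors through the quotient by the image of the eigen-ideal -/
theorem exists_quotient_char (a : Nat.Primes → ℤ) (θ : ↥(heckeLatticeAlgebra N ∅) →+* ZMod n)
    (hθ : ∀ l : Nat.Primes,
      θ (latticeRestrictHom N ∅ (heckeFormsGen N 2 l)) = ((a l : ℤ) : ZMod n)) :
    ∃ χ : (↥(heckeLatticeAlgebra N ∅) ⧸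
        Ideal.map ((latticeRestrictHom N ∅).toRingHom.comp (heckeEvalForms N 2))
          (eigenIdeal a)) →+* ZMod n, Function.Surjective χ := by
  have key : θ.comp ((latticeRestrictHom N ∅).toRingHom.comp (heckeEvalForms N 2)) =
      (Int.castRingHom (ZMod n)).comp
        (MvPolynomial.aeval (R := ℤ) a : HeckeAlg →ₐ[ℤ] ℤ).toRingHom := by
    apply MvPolynomial.ringHom_ext
    · intro m
      simp
    · intro l
      show θ (latticeRestrictHom N ∅ (heckeEvalForms N 2 (heckeGen l))) =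
        ((MvPolynomial.aeval (R := ℤ) a (MvPolynomial.X l) : ℤ) : ZMod n)
      rw [heckeEvalForms_heckeGen, MvPolynomial.aeval_X, hθ l]
  have hle : Ideal.map ((latticeRestrictHom N ∅).toRingHom.comp (heckeEvalForms N 2))
      (eigenIdeal a) ≤ RingHom.ker θ := by
    rw [Ideal.map_le_iff_le_comap]
    intro t ht
    rw [Ideal.mem_comap, RingHom.mem_ker]
    have h1 : θ (((latticeRestrictHom N ∅).toRingHom.comp (heckeEvalForms N 2)) t) =
        (Int.castRingHom (ZMod n)) ((MvPolynomial.aeval (R := ℤ) a : HeckeAlg →ₐ[ℤ] ℤ) t) :=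
      congrArg (fun f : HeckeAlg →+* ZMod n => f t) key
    rw [h1, (mem_eigenIdeal_iff a t).mp ht, map_zero]
  exact ⟨Ideal.Quotient.lift _ θ (fun x hx => RingHom.mem_ker.mp (hle hx)),
    ZMod.ringHom_surjective _⟩

/-- **N7-A6b**, general eigen-system: an eigenvector `ψ : Γ₀(N) → ℤ/n` of the transfer operators
with eigenvalues `a l`, surjective and liftable to the lattice `Λ`, gives a surjective ring
homomorphism of the lattice Hecke algebra modulo the image of the eigen-ideal onto `ℤ/n`. -/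
theorem exists_char_of_eigenvector (a : Nat.Primes → ℤ) (ψ : Additive (Gamma0 N) →+ ZMod n)
    (hψ : ∀ l : Nat.Primes, heckeTransfer N l (ZMod n) ψ = a l • ψ)
    (hsurj : Function.Surjective ψ)
    (lam : Additive (Gamma0 N) →+ ℤ) (hlam : lam ∈ parabolicHoms ℤ (Gamma0 N) ℤ)
    (hred : ∀ γ, ((lam γ : ℤ) : ZMod n) = ψ γ) :
    ∃ χ : (↥(heckeLatticeAlgebra N ∅) ⧸
        Ideal.map ((latticeRestrictHom N ∅).toRingHom.comp (heckeEvalForms N 2))
          (eigenIdeal a)) →+* ZMod n, Function.Surjective χ := by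
  have hlam0 : red N n ((⟨lam, hlam⟩ : Lam N) : Additive (Gamma0 N) →+ ℤ) = ψ :=
    AddMonoidHom.ext fun γ => hred γ
  refine exists_quotient_char a
    ((lamChar hψ hsurj ⟨lam, hlam⟩ hlam0 : TLamAlg N ∅ →+* ZMod n).comp (toTLam N)) fun l => ?_
  show lamChar hψ hsurj ⟨lam, hlam⟩ hlam0
    (toTLam N (latticeRestrictHom N ∅ (heckeFormsGen N 2 l))) = _
  rw [toTLam_latticeRestrictHom_heckeFormsGen, lamChar_TLam]

/-- **N7-A6b**, Eisenstein case. -/
theorem exists_char_of_eisenstein (ψ : Additive (Gamma0 N) →+ ZMod n)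
    (hψ : ∀ l : Nat.Primes, heckeTransfer N l (ZMod n) ψ = eisensteinSystem N l • ψ)
    (hsurj : Function.Surjective ψ)
    (lam : Additive (Gamma0 N) →+ ℤ) (hlam : lam ∈ parabolicHoms ℤ (Gamma0 N) ℤ)
    (hred : ∀ γ, ((lam γ : ℤ) : ZMod n) = ψ γ) :
    ∃ χ : (↥(heckeLatticeAlgebra N ∅) ⧸
        Ideal.map ((latticeRestrictHom N ∅).toRingHom.comp (heckeEvalForms N 2))
          (eisensteinIdeal N)) →+* ZMod n, Function.Surjective χ :=
  exists_char_of_eigenvector (eisensteinSystem N) ψ hψ hsurj lam hlam hred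

end

end Fermat.Agent.Eis.LowerChar
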