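import Fermat.Agent.Eis.Defs
import Fermat.Agent.Eis.ShimuraHom
import Fermat.Agent.Eis.SumZero
import Fermat.Agent.Eis.LiftCharZ
import Fermat.Agent.Eis.LiftParabolic
import Fermat.Agent.Eis.LowerChar

/-!
# Program E, node N7 (A6): the lower bound `LowerHom p`

For every prime `p`, with `n = eisensteinNumerator p = (p - 1) / gcd (p - 1, 12)`, there is a
surjective ring homomorphism from the lattice Hecke algebra of level `p` modulo the image of the
Eisenstein ideal onto `ZMod n`.

Assembly of the all-algebraic route:

* `ShimuraHom.psi p : Γ₀(p) → ZMod n` (the Shimura character `γ ↦ dlog (d γ)`): surjective, kills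
  finite-order elements, `T` and `c₀`, and is an Eisenstein eigenvector for the transfer operators;
* `SumZero.sum_zero`, `SumZero.exists_tStar`, `LiftCharZ.liftStatement` (consequences of
  `PSL₂(ℤ) = C₂ * C₃` and Shapiro) feed `LiftParabolic.exists_lam_lift_of`: `psi p` is the
  reduction mod `n` of some `lam ∈ Λ = parabolicHoms ℤ (Γ₀(p)) ℤ`;
* `LowerChar.exists_char_of_eisenstein` turns this into the surjective character.
-/

set_option autoImplicit false

namespace Fermat.Agent.Eis.LowerBound

open ModularCurve CuspForm

/-- The Shimura character is the reduction of an integral parabolic character. -/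
theorem exists_lam_psi (p : ℕ) [Fact p.Prime] :
    ∃ lam ∈ ModularCurve.Period.parabolicHoms ℤ (CongruenceSubgroup.Gamma0 p) ℤ,
      ∀ γ, ((lam γ : ℤ) : ZMod (eisensteinNumerator p)) = ShimuraHom.psi p γ :=
  LiftParabolic.exists_lam_lift_of p (fun m => SumZero.sum_zero p m) (SumZero.exists_tStar p)
    (LiftCharZ.liftStatement p) (eisensteinNumerator p) (ShimuraHom.psi p)
    (fun γ hγ => ShimuraHom.psi_eq_zero_of_isOfFinOrder p γ hγ) (ShimuraHom.psi_Tg p)

/-- **N7**: the lower bound in the shape of `Eis/Defs.lean`, for every prime `p`, with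
`n' = eisensteinNumerator p`. -/
theorem lowerHom (p : ℕ) [Fact p.Prime] : LowerHom p := by
  obtain ⟨lam, hlam, hred⟩ := exists_lam_psi p
  obtain ⟨χ, hχ⟩ := LowerChar.exists_char_of_eisenstein (N := p) (n := eisensteinNumerator p)
    (ShimuraHom.psi p) (fun l => ShimuraHom.heckeTransfer_psi p l) (ShimuraHom.psi_surjective p)
    lam hlam hred
  exact ⟨eisensteinNumerator p, dvd_rfl, χ, hχ⟩

/-- The explicit form of `lowerHom`. -/
theorem exists_surjective_ringHom (p : ℕ) [Fact p.Prime] :
    ∃ χ : (↥(heckeLatticeAlgebra p ∅) ⧸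
        Ideal.map ((latticeRestrictHom p ∅).toRingHom.comp (heckeEvalForms p 2))
          (eisensteinIdeal p)) →+* ZMod (eisensteinNumerator p), Function.Surjective χ := by
  obtain ⟨lam, hlam, hred⟩ := exists_lam_psi p
  exact LowerChar.exists_char_of_eisenstein (N := p) (n := eisensteinNumerator p)
    (ShimuraHom.psi p) (fun l => ShimuraHom.heckeTransfer_psi p l) (ShimuraHom.psi_surjective p)
    lam hlam hred

end Fermat.Agent.Eis.LowerBound
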