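import Fermat.Statements.S16
import Fermat.Agent.S49.Forms

/-!
# Program E (S16), node N0, part 1: integral `q`-coefficients on the lattice and the
action of the Hecke generators.

`L = intLattice p 2`, `T = heckeLatticeAlgebra p ∅`, `psi : HeckeAlg →+* T`.
-/

set_option autoImplicit false

namespace Fermat.Agent.Eis.N0

open CuspForm ModularCurve ModularFormClass CongruenceSubgroup
open Fermat.Agent.S49

noncomputable section

variable (p : ℕ) [NeZero p]

/-- The ring homomorphism of the statement S16. -/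
def psi : HeckeAlg →+* ↥(heckeLatticeAlgebra p ∅) :=
  (latticeRestrictHom p ∅).toRingHom.comp (heckeEvalForms p 2)

/-- the image of the Eisenstein ideal in the lattice Hecke algebra (as in S16). -/
def eisIT : Ideal ↥(heckeLatticeAlgebra p ∅) := Ideal.map (psi p) (eisensteinIdeal p)

theorem eisIT_def : eisIT p = Ideal.map ((latticeRestrictHom p ∅).toRingHom.comp
    (heckeEvalForms p 2)) (eisensteinIdeal p) := rfl

/-- integer `q`-coefficient on the lattice -/
theorem exists_int_coeff (f : ↥(intLattice p 2)) (n : ℕ) :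
    ∃ m : ℤ, qCoeff ⇑(f : CuspForm (Gamma0 p) 2) n = (m : ℂ) :=
  (mem_intLattice_iff' (f : CuspForm (Gamma0 p) 2)).mp f.2 n

def aIntFun (n : ℕ) (f : ↥(intLattice p 2)) : ℤ := (exists_int_coeff p f n).choose

theorem aIntFun_spec (n : ℕ) (f : ↥(intLattice p 2)) :
    ((aIntFun p n f : ℤ) : ℂ) = qCoeff ⇑(f : CuspForm (Gamma0 p) 2) n :=
  (exists_int_coeff p f n).choose_spec.symm

/-- the `n`-th `q`-coefficient as a `ℤ`-linear functional on the lattice. -/
def aInt (n : ℕ) : ↥(intLattice p 2) →ₗ[ℤ] ℤ where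
  toFun := aIntFun p n
  map_add' f g := by
    apply Int.cast_injective (α := ℂ)
    rw [Int.cast_add, aIntFun_spec, aIntFun_spec, aIntFun_spec]
    exact qCoeff_add' _ _ n
  map_smul' c f := by
    apply Int.cast_injective (α := ℂ)
    simp only [RingHom.id_apply, smul_eq_mul, Int.cast_mul]
    rw [aIntFun_spec, aIntFun_spec]
    have h : ((c • f : ↥(intLattice p 2)) : CuspForm (Gamma0 p) 2) =
        (c : ℂ) • (f : CuspForm (Gamma0 p) 2) := by
      rw [Submodule.coe_smul]
      exact (Int.cast_smul_eq_zsmul ℂ c _).symm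
    rw [h, qCoeff_smul']

theorem aInt_spec (n : ℕ) (f : ↥(intLattice p 2)) :
    ((aInt p n f : ℤ) : ℂ) = qCoeff ⇑(f : CuspForm (Gamma0 p) 2) n :=
  aIntFun_spec p n f

theorem aInt_zero (f : ↥(intLattice p 2)) : aInt p 0 f = 0 := by
  apply Int.cast_injective (α := ℂ)
  rw [aInt_spec, Int.cast_zero]
  exact qCoeff_zero_cusp _

/-- a lattice element is determined by its integer coefficients. -/
theorem eq_zero_of_aInt_eq_zero (f : ↥(intLattice p 2)) (h : ∀ n, 1 ≤ n → aInt p n f = 0) :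
    f = 0 := by
  apply Subtype.ext
  apply eq_zero_of_qCoeff_eq_zero
  intro n
  rcases Nat.eq_zero_or_pos n with rfl | hn
  · exact qCoeff_zero_cusp _
  · rw [← aInt_spec, h n hn, Int.cast_zero]

/-- saturation: if all coefficients are divisible by `M ≠ 0`, the element is `M` times a lattice
element. -/
theorem exists_eq_smul_of_dvd_aInt (M : ℤ) (hM : M ≠ 0) (f : ↥(intLattice p 2))
    (h : ∀ n, 1 ≤ n → M ∣ aInt p n f) : ∃ g : ↥(intLattice p 2), f = M • g := by
  have hM' : (M : ℂ) ≠ 0 := Int.cast_ne_zero.mpr hM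
  have hmem : ((M : ℂ)⁻¹ • (f : CuspForm (Gamma0 p) 2)) ∈ intLattice p 2 := by
    rw [mem_intLattice_iff']
    intro n
    rcases Nat.eq_zero_or_pos n with rfl | hn
    · exact ⟨0, by rw [qCoeff_zero_cusp, Int.cast_zero]⟩
    · obtain ⟨c, hc⟩ := h n hn
      refine ⟨c, ?_⟩
      rw [qCoeff_smul', ← aInt_spec, hc, Int.cast_mul]
      field_simp
  refine ⟨⟨_, hmem⟩, Subtype.ext ?_⟩
  rw [Submodule.coe_smul]
  change (f : CuspForm (Gamma0 p) 2) = M • ((M : ℂ)⁻¹ • (f : CuspForm (Gamma0 p) 2))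
  rw [← Int.cast_smul_eq_zsmul ℂ M, smul_smul, mul_inv_cancel₀ hM', one_smul]

/-- the Hecke generator at `ℓ` in the lattice Hecke algebra -/
def gen (ℓ : Nat.Primes) : ↥(heckeLatticeAlgebra p ∅) := psi p (heckeGen ℓ)

theorem coe_gen_apply (ℓ : Nat.Primes) (f : ↥(intLattice p 2)) :
    (((gen p ℓ : ↥(heckeLatticeAlgebra p ∅)) : Module.End ℤ ↥(intLattice p 2)) f :
      CuspForm (Gamma0 p) 2) = heckeFam p ℓ (f : CuspForm (Gamma0 p) 2) := by
  unfold gen psi
  rw [RingHom.comp_apply, heckeEvalForms_heckeGen]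
  unfold heckeFormsGen heckeFam
  by_cases h : (ℓ : ℕ) ∣ p
  · rw [dif_pos h, dif_pos h]; rfl
  · rw [dif_neg h, dif_neg h]; rfl

/-- coefficient formula for the Hecke generators on the lattice -/
theorem aInt_gen (ℓ : Nat.Primes) (f : ↥(intLattice p 2)) (n : ℕ) :
    aInt p n (((gen p ℓ : ↥(heckeLatticeAlgebra p ∅)) : Module.End ℤ ↥(intLattice p 2)) f) =
      aInt p (n * ℓ) f +
        lvlEps p ℓ * (if (ℓ : ℕ) ∣ n then ((ℓ : ℕ) : ℤ) * aInt p (n / ℓ) f else 0) := by
  apply Int.cast_injective (α := ℂ)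
  rw [aInt_spec, coe_gen_apply, qCoeff_heckeFam]
  push_cast
  rw [aInt_spec]
  by_cases hn : (ℓ : ℕ) ∣ n
  · rw [if_pos hn, if_pos hn]
    push_cast
    rw [aInt_spec]
  · rw [if_neg hn, if_neg hn]

end

end Fermat.Agent.Eis.N0
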