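import Fermat.Agent.Eis.N0Coeff

/-!
# Program E (S16), node N0, part 2: the duality `L ≃ Hom_ℤ(T, ℤ)`.

Pairing `(t, f) ↦ a_1(t f)` between `T = heckeLatticeAlgebra p ∅` and `L = intLattice p 2`.
-/

set_option autoImplicit false

namespace Fermat.Agent.Eis.N0

open CuspForm ModularCurve ModularFormClass CongruenceSubgroup
open Fermat.Agent.S49

noncomputable section

variable (p : ℕ) [NeZero p]

/-- `psi` is surjective. -/
theorem heckeEvalForms_surjective : Function.Surjective (heckeEvalForms p 2) := by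
  rintro ⟨x, hx⟩
  have key : ∀ y (hy : y ∈ heckeAlgebra p 2 ∅), ∃ P, heckeEvalForms p 2 P = ⟨y, hy⟩ := by
    intro y hy
    refine Algebra.adjoin_induction (p := fun y hy => ∃ P, heckeEvalForms p 2 P = ⟨y, hy⟩)
      ?_ ?_ ?_ ?_ hy
    · rintro y (⟨ℓ, hℓ, hℓN, hℓS, rfl⟩ | ⟨q, hqN, hq, hqS, rfl⟩)
      · refine ⟨heckeGen ⟨ℓ, hℓ⟩, ?_⟩
        rw [heckeEvalForms_heckeGen_of_not_dvd (show ¬ ((⟨ℓ, hℓ⟩ : Nat.Primes) : ℕ) ∣ p from hℓN)]
        rfl
      · refine ⟨heckeGen ⟨q, hq⟩, ?_⟩
        rw [heckeEvalForms_heckeGen_of_dvd (show ((⟨q, hq⟩ : Nat.Primes) : ℕ) ∣ p from hqN)]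
        rfl
    · intro r
      exact ⟨MvPolynomial.C r, by rw [heckeEvalForms_C]; rfl⟩
    · rintro a b ha hb ⟨P, hP⟩ ⟨Q, hQ⟩
      exact ⟨P + Q, by rw [map_add, hP, hQ]; rfl⟩
    · rintro a b ha hb ⟨P, hP⟩ ⟨Q, hQ⟩
      exact ⟨P * Q, by rw [map_mul, hP, hQ]; rfl⟩
  exact key x hx

theorem psi_surjective : Function.Surjective (psi p) := by
  intro t
  obtain ⟨s, hs⟩ := latticeRestrictHom_surjective p ∅ t
  obtain ⟨P, hP⟩ := heckeEvalForms_surjective p s
  exact ⟨P, by unfold psi; rw [RingHom.comp_apply, hP]; exact hs⟩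

/-- the action of `T` on `L` -/
def act (t : ↥(heckeLatticeAlgebra p ∅)) : ↥(intLattice p 2) →ₗ[ℤ] ↥(intLattice p 2) :=
  (t : Module.End ℤ ↥(intLattice p 2))

theorem act_mul (s t : ↥(heckeLatticeAlgebra p ∅)) (f : ↥(intLattice p 2)) :
    act p (s * t) f = act p s (act p t f) := rfl

theorem act_one (f : ↥(intLattice p 2)) : act p 1 f = f := rfl

theorem act_add (s t : ↥(heckeLatticeAlgebra p ∅)) (f : ↥(intLattice p 2)) :
    act p (s + t) f = act p s f + act p t f := rfl

theorem act_zsmul (c : ℤ) (t : ↥(heckeLatticeAlgebra p ∅)) (f : ↥(intLattice p 2)) :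
    act p (c • t) f = c • act p t f := rfl

theorem act_comm (s t : ↥(heckeLatticeAlgebra p ∅)) (f : ↥(intLattice p 2)) :
    act p s (act p t f) = act p t (act p s f) := by
  rw [← act_mul, ← act_mul, mul_comm]

theorem act_eq_zero_of_forall (t : ↥(heckeLatticeAlgebra p ∅))
    (h : ∀ f, act p t f = 0) : t = 0 :=
  Subtype.ext (LinearMap.ext h)

theorem aInt_act_gen (ℓ : Nat.Primes) (f : ↥(intLattice p 2)) (n : ℕ) :
    aInt p n (act p (gen p ℓ) f) =
      aInt p (n * ℓ) f +
        lvlEps p ℓ * (if (ℓ : ℕ) ∣ n then ((ℓ : ℕ) : ℤ) * aInt p (n / ℓ) f else 0) :=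
  aInt_gen p ℓ f n

/-- KEY INDUCTION: if `M ∣ a_1(t g)` for all `t ∈ T` then `M ∣ a_n(g)` for all `n ≥ 1`. -/
theorem dvd_aInt_of_forall_dvd_aInt_one (M : ℤ) :
    ∀ (n : ℕ), 1 ≤ n → ∀ g : ↥(intLattice p 2),
      (∀ t : ↥(heckeLatticeAlgebra p ∅), M ∣ aInt p 1 (act p t g)) → M ∣ aInt p n g := by
  intro n
  induction n using Nat.strong_induction_on with
  | _ n ih =>
    intro hn g hg
    rcases Nat.lt_or_ge 1 n with h1 | h1
    · -- n > 1
      have hℓ : (n.minFac).Prime := Nat.minFac_prime (by omega)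
      set ℓ : Nat.Primes := ⟨n.minFac, hℓ⟩ with hℓdef
      obtain ⟨n', hn'⟩ : ∃ n', n = n' * (ℓ : ℕ) := by
        obtain ⟨c, hc⟩ := Nat.minFac_dvd n
        exact ⟨c, by rw [hc, mul_comm]⟩
      have hℓ2 : 2 ≤ (ℓ : ℕ) := hℓ.two_le
      have hn'pos : 1 ≤ n' := by
        rcases Nat.eq_zero_or_pos n' with h0 | h0
        · rw [h0, zero_mul] at hn'; omega
        · exact h0
      have hn'lt : n' < n := by
        rw [hn']; nlinarith
      have key := aInt_act_gen p ℓ g n'
      rw [← hn'] at key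
      have h1' : M ∣ aInt p n' (act p (gen p ℓ) g) := by
        apply ih n' hn'lt hn'pos
        intro t
        rw [← act_mul]
        exact hg _
      have h2' : M ∣ lvlEps p ℓ *
          (if (ℓ : ℕ) ∣ n' then ((ℓ : ℕ) : ℤ) * aInt p (n' / ℓ) g else 0) := by
        by_cases hd : (ℓ : ℕ) ∣ n'
        · rw [if_pos hd]
          apply Dvd.dvd.mul_left
          apply Dvd.dvd.mul_left
          have hpos : 1 ≤ n' / (ℓ : ℕ) := Nat.div_pos (Nat.le_of_dvd hn'pos hd) (by omega)
          have hlt : n' / (ℓ : ℕ) < n := lt_of_le_of_lt (Nat.div_le_self _ _) hn'lt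
          exact ih _ hlt hpos g hg
        · rw [if_neg hd, mul_zero]
          exact dvd_zero _
      have : aInt p n g = aInt p n' (act p (gen p ℓ) g) - lvlEps p ℓ *
          (if (ℓ : ℕ) ∣ n' then ((ℓ : ℕ) : ℤ) * aInt p (n' / ℓ) g else 0) := by
        rw [key]; ring
      rw [this]
      exact dvd_sub h1' h2'
    · -- n = 1
      have : n = 1 := le_antisymm h1 hn
      subst this
      have := hg 1
      rwa [act_one] at this

/-- nondegeneracy on the `L` side -/
theorem eq_zero_of_pairing_eq_zero (f : ↥(intLattice p 2))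
    (h : ∀ t : ↥(heckeLatticeAlgebra p ∅), aInt p 1 (act p t f) = 0) : f = 0 := by
  apply eq_zero_of_aInt_eq_zero
  intro n hn
  have := dvd_aInt_of_forall_dvd_aInt_one p 0 n hn f (fun t => by rw [h t])
  exact zero_dvd_iff.mp this

/-- nondegeneracy on the `T` side -/
theorem eq_zero_of_pairing_eq_zero' (t : ↥(heckeLatticeAlgebra p ∅))
    (h : ∀ f : ↥(intLattice p 2), aInt p 1 (act p t f) = 0) : t = 0 := by
  apply act_eq_zero_of_forall
  intro f
  apply eq_zero_of_pairing_eq_zero
  intro s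
  rw [act_comm]
  exact h _

/-- saturation -/
theorem exists_eq_smul_of_pairing_dvd (M : ℤ) (hM : M ≠ 0) (f : ↥(intLattice p 2))
    (h : ∀ t : ↥(heckeLatticeAlgebra p ∅), M ∣ aInt p 1 (act p t f)) :
    ∃ g : ↥(intLattice p 2), f = M • g :=
  exists_eq_smul_of_dvd_aInt p M hM f
    (fun n hn => dvd_aInt_of_forall_dvd_aInt_one p M n hn f h)

/-- the pairing as a linear map `L → Hom(T, ℤ)` -/
def pairL : ↥(intLattice p 2) →ₗ[ℤ] Module.Dual ℤ ↥(heckeLatticeAlgebra p ∅) where
  toFun f :=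
    { toFun := fun t => aInt p 1 (act p t f)
      map_add' := fun s t => by rw [act_add, map_add]
      map_smul' := fun c t => by rw [act_zsmul, map_smul]; rfl }
  map_add' f g := by
    ext t
    simp only [LinearMap.coe_mk, AddHom.coe_mk, LinearMap.add_apply, map_add]
  map_smul' c f := by
    ext t
    simp only [LinearMap.coe_mk, AddHom.coe_mk, LinearMap.smul_apply, map_smul, RingHom.id_apply]

theorem pairL_apply (f : ↥(intLattice p 2)) (t : ↥(heckeLatticeAlgebra p ∅)) :
    pairL p f t = aInt p 1 (act p t f) := rfl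

/-- the pairing as a linear map `T → Hom(L, ℤ)` -/
def pairT : ↥(heckeLatticeAlgebra p ∅) →ₗ[ℤ] Module.Dual ℤ ↥(intLattice p 2) where
  toFun t := (aInt p 1).comp (act p t)
  map_add' s t := by
    ext f
    simp only [LinearMap.comp_apply, LinearMap.add_apply, act_add, map_add]
  map_smul' c t := by
    ext f
    simp only [LinearMap.comp_apply, LinearMap.smul_apply, act_zsmul, map_smul, RingHom.id_apply]

theorem pairT_apply (f : ↥(intLattice p 2)) (t : ↥(heckeLatticeAlgebra p ∅)) :
    pairT p t f = aInt p 1 (act p t f) := rfl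

theorem pairL_injective : Function.Injective (pairL p) := by
  rw [← LinearMap.ker_eq_bot, LinearMap.ker_eq_bot']
  intro f hf
  apply eq_zero_of_pairing_eq_zero
  intro t
  have := LinearMap.congr_fun hf t
  simpa [pairL_apply] using this

theorem pairT_injective : Function.Injective (pairT p) := by
  rw [← LinearMap.ker_eq_bot, LinearMap.ker_eq_bot']
  intro t ht
  apply eq_zero_of_pairing_eq_zero'
  intro f
  have := LinearMap.congr_fun ht f
  simpa [pairT_apply] using this

theorem finrank_lattice_eq_finrank_hecke :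
    Module.finrank ℤ ↥(intLattice p 2) = Module.finrank ℤ ↥(heckeLatticeAlgebra p ∅) := by
  haveI := intLattice.moduleFinite p
  haveI := intLattice.moduleFree p
  apply le_antisymm
  · -- L ↪ Dual T ≃ T
    let e := (Module.Free.chooseBasis ℤ ↥(heckeLatticeAlgebra p ∅)).toDualEquiv
    have hinj : Function.Injective (e.symm.toLinearMap.comp (pairL p)) := by
      intro a b hab
      exact pairL_injective p (e.symm.injective hab)
    exact LinearMap.finrank_le_finrank_of_injective hinj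
  · let e := (Module.Free.chooseBasis ℤ ↥(intLattice p 2)).toDualEquiv
    have hinj : Function.Injective (e.symm.toLinearMap.comp (pairT p)) := by
      intro a b hab
      exact pairT_injective p (e.symm.injective hab)
    exact LinearMap.finrank_le_finrank_of_injective hinj

/-- DUALITY: every `ℤ`-linear functional on `T` is `t ↦ a_1(t f)` for some `f ∈ L`. -/
theorem exists_lattice_of_functional (φ : Module.Dual ℤ ↥(heckeLatticeAlgebra p ∅)) :
    ∃ f : ↥(intLattice p 2), ∀ t : ↥(heckeLatticeAlgebra p ∅), φ t = aInt p 1 (act p t f) := by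
  haveI := intLattice.moduleFinite p
  haveI := intLattice.moduleFree p
  let e := (Module.Free.chooseBasis ℤ ↥(heckeLatticeAlgebra p ∅)).toDualEquiv
  let Φ : ↥(intLattice p 2) →ₗ[ℤ] ↥(heckeLatticeAlgebra p ∅) :=
    e.symm.toLinearMap.comp (pairL p)
  have hinj : Function.Injective Φ := fun a b hab => pairL_injective p (e.symm.injective hab)
  have hrank : Module.finrank ℤ ↥(LinearMap.range Φ) =
      Module.finrank ℤ ↥(heckeLatticeAlgebra p ∅) := by
    rw [LinearMap.finrank_range_of_inj hinj]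
    exact finrank_lattice_eq_finrank_hecke p
  have hfin : Finite (↥(heckeLatticeAlgebra p ∅) ⧸ LinearMap.range Φ) :=
    Submodule.finiteQuotientOfFreeOfRankEq _ hrank
  haveI hfin' : Finite (↥(heckeLatticeAlgebra p ∅) ⧸ (LinearMap.range Φ).toAddSubgroup) := hfin
  set c : ℕ := (LinearMap.range Φ).toAddSubgroup.index with hc
  have hcpos : c ≠ 0 := AddSubgroup.index_ne_zero_of_finite
  have hmem : c • (e.symm φ) ∈ LinearMap.range Φ :=
    AddSubgroup.nsmul_index_mem (LinearMap.range Φ).toAddSubgroup (e.symm φ)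
  obtain ⟨f₀, hf₀⟩ := hmem
  -- pairL f₀ = c • φ
  have h1 : pairL p f₀ = (c : ℤ) • φ := by
    have : e.symm (pairL p f₀) = e.symm ((c : ℤ) • φ) := by
      rw [map_smul, natCast_zsmul]
      exact hf₀
    exact e.symm.injective this
  have hdiv : ∀ t : ↥(heckeLatticeAlgebra p ∅), (c : ℤ) ∣ aInt p 1 (act p t f₀) := by
    intro t
    rw [← pairL_apply, h1, LinearMap.smul_apply, smul_eq_mul]
    exact dvd_mul_right _ _
  obtain ⟨g, hg⟩ := exists_eq_smul_of_pairing_dvd p (c : ℤ) (by exact_mod_cast hcpos) f₀ hdiv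
  refine ⟨g, fun t => ?_⟩
  have h2 : (c : ℤ) * φ t = (c : ℤ) * aInt p 1 (act p t g) := by
    have := LinearMap.congr_fun h1 t
    rw [pairL_apply, hg, map_smul, map_smul, LinearMap.smul_apply] at this
    simpa [smul_eq_mul] using this.symm
  exact mul_left_cancel₀ (by exact_mod_cast hcpos) h2

end

end Fermat.Agent.Eis.N0
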