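import Fermat.Agent.Eis.N0Index

/-!
# Program E (S16), node N0, part 4: a ring homomorphism `T → ZMod M` killing the Eisenstein ideal
yields a cusp form with integral `q`-expansion congruent to `∑ σ*(k) q^k` modulo `M`.
-/

set_option autoImplicit false

namespace Fermat.Agent.Eis.N0

open CuspForm ModularCurve ModularFormClass CongruenceSubgroup
open Fermat.Agent.S49

noncomputable section

variable (p : ℕ) [NeZero p]

/-- evaluation at the Eisenstein system -/
def epsE : HeckeAlg →ₐ[ℤ] ℤ := MvPolynomial.aeval (eisensteinSystem p)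

theorem mem_eisensteinIdeal_iff (P : HeckeAlg) : P ∈ eisensteinIdeal p ↔ epsE p P = 0 :=
  mem_eigenIdeal_iff _ _

theorem psi_C (c : ℤ) : psi p (MvPolynomial.C c) = (c : ↥(heckeLatticeAlgebra p ∅)) :=
  eq_intCast ((psi p).comp MvPolynomial.C) c

theorem psi_sub_int_mem (P : HeckeAlg) :
    psi p P - ((epsE p P : ℤ) : ↥(heckeLatticeAlgebra p ∅)) ∈ eisIT p := by
  have h : P - MvPolynomial.C (epsE p P) ∈ eisensteinIdeal p := by
    rw [mem_eisensteinIdeal_iff, map_sub]
    unfold epsE
    rw [MvPolynomial.aeval_C]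
    simp
  have := Ideal.mem_map_of_mem (psi p) h
  rw [map_sub, psi_C] at this
  exact this

theorem gen_sub_int_mem (ℓ : Nat.Primes) :
    gen p ℓ - ((eisensteinSystem p ℓ : ℤ) : ↥(heckeLatticeAlgebra p ∅)) ∈ eisIT p := by
  have := psi_sub_int_mem p (heckeGen ℓ)
  unfold epsE at this
  rw [aeval_heckeGen] at this
  exact this

/-- every element of `T` is congruent to an integer modulo the Eisenstein ideal. -/
theorem exists_int_sub_mem (t : ↥(heckeLatticeAlgebra p ∅)) :
    ∃ c : ℤ, t - (c : ↥(heckeLatticeAlgebra p ∅)) ∈ eisIT p := by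
  obtain ⟨P, rfl⟩ := psi_surjective p t
  exact ⟨epsE p P, psi_sub_int_mem p P⟩

theorem act_intCast (c : ℤ) (f : ↥(intLattice p 2)) :
    act p (c : ↥(heckeLatticeAlgebra p ∅)) f = c • f := by
  have : (c : ↥(heckeLatticeAlgebra p ∅)) = c • (1 : ↥(heckeLatticeAlgebra p ∅)) := by
    rw [zsmul_eq_mul, mul_one]
  rw [this, act_zsmul, act_one]

theorem act_sub (s t : ↥(heckeLatticeAlgebra p ∅)) (f : ↥(intLattice p 2)) :
    act p (s - t) f = act p s f - act p t f := rfl

theorem lvlEps_eisensteinSystem (hp : p.Prime) (ℓ : Nat.Primes) :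
    ((ℓ : ℕ) = p ∧ lvlEps p ℓ = 0 ∧ eisensteinSystem p ℓ = 1) ∨
    ((ℓ : ℕ) ≠ p ∧ lvlEps p ℓ = 1 ∧ eisensteinSystem p ℓ = 1 + (ℓ : ℕ)) := by
  by_cases h : (ℓ : ℕ) ∣ p
  · left
    have : (ℓ : ℕ) = p := (Nat.prime_dvd_prime_iff_eq ℓ.2 hp).mp h
    refine ⟨this, ?_, eisensteinSystem_of_dvd h⟩
    unfold lvlEps
    rw [if_pos h]
  · right
    refine ⟨fun h' => h (h' ▸ dvd_refl _), ?_, eisensteinSystem_of_not_dvd h⟩
    unfold lvlEps
    rw [if_neg h]

/-- MAIN STEP OF N0 (duality direction): a ring homomorphism `T → ZMod M`, `M ≥ 1`, killing the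
image of the Eisenstein ideal produces a lattice element `f` with `a_k(f) ≡ σ*(k)` mod `M`. -/
theorem exists_lattice_cong_of_ringHom (hp : p.Prime) (M : ℕ) (hM : 1 ≤ M)
    (χ : ↥(heckeLatticeAlgebra p ∅) →+* ZMod M) (hχ : ∀ t ∈ eisIT p, χ t = 0) :
    ∃ f : ↥(intLattice p 2), ∀ k, 1 ≤ k → (M : ℤ) ∣ aInt p k f - (sigStar p k : ℤ) := by
  haveI : NeZero M := ⟨by omega⟩
  -- additive lift of χ
  let b := Module.Free.chooseBasis ℤ ↥(heckeLatticeAlgebra p ∅)
  let φ : Module.Dual ℤ ↥(heckeLatticeAlgebra p ∅) :=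
    b.constr ℤ (fun i => ((χ (b i)).cast : ℤ))
  have hφ : ∀ t, ((φ t : ℤ) : ZMod M) = χ t := by
    intro t
    have hlin : ((Int.castAddHom (ZMod M)).toIntLinearMap).comp φ =
        χ.toAddMonoidHom.toIntLinearMap := by
      apply b.ext
      intro i
      simp only [LinearMap.comp_apply, AddMonoidHom.coe_toIntLinearMap, Int.coe_castAddHom,
        RingHom.toAddMonoidHom_eq_coe, AddMonoidHom.coe_coe]
      rw [Module.Basis.constr_basis]
      exact ZMod.intCast_zmod_cast _
    exact LinearMap.congr_fun hlin t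
  obtain ⟨f, hf⟩ := exists_lattice_of_functional p φ
  refine ⟨f, ?_⟩
  -- notation: c n := a_n(f) mod M
  have hc1 : ((aInt p 1 f : ℤ) : ZMod M) = 1 := by
    have := hf 1
    rw [act_one] at this
    rw [← this, hφ, map_one]
  -- eigen-property modulo M
  have heig : ∀ (ℓ : Nat.Primes) (n : ℕ), 1 ≤ n →
      ((aInt p n (act p (gen p ℓ) f) : ℤ) : ZMod M) =
        ((eisensteinSystem p ℓ : ℤ) : ZMod M) * ((aInt p n f : ℤ) : ZMod M) := by
    intro ℓ n hn
    set g : ↥(intLattice p 2) := act p (gen p ℓ) f - (eisensteinSystem p ℓ) • f with hg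
    have hdiv : (M : ℤ) ∣ aInt p n g := by
      apply dvd_aInt_of_forall_dvd_aInt_one p (M : ℤ) n hn g
      intro t
      rw [← ZMod.intCast_zmod_eq_zero_iff_dvd]
      have e1 : act p t g = act p (t * gen p ℓ) f - (eisensteinSystem p ℓ) • act p t f := by
        rw [hg, map_sub, map_smul, act_mul]
      rw [e1, map_sub, map_smul, ← hf, ← hf, smul_eq_mul]
      push_cast
      rw [hφ, hφ, map_mul]
      have hz := hχ _ (gen_sub_int_mem p ℓ)
      rw [map_sub, map_intCast, sub_eq_zero] at hz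
      rw [hz]; ring
    rw [← ZMod.intCast_zmod_eq_zero_iff_dvd] at hdiv
    rw [hg, map_sub, map_smul, smul_eq_mul] at hdiv
    push_cast at hdiv
    exact sub_eq_zero.mp hdiv
  -- the induction
  have key : ∀ n, 1 ≤ n → ((aInt p n f : ℤ) : ZMod M) = ((sigStar p n : ℕ) : ZMod M) := by
    intro n
    induction n using Nat.strong_induction_on with
    | _ n ih =>
      intro hn
      rcases Nat.lt_or_ge 1 n with h1 | h1
      · have hℓ : (n.minFac).Prime := Nat.minFac_prime (by omega)
        set ℓ : Nat.Primes := ⟨n.minFac, hℓ⟩ with hℓdef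
        obtain ⟨n', hn'⟩ : ∃ n', n = n' * (ℓ : ℕ) := by
          obtain ⟨c, hc⟩ := Nat.minFac_dvd n
          exact ⟨c, by rw [hc, mul_comm]⟩
        have hℓ2 : 2 ≤ (ℓ : ℕ) := hℓ.two_le
        have hn'pos : 1 ≤ n' := by
          rcases Nat.eq_zero_or_pos n' with h0 | h0
          · rw [h0, zero_mul] at hn'; omega
          · exact h0
        have hn'lt : n' < n := by
          rw [hn']; nlinarith
        have keyℓ := aInt_act_gen p ℓ f n'
        rw [← hn'] at keyℓ
        have e0 : aInt p n f = aInt p n' (act p (gen p ℓ) f) - lvlEps p ℓ *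
            (if (ℓ : ℕ) ∣ n' then ((ℓ : ℕ) : ℤ) * aInt p (n' / ℓ) f else 0) := by
          rw [keyℓ]; ring
        have ihn' := ih n' hn'lt hn'pos
        rcases lvlEps_eisensteinSystem p hp ℓ with ⟨hℓp, hε, ha⟩ | ⟨hℓp, hε, ha⟩
        · -- ℓ = p
          rw [e0, hε, zero_mul, sub_zero, heig ℓ n' hn'pos, ha, ihn']
          have : sigStar p n = sigStar p n' := by
            rw [hn', hℓp]; exact sigStar_mul_self p n' hp hn'pos
          rw [this]; push_cast; ring
        · -- ℓ ≠ p
          have hrec := sigStar_mul_prime p (ℓ : ℕ) n' hp ℓ.2 hℓp hn'pos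
          rw [← hn'] at hrec
          have hrec' := congrArg (Int.cast : ℤ → ZMod M) hrec
          rw [e0, hε, one_mul]
          push_cast
          rw [heig ℓ n' hn'pos, ha, ihn']
          by_cases hd : (ℓ : ℕ) ∣ n'
          · have hpos : 1 ≤ n' / (ℓ : ℕ) := Nat.div_pos (Nat.le_of_dvd hn'pos hd) (by omega)
            have hlt : n' / (ℓ : ℕ) < n := lt_of_le_of_lt (Nat.div_le_self _ _) hn'lt
            have ih2 := ih _ hlt hpos
            rw [if_pos hd] at hrec' ⊢
            push_cast at hrec' ⊢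
            rw [ih2, hrec']
          · rw [if_neg hd] at hrec' ⊢
            push_cast at hrec' ⊢
            rw [hrec']
      · have : n = 1 := le_antisymm h1 hn
        subst this
        rw [hc1, sigStar_one p hp.two_le]
        simp
  intro k hk
  rw [← ZMod.intCast_zmod_eq_zero_iff_dvd]
  push_cast
  rw [key k hk]
  simp

end

end Fermat.Agent.Eis.N0
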