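import Fermat.Agent.Eis.N0Duality

/-!
# Program E (S16), node N0, part 3: from a ring homomorphism `T ⧸ I → ZMod M` to a cusp form
congruent to the Eisenstein series mod `M`; the index theorem.
-/

set_option autoImplicit false

namespace Fermat.Agent.Eis.N0

open CuspForm ModularCurve ModularFormClass CongruenceSubgroup
open Fermat.Agent.S49

noncomputable section

/-- `σ*(k)`: the sum of the divisors of `k` prime to `p` (local copy for N0). -/
def sigStar (p k : ℕ) : ℕ := ∑ d ∈ (Nat.divisors k).filter (fun d => ¬ p ∣ d), d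

theorem sigStar_one (p : ℕ) (hp : 2 ≤ p) : sigStar p 1 = 1 := by
  unfold sigStar
  rw [Nat.divisors_one, Finset.filter_singleton, if_pos]
  · simp
  · intro h
    have := Nat.le_of_dvd one_pos h
    omega

/-- `σ*(n p) = σ*(n)`. -/
theorem sigStar_mul_self (p n : ℕ) (hp : p.Prime) (hn : 1 ≤ n) :
    sigStar p (n * p) = sigStar p n := by
  unfold sigStar
  apply Finset.sum_congr _ (fun _ _ => rfl)
  ext d
  simp only [Finset.mem_filter, Nat.mem_divisors]
  constructor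
  · rintro ⟨⟨hd, h0⟩, hpd⟩
    refine ⟨⟨?_, by omega⟩, hpd⟩
    have hcop : Nat.Coprime d p := (Nat.Coprime.symm ((Nat.Prime.coprime_iff_not_dvd hp).mpr hpd))
    exact hcop.dvd_of_dvd_mul_right hd
  · rintro ⟨⟨hd, h0⟩, hpd⟩
    exact ⟨⟨Dvd.dvd.mul_right hd p, Nat.mul_ne_zero h0 hp.ne_zero⟩, hpd⟩

/-- the Hecke recursion for `σ*` at a prime `ℓ ≠ p`. -/
theorem sigStar_mul_prime (p ℓ n : ℕ) (hp : p.Prime) (hℓ : ℓ.Prime) (hℓp : ℓ ≠ p) (hn : 1 ≤ n) :
    (sigStar p (n * ℓ) : ℤ) =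
      (1 + (ℓ : ℤ)) * sigStar p n - (if ℓ ∣ n then (ℓ : ℤ) * sigStar p (n / ℓ) else 0) := by
  classical
  have hpl : ¬ p ∣ ℓ := fun h => hℓp ((Nat.prime_dvd_prime_iff_eq hp hℓ).mp h).symm
  -- split the divisors of n ℓ prime to p according to ℓ ∣ d
  have hsplit : sigStar p (n * ℓ) =
      (∑ d ∈ ((Nat.divisors (n * ℓ)).filter (fun d => ¬ p ∣ d)).filter (fun d => ℓ ∣ d), d) +
      (∑ d ∈ ((Nat.divisors (n * ℓ)).filter (fun d => ¬ p ∣ d)).filter (fun d => ¬ ℓ ∣ d), d) := by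
    unfold sigStar
    exact (Finset.sum_filter_add_sum_filter_not _ _ _).symm
  -- the part with ℓ ∣ d is ℓ * σ*(n)
  have h1 : (∑ d ∈ ((Nat.divisors (n * ℓ)).filter (fun d => ¬ p ∣ d)).filter (fun d => ℓ ∣ d), d)
      = ℓ * sigStar p n := by
    unfold sigStar
    rw [Finset.mul_sum]
    symm
    apply Finset.sum_bij (fun d _ => ℓ * d)
    · intro d hd
      simp only [Finset.mem_filter, Nat.mem_divisors] at hd ⊢
      refine ⟨⟨⟨?_, Nat.mul_ne_zero hd.1.2 hℓ.ne_zero⟩, ?_⟩, dvd_mul_right _ _⟩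
      · rw [mul_comm n ℓ]; exact Nat.mul_dvd_mul_left ℓ hd.1.1
      · intro h
        rcases (Nat.Prime.dvd_mul hp).mp h with h | h
        · exact hpl h
        · exact hd.2 h
    · intro a _ b _ hab
      exact Nat.eq_of_mul_eq_mul_left hℓ.pos hab
    · intro e he
      simp only [Finset.mem_filter, Nat.mem_divisors] at he
      obtain ⟨⟨⟨hd, h0⟩, hpe⟩, ⟨c, rfl⟩⟩ := he
      refine ⟨c, ?_, rfl⟩
      simp only [Finset.mem_filter, Nat.mem_divisors]
      refine ⟨⟨?_, by omega⟩, fun h => hpe (Dvd.dvd.mul_left h ℓ)⟩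
      rw [mul_comm n ℓ] at hd
      exact Nat.dvd_of_mul_dvd_mul_left hℓ.pos hd
    · intro _ _; rfl
  -- the part with ℓ ∤ d: divisors of n prime to p and ℓ
  have h2 : (∑ d ∈ ((Nat.divisors (n * ℓ)).filter (fun d => ¬ p ∣ d)).filter (fun d => ¬ ℓ ∣ d), d)
      = ∑ d ∈ ((Nat.divisors n).filter (fun d => ¬ p ∣ d)).filter (fun d => ¬ ℓ ∣ d), d := by
    apply Finset.sum_congr _ (fun _ _ => rfl)
    ext d
    simp only [Finset.mem_filter, Nat.mem_divisors]
    constructor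
    · rintro ⟨⟨⟨hd, h0⟩, hpd⟩, hld⟩
      refine ⟨⟨⟨?_, by omega⟩, hpd⟩, hld⟩
      have hcop : Nat.Coprime d ℓ :=
        (Nat.Coprime.symm ((Nat.Prime.coprime_iff_not_dvd hℓ).mpr hld))
      exact hcop.dvd_of_dvd_mul_right hd
    · rintro ⟨⟨⟨hd, h0⟩, hpd⟩, hld⟩
      exact ⟨⟨⟨Dvd.dvd.mul_right hd ℓ, Nat.mul_ne_zero h0 hℓ.ne_zero⟩, hpd⟩, hld⟩
  -- σ*(n) = (ℓ ∣ d part) + (ℓ ∤ d part)
  have h3 : sigStar p n =
      (∑ d ∈ ((Nat.divisors n).filter (fun d => ¬ p ∣ d)).filter (fun d => ℓ ∣ d), d) +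
      (∑ d ∈ ((Nat.divisors n).filter (fun d => ¬ p ∣ d)).filter (fun d => ¬ ℓ ∣ d), d) := by
    unfold sigStar
    exact (Finset.sum_filter_add_sum_filter_not _ _ _).symm
  -- the ℓ ∣ d part of σ*(n)
  have h4 : (∑ d ∈ ((Nat.divisors n).filter (fun d => ¬ p ∣ d)).filter (fun d => ℓ ∣ d), d) =
      if ℓ ∣ n then ℓ * sigStar p (n / ℓ) else 0 := by
    by_cases hln : ℓ ∣ n
    · rw [if_pos hln]
      obtain ⟨m, rfl⟩ := hln
      have hm : 1 ≤ m := by
        rcases Nat.eq_zero_or_pos m with h0 | h0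
        · rw [h0, mul_zero] at hn; omega
        · exact h0
      rw [Nat.mul_div_cancel_left m hℓ.pos]
      unfold sigStar
      rw [Finset.mul_sum]
      symm
      apply Finset.sum_bij (fun d _ => ℓ * d)
      · intro d hd
        simp only [Finset.mem_filter, Nat.mem_divisors] at hd ⊢
        refine ⟨⟨⟨Nat.mul_dvd_mul_left ℓ hd.1.1, Nat.mul_ne_zero hℓ.ne_zero hd.1.2⟩, ?_⟩,
          dvd_mul_right _ _⟩
        intro h
        rcases (Nat.Prime.dvd_mul hp).mp h with h | h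
        · exact hpl h
        · exact hd.2 h
      · intro a _ b _ hab
        exact Nat.eq_of_mul_eq_mul_left hℓ.pos hab
      · intro e he
        simp only [Finset.mem_filter, Nat.mem_divisors] at he
        obtain ⟨⟨⟨hd, h0⟩, hpe⟩, ⟨c, rfl⟩⟩ := he
        refine ⟨c, ?_, rfl⟩
        simp only [Finset.mem_filter, Nat.mem_divisors]
        refine ⟨⟨Nat.dvd_of_mul_dvd_mul_left hℓ.pos hd, by omega⟩,
          fun h => hpe (Dvd.dvd.mul_left h ℓ)⟩
      · intro _ _; rfl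
    · rw [if_neg hln]
      apply Finset.sum_eq_zero
      intro d hd
      simp only [Finset.mem_filter, Nat.mem_divisors] at hd
      exact absurd (dvd_trans hd.2 hd.1.1.1) hln
  rw [hsplit, h1, h2]
  have h5 : ((∑ d ∈ ((Nat.divisors n).filter (fun d => ¬ p ∣ d)).filter (fun d => ¬ ℓ ∣ d), d : ℕ) : ℤ)
      = (sigStar p n : ℤ) - ((if ℓ ∣ n then ℓ * sigStar p (n / ℓ) else 0 : ℕ) : ℤ) := by
    rw [← h4]
    have := congrArg (Nat.cast : ℕ → ℤ) h3
    push_cast at this ⊢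
    linarith
  rw [Nat.cast_add, Nat.cast_mul, h5]
  split_ifs <;> push_cast <;> ring

end

end Fermat.Agent.Eis.N0
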