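import Fermat.Agent.Eis.Defs
import Fermat.Agent.Eis.N0Eigen

/-!
# Program E (S16), node N0: export.

`congCusp_of_ringHom`: every ring homomorphism from the Eisenstein quotient `T ⧸ I` of S16 to
`ZMod M` (`M ≥ 1`) yields a weight-2 cusp form on `Γ₀(p)` with integral `q`-expansion congruent
to `∑ σ*(k) q^k` modulo `M` (`CongCusp p M`).  Proof: duality `L ≅ Hom_ℤ(T, ℤ)` (`N0Duality`)
and the Hecke recursion for `σ*` (`N0Index`, `N0Eigen`).
-/

set_option autoImplicit false

namespace Fermat.Agent.Eis.N0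

open CuspForm ModularCurve ModularFormClass CongruenceSubgroup

noncomputable section

theorem sigmaStar_eq_sigStar (p k : ℕ) : sigmaStar p k = sigStar p k := rfl

/-- **N0 (duality export).** -/
theorem congCusp_of_ringHom (p : ℕ) [Fact p.Prime] (M : ℕ) (hM : 1 ≤ M)
    (χ : (↥(heckeLatticeAlgebra p ∅) ⧸
        Ideal.map ((latticeRestrictHom p ∅).toRingHom.comp (heckeEvalForms p 2))
          (eisensteinIdeal p)) →+* ZMod M) : CongCusp p M := by
  have hp : p.Prime := Fact.out
  obtain ⟨f, hf⟩ := exists_lattice_cong_of_ringHom p hp M hM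
    (χ.comp (Ideal.Quotient.mk _)) (fun t ht => by
      rw [RingHom.comp_apply]
      have : Ideal.Quotient.mk (Ideal.map ((latticeRestrictHom p ∅).toRingHom.comp
          (heckeEvalForms p 2)) (eisensteinIdeal p)) t = 0 :=
        Ideal.Quotient.eq_zero_iff_mem.mpr ht
      rw [this, map_zero])
  refine ⟨(f : CuspForm (Gamma0 p) 2), fun k hk => ⟨aInt p k f, (aInt_spec p k f).symm, ?_⟩⟩
  rw [sigmaStar_eq_sigStar]
  exact hf k hk

end

end Fermat.Agent.Eis.N0
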