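import Mathlib

/-!
# Program E (S16), helper lemma: integrality of a polynomial from integrality of its values at a
uniformising power series

`O ⊆ R` a subring, `x = q + … ∈ O⟦q⟧` (constant coefficient `0`, linear coefficient `1`).  If
`G ∈ R[X]` is such that the power series `G(x)` has all its coefficients in `O`, then all
coefficients of `G` lie in `O` (triangularity of the family `x^j = q^j + …`).

Consumer: N6 (`l = 2`, `p ≡ 7 mod 8`): `8^{p+1} N(z') / A^{2(p+1)} = G(x)` with leading coefficient
`4^{p+1}` forces `2^{-(p+1)} ∈ ℤ_(2)`.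
-/

set_option autoImplicit false

noncomputable section
namespace Fermat.Agent.Eis.PolyCompInt

open PowerSeries
open scoped Polynomial

variable {R : Type*} [CommRing R]

/-- the shifted series `y` with `x = X * y` -/
def shift (x : PowerSeries R) : PowerSeries R := PowerSeries.mk fun n => coeff (n + 1) x

theorem eq_X_mul_shift {x : PowerSeries R} (hx0 : constantCoeff x = 0) : x = X * shift x := by
  ext n
  cases n with
  | zero => simpa using hx0
  | succ n => rw [coeff_succ_X_mul]; simp [shift]

theorem coeff_mem_of_forall_mem_mul (O : Subring R) {a b : PowerSeries R}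
    (ha : ∀ n, coeff n a ∈ O) (hb : ∀ n, coeff n b ∈ O) (n : ℕ) : coeff n (a * b) ∈ O := by
  rw [coeff_mul]
  exact Subring.sum_mem _ fun p _ => O.mul_mem (ha _) (hb _)

theorem coeff_mem_of_forall_mem_pow (O : Subring R) {a : PowerSeries R}
    (ha : ∀ n, coeff n a ∈ O) (j n : ℕ) : coeff n (a ^ j) ∈ O := by
  induction j generalizing n with
  | zero =>
    rw [pow_zero, coeff_one]
    split_ifs
    · exact O.one_mem
    · exact O.zero_mem
  | succ j ih =>
    rw [pow_succ]
    exact coeff_mem_of_forall_mem_mul O (fun m => ih m) ha n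

/-- the coefficients of `x^j` for `x = X * y`, `y(0) = 1`: zero below `j`, one at `j`. -/
theorem coeff_pow_of_lt {x : PowerSeries R} (hx0 : constantCoeff x = 0) {j n : ℕ} (h : n < j) :
    coeff n (x ^ j) = 0 := by
  rw [eq_X_mul_shift hx0, mul_pow, coeff_X_pow_mul', if_neg (by omega)]

theorem coeff_pow_self {x : PowerSeries R} (hx0 : constantCoeff x = 0) (hx1 : coeff 1 x = 1)
    (j : ℕ) : coeff j (x ^ j) = 1 := by
  rw [eq_X_mul_shift hx0, mul_pow, coeff_X_pow_mul', if_pos le_rfl, Nat.sub_self,
    coeff_zero_eq_constantCoeff, map_pow]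
  have : constantCoeff (shift x) = 1 := by
    rw [← coeff_zero_eq_constantCoeff_apply, shift, coeff_mk]
    simpa using hx1
  rw [this, one_pow]

/-- `G(x) = Σ_j g_j x^j`, coefficientwise -/
theorem coeff_aeval (x : PowerSeries R) (G : R[X]) (n : ℕ) :
    coeff n (Polynomial.aeval x G) = ∑ j ∈ G.support, G.coeff j * coeff n (x ^ j) := by
  rw [Polynomial.aeval_def, Polynomial.eval₂_eq_sum, Polynomial.sum, map_sum]
  refine Finset.sum_congr rfl fun j _ => ?_
  rw [← PowerSeries.C_eq_algebraMap, coeff_C_mul]

/-- **Triangularity**: if `G(x)` is `O`-integral for `x = q + … ∈ O⟦q⟧`, then `G ∈ O[X]`. -/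
theorem coeff_mem_of_aeval_mem (O : Subring R) {x : PowerSeries R}
    (hx0 : constantCoeff x = 0) (hx1 : coeff 1 x = 1) (hxO : ∀ n, coeff n x ∈ O)
    (G : R[X]) (hG : ∀ n, coeff n (Polynomial.aeval x G) ∈ O) (i : ℕ) : G.coeff i ∈ O := by
  induction i using Nat.strong_induction_on with
  | _ i ih =>
    have h := hG i
    rw [coeff_aeval] at h
    -- split the sum: j < i, j = i, j > i
    have hsplit : ∑ j ∈ G.support, G.coeff j * coeff i (x ^ j) =
        G.coeff i + ∑ j ∈ G.support.filter (· < i), G.coeff j * coeff i (x ^ j) := by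
      classical
      have h1 : ∀ j ∈ G.support, ¬ j < i → j ≠ i → G.coeff j * coeff i (x ^ j) = 0 := by
        intro j _ hji hne
        rw [coeff_pow_of_lt hx0 (by omega), mul_zero]
      rw [← Finset.sum_filter_add_sum_filter_not G.support (· < i), add_comm]
      congr 1
      by_cases hi : i ∈ G.support
      · rw [Finset.sum_eq_single_of_mem i (Finset.mem_filter.mpr ⟨hi, lt_irrefl i⟩)
          (fun j hj hne => h1 j (Finset.mem_filter.mp hj).1 (Finset.mem_filter.mp hj).2 hne),
          coeff_pow_self hx0 hx1, mul_one]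
      · rw [Polynomial.notMem_support_iff.mp hi]
        refine Finset.sum_eq_zero fun j hj => ?_
        have hj' := Finset.mem_filter.mp hj
        exact h1 j hj'.1 hj'.2 (fun e => hi (e ▸ hj'.1))
    rw [hsplit] at h
    have hrest : ∑ j ∈ G.support.filter (· < i), G.coeff j * coeff i (x ^ j) ∈ O :=
      Subring.sum_mem _ fun j hj =>
        O.mul_mem (ih j (Finset.mem_filter.mp hj).2) (coeff_mem_of_forall_mem_pow O hxO j i)
    have := O.sub_mem h hrest
    rwa [add_sub_cancel_right] at this

/-- Corollary in the shape used by N6: the leading coefficient. -/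
theorem leadingCoeff_mem_of_aeval_mem (O : Subring R) {x : PowerSeries R}
    (hx0 : constantCoeff x = 0) (hx1 : coeff 1 x = 1) (hxO : ∀ n, coeff n x ∈ O)
    (G : R[X]) (hG : ∀ n, coeff n (Polynomial.aeval x G) ∈ O) : G.leadingCoeff ∈ O :=
  coeff_mem_of_aeval_mem O hx0 hx1 hxO G hG _

end Fermat.Agent.Eis.PolyCompInt
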