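import Fermat.Agent.Eis.Defs
import Fermat.Agent.Eis.PolyCompInt

/-!
# Program E (S16), node N6: the abstract core (pure power-series algebra)

`O ⊆ ℂ` a subring with `1/2 ∉ O`.  Given the `p + 1` conjugates `c_γ ≡ 1 mod 8` (in `Y = q^{1/p}`),
their symmetric functions `s_j` which are polynomials in `E4, E6` (isobaric of weight `2j`), and
series `A = 1 + …`, `x = q + …` in `O⟦q⟧` with `E4 = A²(1 + 216 x)`, `E6 = A³(1 − 540 x − 5832 x²)`
and `A − A² − 4 A² x ≡ 0 mod 8`, we derive a contradiction: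

`∏_γ (A·c_γ − A²(1 + 4x))` is divisible by `8^{p+1}` in `O⟦Y⟧`, and equals
`A^{2(p+1)} · G(x)` with `G ∈ ℂ[X]` of degree `p + 1` and leading coefficient `4^{p+1}`; by
triangularity (`PolyCompInt`) `(−2)^{-(p+1)} ∈ O`.
-/

set_option autoImplicit false

noncomputable section
namespace Fermat.Agent.Eis.N6Core

open PowerSeries
open scoped Polynomial

/-! ### Generalities on `psSub O` -/

variable {O : Subring ℂ}

/-- lift of a series with coefficients in `O` to `O⟦q⟧` -/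
def liftO (F : PowerSeries ℂ) (hF : CoeffsIn O F) : PowerSeries O :=
  PowerSeries.mk fun n => ⟨coeff n F, hF n⟩

theorem map_liftO (F : PowerSeries ℂ) (hF : CoeffsIn O F) :
    PowerSeries.map O.subtype (liftO F hF) = F := by
  ext n
  simp [liftO]

theorem coeffsIn_map (F' : PowerSeries O) : CoeffsIn O (PowerSeries.map O.subtype F') := by
  intro n
  rw [coeff_map]
  exact (coeff n F').2

/-- a series in `O⟦q⟧` with constant coefficient `1` has an inverse in `O⟦q⟧` -/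
theorem exists_inv_coeffsIn {A : PowerSeries ℂ} (hA : CoeffsIn O A) (hA0 : constantCoeff A = 1) :
    ∃ B : PowerSeries ℂ, CoeffsIn O B ∧ A * B = 1 := by
  have hu : IsUnit (liftO A hA) := by
    rw [PowerSeries.isUnit_iff_constantCoeff]
    have : constantCoeff (liftO A hA) = 1 := by
      apply Subtype.ext
      rw [← coeff_zero_eq_constantCoeff_apply, liftO, coeff_mk]
      simpa using hA0
    rw [this]
    exact isUnit_one
  obtain ⟨B', hB'⟩ := hu.exists_right_inv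
  refine ⟨PowerSeries.map O.subtype B', coeffsIn_map B', ?_⟩
  rw [← map_liftO A hA, ← map_mul, hB', map_one]

theorem coeffsIn_mul {F G : PowerSeries ℂ} (hF : CoeffsIn O F) (hG : CoeffsIn O G) :
    CoeffsIn O (F * G) := (psSub O).mul_mem hF hG

theorem coeffsIn_add {F G : PowerSeries ℂ} (hF : CoeffsIn O F) (hG : CoeffsIn O G) :
    CoeffsIn O (F + G) := (psSub O).add_mem hF hG

theorem coeffsIn_pow {F : PowerSeries ℂ} (hF : CoeffsIn O F) (n : ℕ) :
    CoeffsIn O (F ^ n) := (psSub O).pow_mem hF n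

theorem coeffsIn_prod {ι : Type*} (s : Finset ι) (F : ι → PowerSeries ℂ)
    (hF : ∀ i ∈ s, CoeffsIn O (F i)) : CoeffsIn O (∏ i ∈ s, F i) :=
  (psSub O).prod_mem hF

theorem coeffsIn_expand (p : ℕ) (hp : p ≠ 0) {F : PowerSeries ℂ} (hF : CoeffsIn O F) :
    CoeffsIn O (PowerSeries.expand p hp F) := expand_mem_psSub p hp hF

/-- un-expanding: if `expand p F = c • K` with `K ∈ O⟦Y⟧`, then `F = c • K'` with `K' ∈ O⟦q⟧` -/
theorem exists_of_expand_eq (p : ℕ) (hp : p ≠ 0) {F K : PowerSeries ℂ} {c : ℂ}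
    (hK : CoeffsIn O K) (h : PowerSeries.expand p hp F = C c * K) :
    ∃ K' : PowerSeries ℂ, CoeffsIn O K' ∧ F = C c * K' := by
  refine ⟨PowerSeries.mk fun n => coeff (p * n) K, fun n => ?_, ?_⟩
  · rw [coeff_mk]
    exact hK _
  · ext n
    have := congrArg (coeff (p * n)) h
    rw [coeff_expand_mul, coeff_C_mul] at this
    rw [this, coeff_C_mul, coeff_mk]

/-! ### The polynomial attached to an isobaric expression -/

/-- `1 + 216 X` -/
def polyQ : ℂ[X] := 1 + Polynomial.C 216 * Polynomial.X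

/-- `1 − 540 X − 5832 X²` -/
def polyR : ℂ[X] := 1 - Polynomial.C 540 * Polynomial.X - Polynomial.C 5832 * Polynomial.X ^ 2

/-- `1 + 4 X` -/
def polyT : ℂ[X] := 1 + Polynomial.C 4 * Polynomial.X

theorem natDegree_polyQ_le : polyQ.natDegree ≤ 1 := by
  unfold polyQ
  compute_degree

theorem natDegree_polyR_le : polyR.natDegree ≤ 2 := by
  unfold polyR
  compute_degree

theorem natDegree_polyT_le : polyT.natDegree ≤ 1 := by
  unfold polyT
  compute_degree

theorem coeff_one_polyT : polyT.coeff 1 = 4 := by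
  unfold polyT
  rw [Polynomial.coeff_add, Polynomial.coeff_C_mul, Polynomial.coeff_X_one,
    Polynomial.coeff_one]
  norm_num

/-- the polynomial `σ` of an isobaric expression `∑ c_{ab} E4^a E6^b` -/
def sigmaPoly (T : Finset (ℕ × ℕ)) (c : ℕ × ℕ → ℂ) : ℂ[X] :=
  ∑ ab ∈ T, Polynomial.C (c ab) * polyQ ^ ab.1 * polyR ^ ab.2

theorem natDegree_sigmaPoly_lt {T : Finset (ℕ × ℕ)} {c : ℕ × ℕ → ℂ} {j : ℕ} (hj : 1 ≤ j)
    (hT : ∀ ab ∈ T, 2 * ab.1 + 3 * ab.2 = j) : (sigmaPoly T c).natDegree < j := by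
  unfold sigmaPoly
  refine lt_of_le_of_lt (Polynomial.natDegree_sum_le_of_forall_le T _ (n := j - 1) ?_) (by omega)
  intro ab hab
  have h := hT ab hab
  calc (Polynomial.C (c ab) * polyQ ^ ab.1 * polyR ^ ab.2).natDegree
      ≤ (Polynomial.C (c ab) * polyQ ^ ab.1).natDegree + (polyR ^ ab.2).natDegree :=
        Polynomial.natDegree_mul_le
    _ ≤ ((Polynomial.C (c ab)).natDegree + (polyQ ^ ab.1).natDegree) + (polyR ^ ab.2).natDegree :=
        Nat.add_le_add_right Polynomial.natDegree_mul_le _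
    _ ≤ (0 + ab.1 * 1) + ab.2 * 2 := by
        refine Nat.add_le_add (Nat.add_le_add (by simp) ?_) ?_
        · exact (Polynomial.natDegree_pow_le).trans (Nat.mul_le_mul_left _ natDegree_polyQ_le)
        · exact (Polynomial.natDegree_pow_le).trans (Nat.mul_le_mul_left _ natDegree_polyR_le)
    _ ≤ j - 1 := by omega

theorem aeval_polyQ (x : PowerSeries ℂ) : Polynomial.aeval x polyQ = 1 + C 216 * x := by
  unfold polyQ
  simp [PowerSeries.C_eq_algebraMap]

theorem aeval_polyR (x : PowerSeries ℂ) :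
    Polynomial.aeval x polyR = 1 - C 540 * x - C 5832 * x ^ 2 := by
  unfold polyR
  simp [PowerSeries.C_eq_algebraMap]

theorem aeval_polyT (x : PowerSeries ℂ) : Polynomial.aeval x polyT = 1 + C 4 * x := by
  unfold polyT
  simp [PowerSeries.C_eq_algebraMap]

/-- an isobaric expression of weight `2j` in `E4 = A²·Q(x)`, `E6 = A³·R(x)` is `A^j · σ(x)` -/
theorem isobaric_eq {T : Finset (ℕ × ℕ)} {c : ℕ × ℕ → ℂ} {j : ℕ}
    (hT : ∀ ab ∈ T, 2 * ab.1 + 3 * ab.2 = j) (A x E4 E6 : PowerSeries ℂ)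
    (hE4 : E4 = A ^ 2 * (1 + C 216 * x))
    (hE6 : E6 = A ^ 3 * (1 - C 540 * x - C 5832 * x ^ 2)) :
    ∑ ab ∈ T, C (c ab) * E4 ^ ab.1 * E6 ^ ab.2 = A ^ j * Polynomial.aeval x (sigmaPoly T c) := by
  unfold sigmaPoly
  rw [map_sum, Finset.mul_sum]
  refine Finset.sum_congr rfl fun ab hab => ?_
  have h := hT ab hab
  rw [map_mul, map_mul, map_pow, map_pow, aeval_polyQ, aeval_polyR, Polynomial.aeval_C,
    ← PowerSeries.C_eq_algebraMap, hE4, hE6, ← h, mul_pow, mul_pow, pow_add, ← pow_mul, ← pow_mul]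
  ring

/-! ### The main argument -/

/-- one factor of the norm: `A·(A(1+4x) − c) = −8·(H₀ + A·H)` for `c = 1 + 8H`. -/
theorem factor_eq (eA ex eH0 c H : PowerSeries ℂ)
    (h0 : eA - eA ^ 2 - C 4 * eA ^ 2 * ex = C 8 * eH0) (hc : c - 1 = C 8 * H) :
    eA * (eA * (1 + C 4 * ex) - c) = -(C 8) * (eH0 + eA * H) := by
  linear_combination (-1 : PowerSeries ℂ) * h0 + (-eA) * hc

/-- **N6 abstract core.**  No `p + 1` conjugates `≡ 1 mod 8` with level-one symmetric functions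
can exist when `1/2 ∉ O`. -/
theorem false_of_package (O : Subring ℂ) (h2 : (2 : ℂ)⁻¹ ∉ O) (p : ℕ) (hp : p ≠ 0)
    (cInf : PowerSeries ℂ) (cFin : ℕ → PowerSeries ℂ)
    (hInf : CongMod O 8 cInf 1) (hFin : ∀ b ∈ Finset.range p, CongMod O 8 (cFin b) 1)
    (s : ℕ → PowerSeries ℂ) (hs0 : s 0 = 1)
    (hprod : (Polynomial.X - Polynomial.C cInf) *
        ∏ b ∈ Finset.range p, (Polynomial.X - Polynomial.C (cFin b)) =
      ∑ j ∈ Finset.range (p + 2),
        (-1 : Polynomial (PowerSeries ℂ)) ^ j *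
          Polynomial.C (PowerSeries.expand p hp (s j)) * Polynomial.X ^ (p + 1 - j))
    (E4 E6 A x : PowerSeries ℂ) (hA : CoeffsIn O A) (hA0 : constantCoeff A = 1)
    (hx : CoeffsIn O x) (hx0 : constantCoeff x = 0) (hx1 : coeff 1 x = 1)
    (hE4 : E4 = A ^ 2 * (1 + C 216 * x))
    (hE6 : E6 = A ^ 3 * (1 - C 540 * x - C 5832 * x ^ 2))
    (hcong : ∃ H, CoeffsIn O H ∧ A - A ^ 2 - C 4 * A ^ 2 * x = C 8 * H)
    (hlev1 : ∀ j, 1 ≤ j → j ≤ p + 1 → ∃ (T : Finset (ℕ × ℕ)) (c : ℕ × ℕ → ℂ),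
      (∀ ab ∈ T, 2 * ab.1 + 3 * ab.2 = j) ∧
        s j = ∑ ab ∈ T, C (c ab) * E4 ^ ab.1 * E6 ^ ab.2) :
    False := by
  classical
  -- (a) choose the isobaric data
  have hlev1' : ∀ j, ∃ (T : Finset (ℕ × ℕ)) (c : ℕ × ℕ → ℂ), 1 ≤ j → j ≤ p + 1 →
      ((∀ ab ∈ T, 2 * ab.1 + 3 * ab.2 = j) ∧
        s j = ∑ ab ∈ T, C (c ab) * E4 ^ ab.1 * E6 ^ ab.2) := by
    intro j
    by_cases h : 1 ≤ j ∧ j ≤ p + 1
    · obtain ⟨T, c, h1, h2⟩ := hlev1 j h.1 h.2
      exact ⟨T, c, fun _ _ => ⟨h1, h2⟩⟩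
    · exact ⟨∅, 0, fun h1 h2 => absurd ⟨h1, h2⟩ h⟩
  choose T c hTc using hlev1'
  set σ : ℕ → ℂ[X] := fun j => if j = 0 then 1 else sigmaPoly (T j) (c j) with hσ
  -- (b) `s j = A^j σ_j(x)`
  have hs : ∀ j, j ≤ p + 1 → s j = A ^ j * Polynomial.aeval x (σ j) := by
    intro j hj
    rcases Nat.eq_zero_or_pos j with rfl | hj1
    · simp [hσ, hs0]
    · have hj0 : j ≠ 0 := by omega
      obtain ⟨h1, h2⟩ := hTc j hj1 hj
      rw [h2, isobaric_eq h1 A x E4 E6 hE4 hE6]
      simp [hσ, hj0]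
  -- (c) degrees
  have hdeg : ∀ j, 1 ≤ j → j ≤ p + 1 → (σ j).natDegree < j := by
    intro j hj1 hj
    have hj0 : j ≠ 0 := by omega
    have : σ j = sigmaPoly (T j) (c j) := by simp [hσ, hj0]
    rw [this]
    exact natDegree_sigmaPoly_lt hj1 (hTc j hj1 hj).1
  -- (d) the polynomial `G`
  set G : ℂ[X] := ∑ j ∈ Finset.range (p + 2), (-1 : ℂ[X]) ^ j * σ j * polyT ^ (p + 1 - j) with hG
  have hGcoeff : G.coeff (p + 1) = 4 ^ (p + 1) := by
    rw [hG, Polynomial.finsetSum_coeff, Finset.sum_eq_single 0]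
    · have : σ 0 = 1 := by simp [hσ]
      rw [this, pow_zero, one_mul, one_mul, Nat.sub_zero]
      have := Polynomial.coeff_pow_of_natDegree_le (p := polyT) (m := p + 1) (n := 1)
        natDegree_polyT_le
      rw [mul_one] at this
      rw [this, coeff_one_polyT]
    · intro j hj hj0
      have hj' : j ≤ p + 1 := by
        have := Finset.mem_range.mp hj
        omega
      have hj1 : 1 ≤ j := Nat.one_le_iff_ne_zero.mpr hj0
      apply Polynomial.coeff_eq_zero_of_natDegree_lt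
      calc ((-1 : ℂ[X]) ^ j * σ j * polyT ^ (p + 1 - j)).natDegree
          ≤ ((-1 : ℂ[X]) ^ j * σ j).natDegree + (polyT ^ (p + 1 - j)).natDegree :=
            Polynomial.natDegree_mul_le
        _ ≤ (((-1 : ℂ[X]) ^ j).natDegree + (σ j).natDegree) + (polyT ^ (p + 1 - j)).natDegree :=
            Nat.add_le_add_right Polynomial.natDegree_mul_le _
        _ ≤ (0 + (σ j).natDegree) + (p + 1 - j) * 1 := by
            refine Nat.add_le_add (Nat.add_le_add_right ?_ _) ?_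
            · refine (Polynomial.natDegree_pow_le).trans ?_
              simp
            · exact (Polynomial.natDegree_pow_le).trans
                (Nat.mul_le_mul_left _ natDegree_polyT_le)
        _ < p + 1 := by
            have := hdeg j hj1 hj'
            omega
    · intro h
      exact absurd (Finset.mem_range.mpr (by omega)) h
  -- (e) evaluate the polynomial identity at `t`
  obtain ⟨e, he⟩ : ∃ e : PowerSeries ℂ →ₐ[ℂ] PowerSeries ℂ, e = PowerSeries.expand p hp :=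
    ⟨_, rfl⟩
  rw [← he] at hprod
  have heC : ∀ r : ℂ, e (C r) = C r := fun r => by rw [he, PowerSeries.expand_C]
  have heO : ∀ F : PowerSeries ℂ, CoeffsIn O F → CoeffsIn O (e F) := fun F hF => by
    rw [he]; exact coeffsIn_expand p hp hF
  obtain ⟨t, ht⟩ : ∃ t : PowerSeries ℂ, t = e A * (1 + C 4 * e x) := ⟨_, rfl⟩
  have hev := congrArg (Polynomial.eval t) hprod
  simp only [Polynomial.eval_mul, Polynomial.eval_sub, Polynomial.eval_X, Polynomial.eval_C,
    Polynomial.eval_prod, Polynomial.eval_finsetSum, Polynomial.eval_pow, Polynomial.eval_neg,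
    Polynomial.eval_one] at hev
  -- (f) right-hand side
  have hR : e A ^ (p + 1) * ∑ j ∈ Finset.range (p + 2), (-1) ^ j * e (s j) * t ^ (p + 1 - j) =
      e (A ^ (2 * (p + 1)) * Polynomial.aeval x G) := by
    rw [hG, map_sum, Finset.mul_sum, map_mul, map_sum, Finset.mul_sum]
    refine Finset.sum_congr rfl fun j hj => ?_
    have hj' : j ≤ p + 1 := by
      have := Finset.mem_range.mp hj
      omega
    obtain ⟨k, hk⟩ : ∃ k, p + 1 = j + k := ⟨p + 1 - j, by omega⟩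
    have hk' : p + 1 - j = k := by omega
    have h1 : Polynomial.aeval x ((-1 : ℂ[X]) ^ j * σ j * polyT ^ k) =
        (-1) ^ j * Polynomial.aeval x (σ j) * (1 + C 4 * x) ^ k := by
      rw [map_mul, map_mul, map_pow, map_pow, map_neg, map_one, aeval_polyT]
    have h2 : e ((-1) ^ j * Polynomial.aeval x (σ j) * (1 + C 4 * x) ^ k) =
        (-1) ^ j * e (Polynomial.aeval x (σ j)) * (1 + C 4 * e x) ^ k := by
      rw [map_mul, map_mul, map_pow, map_pow, map_neg, map_one, map_add, map_one, map_mul, heC]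
    have hA2 : e (A ^ (2 * (p + 1))) = e A ^ (p + 1) * (e A ^ j * e A ^ k) := by
      rw [map_pow, ← pow_add, ← pow_add]
      congr 1
      omega
    rw [hs j hj', hk', h1, h2, hA2, map_mul, map_pow, ht, mul_pow]
    ring
  -- (g) left-hand side
  obtain ⟨H0, hH0, hcong'⟩ := hcong
  have hcongY : e A - e A ^ 2 - C 4 * e A ^ 2 * e x = C 8 * e H0 := by
    have := congrArg e hcong'
    rwa [map_sub, map_sub, map_mul, map_mul, map_pow, map_mul, heC, heC] at this
  obtain ⟨HInf, hHInf, hcInf⟩ := hInf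
  have hFin' : ∀ b, ∃ H : PowerSeries ℂ, b ∈ Finset.range p →
      (CoeffsIn O H ∧ cFin b - 1 = C 8 * H) := by
    intro b
    by_cases hb : b ∈ Finset.range p
    · obtain ⟨H, h1, h2⟩ := hFin b hb
      exact ⟨H, fun _ => ⟨h1, h2⟩⟩
    · exact ⟨0, fun h => absurd h hb⟩
  choose HFin hHFin using hFin'
  have heAO : CoeffsIn O (e A) := heO A hA
  obtain ⟨K, hK⟩ : ∃ K : PowerSeries ℂ, K = (e H0 + e A * HInf) *
      ∏ b ∈ Finset.range p, (e H0 + e A * HFin b) := ⟨_, rfl⟩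
  have hKO : CoeffsIn O K := by
    rw [hK]
    refine coeffsIn_mul (coeffsIn_add (heO H0 hH0) (coeffsIn_mul heAO hHInf)) ?_
    exact coeffsIn_prod _ _ fun b hb =>
      coeffsIn_add (heO H0 hH0) (coeffsIn_mul heAO (hHFin b hb).1)
  have hL : e A ^ (p + 1) * ((t - cInf) * ∏ b ∈ Finset.range p, (t - cFin b)) =
      C ((-8 : ℂ) ^ (p + 1)) * K := by
    have h1 : e A ^ (p + 1) = e A * ∏ _b ∈ Finset.range p, e A := by
      rw [Finset.prod_const, Finset.card_range, pow_succ, mul_comm]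
    have h2 : e A ^ (p + 1) * ((t - cInf) * ∏ b ∈ Finset.range p, (t - cFin b)) =
        (e A * (t - cInf)) * ∏ b ∈ Finset.range p, (e A * (t - cFin b)) := by
      rw [h1, Finset.prod_mul_distrib]
      ring
    rw [h2, ht, factor_eq (e A) (e x) (e H0) cInf HInf hcongY hcInf,
      Finset.prod_congr rfl fun b hb =>
        factor_eq (e A) (e x) (e H0) (cFin b) (HFin b) hcongY (hHFin b hb).2,
      Finset.prod_mul_distrib, Finset.prod_const, Finset.card_range, hK, map_pow, map_neg]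
    ring
  -- (h) un-expand
  have hmain : PowerSeries.expand p hp (A ^ (2 * (p + 1)) * Polynomial.aeval x G) =
      C ((-8 : ℂ) ^ (p + 1)) * K := by
    rw [← he, ← hR, ← hL, hev]
  obtain ⟨K', hK'O, hK'⟩ := exists_of_expand_eq p hp hKO hmain
  -- (i) invert `A`
  obtain ⟨B, hBO, hAB⟩ := exists_inv_coeffsIn hA hA0
  have hGx : Polynomial.aeval x G = C ((-8 : ℂ) ^ (p + 1)) * (B ^ (2 * (p + 1)) * K') := by
    have : B ^ (2 * (p + 1)) * (A ^ (2 * (p + 1)) * Polynomial.aeval x G) =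
        Polynomial.aeval x G := by
      rw [← mul_assoc, ← mul_pow, mul_comm B A, hAB, one_pow, one_mul]
    rw [← this, hK']
    ring
  -- (j) rescale and apply triangularity
  have hd : ((-8 : ℂ) ^ (p + 1)) ≠ 0 := pow_ne_zero _ (by norm_num)
  obtain ⟨G', hG'⟩ : ∃ G' : ℂ[X], G' = Polynomial.C (((-8 : ℂ) ^ (p + 1))⁻¹) * G := ⟨_, rfl⟩
  have hG'x : Polynomial.aeval x G' = B ^ (2 * (p + 1)) * K' := by
    rw [hG', map_mul, Polynomial.aeval_C, ← PowerSeries.C_eq_algebraMap, hGx, ← mul_assoc,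
      ← map_mul, inv_mul_cancel₀ hd, map_one, one_mul]
  have hmem := PolyCompInt.coeff_mem_of_aeval_mem O hx0 hx1 hx G'
    (by rw [hG'x]; exact coeffsIn_mul (coeffsIn_pow hBO _) hK'O) (p + 1)
  rw [hG', Polynomial.coeff_C_mul, hGcoeff] at hmem
  -- (k) `1/2 ∈ O`
  apply h2
  have hm2 : ((-2 : ℂ)) ^ p ∈ O := O.pow_mem (O.neg_mem (by
    have : (2 : ℂ) = 1 + 1 := by norm_num
    rw [this]
    exact O.add_mem O.one_mem O.one_mem)) p
  have hfin := O.neg_mem (O.mul_mem hmem hm2)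
  have hval : (2 : ℂ)⁻¹ = -(((-8 : ℂ) ^ (p + 1))⁻¹ * 4 ^ (p + 1) * (-2) ^ p) := by
    have h8 : ((-8 : ℂ)) ^ (p + 1) = (-2) ^ (p + 1) * 4 ^ (p + 1) := by
      rw [← mul_pow]
      norm_num
    have h4 : ((4 : ℂ)) ^ (p + 1) ≠ 0 := pow_ne_zero _ (by norm_num)
    have hm : ((-2 : ℂ)) ^ p ≠ 0 := pow_ne_zero _ (by norm_num)
    rw [h8, pow_succ (-2 : ℂ)]
    field_simp
  rw [hval]
  exact hfin

/-- the double-sum shape of an isobaric expression, converted to the `Finset (ℕ × ℕ)` shape -/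
theorem isobaric_shape (j : ℕ) (c : ℕ → ℕ → ℂ) (E4 E6 : PowerSeries ℂ) :
    (∑ a ∈ Finset.range (j + 1), ∑ b ∈ Finset.range (j + 1),
      if 2 * a + 3 * b = j then C (c a b) * E4 ^ a * E6 ^ b else 0) =
    ∑ ab ∈ (Finset.range (j + 1) ×ˢ Finset.range (j + 1)).filter
        (fun ab : ℕ × ℕ => 2 * ab.1 + 3 * ab.2 = j),
      C ((fun ab : ℕ × ℕ => c ab.1 ab.2) ab) * E4 ^ ab.1 * E6 ^ ab.2 := by
  rw [Finset.sum_filter, Finset.sum_product]

/-- **N6 abstract core**, consumer shape: `hcong` as `A(1+4x) ≡ 1 mod 8` and the level-one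
hypothesis as a double sum. -/
theorem false_of_package' (O : Subring ℂ) (h2 : (2 : ℂ)⁻¹ ∉ O) (p : ℕ) (hp : p ≠ 0)
    (cInf : PowerSeries ℂ) (cFin : ℕ → PowerSeries ℂ)
    (hInf : CongMod O 8 cInf 1) (hFin : ∀ b ∈ Finset.range p, CongMod O 8 (cFin b) 1)
    (s : ℕ → PowerSeries ℂ) (hs0 : s 0 = 1)
    (hprod : (Polynomial.X - Polynomial.C cInf) *
        ∏ b ∈ Finset.range p, (Polynomial.X - Polynomial.C (cFin b)) =
      ∑ j ∈ Finset.range (p + 2),
        (-1 : Polynomial (PowerSeries ℂ)) ^ j *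
          Polynomial.C (PowerSeries.expand p hp (s j)) * Polynomial.X ^ (p + 1 - j))
    (E4 E6 A x : PowerSeries ℂ) (hA : CoeffsIn O A) (hA0 : constantCoeff A = 1)
    (hx : CoeffsIn O x) (hx0 : constantCoeff x = 0) (hx1 : coeff 1 x = 1)
    (hE4 : E4 = A ^ 2 * (1 + C 216 * x))
    (hE6 : E6 = A ^ 3 * (1 - C 540 * x - C 5832 * x ^ 2))
    (hcong : ∃ H, CoeffsIn O H ∧ A * (1 + C 4 * x) - 1 = C 8 * H)
    (hlev1 : ∀ j, 1 ≤ j → j ≤ p + 1 → ∃ c : ℕ → ℕ → ℂ,
      s j = ∑ a ∈ Finset.range (j + 1), ∑ b ∈ Finset.range (j + 1),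
        if 2 * a + 3 * b = j then C (c a b) * E4 ^ a * E6 ^ b else 0) :
    False := by
  refine false_of_package O h2 p hp cInf cFin hInf hFin s hs0 hprod E4 E6 A x hA hA0 hx hx0 hx1
    hE4 hE6 ?_ ?_
  · obtain ⟨H, hH, h⟩ := hcong
    refine ⟨-(A * H), (psSub O).neg_mem (coeffsIn_mul hA hH), ?_⟩
    linear_combination (-A) * h
  · intro j hj1 hj
    obtain ⟨c, hc⟩ := hlev1 j hj1 hj
    refine ⟨(Finset.range (j + 1) ×ˢ Finset.range (j + 1)).filter
        (fun ab : ℕ × ℕ => 2 * ab.1 + 3 * ab.2 = j), fun ab => c ab.1 ab.2,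
      fun ab hab => (Finset.mem_filter.mp hab).2, ?_⟩
    rw [hc, isobaric_shape]

end Fermat.Agent.Eis.N6Core
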