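import Mathlib

/-!
# Program E (N7-A1, variant with uniqueness): `PSL(2, ℤ) ≅ C₂ * C₃` and its universal property

`Sb`, `Ub` are the images of `S` and `U = S * T` in `PSL(2, ℤ) = SL(2, ℤ) ⧸ center`.
They satisfy `Sb ^ 2 = 1`, `Ub ^ 3 = 1`, generate `PSL(2, ℤ)`, and `PSL(2, ℤ)` is the free product
of the cyclic groups they generate (ping-pong on the upper half plane:
`S` maps `{Re < 0}` into `{Re > 0}`, `U` and `U²` map `{Re > 0}` into `{Re < 0}`).

Main exports (namespace `Fermat.Agent.Eis.PSL2`):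

* `center_eq` / `mem_center_iff'` : the centre of `SL(2, ℤ)` is `{1, -1}`;
* `mk_eq_mk_iff` : `mk g = mk h ↔ g = h ∨ g = -h` in `PSL(2, ℤ)`;
* `Sb_sq`, `Ub_cube`, `closure_Sb_Ub`;
* `freeEquiv : Monoid.CoprodI cyc ≃* PSL(2, ℤ)`;
* `liftHom s u hs hu : PSL(2, ℤ) →* H` for `s ^ 2 = 1`, `u ^ 3 = 1`, with `liftHom_Sb`, `liftHom_Ub`;
* `hom_ext` : homs out of `PSL(2, ℤ)` agreeing on `Sb`, `Ub` are equal;
* `exists_unique_hom`;
* `liftSL s u hs hu : SL(2, ℤ) →* H` (composition with the projection), `liftSL_S`, `liftSL_U`,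
  `liftSL_neg_one`, `liftSL_neg`.
-/

set_option autoImplicit false

open scoped MatrixGroups Pointwise
open Matrix ModularGroup UpperHalfPlane

namespace Fermat.Agent.Eis.PSL2

/-! ### The centre of `SL(2, ℤ)` -/

theorem neg_one_mem_center : (-1 : SL(2, ℤ)) ∈ Subgroup.center SL(2, ℤ) := by
  rw [Subgroup.mem_center_iff]
  intro g
  simp

theorem eq_one_or_eq_neg_one_of_mem_center {A : SL(2, ℤ)}
    (hA : A ∈ Subgroup.center SL(2, ℤ)) : A = 1 ∨ A = -1 := by
  obtain ⟨r, hr, hrA⟩ := Matrix.SpecialLinearGroup.mem_center_iff.mp hA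
  have hr2 : r * r = 1 := by
    have : r ^ 2 = 1 := by simpa using hr
    rwa [sq] at this
  rcases Int.isUnit_iff.mp (IsUnit.of_mul_eq_one r hr2) with h | h
  · left
    apply Subtype.ext
    rw [← hrA, h]
    simp
  · right
    apply Subtype.ext
    rw [← hrA, h]
    ext i j
    simp [Matrix.one_apply]

theorem mem_center_iff' {A : SL(2, ℤ)} :
    A ∈ Subgroup.center SL(2, ℤ) ↔ A = 1 ∨ A = -1 := by
  refine ⟨eq_one_or_eq_neg_one_of_mem_center, ?_⟩
  rintro (rfl | rfl)
  · exact Subgroup.one_mem _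
  · exact neg_one_mem_center

/-- the projection `SL(2, ℤ) →* PSL(2, ℤ)` -/
noncomputable def proj : SL(2, ℤ) →* PSL(2, ℤ) := QuotientGroup.mk' _

theorem proj_surjective : Function.Surjective proj := QuotientGroup.mk'_surjective _

theorem proj_eq_one_iff {g : SL(2, ℤ)} : proj g = 1 ↔ g = 1 ∨ g = -1 := by
  rw [proj, QuotientGroup.mk'_apply, QuotientGroup.eq_one_iff, mem_center_iff']

@[simp] theorem proj_neg_one : proj (-1) = 1 := proj_eq_one_iff.mpr (Or.inr rfl)

@[simp] theorem proj_neg (g : SL(2, ℤ)) : proj (-g) = proj g := by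
  have : (-g : SL(2, ℤ)) = (-1) * g := by simp
  rw [this, map_mul, proj_neg_one, one_mul]

theorem proj_eq_proj_iff {g h : SL(2, ℤ)} : proj g = proj h ↔ g = h ∨ g = -h := by
  rw [← mul_inv_eq_one, ← map_inv, ← map_mul, proj_eq_one_iff]
  constructor
  · rintro (h1 | h1)
    · left; exact mul_inv_eq_one.mp h1
    · right
      have := mul_inv_eq_iff_eq_mul.mp h1
      rw [this]; simp
  · rintro (rfl | rfl)
    · left; simp
    · right; simp

/-! ### The generators -/

/-- the image of `S` -/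
noncomputable def Sb : PSL(2, ℤ) := proj S

/-- the image of `U = S * T` -/
noncomputable def Ub : PSL(2, ℤ) := proj (S * T)

theorem S_sq : S ^ 2 = -1 := by
  apply Subtype.ext
  simp only [sq, SpecialLinearGroup.coe_neg]
  exact ModularGroup.S_mul_S_eq

theorem ST_cube : (S * T) ^ 3 = -1 := by
  apply Subtype.ext
  simp only [pow_succ, pow_zero, one_mul, SpecialLinearGroup.coe_neg, ModularGroup.S,
    ModularGroup.T]
  decide

theorem Sb_sq : Sb ^ 2 = 1 := by
  rw [Sb, ← map_pow, S_sq, proj_neg_one]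

theorem Ub_cube : Ub ^ 3 = 1 := by
  rw [Ub, ← map_pow, ST_cube, proj_neg_one]

theorem closure_S_ST : Subgroup.closure ({S, S * T} : Set SL(2, ℤ)) = ⊤ := by
  rw [eq_top_iff, ← SpecialLinearGroup.SL2Z_generators, Subgroup.closure_le]
  rintro x (rfl | rfl)
  · exact Subgroup.subset_closure (Set.mem_insert _ _)
  · have hS : S ∈ Subgroup.closure ({S, S * T} : Set SL(2, ℤ)) :=
      Subgroup.subset_closure (Set.mem_insert _ _)
    have hST : S * T ∈ Subgroup.closure ({S, S * T} : Set SL(2, ℤ)) :=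
      Subgroup.subset_closure (Set.mem_insert_of_mem _ rfl)
    have h3 : S⁻¹ * (S * T) ∈ Subgroup.closure ({S, S * T} : Set SL(2, ℤ)) :=
      Subgroup.mul_mem _ (Subgroup.inv_mem _ hS) hST
    have h4 : S⁻¹ * (S * T) = T := by group
    rw [h4] at h3
    exact h3

theorem closure_Sb_Ub : Subgroup.closure ({Sb, Ub} : Set PSL(2, ℤ)) = ⊤ := by
  have h := congrArg (Subgroup.map proj) closure_S_ST
  rw [MonoidHom.map_closure, Subgroup.map_top_of_surjective _ proj_surjective] at h
  rw [← h]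
  congr 1
  ext x
  simp [Sb, Ub, Set.image_insert_eq]

/-- Homomorphisms out of `PSL(2, ℤ)` are determined by their values at `Sb` and `Ub`. -/
theorem hom_ext {H : Type*} [Group H] {f g : PSL(2, ℤ) →* H} (hS : f Sb = g Sb)
    (hU : f Ub = g Ub) : f = g := by
  refine MonoidHom.eq_of_eqOn_dense closure_Sb_Ub ?_
  rintro x (rfl | rfl)
  · exact hS
  · exact hU

/-! ### The action on the upper half plane and ping-pong -/

/-- The action homomorphism `PSL(2, ℤ) →* Perm ℍ`. -/
noncomputable def actHom : PSL(2, ℤ) →* Equiv.Perm ℍ :=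
  QuotientGroup.lift _ (MulAction.toPermHom SL(2, ℤ) ℍ) (by
    intro g hg
    rcases eq_one_or_eq_neg_one_of_mem_center hg with rfl | rfl
    · exact map_one _
    · refine Equiv.ext fun z => ?_
      show (-1 : SL(2, ℤ)) • z = z
      rw [ModularGroup.SL_neg_smul, one_smul])

theorem actHom_proj (g : SL(2, ℤ)) (z : ℍ) : actHom (proj g) z = g • z := rfl

theorem re_S_smul (z : ℍ) : (S • z).re = -z.re / Complex.normSq (z : ℂ) := by
  rw [UpperHalfPlane.modular_S_smul]
  show ((-(z : ℂ))⁻¹).re = _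
  rw [Complex.inv_re, Complex.neg_re, Complex.normSq_neg]
  rfl

theorem re_U_smul (z : ℍ) :
    ((S * T) • z).re = -(z.re + 1) / Complex.normSq ((T • z : ℍ) : ℂ) := by
  rw [mul_smul, re_S_smul, ModularGroup.re_T_smul]

theorem normSq_T_smul (z : ℍ) :
    Complex.normSq ((T • z : ℍ) : ℂ) = (z.re + 1) ^ 2 + z.im ^ 2 := by
  rw [Complex.normSq_apply]
  show (T • z).re * (T • z).re + (T • z).im * (T • z).im = _
  rw [ModularGroup.re_T_smul, ModularGroup.im_T_smul]
  ring

/-- the exponents `2, 3` -/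
abbrev ord : Bool → ℕ := fun b => cond b 3 2

/-- the cyclic groups `C₂`, `C₃` -/
abbrev cyc : Bool → Type := fun b => Multiplicative (ZMod (ord b))

/-- The homomorphism from a cyclic group `ℤ/k` sending the generator to an element of order
dividing `k`. -/
noncomputable def cycHom {G : Type*} [Group G] (k : ℕ) (g : G) (hg : g ^ k = 1) :
    Multiplicative (ZMod k) →* G :=
  AddMonoidHom.toMultiplicativeLeft (ZMod.lift k
    ⟨zmultiplesHom (Additive G) (Additive.ofMul g), by
      show ((k : ℤ) • Additive.ofMul g) = 0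
      rw [natCast_zsmul, ← ofMul_pow, hg]; rfl⟩)

theorem cycHom_apply_intCast {G : Type*} [Group G] (k : ℕ) (g : G) (hg : g ^ k = 1) (j : ℤ) :
    cycHom k g hg (Multiplicative.ofAdd (j : ZMod k)) = g ^ j := by
  show Additive.toMul (ZMod.lift k _ (j : ZMod k)) = _
  rw [ZMod.lift_coe]
  rfl

theorem cycHom_apply_one {G : Type*} [Group G] (k : ℕ) (g : G) (hg : g ^ k = 1) :
    cycHom k g hg (Multiplicative.ofAdd (1 : ZMod k)) = g := by
  have := cycHom_apply_intCast k g hg 1
  simpa using this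

theorem cycHom_ext {G : Type*} [Group G] {k : ℕ} {f g : Multiplicative (ZMod k) →* G}
    (h : f (Multiplicative.ofAdd 1) = g (Multiplicative.ofAdd 1)) : f = g := by
  refine MonoidHom.ext fun x => ?_
  have ha : x = (Multiplicative.ofAdd (1 : ZMod k)) ^ ((Multiplicative.toAdd x).cast : ℤ) := by
    rw [← ofAdd_zsmul, zsmul_one, ZMod.intCast_zmod_cast]
    rfl
  rw [ha, map_zpow, map_zpow, h]

theorem comp_cycHom {G G' : Type*} [Group G] [Group G'] (φ : G →* G') (k : ℕ) (g : G)
    (hg : g ^ k = 1) :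
    φ.comp (cycHom k g hg) = cycHom k (φ g) (by rw [← map_pow, hg, map_one]) := by
  apply cycHom_ext
  rw [MonoidHom.comp_apply, cycHom_apply_one, cycHom_apply_one]

/-- the generators `Sb`, `Ub` indexed by `Bool` -/
noncomputable def gen : Bool → PSL(2, ℤ) := fun b => cond b Ub Sb

theorem gen_pow (b : Bool) : gen b ^ ord b = 1 := by
  cases b
  · exact Sb_sq
  · exact Ub_cube

/-- the canonical homomorphism `C₂ * C₃ → PSL(2, ℤ)` -/
noncomputable def freeHom : Monoid.CoprodI cyc →* PSL(2, ℤ) :=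
  Monoid.CoprodI.lift fun b => cycHom (ord b) (gen b) (gen_pow b)

theorem freeHom_of (b : Bool) :
    freeHom (Monoid.CoprodI.of (M := cyc) (i := b) (Multiplicative.ofAdd (1 : ZMod (ord b)))) =
      gen b := by
  rw [freeHom, Monoid.CoprodI.lift_of, cycHom_apply_one]

/-- the ping-pong sets: `Re > 0` for `C₂`, `Re < 0` for `C₃` -/
def pp : Bool → Set ℍ := fun b => cond b {z | z.re < 0} {z | 0 < z.re}

theorem two_cases : ∀ h : Multiplicative (ZMod 2), h ≠ 1 → h = Multiplicative.ofAdd 1 := by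
  decide

theorem three_cases : ∀ h : Multiplicative (ZMod 3), h ≠ 1 →
    h = Multiplicative.ofAdd 1 ∨ h = Multiplicative.ofAdd 1 * Multiplicative.ofAdd 1 := by
  decide

theorem S_smul_mem {z : ℍ} (hz : z.re < 0) : 0 < (S • z).re := by
  rw [re_S_smul]
  have h1 : 0 < Complex.normSq (z : ℂ) := Complex.normSq_pos.mpr z.ne_zero
  exact div_pos (by linarith) h1

theorem U_smul_re {z : ℍ} (hz : -1 < z.re) : ((S * T) • z).re < 0 := by
  rw [re_U_smul]
  have h1 : 0 < Complex.normSq ((T • z : ℍ) : ℂ) := Complex.normSq_pos.mpr (T • z).ne_zero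
  exact div_neg_of_neg_of_pos (by linarith) h1

theorem U_smul_re_gt {z : ℍ} (hz : 0 < z.re) : -1 < ((S * T) • z).re := by
  rw [re_U_smul, normSq_T_smul]
  have h2 : 0 < z.im := z.im_pos
  have h1 : 0 < (z.re + 1) ^ 2 + z.im ^ 2 := by positivity
  rw [lt_div_iff₀ h1]
  nlinarith

theorem ping_pong_aux : Pairwise fun i j => ∀ h : cyc i, h ≠ 1 →
    (Monoid.CoprodI.lift (fun b => actHom.comp (cycHom (ord b) (gen b) (gen_pow b))))
      (Monoid.CoprodI.of h) • pp j ⊆ pp i := by
  intro i j hij h hne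
  rw [Monoid.CoprodI.lift_of, MonoidHom.comp_apply]
  cases i <;> cases j
  · exact absurd rfl hij
  · -- `C₂` maps `Re < 0` into `Re > 0`
    have h' := two_cases h hne
    rintro _ ⟨z, hz, rfl⟩
    have h1 : cycHom (ord false) (gen false) (gen_pow false) h = Sb := by
      rw [h']; exact cycHom_apply_one _ _ _
    rw [h1]
    exact S_smul_mem hz
  · -- `C₃` maps `Re > 0` into `Re < 0`
    rintro _ ⟨z, hz, rfl⟩
    have hz' : 0 < z.re := hz
    rcases three_cases h hne with h' | h'
    · have h1 : cycHom (ord true) (gen true) (gen_pow true) h = Ub := by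
        rw [h']; exact cycHom_apply_one _ _ _
      rw [h1]
      exact U_smul_re (by linarith)
    · have h1 : cycHom (ord true) (gen true) (gen_pow true) h = Ub ^ 2 := by
        rw [h', map_mul, sq]
        congr 1 <;> exact cycHom_apply_one _ _ _
      rw [h1, sq, map_mul]
      show (((S * T) • ((S * T) • z) : ℍ)).re < 0
      exact U_smul_re (U_smul_re_gt hz')
  · exact absurd rfl hij

theorem pp_nonempty (b : Bool) : (pp b).Nonempty := by
  cases b
  · refine ⟨UpperHalfPlane.mk ⟨1, 1⟩ (by simp), ?_⟩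
    show (0 : ℝ) < 1
    norm_num
  · refine ⟨UpperHalfPlane.mk ⟨-1, 1⟩ (by simp), ?_⟩
    show (-1 : ℝ) < 0
    norm_num

theorem pp_disjoint : Pairwise (Function.onFun Disjoint pp) := by
  intro i j hij
  rw [Function.onFun, Set.disjoint_left]
  cases i <;> cases j
  · exact absurd rfl hij
  · intro z (h1 : 0 < z.re) (h2 : z.re < 0)
    linarith
  · intro z (h1 : z.re < 0) (h2 : 0 < z.re)
    linarith
  · exact absurd rfl hij

theorem card_cyc : (3 : Cardinal) ≤ Cardinal.mk (cyc true) := by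
  show (3 : Cardinal) ≤ Cardinal.mk (Multiplicative (ZMod 3))
  rw [Cardinal.mk_fintype]
  have : Fintype.card (Multiplicative (ZMod 3)) = 3 := by
    rw [Fintype.card_multiplicative, ZMod.card]
  rw [this]
  norm_num

theorem actHom_comp_freeHom :
    actHom.comp freeHom =
      Monoid.CoprodI.lift (fun b => actHom.comp (cycHom (ord b) (gen b) (gen_pow b))) := by
  refine Monoid.CoprodI.ext_hom _ _ fun b => ?_
  refine MonoidHom.ext fun x => ?_
  simp [freeHom]

/-- **Ping-pong**: `C₂ * C₃ → PSL(2, ℤ)` is injective. -/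
theorem freeHom_injective : Function.Injective freeHom := by
  have h := Monoid.CoprodI.lift_injective_of_ping_pong
    (fun b => actHom.comp (cycHom (ord b) (gen b) (gen_pow b)))
    (Or.inr ⟨true, card_cyc⟩) pp pp_nonempty pp_disjoint ping_pong_aux
  rw [← actHom_comp_freeHom] at h
  exact Function.Injective.of_comp h

theorem freeHom_surjective : Function.Surjective freeHom := by
  rw [← MonoidHom.range_eq_top, eq_top_iff, ← closure_Sb_Ub, Subgroup.closure_le]
  rintro x (rfl | rfl)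
  · exact ⟨_, freeHom_of false⟩
  · exact ⟨_, freeHom_of true⟩

/-- **`PSL(2, ℤ) ≅ C₂ * C₃`.** -/
noncomputable def freeEquiv : Monoid.CoprodI cyc ≃* PSL(2, ℤ) :=
  MulEquiv.ofBijective freeHom ⟨freeHom_injective, freeHom_surjective⟩

theorem freeEquiv_symm_gen (b : Bool) :
    freeEquiv.symm (gen b) =
      Monoid.CoprodI.of (M := cyc) (i := b) (Multiplicative.ofAdd (1 : ZMod (ord b))) := by
  rw [MulEquiv.symm_apply_eq]
  exact (freeHom_of b).symm

/-! ### The universal property -/

section UP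

variable {H : Type*} [Group H]

/-- the family of homomorphisms `C₂ → H`, `C₃ → H` given by `s`, `u` -/
noncomputable def liftFam (s u : H) (hs : s ^ 2 = 1) (hu : u ^ 3 = 1) :
    ∀ b : Bool, cyc b →* H :=
  fun b => cycHom (ord b) (cond b u s) (by cases b; exacts [hs, hu])

/-- **Universal property of `PSL(2, ℤ)`**: the homomorphism with prescribed values `s` at `Sb`
(`s ^ 2 = 1`) and `u` at `Ub` (`u ^ 3 = 1`). -/
noncomputable def liftHom (s u : H) (hs : s ^ 2 = 1) (hu : u ^ 3 = 1) : PSL(2, ℤ) →* H :=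
  (Monoid.CoprodI.lift (liftFam s u hs hu)).comp freeEquiv.symm.toMonoidHom

@[simp] theorem liftHom_Sb (s u : H) (hs : s ^ 2 = 1) (hu : u ^ 3 = 1) :
    liftHom s u hs hu Sb = s := by
  have h := freeEquiv_symm_gen false
  rw [liftHom, MonoidHom.comp_apply]
  show Monoid.CoprodI.lift (liftFam s u hs hu) (freeEquiv.symm (gen false)) = s
  rw [h, Monoid.CoprodI.lift_of, liftFam, cycHom_apply_one]
  rfl

@[simp] theorem liftHom_Ub (s u : H) (hs : s ^ 2 = 1) (hu : u ^ 3 = 1) :
    liftHom s u hs hu Ub = u := by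
  have h := freeEquiv_symm_gen true
  rw [liftHom, MonoidHom.comp_apply]
  show Monoid.CoprodI.lift (liftFam s u hs hu) (freeEquiv.symm (gen true)) = u
  rw [h, Monoid.CoprodI.lift_of, liftFam, cycHom_apply_one]
  rfl

theorem exists_unique_hom (s u : H) (hs : s ^ 2 = 1) (hu : u ^ 3 = 1) :
    ∃! f : PSL(2, ℤ) →* H, f Sb = s ∧ f Ub = u := by
  refine ⟨liftHom s u hs hu, ⟨liftHom_Sb s u hs hu, liftHom_Ub s u hs hu⟩, ?_⟩
  rintro f ⟨hfS, hfU⟩
  exact hom_ext (by rw [hfS, liftHom_Sb]) (by rw [hfU, liftHom_Ub])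

/-- The `SL(2, ℤ)`-version: a homomorphism `SL(2, ℤ) →* H`, trivial on `-1`, with prescribed
values at `S` and `S * T`. -/
noncomputable def liftSL (s u : H) (hs : s ^ 2 = 1) (hu : u ^ 3 = 1) : SL(2, ℤ) →* H :=
  (liftHom s u hs hu).comp proj

@[simp] theorem liftSL_S (s u : H) (hs : s ^ 2 = 1) (hu : u ^ 3 = 1) :
    liftSL s u hs hu S = s := liftHom_Sb s u hs hu

@[simp] theorem liftSL_ST (s u : H) (hs : s ^ 2 = 1) (hu : u ^ 3 = 1) :
    liftSL s u hs hu (S * T) = u := liftHom_Ub s u hs hu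

@[simp] theorem liftSL_neg_one (s u : H) (hs : s ^ 2 = 1) (hu : u ^ 3 = 1) :
    liftSL s u hs hu (-1) = 1 := by
  rw [liftSL, MonoidHom.comp_apply, proj_neg_one, map_one]

theorem liftSL_neg (s u : H) (hs : s ^ 2 = 1) (hu : u ^ 3 = 1) (g : SL(2, ℤ)) :
    liftSL s u hs hu (-g) = liftSL s u hs hu g := by
  rw [liftSL, MonoidHom.comp_apply, MonoidHom.comp_apply, proj_neg]

/-- Homomorphisms out of `SL(2, ℤ)` are determined by their values at `S` and `S * T`. -/
theorem hom_ext_SL {f g : SL(2, ℤ) →* H} (hS : f S = g S) (hU : f (S * T) = g (S * T)) :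
    f = g := by
  refine MonoidHom.eq_of_eqOn_dense closure_S_ST ?_
  rintro x (rfl | rfl)
  · exact hS
  · exact hU

end UP

end Fermat.Agent.Eis.PSL2
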