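/-
Program E (S16), node N2-ram, slash computation for identity (R2) `12 θ E₂ = E₂² - E₄` (consumed by RamE2).

We show that `12 • D E₂ - E₂²` is invariant under the weight `4` slash action of `SL(2, ℤ)`.
Given the boundedness of `D E₂` at `i∞` it is therefore a level one modular form of weight `4`,
equal to `-E₄`.
-/
import Mathlib

set_option autoImplicit false

noncomputable section

namespace Fermat.Agent.Eis.Ram2

open UpperHalfPlane hiding I
open Real Complex EisensteinSeries Derivative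
open scoped Manifold MatrixGroups ModularForm Topology

/-- `D2 γ` is holomorphic. -/
lemma D2_mdifferentiable (γ : SL(2, ℤ)) : MDiff (D2 γ) := by
  have h : D2 γ = fun z : ℍ => (2 * π * I * γ 1 0) * (denom γ z)⁻¹ := by
    ext z
    simp [D2, div_eq_mul_inv]
  rw [h]
  exact MDifferentiable.mul mdifferentiable_const (mdifferentiable_inv_denom _)

/-- The normalised derivative of `D2 γ`. -/
lemma D_D2 (γ : SL(2, ℤ)) (z : ℍ) :
    D (D2 γ) z = -((γ 1 0 : ℂ) / denom γ z) ^ 2 := by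
  have hd := hasDerivAt_denom_zpow (γ : GL (Fin 2) ℝ) (-1) z
  have hcomp : (D2 γ ∘ ofComplex) =ᶠ[𝓝 ↑z]
      fun w => (2 * π * I * γ 1 0) * (denom γ w) ^ (-1 : ℤ) := by
    filter_upwards [isOpen_upperHalfPlaneSet.mem_nhds z.im_pos] with w hw
    simp [D2, ofComplex_apply_of_im_pos hw, div_eq_mul_inv]
  have h1 := ((hd.const_mul (2 * π * I * γ 1 0)).congr_of_eventuallyEq hcomp).deriv
  simp only [normalizedDerivOfComplex, h1]
  have hz := denom_ne_zero (γ : GL (Fin 2) ℝ) z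
  have h2pi : (2 * π * I : ℂ) ≠ 0 := two_pi_I_ne_zero
  have h3 : ((γ : GL (Fin 2) ℝ) 1 0 : ℂ) = ((γ 1 0 : ℤ) : ℂ) := by
    simp
  rw [show ((-1 : ℤ) - 1) = -2 by norm_num, zpow_neg, h3]
  field_simp
  ring

/-- The algebraic identity behind the modularity of `12 D E₂ - E₂²`. -/
lemma ram_key (P E Dz X : ℂ) (hP : P ≠ 0) :
    12 * (Dz - 3 / P ^ 2 * -X ^ 2 + 2 * (2 * P * I)⁻¹ * X * (E - 3 / P ^ 2 * (2 * P * I * X))) -
      (E - 3 / P ^ 2 * (2 * P * I * X)) ^ 2 = 12 * Dz - E ^ 2 := by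
  have hI : I ^ 2 = -1 := I_sq
  have hI0 : I ≠ 0 := I_ne_zero
  field_simp
  linear_combination (12 * P * X * E - 36 * I * X ^ 2) * hI

/-- The weight four combination `12 D E₂ - E₂²`. -/
def ramG : ℍ → ℂ := fun z => 12 * D E2 z - E2 z ^ 2

/-- **Quasi-modularity of `E₂` gives modularity of `12 D E₂ - E₂²`.** -/
theorem ramG_slash (γ : SL(2, ℤ)) : ramG ∣[(4 : ℤ)] γ = ramG := by
  ext z
  have hz := denom_ne_zero (γ : GL (Fin 2) ℝ) z
  have hD2 := D2_mdifferentiable γ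
  set c₀ : ℂ := 1 / (2 * riemannZeta 2) with hc₀
  have h1 := congrFun (normalizedDerivOfComplex_SL_slash (k := 2) E2_mdifferentiable (γ := γ)) z
  have h2 : E2 ∣[(2 : ℤ)] γ = E2 - c₀ • D2 γ := E2_slash_action γ
  have h3 : D (E2 - c₀ • D2 γ) z = D E2 z - c₀ * D (D2 γ) z := by
    rw [normalizedDerivOfComplex_sub _ _ E2_mdifferentiable (hD2.const_smul c₀),
      normalizedDerivOfComplex_smul c₀ _ hD2]
    simp
  rw [h2, h3, D_D2] at h1
  have h4 : (ramG ∣[(4 : ℤ)] γ) z =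
      12 * (D E2 ∣[(2 : ℤ) + 2] γ) z - ((E2 ∣[(2 : ℤ)] γ) z) ^ 2 := by
    simp only [ModularForm.SL_slash_apply, ramG]
    rw [show ((2 : ℤ) + 2) = 4 by norm_num, show (-(4 : ℤ)) = -2 + -2 by norm_num,
      zpow_add₀ hz]
    ring
  rw [h4, h2]
  simp only [Pi.sub_apply, Pi.smul_apply, smul_eq_mul] at h1 ⊢
  have hpi : (π : ℂ) ≠ 0 := ofReal_ne_zero.mpr pi_ne_zero
  have hc₀' : c₀ = 3 / (π : ℂ) ^ 2 := by
    rw [hc₀, riemannZeta_two]
    field_simp
    ring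
  have hD2z : D2 γ z = 2 * π * I * ((γ 1 0 : ℂ) / denom γ z) := by
    simp [D2]
    ring
  rw [hD2z, hc₀'] at h1 ⊢
  set X : ℂ := (γ 1 0 : ℂ) / denom γ z
  have h5 : (D E2 ∣[(2 : ℤ) + 2] γ) z = D E2 z - 3 / (π : ℂ) ^ 2 * (-X ^ 2) +
      2 * (2 * π * I)⁻¹ * X * (E2 z - 3 / (π : ℂ) ^ 2 * (2 * π * I * X)) := by
    linear_combination -h1
  rw [h5, ramG]
  exact ram_key (π : ℂ) (E2 z) (D E2 z) X hpi

end Fermat.Agent.Eis.Ram2
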