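import Mathlib.NumberTheory.ModularForms.LevelOne.GradedRing
import Mathlib.NumberTheory.ModularForms.Derivative
import Mathlib.RingTheory.PowerSeries.Derivative
import Mathlib.Analysis.Calculus.FDeriv.Analytic

/-!
# Program E (S16), node N2-ram, generic layer: the `q`-expansion of the derivative

* `theta` : the operator `θ = q d/dq` on power series.
* `hasSum_D` : termwise differentiation of a `q`-expansion.
* `QNice f` : `f` is `1`-periodic, holomorphic, bounded at `i∞` (same three fields as
  `Fermat.Agent.S23.IsNice`; bridge `QNice.of_triple`), `QNice.deriv : QNice (D f)` and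
  **`QNice.qExpansion_D : qExpansion 1 (D f) = theta (qExpansion 1 f)`** (`qExpansion_D'` with
  `X * derivative`).
The Ramanujan identities themselves are in `Eis/RamanujanQR.lean` (and `Eis/RamE2.lean`).
-/

set_option autoImplicit false

open UpperHalfPlane ModularForm EisensteinSeries ModularFormClass MatrixGroups Derivative
open scoped ArithmeticFunction.sigma Manifold Topology

noncomputable section
namespace Fermat.Agent.Eis.Ram

/-! ### The operator `θ = q d/dq` -/

section Theta

variable {R : Type*} [CommSemiring R]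

/-- `θ = q d/dq` on power series: the `n`-th coefficient is multiplied by `n`. -/
def theta (f : PowerSeries R) : PowerSeries R :=
  PowerSeries.mk fun n => (n : R) * PowerSeries.coeff n f

@[simp] theorem coeff_theta (f : PowerSeries R) (n : ℕ) :
    PowerSeries.coeff n (theta f) = (n : R) * PowerSeries.coeff n f := by
  simp [theta]

theorem theta_eq (f : PowerSeries R) : theta f = PowerSeries.X * PowerSeries.derivative R f := by
  ext n
  rcases n with _ | n
  · simp
  · rw [coeff_theta, PowerSeries.coeff_succ_X_mul, PowerSeries.coeff_derivative, mul_comm]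
    push_cast
    rfl

@[simp] theorem theta_zero : theta (0 : PowerSeries R) = 0 := by
  ext n; simp

theorem theta_add (f g : PowerSeries R) : theta (f + g) = theta f + theta g := by
  ext n; simp [mul_add]

/-- Leibniz rule. -/
theorem theta_mul (f g : PowerSeries R) : theta (f * g) = theta f * g + f * theta g := by
  rw [theta_eq, theta_eq, theta_eq, Derivation.leibniz, smul_eq_mul, smul_eq_mul]
  ring

theorem theta_C (r : R) : theta (PowerSeries.C r) = 0 := by
  rw [theta_eq, PowerSeries.derivative_C, mul_zero]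

@[simp] theorem theta_one : theta (1 : PowerSeries R) = 0 := by
  rw [← map_one (PowerSeries.C (R := R)), theta_C]

theorem theta_C_mul (r : R) (f : PowerSeries R) : theta (PowerSeries.C r * f) = PowerSeries.C r * theta f := by
  rw [theta_mul, theta_C, zero_mul, zero_add]

theorem theta_pow (f : PowerSeries R) (n : ℕ) :
    theta (f ^ (n + 1)) = (n + 1 : ℕ) * f ^ n * theta f := by
  induction n with
  | zero => simp
  | succ n ih =>
    rw [pow_succ, theta_mul, ih]
    push_cast
    ring

theorem theta_map {S : Type*} [CommSemiring S] (φ : R →+* S) (f : PowerSeries R) :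
    theta (PowerSeries.map φ f) = PowerSeries.map φ (theta f) := by
  ext n; simp

end Theta

theorem theta_sub {R : Type*} [CommRing R] (f g : PowerSeries R) :
    theta (f - g) = theta f - theta g := by
  ext n; simp [mul_sub]

theorem theta_neg {R : Type*} [CommRing R] (f : PowerSeries R) : theta (-f) = -theta f := by
  ext n; simp

/-! ### Termwise differentiation of a `q`-expansion -/

section Deriv

local notation "𝕢" => Function.Periodic.qParam

/-- **Termwise differentiation**: if `f τ = ∑ c m q^m` on the upper half plane (and the cusp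
function is analytic at `0`, `f` is `1`-periodic) then `D f τ = ∑ m c m q^m`. -/
theorem hasSum_D {f : ℍ → ℂ} {c : ℕ → ℂ}
    (hfper : Function.Periodic (f ∘ ofComplex) ((1 : ℝ) : ℂ))
    (hfan : AnalyticAt ℂ (cuspFunction 1 f) 0)
    (hf : ∀ τ : ℍ, HasSum (fun m : ℕ ↦ c m • 𝕢 1 τ ^ m) (f τ)) (τ : ℍ) :
    HasSum (fun m : ℕ ↦ ((m : ℂ) * c m) • 𝕢 1 τ ^ m) (D f τ) := by
  set p : FormalMultilinearSeries ℂ ℂ ℂ := .ofScalars ℂ c with hp
  have H : HasFPowerSeriesOnBall (cuspFunction 1 f) p 0 1 :=
    hasFPowerSeriesOnBall_cuspFunction one_pos hfan hf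
  have H' := H.fderiv
  set q : ℂ := 𝕢 1 τ with hq
  have hq1 : ‖q‖ < 1 := Function.Periodic.norm_qParam_lt_one one_pos τ.im_pos
  have hqball : q ∈ Metric.eball (0 : ℂ) 1 := by
    rw [← ENNReal.coe_one, Metric.eball_coe, NNReal.coe_one, mem_ball_zero_iff]
    exact hq1
  have h1 := H'.hasSum hqball
  rw [zero_add] at h1
  -- evaluate at `q`
  have h2 := (ContinuousLinearMap.apply ℂ ℂ q).hasSum h1
  simp only [ContinuousLinearMap.apply_apply] at h2
  have h3 : ∀ b : ℕ, ((p.derivSeries b) fun _ => q) q =
      (((b + 1 : ℕ) : ℂ) * c (b + 1)) • q ^ (b + 1) := by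
    intro b
    rw [FormalMultilinearSeries.derivSeries_apply_diag, hp,
      FormalMultilinearSeries.ofScalars_apply_eq]
    simp only [smul_eq_mul, nsmul_eq_mul]
    push_cast
    ring
  simp only [h3] at h2
  -- the value
  have hval : D f τ = (fderiv ℂ (cuspFunction 1 f) q) q := by
    have hcf : DifferentiableAt ℂ (cuspFunction 1 f) q :=
      (H.analyticAt_of_mem hqball).differentiableAt
    have hqd : HasDerivAt (𝕢 1) (q * (2 * Real.pi * Complex.I)) (τ : ℂ) := by
      have h0 : HasDerivAt (fun z : ℂ => 2 * Real.pi * Complex.I * z / ((1 : ℝ) : ℂ))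
          (2 * Real.pi * Complex.I) (τ : ℂ) := by
        simpa using ((hasDerivAt_id (τ : ℂ)).const_mul (2 * Real.pi * Complex.I)).div_const
          (((1 : ℝ) : ℂ))
      have h1 := h0.cexp
      have hfun : (fun z : ℂ => Complex.exp (2 * Real.pi * Complex.I * z / ((1 : ℝ) : ℂ))) = 𝕢 1 := by
        funext z; rfl
      rw [hfun] at h1
      have hv : Complex.exp (2 * Real.pi * Complex.I * (τ : ℂ) / ((1 : ℝ) : ℂ)) = q := rfl
      rw [hv] at h1
      exact h1
    have hcomp : HasDerivAt (cuspFunction 1 f ∘ 𝕢 1)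
        (deriv (cuspFunction 1 f) q * (q * (2 * Real.pi * Complex.I))) (τ : ℂ) :=
      (hcf.hasDerivAt).comp (τ : ℂ) hqd
    have heq : (f ∘ ofComplex) =ᶠ[𝓝 (τ : ℂ)] (cuspFunction 1 f ∘ 𝕢 1) := by
      have hopen : {w : ℂ | 0 < w.im} ∈ 𝓝 (τ : ℂ) :=
        (Complex.continuous_im.isOpen_preimage _ isOpen_Ioi).mem_nhds τ.im_pos
      filter_upwards [hopen] with w hw
      have := eq_cuspFunction (f := f) (ofComplex w) one_ne_zero hfper
      simp only [Function.comp_apply]
      rw [← this, ofComplex_apply_of_im_pos hw]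
    have hder : deriv (f ∘ ofComplex) (τ : ℂ) =
        deriv (cuspFunction 1 f) q * (q * (2 * Real.pi * Complex.I)) := by
      rw [heq.deriv_eq]
      exact hcomp.deriv
    unfold normalizedDerivOfComplex
    rw [hder]
    have hfd : (fderiv ℂ (cuspFunction 1 f) q) q = q * deriv (cuspFunction 1 f) q := by
      rw [fderiv_eq_smul_deriv, smul_eq_mul]
    rw [hfd]
    have hpi : (2 * Real.pi * Complex.I : ℂ) ≠ 0 := by
      simp [Real.pi_ne_zero]
    field_simp
  rw [hval, ← hasSum_nat_add_iff' 1]
  simpa using h2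

theorem qParam_add_one (w : ℂ) : 𝕢 1 (w + 1) = 𝕢 1 w := by
  simp only [Function.Periodic.qParam]
  rw [show 2 * (Real.pi : ℂ) * Complex.I * (w + 1) / ((1 : ℝ) : ℂ) =
      2 * Real.pi * Complex.I * w / ((1 : ℝ) : ℂ) + 2 * Real.pi * Complex.I by push_cast; ring,
    Complex.exp_add, Complex.exp_two_pi_mul_I, mul_one]

/-- Functions on `ℍ` which are `1`-periodic, holomorphic and bounded at `i∞`: they have a
`q`-expansion converging on the whole upper half plane. -/
structure QNice (f : ℍ → ℂ) : Prop where
  per : Function.Periodic (f ∘ ofComplex) ((1 : ℝ) : ℂ)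
  holo : MDiff f
  bdd : IsBoundedAtImInfty f

namespace QNice

variable {f g : ℍ → ℂ}

theorem analyticAt (hf : QNice f) : AnalyticAt ℂ (cuspFunction 1 f) 0 :=
  analyticAt_cuspFunction_zero one_pos hf.per hf.holo hf.bdd

theorem hasSum (hf : QNice f) (τ : ℍ) :
    HasSum (fun m : ℕ ↦ (qExpansion 1 f).coeff m • 𝕢 1 τ ^ m) (f τ) :=
  UpperHalfPlane.hasSum_qExpansion one_pos hf.per hf.holo hf.bdd τ

/-- A holomorphic function given by a convergent `q`-expansion is nice. -/
theorem of_hasSum {c : ℕ → ℂ} (hholo : MDiff f)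
    (hf : ∀ τ : ℍ, HasSum (fun m : ℕ ↦ c m • 𝕢 1 τ ^ m) (f τ)) : QNice f where
  per := by
    intro w
    rw [Complex.ofReal_one]
    by_cases hw : 0 < w.im
    · have hw1 : 0 < (w + 1).im := by simpa using hw
      simp only [Function.comp_apply]
      have hq : 𝕢 1 ((ofComplex (w + 1) : ℍ) : ℂ) = 𝕢 1 ((ofComplex w : ℍ) : ℂ) := by
        rw [ofComplex_apply_of_im_pos hw1, ofComplex_apply_of_im_pos hw]
        exact qParam_add_one w
      have h1 := hf (ofComplex (w + 1))
      rw [hq] at h1
      exact h1.unique (hf (ofComplex w))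
    · have hw' : w.im ≤ 0 := not_lt.mp hw
      have hw1 : (w + 1).im ≤ 0 := by simpa using hw'
      rw [Function.comp_apply, Function.comp_apply, ofComplex_apply_of_im_nonpos hw1,
        ofComplex_apply_of_im_nonpos hw']
  holo := hholo
  bdd := isBoundedAtImInfty_of_hasSum_qExpansion one_pos hf

theorem coeff_eq_of_hasSum {c : ℕ → ℂ} (hf : QNice f)
    (hc : ∀ τ : ℍ, HasSum (fun m : ℕ ↦ c m • 𝕢 1 τ ^ m) (f τ)) (m : ℕ) :
    c m = PowerSeries.coeff m (qExpansion 1 f) := by
  have han : AnalyticAt ℂ (cuspFunction 1 f) 0 := hf.analyticAt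
  have h1 := (hasFPowerSeriesOnBall_cuspFunction one_pos han hc).hasFPowerSeriesAt
  have h2 : HasFPowerSeriesAt (cuspFunction 1 f)
      (.ofScalars ℂ fun m ↦ PowerSeries.coeff m (qExpansion 1 f)) 0 := by
    simpa [qExpansion_coeff, div_eq_mul_inv, mul_comm] using han.hasFPowerSeriesAt
  simpa [FormalMultilinearSeries.coeff_ofScalars] using
    congr_arg (FormalMultilinearSeries.coeff · m) (h1.eq_formalMultilinearSeries h2)

theorem qExpansion_eq_of_hasSum {c : ℕ → ℂ} (hf : QNice f)
    (h : ∀ τ : ℍ, HasSum (fun m : ℕ ↦ c m • 𝕢 1 τ ^ m) (f τ)) :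
    qExpansion 1 f = PowerSeries.mk c := by
  ext m
  rw [PowerSeries.coeff_mk, hf.coeff_eq_of_hasSum h m]

theorem mul (hf : QNice f) (hg : QNice g) : QNice (f * g) where
  per := by
    have : (f * g) ∘ ofComplex = (f ∘ ofComplex) * (g ∘ ofComplex) := rfl
    rw [this]
    exact hf.per.mul hg.per
  holo := hf.holo.mul hg.holo
  bdd := hf.bdd.mul hg.bdd

theorem sub (hf : QNice f) (hg : QNice g) : QNice (f - g) where
  per := by
    have : (f - g) ∘ ofComplex = (f ∘ ofComplex) - (g ∘ ofComplex) := rfl
    rw [this]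
    exact hf.per.sub hg.per
  holo := hf.holo.sub hg.holo
  bdd := hf.bdd.sub hg.bdd

theorem smul (a : ℂ) (hf : QNice f) : QNice (a • f) where
  per := by
    have : (a • f) ∘ ofComplex = a • (f ∘ ofComplex) := rfl
    rw [this]
    exact hf.per.smul a
  holo := hf.holo.const_smul a
  bdd := hf.bdd.const_smul_left a

theorem qExpansion_mul (hf : QNice f) (hg : QNice g) :
    qExpansion 1 (f * g) = qExpansion 1 f * qExpansion 1 g :=
  UpperHalfPlane.qExpansion_mul hf.analyticAt hg.analyticAt

theorem qExpansion_sub (hf : QNice f) (hg : QNice g) :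
    qExpansion 1 (f - g) = qExpansion 1 f - qExpansion 1 g :=
  UpperHalfPlane.qExpansion_sub hf.analyticAt hg.analyticAt

theorem qExpansion_smul (a : ℂ) (hf : QNice f) :
    qExpansion 1 (a • f) = a • qExpansion 1 f :=
  UpperHalfPlane.qExpansion_smul hf.analyticAt a

/-- The normalised derivative of a nice function is nice. -/
theorem deriv (hf : QNice f) : QNice (D f) :=
  of_hasSum (normalizedDerivOfComplex_mdifferentiable hf.holo)
    (hasSum_D hf.per hf.analyticAt hf.hasSum)

/-- **The `q`-expansion of `D f` is `θ` of the `q`-expansion of `f`.** -/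
theorem qExpansion_D (hf : QNice f) : qExpansion 1 (D f) = theta (qExpansion 1 f) := by
  ext m
  rw [coeff_theta,
    ← hf.deriv.coeff_eq_of_hasSum (hasSum_D hf.per hf.analyticAt hf.hasSum) m]

/-- From the unbundled triple (the shape of `Fermat.Agent.S23.IsNice`, which is definitionally this
conjunction): `QNice.of_triple hF` for `hF : S23.IsNice F`. -/
theorem of_triple
    (h : Function.Periodic (f ∘ ofComplex) 1 ∧ MDiff f ∧ IsBoundedAtImInfty f) : QNice f :=
  ⟨by simpa using h.1, h.2.1, h.2.2⟩

theorem to_triple (hf : QNice f) :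
    Function.Periodic (f ∘ ofComplex) 1 ∧ MDiff f ∧ IsBoundedAtImInfty f :=
  ⟨by simpa using hf.per, hf.holo, hf.bdd⟩

/-- `qExpansion_D` in the form `X * derivative`. -/
theorem qExpansion_D' (hf : QNice f) :
    qExpansion 1 (D f) = PowerSeries.X * PowerSeries.derivative ℂ (qExpansion 1 f) := by
  rw [hf.qExpansion_D, theta_eq]

/-- coefficient form of `qExpansion_D` -/
theorem coeff_qExpansion_D (hf : QNice f) (n : ℕ) :
    PowerSeries.coeff n (qExpansion 1 (D f)) = (n : ℂ) * PowerSeries.coeff n (qExpansion 1 f) := by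
  rw [hf.qExpansion_D, coeff_theta]

/-- Level one modular forms are nice. -/
theorem of_modularForm {k : ℤ} (F : ModularForm 𝒮ℒ k) : QNice (F : ℍ → ℂ) where
  per := SlashInvariantFormClass.periodic_comp_ofComplex F one_mem_strictPeriods_SL
  holo := ModularFormClass.holo F
  bdd := ModularFormClass.bdd_at_infty F

end QNice

end Deriv

end Fermat.Agent.Eis.Ram
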