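import Mathlib
import Fermat.Agent.Eis.Ramanujan
import Fermat.Agent.Eis.SerreForm
import Fermat.Agent.Eis.RamE2Slash

/-!
# Program E (S16), node N2-ram: Ramanujan's identities as identities of `q`-expansions

With `P = qExpansion 1 E2`, `Q = qExpansion 1 E₄`, `R = qExpansion 1 E₆` (power series over `ℂ`)
and `θ = X * d/dX`:

* `ramanujan_E4 : 3 * θ Q = P * Q - R`
* `ramanujan_E6 : 2 * θ R = P * R - Q ^ 2`
* `ramanujan_E2 : 12 * θ P = P ^ 2 - Q`

Route: the Serre derivative of a level one form is a level one form (`SerreForm.serreForm`), the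
`q`-expansion of `D F` is `θ` of the `q`-expansion of `F` (`Ram.QNice.qExpansion_D`), and a level
one form of weight `≤ 10` with vanishing constant term is zero (Mathlib's Sturm bound).
-/

set_option autoImplicit false

open UpperHalfPlane ModularForm EisensteinSeries ModularFormClass MatrixGroups Derivative
open Fermat.Agent.Eis.Ram
open scoped ArithmeticFunction.sigma Manifold Topology

noncomputable section
namespace Fermat.Agent.Eis.RamQR

local notation "𝕢" => Function.Periodic.qParam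

/-- `E2` is nice. -/
theorem qNice_E2 : QNice E2 :=
  QNice.of_hasSum (c := fun m : ℕ => (if m = 0 then 1 else -24 * (σ 1 m : ℂ)))
    E2_mdifferentiable fun τ => by
      simpa only [Function.Periodic.qParam, Complex.ofReal_one, div_one] using
        hasSum_qExpansion_E2 (z := τ)

theorem coeff_zero_qExpansion_E2 : PowerSeries.coeff 0 (qExpansion 1 E2) = 1 := by
  have h := qNice_E2.coeff_eq_of_hasSum
    (c := fun m : ℕ => (if m = 0 then 1 else -24 * (σ 1 m : ℂ))) (fun τ => by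
      simpa only [Function.Periodic.qParam, Complex.ofReal_one, div_one] using
        hasSum_qExpansion_E2 (z := τ)) 0
  simpa using h.symm

/-- A level one form of weight `k` with `k.toNat < 12` and vanishing constant term is zero. -/
theorem eq_zero_of_coeff_zero {k : ℤ} (hk : k.toNat < 12) (G : ModularForm 𝒮ℒ k)
    (h0 : PowerSeries.coeff 0 (qExpansion 1 G) = 0) : G = 0 := by
  apply sturm_bound_levelOne
  rw [Nat.div_eq_of_lt hk]
  have h1 : ((1 : ℕ) : ℕ∞) ≤ (qExpansion 1 G).order :=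
    PowerSeries.nat_le_order _ 1 fun i hi => by
      have : i = 0 := by omega
      rw [this]; exact h0
  exact lt_of_lt_of_le (by norm_num) h1

variable {k : ℤ}

/-- The `q`-expansion of the Serre derivative. -/
theorem qExpansion_serreForm (F : ModularForm 𝒮ℒ k) :
    qExpansion 1 (SerreForm.serreForm F) =
      theta (qExpansion 1 F) - ((k : ℂ) * 12⁻¹) • (qExpansion 1 E2 * qExpansion 1 F) := by
  have hF : QNice (F : ℍ → ℂ) := QNice.of_modularForm F
  have hfun : (⇑(SerreForm.serreForm F) : ℍ → ℂ) =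
      D (F : ℍ → ℂ) - ((k : ℂ) * 12⁻¹) • (E2 * (F : ℍ → ℂ)) := by
    rw [SerreForm.coe_serreForm, serreDerivative_eq]
    funext z
    simp only [Pi.sub_apply, Pi.smul_apply, Pi.mul_apply, smul_eq_mul]
    ring
  rw [hfun, QNice.qExpansion_sub hF.deriv ((qNice_E2.mul hF).smul _),
    QNice.qExpansion_smul _ (qNice_E2.mul hF), QNice.qExpansion_mul qNice_E2 hF, hF.qExpansion_D]

theorem coeff_zero_qExpansion_E4 : PowerSeries.coeff 0 (qExpansion 1 E₄) = 1 :=
  E_qExpansion_coeff_zero _ ⟨2, rfl⟩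

theorem coeff_zero_qExpansion_E6 : PowerSeries.coeff 0 (qExpansion 1 E₆) = 1 :=
  E_qExpansion_coeff_zero _ ⟨3, rfl⟩

theorem coeff_zero_mul (f g : PowerSeries ℂ) :
    PowerSeries.coeff 0 (f * g) = PowerSeries.coeff 0 f * PowerSeries.coeff 0 g := by
  simp [PowerSeries.coeff_mul]

/-- **Ramanujan's identity for `E₄`**: `3 θQ = PQ - R`. -/
theorem ramanujan_E4 :
    3 * theta (qExpansion 1 E₄) =
      qExpansion 1 E2 * qExpansion 1 E₄ - qExpansion 1 E₆ := by
  set H : ModularForm 𝒮ℒ (4 + 2) := SerreForm.serreForm E₄ with hH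
  set E6' : ModularForm 𝒮ℒ (4 + 2) := ModularForm.mcast (by norm_num) E₆ with hE6'
  set G : ModularForm 𝒮ℒ (4 + 2) := H - (-(3 : ℂ)⁻¹) • E6' with hG
  have hcoe : (⇑G : ℍ → ℂ) = ⇑H - (-(3 : ℂ)⁻¹) • (⇑E₆ : ℍ → ℂ) := by
    rw [hG]; rfl
  have hqG : qExpansion 1 G = qExpansion 1 H - (-(3 : ℂ)⁻¹) • qExpansion 1 E₆ := by
    rw [hcoe, QNice.qExpansion_sub (QNice.of_modularForm H) ((QNice.of_modularForm E₆).smul _),
      QNice.qExpansion_smul _ (QNice.of_modularForm E₆)]
  have hqH := qExpansion_serreForm E₄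
  rw [← hH] at hqH
  have h0 : PowerSeries.coeff 0 (qExpansion 1 G) = 0 := by
    rw [hqG, hqH]
    simp only [map_sub, PowerSeries.coeff_smul, coeff_theta, coeff_zero_mul,
      coeff_zero_qExpansion_E2, coeff_zero_qExpansion_E4, coeff_zero_qExpansion_E6, smul_eq_mul]
    push_cast
    ring
  have hG0 : G = 0 := eq_zero_of_coeff_zero (by decide) G h0
  have hq0 : qExpansion 1 G = 0 := by
    rw [hG0]
    exact qExpansion_zero 1
  rw [hqG, hqH] at hq0
  -- algebra
  have h3 : ∀ x : PowerSeries ℂ, (3 : PowerSeries ℂ) * x = (3 : ℂ) • x := fun x => by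
    rw [PowerSeries.smul_eq_C_mul, map_ofNat]
  rw [h3]
  ext n
  have key := congrArg (PowerSeries.coeff n) hq0
  simp only [map_sub, PowerSeries.coeff_smul, smul_eq_mul, map_zero] at key ⊢
  push_cast at key
  linear_combination 3 * key

/-- **Ramanujan's identity for `E₆`**: `2 θR = PR - Q²`. -/
theorem ramanujan_E6 :
    2 * theta (qExpansion 1 E₆) =
      qExpansion 1 E2 * qExpansion 1 E₆ - qExpansion 1 E₄ ^ 2 := by
  set H : ModularForm 𝒮ℒ (6 + 2) := SerreForm.serreForm E₆ with hH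
  set E44 : ModularForm 𝒮ℒ (6 + 2) := ModularForm.mcast (by norm_num) (E₄.mul E₄) with hE44
  set G : ModularForm 𝒮ℒ (6 + 2) := H - (-(2 : ℂ)⁻¹) • E44 with hG
  have hcoe : (⇑G : ℍ → ℂ) = ⇑H - (-(2 : ℂ)⁻¹) • ((⇑E₄ : ℍ → ℂ) * (⇑E₄ : ℍ → ℂ)) := by
    rw [hG]; rfl
  have hE4 : QNice (⇑E₄ : ℍ → ℂ) := QNice.of_modularForm E₄
  have hqG : qExpansion 1 G =
      qExpansion 1 H - (-(2 : ℂ)⁻¹) • (qExpansion 1 E₄ * qExpansion 1 E₄) := by
    rw [hcoe, QNice.qExpansion_sub (QNice.of_modularForm H) ((hE4.mul hE4).smul _),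
      QNice.qExpansion_smul _ (hE4.mul hE4), QNice.qExpansion_mul hE4 hE4]
  have hqH := qExpansion_serreForm E₆
  rw [← hH] at hqH
  have h0 : PowerSeries.coeff 0 (qExpansion 1 G) = 0 := by
    rw [hqG, hqH]
    simp only [map_sub, PowerSeries.coeff_smul, coeff_theta, coeff_zero_mul,
      coeff_zero_qExpansion_E2, coeff_zero_qExpansion_E4, coeff_zero_qExpansion_E6, smul_eq_mul]
    push_cast
    ring
  have hG0 : G = 0 := eq_zero_of_coeff_zero (by decide) G h0
  have hq0 : qExpansion 1 G = 0 := by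
    rw [hG0]
    exact qExpansion_zero 1
  rw [hqG, hqH] at hq0
  have h2 : ∀ x : PowerSeries ℂ, (2 : PowerSeries ℂ) * x = (2 : ℂ) • x := fun x => by
    rw [PowerSeries.smul_eq_C_mul, map_ofNat]
  rw [h2, pow_two]
  ext n
  have key := congrArg (PowerSeries.coeff n) hq0
  simp only [map_sub, PowerSeries.coeff_smul, smul_eq_mul, map_zero] at key ⊢
  push_cast at key
  linear_combination 2 * key

/-- `12 D E2 - E2²` as a level one modular form of weight `4`. -/
theorem exists_ramForm : ∃ G : ModularForm 𝒮ℒ 4, (⇑G : ℍ → ℂ) = Ram2.ramG := by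
  have hnice : QNice Ram2.ramG := by
    have h : Ram2.ramG = (12 : ℂ) • D E2 - E2 * E2 := by
      funext z
      simp only [Ram2.ramG, Pi.sub_apply, Pi.smul_apply, Pi.mul_apply, smul_eq_mul]
      ring
    rw [h]
    exact (qNice_E2.deriv.smul 12).sub (qNice_E2.mul qNice_E2)
  refine S23.Trace.exists_modularForm_of_invariant 4 Ram2.ramG ?_ hnice.holo hnice.bdd
  rintro h ⟨γ, rfl⟩
  have := Ram2.ramG_slash γ
  rw [ModularForm.SL_slash] at this
  exact this

/-- **Ramanujan's identity for `E₂`**: `12 θP = P² - Q`. -/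
theorem ramanujan_E2 :
    12 * theta (qExpansion 1 E2) = qExpansion 1 E2 ^ 2 - qExpansion 1 E₄ := by
  obtain ⟨G4, hG4⟩ := exists_ramForm
  set G : ModularForm 𝒮ℒ 4 := G4 - (-(1 : ℂ)) • E₄ with hG
  have hfun : Ram2.ramG = (12 : ℂ) • D E2 - E2 * E2 := by
    funext z
    simp only [Ram2.ramG, Pi.sub_apply, Pi.smul_apply, Pi.mul_apply, smul_eq_mul]
    ring
  have hcoe : (⇑G : ℍ → ℂ) =
      ((12 : ℂ) • D E2 - E2 * E2) - (-(1 : ℂ)) • (⇑E₄ : ℍ → ℂ) := by
    rw [← hfun, ← hG4, hG]; rfl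
  have hE4 : QNice (⇑E₄ : ℍ → ℂ) := QNice.of_modularForm E₄
  have hqG : qExpansion 1 G =
      ((12 : ℂ) • theta (qExpansion 1 E2) - qExpansion 1 E2 * qExpansion 1 E2) -
        (-(1 : ℂ)) • qExpansion 1 E₄ := by
    rw [hcoe, QNice.qExpansion_sub ((qNice_E2.deriv.smul 12).sub (qNice_E2.mul qNice_E2))
        (hE4.smul _),
      QNice.qExpansion_sub (qNice_E2.deriv.smul 12) (qNice_E2.mul qNice_E2),
      QNice.qExpansion_smul _ qNice_E2.deriv, QNice.qExpansion_mul qNice_E2 qNice_E2,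
      QNice.qExpansion_smul _ hE4, qNice_E2.qExpansion_D]
  have h0 : PowerSeries.coeff 0 (qExpansion 1 G) = 0 := by
    rw [hqG]
    simp only [map_sub, PowerSeries.coeff_smul, coeff_theta, coeff_zero_mul,
      coeff_zero_qExpansion_E2, coeff_zero_qExpansion_E4, smul_eq_mul]
    push_cast
    ring
  have hG0 : G = 0 := eq_zero_of_coeff_zero (by decide) G h0
  have hq0 : qExpansion 1 G = 0 := by
    rw [hG0]
    exact qExpansion_zero 1
  rw [hqG] at hq0
  have h12 : ∀ x : PowerSeries ℂ, (12 : PowerSeries ℂ) * x = (12 : ℂ) • x := fun x => by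
    rw [PowerSeries.smul_eq_C_mul, map_ofNat]
  rw [h12, pow_two]
  ext n
  have key := congrArg (PowerSeries.coeff n) hq0
  simp only [map_sub, PowerSeries.coeff_smul, smul_eq_mul, map_zero] at key ⊢
  linear_combination key

/-! ### The same identities with `X * d/dX` -/

theorem ramanujan_E4' :
    3 * (PowerSeries.X * PowerSeries.derivative ℂ (qExpansion 1 E₄)) =
      qExpansion 1 E2 * qExpansion 1 E₄ - qExpansion 1 E₆ := by
  rw [← theta_eq]; exact ramanujan_E4

theorem ramanujan_E6' :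
    2 * (PowerSeries.X * PowerSeries.derivative ℂ (qExpansion 1 E₆)) =
      qExpansion 1 E2 * qExpansion 1 E₆ - qExpansion 1 E₄ ^ 2 := by
  rw [← theta_eq]; exact ramanujan_E6

theorem ramanujan_E2' :
    12 * (PowerSeries.X * PowerSeries.derivative ℂ (qExpansion 1 E2)) =
      qExpansion 1 E2 ^ 2 - qExpansion 1 E₄ := by
  rw [← theta_eq]; exact ramanujan_E2

end Fermat.Agent.Eis.RamQR
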