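import Fermat.Statements.S16
import Fermat.Agent.S07
import Fermat.Agent.S20
import Fermat.Agent.S23.Rational
import Fermat.Agent.X0.Count.CardP1

/-!
# Program E, node N0c: S16 at the levels `p` with `S₂(Γ₀(p)) = 0`

If `S₂(Γ₀(p)) = 0` then `intLattice p 2` is trivial, `heckeLatticeAlgebra p ∅` is the trivial ring,
and every quotient of it has cardinality `1`.  For `p ∈ {2, 3, 5, 7, 13}` the space is zero
(`S07` for `p = 2`; the genus formula `S20` in general) and `eisensteinNumerator p = 1`.
-/

set_option autoImplicit false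
open ModularCurve CuspForm

namespace Fermat.Agent.Eis.SmallLevel

/-- If all weight-2 cusp forms of level `Γ₀(N)` vanish, every quotient of the integral Hecke
algebra has exactly one element. -/
theorem natCard_quotient_eq_one (N : ℕ) [NeZero N]
    (h : ∀ f : CuspForm (CongruenceSubgroup.Gamma0 N) 2, f = 0)
    (I : Ideal ↥(heckeLatticeAlgebra N ∅)) :
    Nat.card (↥(heckeLatticeAlgebra N ∅) ⧸ I) = 1 := by
  have hS : Subsingleton (CuspForm (CongruenceSubgroup.Gamma0 N) 2) :=
    ⟨fun a b => (h a).trans (h b).symm⟩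
  have hL : Subsingleton ↥(intLattice N 2) := ⟨fun a b => Subtype.ext (Subsingleton.elim _ _)⟩
  have hE : Subsingleton (Module.End ℤ ↥(intLattice N 2)) :=
    ⟨fun a b => LinearMap.ext fun x => Subsingleton.elim _ _⟩
  have hT : Subsingleton ↥(heckeLatticeAlgebra N ∅) :=
    ⟨fun a b => Subtype.ext (Subsingleton.elim _ _)⟩
  have hQ : Subsingleton (↥(heckeLatticeAlgebra N ∅) ⧸ I) :=
    ⟨fun a b => by
      obtain ⟨a, rfl⟩ := Ideal.Quotient.mk_surjective a
      obtain ⟨b, rfl⟩ := Ideal.Quotient.mk_surjective b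
      rw [Subsingleton.elim a b]⟩
  have : Nonempty (↥(heckeLatticeAlgebra N ∅) ⧸ I) := ⟨0⟩
  exact Nat.card_unique

/-- The frozen S16 statement at a prime level without weight-2 cusp forms, provided the
Eisenstein numerator is `1`. -/
theorem s16_of_cuspForm_eq_zero (p : ℕ) [Fact p.Prime]
    (h : ∀ f : CuspForm (CongruenceSubgroup.Gamma0 p) 2, f = 0)
    (hn : eisensteinNumerator p = 1) :
    Nat.card (↥(heckeLatticeAlgebra p ∅) ⧸
        Ideal.map ((latticeRestrictHom p ∅).toRingHom.comp (heckeEvalForms p 2))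
          (eisensteinIdeal p)) =
      eisensteinNumerator p := by
  rw [hn]
  exact natCard_quotient_eq_one p h _

/-- Vanishing of `S₂(Γ₀(N))` from the genus formula (`S20`). -/
theorem cuspForm_eq_zero_of_genusFormula (N : ℕ) [NeZero N] (h0 : ModularCurve.genusFormula N = 0)
    (f : CuspForm (CongruenceSubgroup.Gamma0 N) 2) : f = 0 := by
  have := Fermat.Agent.S23.finiteDimensional_cuspForm N 2
  have h1 : Module.finrank ℂ (CuspForm (CongruenceSubgroup.Gamma0 N) 2) = 0 := by
    have := Fermat.Agent.S20.result N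
    rw [h0] at this
    exact_mod_cast this
  have := Module.finrank_zero_iff.mp h1
  exact Subsingleton.elim _ _

theorem nuTwo_eq_card (N : ℕ) [NeZero N] :
    nuTwo N = Fintype.card {x : ZMod N // x ^ 2 + 1 = 0} := by
  rw [nuTwo, Nat.card_eq_fintype_card]

theorem nuThree_eq_card (N : ℕ) [NeZero N] :
    nuThree N = Fintype.card {x : ZMod N // x ^ 2 + x + 1 = 0} := by
  rw [nuThree, Nat.card_eq_fintype_card]

theorem genusFormula_three : genusFormula 3 = 0 := by
  have h1 : dedekindPsi 3 = 4 := by
    have := Fermat.Agent.X0.Count.dedekindPsi_prime_pow (p := 3) (k := 1) (by norm_num) one_pos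
    simpa using this
  have h2 : nuTwo 3 = 0 := by rw [nuTwo_eq_card]; decide
  have h3 : nuThree 3 = 1 := by rw [nuThree_eq_card]; decide
  have h4 : cuspCount 3 = 2 := by decide
  rw [genusFormula, h1, h2, h3, h4]; norm_num

theorem genusFormula_five : genusFormula 5 = 0 := by
  have h1 : dedekindPsi 5 = 6 := by
    have := Fermat.Agent.X0.Count.dedekindPsi_prime_pow (p := 5) (k := 1) (by norm_num) one_pos
    simpa using this
  have h2 : nuTwo 5 = 2 := by rw [nuTwo_eq_card]; decide
  have h3 : nuThree 5 = 0 := by rw [nuThree_eq_card]; decide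
  have h4 : cuspCount 5 = 2 := by decide
  rw [genusFormula, h1, h2, h3, h4]; norm_num

theorem genusFormula_seven : genusFormula 7 = 0 := by
  have h1 : dedekindPsi 7 = 8 := by
    have := Fermat.Agent.X0.Count.dedekindPsi_prime_pow (p := 7) (k := 1) (by norm_num) one_pos
    simpa using this
  have h2 : nuTwo 7 = 0 := by rw [nuTwo_eq_card]; decide
  have h3 : nuThree 7 = 2 := by rw [nuThree_eq_card]; decide
  have h4 : cuspCount 7 = 2 := by decide
  rw [genusFormula, h1, h2, h3, h4]; norm_num

theorem genusFormula_thirteen : genusFormula 13 = 0 := by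
  have h1 : dedekindPsi 13 = 14 := by
    have := Fermat.Agent.X0.Count.dedekindPsi_prime_pow (p := 13) (k := 1) (by norm_num) one_pos
    simpa using this
  have h2 : nuTwo 13 = 2 := by rw [nuTwo_eq_card]; decide
  have h3 : nuThree 13 = 2 := by rw [nuThree_eq_card]; decide
  have h4 : cuspCount 13 = 2 := by decide
  rw [genusFormula, h1, h2, h3, h4]; norm_num

theorem eisensteinNumerator_small {p : ℕ} (hp : p = 2 ∨ p = 3 ∨ p = 5 ∨ p = 7 ∨ p = 13) :
    eisensteinNumerator p = 1 := by
  rcases hp with rfl | rfl | rfl | rfl | rfl <;> decide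

/-- `S₂(Γ₀(p)) = 0` for `p ∈ {2, 3, 5, 7, 13}` (the genus-zero prime levels). -/
theorem cuspForm_eq_zero_small {p : ℕ} (hp : p = 2 ∨ p = 3 ∨ p = 5 ∨ p = 7 ∨ p = 13)
    (f : CuspForm (CongruenceSubgroup.Gamma0 p) 2) : f = 0 := by
  rcases hp with rfl | rfl | rfl | rfl | rfl
  · exact Fermat.Agent.S07.result f
  · exact cuspForm_eq_zero_of_genusFormula 3 genusFormula_three f
  · exact cuspForm_eq_zero_of_genusFormula 5 genusFormula_five f
  · exact cuspForm_eq_zero_of_genusFormula 7 genusFormula_seven f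
  · exact cuspForm_eq_zero_of_genusFormula 13 genusFormula_thirteen f

/-- **N0c**: the frozen S16 statement for the prime levels `p ∈ {2, 3, 5, 7, 13}`. -/
theorem s16_small (p : ℕ) [Fact p.Prime] (hp : p = 2 ∨ p = 3 ∨ p = 5 ∨ p = 7 ∨ p = 13) :
    Nat.card (↥(heckeLatticeAlgebra p ∅) ⧸
        Ideal.map ((latticeRestrictHom p ∅).toRingHom.comp (heckeEvalForms p 2))
          (eisensteinIdeal p)) =
      eisensteinNumerator p :=
  s16_of_cuspForm_eq_zero p (cuspForm_eq_zero_small hp) (eisensteinNumerator_small hp)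

end Fermat.Agent.Eis.SmallLevel
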