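import Fermat.Statements.S16
import Fermat.Agent.Eis.Defs
import Fermat.Agent.Eis.SmallLevel
import Fermat.Agent.Eis.CyclicQuot
import Fermat.Agent.Eis.N0Main

/-!
# Program E, node N8 (assembly, part 1): S16 from `Upper p` and `LowerHom p`

* `s16_of_upper_lower`: the frozen S16 conclusion at a prime `p` from the two halves of the program
  (`Eis.Upper p`, `Eis.LowerHom p`), via the duality `N0.congCusp_of_ringHom` and the counting lemma
  `CyclicQuot.s16_of`.
* `s16_of_large`: the same, where the two halves are only required for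
  `p ∉ {2, 3, 5, 7, 13}` (the genus-zero levels are `SmallLevel.s16_small`).
-/

set_option autoImplicit false
open ModularCurve CuspForm

namespace Fermat.Agent.Eis.S16Of

/-- S16 at `p` from the upper and the lower bound. -/
theorem s16_of_upper_lower (p : ℕ) [Fact p.Prime] (hU : Upper p) (hL : LowerHom p) :
    Nat.card (↥(heckeLatticeAlgebra p ∅) ⧸
        Ideal.map ((latticeRestrictHom p ∅).toRingHom.comp (heckeEvalForms p 2))
          (eisensteinIdeal p)) =
      eisensteinNumerator p :=
  CyclicQuot.s16_of p (CongCusp p) (fun M hM χ => N0.congCusp_of_ringHom p M hM χ) hU hL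

/-- S16 at every prime `p`, given the upper and the lower bound outside the genus-zero levels. -/
theorem s16_of_large (p : ℕ) [Fact p.Prime]
    (hU : ¬ (p = 2 ∨ p = 3 ∨ p = 5 ∨ p = 7 ∨ p = 13) → Upper p)
    (hL : ¬ (p = 2 ∨ p = 3 ∨ p = 5 ∨ p = 7 ∨ p = 13) → LowerHom p) :
    Nat.card (↥(heckeLatticeAlgebra p ∅) ⧸
        Ideal.map ((latticeRestrictHom p ∅).toRingHom.comp (heckeEvalForms p 2))
          (eisensteinIdeal p)) =
      eisensteinNumerator p := by
  by_cases hs : p = 2 ∨ p = 3 ∨ p = 5 ∨ p = 7 ∨ p = 13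
  · exact SmallLevel.s16_small p hs
  · exact s16_of_upper_lower p (hU hs) (hL hs)

/-- Arithmetic of the large case: a prime outside `{2, 3, 5, 7, 13}` is at least `11`. -/
theorem eleven_le_of_not_small {p : ℕ} (hp : p.Prime)
    (hs : ¬ (p = 2 ∨ p = 3 ∨ p = 5 ∨ p = 7 ∨ p = 13)) : 11 ≤ p := by
  by_contra hlt
  rw [not_le] at hlt
  interval_cases p <;>
    first
    | exact absurd hp (by decide)
    | exact absurd (by decide) hs

end Fermat.Agent.Eis.S16Of
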