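/-
Program E (statement S16), node N5, layer C: the `T₂`-identity
`u² + p⁻¹ U_p((U_p u)²) = κ E₄` extracted from the conjugates package of `Eis/Defs.lean`
as the Newton identity `p₂ = e₁² - 2 e₂` (`e₁ = 0` since `M₂(SL₂(ℤ)) = 0`,
`e₂ ∈ M₄(SL₂(ℤ)) = ℂ E₄`).
-/
import Mathlib
import Fermat.Agent.Eis.Defs

set_option autoImplicit false

namespace Fermat.Agent.Eis.TwoEasy

open Polynomial

section Algebra

variable {R : Type*} [CommRing R]

/-- The coefficient two below the top of `∏ (X - f i)`. -/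
theorem two_mul_coeff_prod_X_sub_C {ι : Type*} (s : Finset ι) (f : ι → R) :
    ∀ k : ℕ, k + 2 = s.card →
      2 * (∏ i ∈ s, (X - C (f i))).coeff k = (∑ i ∈ s, f i) ^ 2 - ∑ i ∈ s, (f i) ^ 2 := by
  classical
  induction s using Finset.induction_on with
  | empty => intro k hk; simp at hk
  | insert a s ha ih =>
    intro k hk
    rw [Finset.card_insert_of_notMem ha] at hk
    rw [Finset.prod_insert ha, Finset.sum_insert ha, Finset.sum_insert ha]
    have hcard : 0 < s.card := by omega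
    have h1 : (∏ i ∈ s, (X - C (f i))).coeff (s.card - 1) = -∑ i ∈ s, f i :=
      prod_X_sub_C_coeff_card_pred s f hcard
    rcases Nat.eq_zero_or_pos k with rfl | hkpos
    · -- `s` is a singleton
      have hs1 : s.card = 1 := by omega
      obtain ⟨b, rfl⟩ := Finset.card_eq_one.1 hs1
      simp [sub_mul, mul_sub]
      ring
    · obtain ⟨k', rfl⟩ : ∃ k', k = k' + 1 := ⟨k - 1, by omega⟩
      have hk' : k' + 2 = s.card := by omega
      have h2 := ih k' hk'
      have h3 : (∏ i ∈ s, (X - C (f i))).coeff (k' + 1) = -∑ i ∈ s, f i := by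
        have : k' + 1 = s.card - 1 := by omega
        rw [this]; exact h1
      rw [sub_mul, coeff_sub, coeff_X_mul, coeff_C_mul, h3]
      have : 2 * ((∏ i ∈ s, (X - C (f i))).coeff k' - f a * -∑ i ∈ s, f i) =
          2 * (∏ i ∈ s, (X - C (f i))).coeff k' + 2 * f a * ∑ i ∈ s, f i := by ring
      rw [this, h2]
      ring

/-- Coefficients of a polynomial written in the Vieta shape. -/
theorem coeff_vieta_sum (m : ℕ) (e : ℕ → R) (j : ℕ) (hj : j ≤ m) :
    (∑ i ∈ Finset.range (m + 1), (-1 : R[X]) ^ i * C (e i) * X ^ (m - i)).coeff (m - j) =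
      (-1) ^ j * e j := by
  rw [finsetSum_coeff]
  have hterm : ∀ i, ((-1 : R[X]) ^ i * C (e i) * X ^ (m - i)) =
      C ((-1) ^ i * e i) * X ^ (m - i) := by
    intro i
    rw [C_mul, C_pow, C_neg, C_1]
  simp_rw [hterm, coeff_C_mul_X_pow]
  rw [Finset.sum_eq_single j]
  · simp
  · intro i hi hij
    rw [Finset.mem_range] at hi
    rw [if_neg]
    omega
  · intro h
    exact absurd (Finset.mem_range.2 (by omega)) h

/-- Newton's identity `p₂ = e₁² - 2 e₂` for a polynomial given in the shape of `ConjPackage`. -/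
theorem vieta_two (p : ℕ) (hp : 1 ≤ p) (a : R) (f : ℕ → R) (e : ℕ → R)
    (h : (X - C a) * ∏ b ∈ Finset.range p, (X - C (f b)) =
      ∑ j ∈ Finset.range (p + 2), (-1 : R[X]) ^ j * C (e j) * X ^ (p + 1 - j)) :
    a + ∑ b ∈ Finset.range p, f b = e 1 ∧
      a ^ 2 + ∑ b ∈ Finset.range p, (f b) ^ 2 = (e 1) ^ 2 - 2 * e 2 := by
  set g : ℕ → R := fun b => if b < p then f b else a with hg
  have hprod : ∏ b ∈ Finset.range (p + 1), (X - C (g b)) =
      (X - C a) * ∏ b ∈ Finset.range p, (X - C (f b)) := by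
    rw [Finset.prod_range_succ, mul_comm]
    congr 1
    · simp [hg]
    · refine Finset.prod_congr rfl fun b hb => ?_
      rw [Finset.mem_range] at hb
      simp [hg, hb]
  have hsum : ∑ b ∈ Finset.range (p + 1), g b = a + ∑ b ∈ Finset.range p, f b := by
    rw [Finset.sum_range_succ, add_comm]
    congr 1
    · simp [hg]
    · refine Finset.sum_congr rfl fun b hb => ?_
      rw [Finset.mem_range] at hb
      simp [hg, hb]
  have hsq : ∑ b ∈ Finset.range (p + 1), (g b) ^ 2 = a ^ 2 + ∑ b ∈ Finset.range p, (f b) ^ 2 := by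
    rw [Finset.sum_range_succ, add_comm]
    congr 1
    · simp [hg]
    · refine Finset.sum_congr rfl fun b hb => ?_
      rw [Finset.mem_range] at hb
      simp [hg, hb]
  rw [← hprod] at h
  have hcard : (Finset.range (p + 1)).card = p + 1 := Finset.card_range _
  -- coefficient of `X ^ p`
  have h1 : (∏ b ∈ Finset.range (p + 1), (X - C (g b))).coeff p = -∑ b ∈ Finset.range (p + 1), g b := by
    have := prod_X_sub_C_coeff_card_pred (Finset.range (p + 1)) g (by rw [hcard]; omega)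
    rwa [hcard, Nat.add_sub_cancel] at this
  have h1' : (∑ j ∈ Finset.range (p + 1 + 1), (-1 : R[X]) ^ j * C (e j) * X ^ (p + 1 - j)).coeff
      (p + 1 - 1) = (-1) ^ 1 * e 1 := coeff_vieta_sum (p + 1) e 1 (by omega)
  rw [Nat.add_sub_cancel] at h1'
  have he1 : ∑ b ∈ Finset.range (p + 1), g b = e 1 := by
    have := h1
    rw [h, h1'] at this
    have h' : -e 1 = -∑ b ∈ Finset.range (p + 1), g b := by simpa using this
    exact (neg_injective h').symm
  -- coefficient of `X ^ (p - 1)`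
  have h2 := two_mul_coeff_prod_X_sub_C (Finset.range (p + 1)) g (p - 1) (by rw [hcard]; omega)
  have h2' : (∑ j ∈ Finset.range (p + 1 + 1), (-1 : R[X]) ^ j * C (e j) * X ^ (p + 1 - j)).coeff
      (p + 1 - 2) = (-1) ^ 2 * e 2 := coeff_vieta_sum (p + 1) e 2 (by omega)
  have hpp : p + 1 - 2 = p - 1 := by omega
  rw [hpp] at h2'
  rw [h, h2', he1, hsq] at h2
  refine ⟨by rw [← hsum, he1], ?_⟩
  have : 2 * e 2 = e 1 ^ 2 - (a ^ 2 + ∑ b ∈ Finset.range p, f b ^ 2) := by
    rw [← h2]; ring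
  rw [this]; ring

end Algebra


open CongruenceSubgroup ModularFormClass UpperHalfPlane ModularForm EisensteinSeries
open scoped MatrixGroups

theorem qExpansion_levelOne_weight_two {k : ℤ} (hk : k = 2) (S : ModularForm 𝒮ℒ k) :
    qExpansion 1 S = 0 := by
  subst hk
  have h := levelOne_weight_two_rank_zero
  rw [rank_zero_iff_forall_zero] at h
  rw [h S, FunLike.coe_zero]
  exact qExpansion_zero 1

theorem qExpansion_levelOne_weight_four {k : ℤ} (hk : k = 4) (S : ModularForm 𝒮ℒ k) :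
    ∃ c : ℂ, qExpansion 1 S = c • qExpansion 1 E₄ := by
  subst hk
  obtain ⟨c, hc⟩ := (finrank_eq_one_iff_of_nonzero' E₄ (E_ne_zero _ ⟨2, rfl⟩)).mp
      (Module.rank_eq_one_iff_finrank_eq_one.mp levelOne_weight_four_rank_one) S
  refine ⟨c, ?_⟩
  rw [← hc]
  exact ModularForm.qExpansion_smul one_pos one_mem_strictPeriods_SL c E₄

theorem qExpansion_E4_coeff (m : ℕ) :
    (qExpansion 1 E₄).coeff m = if m = 0 then 1 else 240 * (ArithmeticFunction.sigma 3 m : ℂ) := by
  have h := E_qExpansion_coeff (k := 4) (by norm_num) ⟨2, rfl⟩ m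
  rw [h]
  split_ifs
  · rfl
  · norm_num [show _root_.bernoulli 4 = -1 / 30 by decide +kernel]


/-- `conjFin` as a rescaling of the `q`-expansion. -/
theorem conjFin_eq (p : ℕ) (ut : ℍ → ℂ) (b : ℕ) :
    conjFin p ut b =
      PowerSeries.C (-(1 / (p : ℂ))) * PowerSeries.rescale (zetaC p ^ b) (qExpansion 1 ut) := by
  ext n
  rw [conjFin, PowerSeries.coeff_mk, PowerSeries.coeff_C_mul, PowerSeries.coeff_rescale, qCoeff,
    ← pow_mul]
  ring

theorem coeff_conjFin_sq (p : ℕ) (hp : p ≠ 0) (ut : ℍ → ℂ) (b n : ℕ) :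
    PowerSeries.coeff (p * n) ((conjFin p ut b) ^ 2) =
      (1 / (p : ℂ)) ^ 2 * PowerSeries.coeff (p * n) ((qExpansion 1 ut) ^ 2) := by
  rw [conjFin_eq, mul_pow, ← map_pow, ← map_pow, PowerSeries.coeff_C_mul,
    PowerSeries.coeff_rescale]
  have : (zetaC p ^ b) ^ (p * n) = 1 := by
    rw [← pow_mul, show b * (p * n) = p * (b * n) by ring, pow_mul, zetaC_pow p hp, one_pow]
  rw [this, one_mul]
  ring

theorem coeff_conjInf_sq (p : ℕ) (hp : p ≠ 0) (u : ℍ → ℂ) (n : ℕ) :
    PowerSeries.coeff (p * n) ((conjInf p hp u) ^ 2) =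
      PowerSeries.coeff n ((qExpansion 1 u) ^ 2) := by
  rw [conjInf, ← map_pow, PowerSeries.coeff_expand, if_pos (dvd_mul_right p n),
    Nat.mul_div_cancel_left n (Nat.pos_of_ne_zero hp)]


/-- The `T₂`-identity (the power sum `p₂ = e₁² - 2 e₂` of the conjugates package):
`u² + p⁻¹ U_p((U_p u)²) = κ E₄` coefficientwise. -/
theorem t2_identity_of_conjPackage (p : ℕ) (hp : p ≠ 0) (u : ModularForm (Gamma0 p) 2)
    (h : ConjPackage p hp u) :
    ∃ ut : ModularForm (Gamma0 p) 2,
      (∀ n : ℕ, qCoeff ut n = qCoeff u (p * n)) ∧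
      (∀ n : ℕ, qCoeff u n = qCoeff ut (p * n)) ∧
      ∃ κ : ℂ, ∀ n : ℕ,
        PowerSeries.coeff n ((qExpansion 1 u) ^ 2) +
            (p : ℂ)⁻¹ * PowerSeries.coeff (p * n) ((qExpansion 1 ut) ^ 2) =
          κ * PowerSeries.coeff n (qExpansion 1 E₄) := by
  obtain ⟨ut, S, hut, hu, -, hprod⟩ := h
  refine ⟨ut, hut, hu, ?_⟩
  have hp1 : 1 ≤ p := Nat.pos_of_ne_zero hp
  obtain ⟨-, h2⟩ := vieta_two p hp1 (conjInf p hp u) (fun b => conjFin p ut b)
    (fun j => PowerSeries.expand p hp (qExpansion 1 (S j))) hprod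
  have hS1 : qExpansion 1 (S 1) = 0 := qExpansion_levelOne_weight_two (by norm_num) (S 1)
  obtain ⟨c, hc⟩ := qExpansion_levelOne_weight_four (by norm_num) (S 2)
  refine ⟨-2 * c, fun n => ?_⟩
  have h3 := congrArg (PowerSeries.coeff (p * n)) h2
  simp only [hS1, hc, map_zero] at h3
  rw [map_add, map_sum, coeff_conjInf_sq] at h3
  simp_rw [coeff_conjFin_sq p hp] at h3
  rw [Finset.sum_const, Finset.card_range, nsmul_eq_mul] at h3
  have hpc : (p : ℂ) ≠ 0 := by exact_mod_cast hp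
  have h4 : (p : ℂ) * ((1 / (p : ℂ)) ^ 2 * PowerSeries.coeff (p * n) ((qExpansion 1 ut) ^ 2)) =
      (p : ℂ)⁻¹ * PowerSeries.coeff (p * n) ((qExpansion 1 ut) ^ 2) := by
    field_simp
  rw [h4] at h3
  rw [h3]
  have h5 : PowerSeries.coeff (p * n) (PowerSeries.expand p hp (c • qExpansion 1 E₄)) =
      c * PowerSeries.coeff n (qExpansion 1 E₄) := by
    rw [PowerSeries.coeff_expand, if_pos (dvd_mul_right p n),
      Nat.mul_div_cancel_left n (Nat.pos_of_ne_zero hp), PowerSeries.coeff_smul, smul_eq_mul]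
  rw [zero_pow (by norm_num), zero_sub, map_neg,
    show (2 : PowerSeries ℂ) * PowerSeries.expand p hp (c • qExpansion 1 E₄) =
      PowerSeries.C (2 : ℂ) * PowerSeries.expand p hp (c • qExpansion 1 E₄) by
      rw [map_ofNat], PowerSeries.coeff_C_mul, h5]
  ring

end Fermat.Agent.Eis.TwoEasy
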