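/-
Program E (S16), node N4 (l = 3), case `p ≡ 2 (mod 3)`: algebraic core (helper11).

Given the polynomial identity of the conjugates package, with all conjugates `cᵢ ≡ 1 (mod 3)`
(`cᵢ = 1 + 3 dᵢ`), the level one series
`F₀ = ∑ⱼ (-1)ʲ sⱼ Q^{2(p+1-j)} Rʲ`, `Q = 1 + 240 A`, `R = 1 - 504 B`, is `3^{p+1}` times an integral
series `f` whose reduction is `∏ᵢ (Ā - d̄ᵢ)`.
-/
import Mathlib

set_option autoImplicit false

namespace Fermat.Agent.Eis.ThreeA

open PowerSeries

/-- Homogeneous evaluation of a polynomial identity `∏ (X - cᵢ) = ∑ (-1)ʲ eⱼ X^{n+1-j}`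
at `X = x / r` for a unit `r`. -/
theorem eval_homog {R : Type*} [CommRing R] (n : ℕ) (a : R) (f : ℕ → R) (e : ℕ → R)
    (x r rinv : R) (hr : rinv * r = 1)
    (h : (Polynomial.X - Polynomial.C a) * ∏ b ∈ Finset.range n, (Polynomial.X - Polynomial.C (f b)) =
      ∑ j ∈ Finset.range (n + 2),
        (-1 : Polynomial R) ^ j * Polynomial.C (e j) * Polynomial.X ^ (n + 1 - j)) :
    (x - a * r) * ∏ b ∈ Finset.range n, (x - f b * r) =
      ∑ j ∈ Finset.range (n + 2), (-1 : R) ^ j * e j * x ^ (n + 1 - j) * r ^ j := by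
  have h1 := congrArg (Polynomial.eval (x * rinv)) h
  simp only [Polynomial.eval_mul, Polynomial.eval_sub, Polynomial.eval_X, Polynomial.eval_C,
    Polynomial.eval_prod, Polynomial.eval_finsetSum, Polynomial.eval_pow, Polynomial.eval_neg,
    Polynomial.eval_one] at h1
  have h2 : (x - a * r) * ∏ b ∈ Finset.range n, (x - f b * r)
      = ((x * rinv - a) * ∏ b ∈ Finset.range n, (x * rinv - f b)) * r ^ (n + 1) := by
    have e1 : x - a * r = (x * rinv - a) * r := by
      rw [sub_mul, mul_assoc, hr, mul_one]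
    have e2 : ∀ b, x - f b * r = (x * rinv - f b) * r := by
      intro b
      rw [sub_mul, mul_assoc, hr, mul_one]
    rw [e1]
    simp_rw [e2]
    rw [Finset.prod_mul_distrib, Finset.prod_const, Finset.card_range, pow_succ]
    ring
  rw [h2, h1, Finset.sum_mul]
  refine Finset.sum_congr rfl fun j hj => ?_
  rw [Finset.mem_range] at hj
  have hsplit : r ^ (n + 1) = r ^ (n + 1 - j) * r ^ j := by
    rw [← pow_add]
    congr 1
    omega
  rw [hsplit, mul_pow]
  have : rinv ^ (n + 1 - j) * r ^ (n + 1 - j) = 1 := by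
    rw [← mul_pow, hr, one_pow]
  calc (-1 : R) ^ j * e j * (x ^ (n + 1 - j) * rinv ^ (n + 1 - j)) * (r ^ (n + 1 - j) * r ^ j)
      = (-1 : R) ^ j * e j * x ^ (n + 1 - j) * (rinv ^ (n + 1 - j) * r ^ (n + 1 - j)) * r ^ j := by
        ring
    _ = (-1 : R) ^ j * e j * x ^ (n + 1 - j) * r ^ j := by rw [this, mul_one]

section Core

variable (O : Subring ℂ)

/-- The integral factor `Ψ(d) = (Q'² - (1 + 3 d) R') / 3`. -/
noncomputable def psi (A' B' d : PowerSeries ↥O) : PowerSeries ↥O :=
  160 * A' + 19200 * A' ^ 2 - d + 168 * (1 + 3 * d) * B'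

theorem three_mul_psi (A' B' d : PowerSeries ↥O) :
    3 * psi O A' B' d = (1 + 240 * A') ^ 2 - (1 + 3 * d) * (1 - 504 * B') := by
  unfold psi; ring

theorem map_psi {k : Type*} [CommRing k] (φ : ↥O →+* k) (hφ3 : φ 3 = 0)
    (A' B' d : PowerSeries ↥O) :
    PowerSeries.map φ (psi O A' B' d) = PowerSeries.map φ A' - PowerSeries.map φ d := by
  have h3 : (3 : PowerSeries k) = 0 := by
    have : (3 : PowerSeries k) = PowerSeries.map φ (3 : PowerSeries ↥O) := by
      rw [map_ofNat]
    rw [this, ← map_ofNat (PowerSeries.C (R := ↥O)) 3, PowerSeries.map_C, hφ3, map_zero]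
  unfold psi
  simp only [map_add, map_sub, map_mul, map_pow, map_ofNat, map_one]
  linear_combination (53 * PowerSeries.map φ A' + 6400 * PowerSeries.map φ A' ^ 2
    + 56 * (1 + 3 * PowerSeries.map φ d) * PowerSeries.map φ B') * h3

/-- **Core of the case `p ≡ 2 (mod 3)`.** -/
theorem coreA {k : Type*} [CommRing k] (φ : ↥O →+* k) (hφ3 : φ 3 = 0)
    (p : ℕ) (hp : p ≠ 0)
    (cInf : PowerSeries ℂ) (cFin : ℕ → PowerSeries ℂ) (s : ℕ → PowerSeries ℂ)
    (hpoly : (Polynomial.X - Polynomial.C cInf) *
        ∏ b ∈ Finset.range p, (Polynomial.X - Polynomial.C (cFin b)) =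
      ∑ j ∈ Finset.range (p + 2),
        (-1 : Polynomial (PowerSeries ℂ)) ^ j *
          Polynomial.C (PowerSeries.expand p hp (s j)) * Polynomial.X ^ (p + 1 - j))
    (A B : PowerSeries ↥O) (hB0 : constantCoeff B = 0)
    (dInf : PowerSeries ↥O) (dFin : ℕ → PowerSeries ↥O)
    (hcInf : cInf = 1 + 3 * PowerSeries.map O.subtype dInf)
    (hcFin : ∀ b ∈ Finset.range p, cFin b = 1 + 3 * PowerSeries.map O.subtype (dFin b))
    (hdInf : PowerSeries.map φ dInf = 0) (κ : k)
    (hdFin : ∀ b ∈ Finset.range p, PowerSeries.map φ (dFin b) = PowerSeries.C κ) :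
    ∃ f : PowerSeries ↥O,
      PowerSeries.C ((3 : ℂ) ^ (p + 1)) * PowerSeries.map O.subtype f =
        ∑ j ∈ Finset.range (p + 2), (-1 : PowerSeries ℂ) ^ j * s j *
          (1 + 240 * PowerSeries.map O.subtype A) ^ (2 * (p + 1 - j)) *
          (1 - 504 * PowerSeries.map O.subtype B) ^ j ∧
      PowerSeries.map φ f =
        PowerSeries.map φ A * (PowerSeries.map φ A - PowerSeries.C κ) ^ p := by
  classical
  set Q : PowerSeries ℂ := 1 + 240 * PowerSeries.map O.subtype A with hQ
  set R : PowerSeries ℂ := 1 - 504 * PowerSeries.map O.subtype B with hR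
  set F₀ : PowerSeries ℂ := ∑ j ∈ Finset.range (p + 2), (-1 : PowerSeries ℂ) ^ j * s j *
      Q ^ (2 * (p + 1 - j)) * R ^ j with hF₀
  set A' : PowerSeries ↥O := PowerSeries.expand p hp A with hA'
  set B' : PowerSeries ↥O := PowerSeries.expand p hp B with hB'
  set Q' : PowerSeries ℂ := PowerSeries.expand p hp Q with hQ'
  set R' : PowerSeries ℂ := PowerSeries.expand p hp R with hR'
  -- `R'` is a unit
  have hR'0 : constantCoeff R' = 1 := by
    rw [hR', PowerSeries.constantCoeff_expand, hR, map_sub, map_one, map_mul,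
      ← coeff_zero_eq_constantCoeff_apply (PowerSeries.map O.subtype B), coeff_map,
      coeff_zero_eq_constantCoeff_apply, hB0]
    simp
  have hunit : R'⁻¹ * R' = 1 :=
    PowerSeries.inv_mul_cancel R' (by rw [hR'0]; exact one_ne_zero)
  have E1 := eval_homog p cInf cFin (fun j => PowerSeries.expand p hp (s j)) (Q' ^ 2) R' R'⁻¹
    hunit hpoly
  have E1' : ∑ j ∈ Finset.range (p + 2), (-1 : PowerSeries ℂ) ^ j *
      (fun j => PowerSeries.expand p hp (s j)) j * (Q' ^ 2) ^ (p + 1 - j) * R' ^ j
      = PowerSeries.expand p hp F₀ := by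
    rw [hF₀, map_sum]
    refine Finset.sum_congr rfl fun j _ => ?_
    simp only [map_mul, map_pow, map_neg, map_one, pow_mul]
    rw [hQ', hR']
  rw [E1'] at E1
  -- the lifts
  have hQ'map : PowerSeries.map O.subtype (1 + 240 * A') = Q' := by
    rw [hQ', hQ, hA']
    simp only [map_add, map_one, map_mul, map_ofNat, PowerSeries.map_expand]
  have hR'map : PowerSeries.map O.subtype (1 - 504 * B') = R' := by
    rw [hR', hR, hB']
    simp only [map_sub, map_one, map_mul, map_ofNat, PowerSeries.map_expand]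
  have key : ∀ d : PowerSeries ↥O, (3 : PowerSeries ℂ) * PowerSeries.map O.subtype (psi O A' B' d)
      = Q' ^ 2 - (1 + 3 * PowerSeries.map O.subtype d) * R' := by
    intro d
    have h := congrArg (PowerSeries.map O.subtype) (three_mul_psi O A' B' d)
    rw [map_mul, map_sub, map_pow, map_mul, hQ'map, hR'map, map_add, map_one, map_mul] at h
    simpa only [map_ofNat] using h
  set Pi : PowerSeries ↥O := psi O A' B' dInf * ∏ b ∈ Finset.range p, psi O A' B' (dFin b) with hPi
  have E2 : PowerSeries.C ((3 : ℂ) ^ (p + 1)) * PowerSeries.map O.subtype Pi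
      = PowerSeries.expand p hp F₀ := by
    rw [← E1, hPi, map_mul, map_prod, map_pow, map_ofNat, pow_succ']
    have e1 : (3 : PowerSeries ℂ) ^ p = ∏ _b ∈ Finset.range p, (3 : PowerSeries ℂ) := by
      rw [Finset.prod_const, Finset.card_range]
    rw [e1]
    have e2 : (3 * ∏ _b ∈ Finset.range p, (3 : PowerSeries ℂ)) *
        (PowerSeries.map O.subtype (psi O A' B' dInf) *
          ∏ b ∈ Finset.range p, PowerSeries.map O.subtype (psi O A' B' (dFin b)))
        = (3 * PowerSeries.map O.subtype (psi O A' B' dInf)) *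
          ∏ b ∈ Finset.range p, (3 * PowerSeries.map O.subtype (psi O A' B' (dFin b))) := by
      rw [Finset.prod_mul_distrib]; ring
    rw [e2, key, ← hcInf]
    congr 1
    refine Finset.prod_congr rfl fun b hb => ?_
    rw [key, ← hcFin b hb]
  -- contraction
  refine ⟨PowerSeries.mk fun n => coeff (p * n) Pi, ?_, ?_⟩
  · ext n
    have h := congrArg (coeff (p * n)) E2
    rw [PowerSeries.coeff_expand_mul, coeff_C_mul, coeff_map] at h
    rw [coeff_C_mul, coeff_map, coeff_mk]
    exact h
  · set f : PowerSeries ↥O := PowerSeries.mk fun n => coeff (p * n) Pi with hf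
    have hb : PowerSeries.expand p hp f = Pi := by
      ext m
      rw [PowerSeries.coeff_expand]
      split_ifs with hm
      · obtain ⟨q, rfl⟩ := hm
        rw [Nat.mul_div_cancel_left _ (Nat.pos_of_ne_zero hp), hf, coeff_mk]
      · have h := congrArg (coeff m) E2
        rw [PowerSeries.coeff_expand_of_not_dvd p hp _ hm, coeff_C_mul, coeff_map] at h
        have h3 : ((3 : ℂ) ^ (p + 1)) ≠ 0 := pow_ne_zero _ (by norm_num)
        have h0 : O.subtype (coeff m Pi) = 0 := (mul_eq_zero.1 h).resolve_left h3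
        have : coeff m Pi = 0 := by
          apply Subtype.coe_injective
          simpa using h0
        rw [this]
    have hc : PowerSeries.map φ Pi = PowerSeries.expand p hp (PowerSeries.map φ A) *
        (PowerSeries.expand p hp (PowerSeries.map φ A) - PowerSeries.C κ) ^ p := by
      have hprod : ∏ b ∈ Finset.range p, PowerSeries.map φ (psi O A' B' (dFin b))
          = (PowerSeries.expand p hp (PowerSeries.map φ A) - PowerSeries.C κ) ^ p := by
        calc ∏ b ∈ Finset.range p, PowerSeries.map φ (psi O A' B' (dFin b))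
            = ∏ _b ∈ Finset.range p,
                (PowerSeries.expand p hp (PowerSeries.map φ A) - PowerSeries.C κ) := by
              refine Finset.prod_congr rfl fun b hb => ?_
              rw [map_psi O φ hφ3, hdFin b hb, hA', PowerSeries.map_expand]
          _ = _ := by rw [Finset.prod_const, Finset.card_range]
      rw [hPi, map_mul, map_prod, hprod, map_psi O φ hφ3, hdInf, sub_zero, hA',
        PowerSeries.map_expand]
    have hd : PowerSeries.expand p hp (PowerSeries.map φ f) = PowerSeries.expand p hp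
        (PowerSeries.map φ A * (PowerSeries.map φ A - PowerSeries.C κ) ^ p) := by
      rw [← PowerSeries.map_expand, hb, hc]
      simp only [map_mul, map_pow, map_sub, PowerSeries.expand_C]
    ext n
    have h := congrArg (coeff (p * n)) hd
    rwa [PowerSeries.coeff_expand_mul, PowerSeries.coeff_expand_mul] at h

end Core

end Fermat.Agent.Eis.ThreeA
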