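/-
Program E (S16), node N4 (l = 3): the Artin–Schreier relation `y - y^3 = Δ (mod 3)` for
`y = ∑ σ₁(n) qⁿ` (helper11).

Part 1: an exact identity between formal power series (over any commutative `ℚ`-algebra),
obtained by eliminating `θ = q d/dq` between Ramanujan's identities (R2), (R4) and
`1728 Δ = E₄³ - E₆²`:

  `θ² y - Δ = -y² + 8 y³ - 10 y A - 100 A² - 8000 A³ + 147 B²`,

where `E₂ = 1 - 24 y`, `E₄ = 1 + 240 A`, `E₆ = 1 - 504 B`.

Part 2: consequences modulo `3` (and modulo `2`) for integral power series.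
-/
import Mathlib

set_option autoImplicit false

namespace Fermat.Agent.Eis.ThreeAS

open PowerSeries

section Theta

variable {R : Type*} [CommRing R]

/-- `θ = q d/dq` on formal power series. -/
noncomputable def theta (f : PowerSeries R) : PowerSeries R := X * derivative R f

@[simp] theorem coeff_theta (f : PowerSeries R) (n : ℕ) :
    coeff n (theta f) = (n : R) * coeff n f := by
  unfold theta
  cases n with
  | zero => simp
  | succ m =>
    rw [coeff_succ_X_mul, coeff_derivative]
    push_cast
    ring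

theorem theta_add (f g : PowerSeries R) : theta (f + g) = theta f + theta g := by
  simp [theta, mul_add]

theorem theta_sub (f g : PowerSeries R) : theta (f - g) = theta f - theta g := by
  simp [theta, mul_sub]

theorem theta_mul (f g : PowerSeries R) : theta (f * g) = f * theta g + g * theta f := by
  simp only [theta, Derivation.leibniz, smul_eq_mul]
  ring

theorem theta_one : theta (1 : PowerSeries R) = 0 := by
  simp [theta]

theorem theta_C_mul (c : R) (f : PowerSeries R) : theta (C c * f) = C c * theta f := by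
  rw [theta_mul]
  simp [theta]

theorem theta_natCast_mul (c : ℕ) (f : PowerSeries R) :
    theta ((c : PowerSeries R) * f) = (c : PowerSeries R) * theta f := by
  have : (c : PowerSeries R) = C (c : R) := by simp
  rw [this, theta_C_mul]

theorem theta_pow_two (f : PowerSeries R) : theta (f ^ 2) = 2 * f * theta f := by
  rw [pow_two, theta_mul]; ring

theorem map_theta {S : Type*} [CommRing S] (φ : R →+* S) (f : PowerSeries R) :
    PowerSeries.map φ (theta f) = theta (PowerSeries.map φ f) := by
  ext n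
  simp [coeff_map]

end Theta

section Identity

variable {K : Type*} [Field K] [CharZero K]

theorem natCast_ne_zero' {n : ℕ} (hn : n ≠ 0) : ((n : ℕ) : PowerSeries K) ≠ 0 := by
  intro h
  have := congrArg (PowerSeries.constantCoeff (R := K)) h
  rw [map_natCast, map_zero] at this
  exact hn (by exact_mod_cast this)

/-- **The exact identity.** -/
theorem theta_theta_sub_delta {y A B E2 E4 E6 D : PowerSeries K}
    (hE2 : E2 = 1 - 24 * y) (hE4 : E4 = 1 + 240 * A) (hE6 : E6 = 1 - 504 * B)
    (hR2 : 12 * theta E2 = E2 ^ 2 - E4) (hR4 : 3 * theta E4 = E2 * E4 - E6)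
    (hD : 1728 * D = E4 ^ 3 - E6 ^ 2) :
    theta (theta y) - D
      = -y ^ 2 + 8 * y ^ 3 - 10 * y * A - 100 * A ^ 2 - 8000 * A ^ 3 + 147 * B ^ 2 := by
  -- `θ E₂ = -24 θ y`, `θ E₄ = 240 θ A`
  have h24 : theta ((24 : PowerSeries K) * y) = 24 * theta y := by
    have := theta_natCast_mul (R := K) 24 y
    simpa using this
  have h240 : theta ((240 : PowerSeries K) * A) = 240 * theta A := by
    have := theta_natCast_mul (R := K) 240 A
    simpa using this
  have hθE2 : theta E2 = -(24 * theta y) := by
    rw [hE2, theta_sub, theta_one, h24]; ring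
  have hθE4 : theta E4 = 240 * theta A := by
    rw [hE4, theta_add, theta_one, h240]; ring
  -- (R2) gives `6 θ y = y - 12 y² + 5 A`
  have h1 : 6 * theta y = y - 12 * y ^ 2 + 5 * A := by
    have := hR2
    rw [hθE2, hE2, hE4] at this
    have h48 : (48 : PowerSeries K) * (6 * theta y) = 48 * (y - 12 * y ^ 2 + 5 * A) := by
      linear_combination (-1 : PowerSeries K) * this
    have h48ne : (48 : PowerSeries K) ≠ 0 := by
      have : ((48 : ℕ) : PowerSeries K) ≠ 0 := natCast_ne_zero' (by norm_num)
      simpa using this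
    exact mul_left_cancel₀ h48ne h48
  -- (R4) gives `30 θ A = 10 A - y - 240 y A + 21 B`
  have h2 : 30 * theta A = 10 * A - y - 240 * y * A + 21 * B := by
    have := hR4
    rw [hθE4, hE2, hE4, hE6] at this
    have h24' : (24 : PowerSeries K) * (30 * theta A)
        = 24 * (10 * A - y - 240 * y * A + 21 * B) := by
      linear_combination this
    have h24ne : (24 : PowerSeries K) ≠ 0 := by
      have : ((24 : ℕ) : PowerSeries K) ≠ 0 := natCast_ne_zero' (by norm_num)
      simpa using this
    exact mul_left_cancel₀ h24ne h24'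
  -- apply `θ` to `h1`
  have h6 : theta ((6 : PowerSeries K) * theta y) = 6 * theta (theta y) := by
    have := theta_natCast_mul (R := K) 6 (theta y)
    simpa using this
  have h12 : theta ((12 : PowerSeries K) * y ^ 2) = 12 * (2 * y * theta y) := by
    have := theta_natCast_mul (R := K) 12 (y ^ 2)
    rw [theta_pow_two] at this
    simpa using this
  have h5 : theta ((5 : PowerSeries K) * A) = 5 * theta A := by
    have := theta_natCast_mul (R := K) 5 A
    simpa using this
  have h3 : 6 * theta (theta y) = theta y - 24 * y * theta y + 5 * theta A := by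
    have := congrArg theta h1
    rw [h6, theta_add, theta_sub, h12, h5] at this
    linear_combination this
  -- combine
  have hD' : 1728 * D = (1 + 240 * A) ^ 3 - (1 - 504 * B) ^ 2 := by rw [hD, hE4, hE6]
  have h1728ne : (1728 : PowerSeries K) ≠ 0 := by
    have : ((1728 : ℕ) : PowerSeries K) ≠ 0 := natCast_ne_zero' (by norm_num)
    simpa using this
  apply mul_left_cancel₀ h1728ne
  linear_combination (288 : PowerSeries K) * h3 + (48 - 1152 * y) * h1 + (48 : PowerSeries K) * h2
    - hD'

end Identity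

section Integral

open ArithmeticFunction
open scoped ArithmeticFunction.sigma

/-- The divisor-sum series `∑ σ_k(n) qⁿ` with integer coefficients. -/
noncomputable def sigSeries (k : ℕ) : PowerSeries ℤ := PowerSeries.mk fun n => ((σ k n : ℕ) : ℤ)

@[simp] theorem coeff_sigSeries (k n : ℕ) : coeff n (sigSeries k) = ((σ k n : ℕ) : ℤ) := by
  simp [sigSeries]

theorem constantCoeff_sigSeries (k : ℕ) : constantCoeff (sigSeries k) = 0 := by
  rw [← coeff_zero_eq_constantCoeff_apply, coeff_sigSeries]
  simp

/-- `y = ∑ σ₁(n) qⁿ`. -/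
noncomputable abbrev yZ : PowerSeries ℤ := sigSeries 1
/-- `A = ∑ σ₃(n) qⁿ`. -/
noncomputable abbrev AZ : PowerSeries ℤ := sigSeries 3
/-- `B = ∑ σ₅(n) qⁿ`. -/
noncomputable abbrev BZ : PowerSeries ℤ := sigSeries 5

/-- The integral power series which is the `q`-expansion of `Δ` (see `map_deltaZ`). -/
noncomputable def deltaZ : PowerSeries ℤ :=
  theta (theta yZ) + yZ ^ 2 - 8 * yZ ^ 3 + 10 * yZ * AZ + 100 * AZ ^ 2 + 8000 * AZ ^ 3
    - 147 * BZ ^ 2

/-- `deltaZ` is the `q`-expansion of `Δ`, given Ramanujan's identities (R2), (R4) and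
`1728 Δ = E₄³ - E₆²` for the rational `q`-expansions. -/
theorem map_deltaZ {K : Type*} [Field K] [CharZero K] {E2 E4 E6 D : PowerSeries K}
    (hE2 : E2 = 1 - 24 * PowerSeries.map (Int.castRingHom K) yZ)
    (hE4 : E4 = 1 + 240 * PowerSeries.map (Int.castRingHom K) AZ)
    (hE6 : E6 = 1 - 504 * PowerSeries.map (Int.castRingHom K) BZ)
    (hR2 : 12 * theta E2 = E2 ^ 2 - E4) (hR4 : 3 * theta E4 = E2 * E4 - E6)
    (hD : 1728 * D = E4 ^ 3 - E6 ^ 2) :
    PowerSeries.map (Int.castRingHom K) deltaZ = D := by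
  have h := theta_theta_sub_delta hE2 hE4 hE6 hR2 hR4 hD
  simp only [deltaZ, map_add, map_sub, map_mul, map_pow, map_theta, map_ofNat]
  linear_combination h

theorem coeff_one_deltaZ : coeff 1 deltaZ = 1 := by
  have h0 : ∀ k, coeff 0 (sigSeries k) = 0 := fun k => by simp
  have h1 : ∀ k, coeff 1 (sigSeries k) = 1 := fun k => by simp
  have hsq : ∀ f g : PowerSeries ℤ, coeff 0 f = 0 → coeff 0 g = 0 → coeff 1 (f * g) = 0 := by
    intro f g hf hg
    rw [coeff_mul, Finset.Nat.antidiagonal_succ]
    simp [hf, hg]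
  have hc0 : ∀ f g : PowerSeries ℤ, coeff 0 f = 0 → coeff 0 (f * g) = 0 := by
    intro f g hf
    simp [coeff_mul, hf]
  simp only [deltaZ, map_add, map_sub, coeff_theta]
  have e1 : coeff 1 (yZ ^ 2) = 0 := by rw [pow_two]; exact hsq _ _ (h0 1) (h0 1)
  have e2 : coeff 1 ((8 : PowerSeries ℤ) * yZ ^ 3) = 0 := by
    rw [pow_succ, ← mul_assoc]
    exact hsq _ _ (by rw [mul_comm]; exact hc0 _ _ (by rw [pow_two]; exact hc0 _ _ (h0 1))) (h0 1)
  have e3 : coeff 1 ((10 : PowerSeries ℤ) * yZ * AZ) = 0 :=
    hsq _ _ (by rw [mul_comm]; exact hc0 _ _ (h0 1)) (h0 3)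
  have e4 : coeff 1 ((100 : PowerSeries ℤ) * AZ ^ 2) = 0 := by
    rw [pow_two, ← mul_assoc]
    exact hsq _ _ (by rw [mul_comm]; exact hc0 _ _ (h0 3)) (h0 3)
  have e5 : coeff 1 ((8000 : PowerSeries ℤ) * AZ ^ 3) = 0 := by
    rw [pow_succ, ← mul_assoc]
    exact hsq _ _ (by rw [mul_comm]; exact hc0 _ _ (by rw [pow_two]; exact hc0 _ _ (h0 3))) (h0 3)
  have e6 : coeff 1 ((147 : PowerSeries ℤ) * BZ ^ 2) = 0 := by
    rw [pow_two, ← mul_assoc]
    exact hsq _ _ (by rw [mul_comm]; exact hc0 _ _ (h0 5)) (h0 5)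
  rw [e1, e2, e3, e4, e5, e6, h1]
  norm_num

theorem constantCoeff_deltaZ : constantCoeff deltaZ = 0 := by
  have h0 : ∀ k, constantCoeff (sigSeries k) = 0 := constantCoeff_sigSeries
  rw [← coeff_zero_eq_constantCoeff_apply]
  simp only [deltaZ, map_add, map_sub, coeff_theta]
  simp [h0]

end Integral

end Fermat.Agent.Eis.ThreeAS
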