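/-
Program E (S16), node N4 (l = 3), pure algebra part (helper11).

Let `k` be a field of characteristic `3`, `y ∈ k⟦q⟧` a non-zero power series without constant
term, `κ ∈ k`, `n ≥ 1`.  Then `y * (y - κ)^n` is NOT a polynomial in `y - y^3`.

(Used with `y = ∑ σ₁(n) qⁿ mod 3`, `y - y³ = Δ mod 3` : the Artin–Schreier extension
`k(Δ) ⊂ k(y)` has the automorphism `y ↦ y + 1`, and `Y (Y - κ)^n` is not invariant under it.)
-/
import Mathlib

set_option autoImplicit false

namespace Fermat.Agent.Eis.ThreeAlg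

open Polynomial

variable {k : Type*} [Field k]

/-- A non-zero power series without constant term is transcendental over the base field:
no non-zero polynomial vanishes at it. -/
theorem aeval_ne_zero_of_constantCoeff_eq_zero {y : PowerSeries k}
    (hy0 : PowerSeries.constantCoeff y = 0) (hy : y ≠ 0) {R : k[X]} (hR : R ≠ 0) :
    aeval y R ≠ 0 := by
  classical
  -- write `R = X ^ m * R₁` with `R₁.eval 0 ≠ 0`
  obtain ⟨m, R₁, hR₁, rfl⟩ : ∃ (m : ℕ) (R₁ : k[X]), R₁.eval 0 ≠ 0 ∧ R = X ^ m * R₁ := by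
    refine ⟨R.rootMultiplicity 0, R /ₘ (X - C 0) ^ R.rootMultiplicity 0, ?_, ?_⟩
    · have := Polynomial.eval_divByMonic_pow_rootMultiplicity_ne_zero (0 : k) hR
      simpa using this
    · have := Polynomial.pow_mul_divByMonic_rootMultiplicity_eq R (0 : k)
      simpa using this.symm
  rw [map_mul, map_pow, aeval_X]
  refine mul_ne_zero (pow_ne_zero _ hy) ?_
  intro h
  apply hR₁
  have h2 : PowerSeries.constantCoeff (aeval y R₁) = R₁.eval 0 := by
    rw [aeval_def, Polynomial.hom_eval₂, hy0]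
    have : (PowerSeries.constantCoeff (R := k)).comp (algebraMap k (PowerSeries k))
        = RingHom.id k := by
      ext a
      simp
    rw [this, Polynomial.eval₂_id]
  rw [← h2, h, map_zero]

variable [CharP k 3]

/-- In characteristic `3` the polynomial `X - X^3` is invariant under `X ↦ X + 1`. -/
theorem artinSchreier_comp : ((X : k[X]) - X ^ 3).comp (X + 1) = X - X ^ 3 := by
  have h3 : ((3 : ℕ) : k[X]) = 0 := by
    have : ((3 : ℕ) : k) = 0 := CharP.cast_eq_zero k 3
    rw [← Polynomial.C_eq_natCast, this, C_0]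
  have h3' : (3 : k[X]) = 0 := by exact_mod_cast h3
  simp only [sub_comp, X_comp, pow_comp]
  have : ((X : k[X]) + 1) ^ 3 = X ^ 3 + 1 + 3 * (X ^ 2 + X) := by ring
  rw [this, h3']
  ring

/-- **Main algebraic lemma of N4.** -/
theorem not_exists_polynomial {y : PowerSeries k}
    (hy0 : PowerSeries.constantCoeff y = 0) (hy : y ≠ 0) (κ : k) {n : ℕ} (hn : n ≠ 0) :
    ¬ ∃ G : k[X], aeval (y - y ^ 3) G = y * (y - PowerSeries.C κ) ^ n := by
  rintro ⟨G, hG⟩
  set P : k[X] := X * (X - C κ) ^ n with hP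
  set Q : k[X] := G.comp (X - X ^ 3) with hQ
  have hPy : aeval y P = y * (y - PowerSeries.C κ) ^ n := by
    simp [hP, Polynomial.aeval_C]
  have hQy : aeval y Q = aeval (y - y ^ 3) G := by
    rw [hQ, Polynomial.aeval_comp]
    simp
  have hPQ : P = Q := by
    by_contra hne
    have hne' : P - Q ≠ 0 := sub_ne_zero.mpr hne
    apply aeval_ne_zero_of_constantCoeff_eq_zero hy0 hy hne'
    rw [map_sub, hPy, hQy, hG, sub_self]
  have hQinv : Q.comp (X + 1) = Q := by
    rw [hQ, Polynomial.comp_assoc, artinSchreier_comp]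
  have hPinv : P.comp (X + 1) = P := by rw [hPQ, hQinv]
  -- evaluate at `0` and at `1`
  have e0 : P.eval 1 = P.eval 0 := by
    have := congrArg (Polynomial.eval 0) hPinv
    simpa [Polynomial.eval_comp] using this
  have e1 : P.eval (1 + 1) = P.eval 1 := by
    have := congrArg (Polynomial.eval 1) hPinv
    simpa [Polynomial.eval_comp] using this
  have hP0 : P.eval 0 = 0 := by simp [hP]
  have hP1 : P.eval 1 = (1 - κ) ^ n := by simp [hP]
  have hP2 : P.eval (1 + 1) = (1 + 1) * (1 + 1 - κ) ^ n := by simp [hP]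
  have hκ : κ = 1 := by
    have : (1 - κ) ^ n = 0 := by rw [← hP1, e0, hP0]
    have := pow_eq_zero_iff hn |>.mp this
    exact (sub_eq_zero.mp this).symm
  have h2 : ((1 : k) + 1) = 0 := by
    have : (1 + 1) * (1 + 1 - κ) ^ n = (0 : k) := by rw [← hP2, e1, e0, hP0]
    rw [hκ] at this
    simpa using this
  -- but `1 + 1 ≠ 0` in characteristic `3`
  have h3 : ((3 : ℕ) : k) = 0 := CharP.cast_eq_zero k 3
  have : (1 : k) = 0 := by
    have h3' : (1 : k) + 1 + 1 = 0 := by
      have : ((3 : ℕ) : k) = 1 + 1 + 1 := by norm_num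
      rw [← this, h3]
    rw [h2, zero_add] at h3'
    exact h3'
  exact one_ne_zero this

end Fermat.Agent.Eis.ThreeAlg
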