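/-
Program E (S16), node N4 (second seat): level-one modular forms with prescribed `q`-expansions.

`IsLevelOneQExp k f` : the power series `f` is the `q`-expansion of a level-one modular form of
weight `k`.  The predicate is closed under sums, scalar multiples, products (weights add) and
powers, which gives, without any dependent-weight bookkeeping, the form
`c * ∑ j, (-1)^j * S j * E₄^(2(n-j)) * E₆^j` of weight `8 n` for level-one forms `S j` of weight
`2 j` (`exists_levelOne_comb`), and its generic version `exists_levelOne_comb_gen`.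
-/
import Mathlib

set_option autoImplicit false

namespace Fermat.Agent.Eis.ThreeForm

open UpperHalfPlane ModularForm EisensteinSeries CongruenceSubgroup ModularFormClass
open scoped MatrixGroups

/-- `f` is the `q`-expansion of a level-one modular form of weight `k`. -/
def IsLevelOneQExp (k : ℤ) (f : PowerSeries ℂ) : Prop :=
  ∃ F : ModularForm 𝒮ℒ k, qExpansion 1 F = f

theorem isLevelOneQExp_qExpansion {k : ℤ} (F : ModularForm 𝒮ℒ k) :
    IsLevelOneQExp k (qExpansion 1 F) := ⟨F, rfl⟩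

theorem IsLevelOneQExp.cast {k k' : ℤ} (h : k = k') {f : PowerSeries ℂ}
    (hf : IsLevelOneQExp k f) : IsLevelOneQExp k' f := by
  subst h
  exact hf

theorem isLevelOneQExp_zero (k : ℤ) : IsLevelOneQExp k 0 :=
  ⟨0, by
    have : ((0 : ModularForm 𝒮ℒ k) : ℍ → ℂ) = 0 := rfl
    rw [this, qExpansion_zero]⟩

theorem isLevelOneQExp_one : IsLevelOneQExp 0 1 :=
  ⟨1, ModularForm.qExpansion_one⟩

theorem IsLevelOneQExp.add {k : ℤ} {f g : PowerSeries ℂ} (hf : IsLevelOneQExp k f)
    (hg : IsLevelOneQExp k g) : IsLevelOneQExp k (f + g) := by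
  obtain ⟨F, rfl⟩ := hf
  obtain ⟨G, rfl⟩ := hg
  exact ⟨F + G, by
    rw [FunLike.coe_add, ModularForm.qExpansion_add one_pos one_mem_strictPeriods_SL]⟩

theorem IsLevelOneQExp.smul {k : ℤ} {f : PowerSeries ℂ} (hf : IsLevelOneQExp k f) (c : ℂ) :
    IsLevelOneQExp k (c • f) := by
  obtain ⟨F, rfl⟩ := hf
  exact ⟨c • F, by
    rw [FunLike.coe_smul, ModularForm.qExpansion_smul one_pos one_mem_strictPeriods_SL]⟩

theorem IsLevelOneQExp.C_mul {k : ℤ} {f : PowerSeries ℂ} (hf : IsLevelOneQExp k f) (c : ℂ) :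
    IsLevelOneQExp k (PowerSeries.C c * f) := by
  have := hf.smul c
  rwa [PowerSeries.smul_eq_C_mul] at this

theorem IsLevelOneQExp.neg {k : ℤ} {f : PowerSeries ℂ} (hf : IsLevelOneQExp k f) :
    IsLevelOneQExp k (-f) := by
  have := hf.smul (-1)
  rwa [neg_one_smul] at this

theorem IsLevelOneQExp.mul {k l : ℤ} {f g : PowerSeries ℂ} (hf : IsLevelOneQExp k f)
    (hg : IsLevelOneQExp l g) : IsLevelOneQExp (k + l) (f * g) := by
  obtain ⟨F, rfl⟩ := hf
  obtain ⟨G, rfl⟩ := hg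
  exact ⟨F.mul G, ModularForm.qExpansion_mul one_pos one_mem_strictPeriods_SL F G⟩

theorem IsLevelOneQExp.pow {k : ℤ} {f : PowerSeries ℂ} (hf : IsLevelOneQExp k f) (n : ℕ) :
    IsLevelOneQExp (n * k) (f ^ n) := by
  obtain ⟨F, rfl⟩ := hf
  exact ⟨F.pow n, ModularForm.qExpansion_pow one_pos one_mem_strictPeriods_SL F n⟩

theorem IsLevelOneQExp.neg_one_pow_mul {k : ℤ} {f : PowerSeries ℂ} (hf : IsLevelOneQExp k f)
    (j : ℕ) : IsLevelOneQExp k ((-1 : PowerSeries ℂ) ^ j * f) := by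
  rcases Nat.even_or_odd j with hj | hj
  · rwa [hj.neg_one_pow, one_mul]
  · rw [hj.neg_one_pow, neg_one_mul]
    exact hf.neg

theorem isLevelOneQExp_sum {ι : Type*} (s : Finset ι) {k : ℤ} (f : ι → PowerSeries ℂ)
    (hf : ∀ i ∈ s, IsLevelOneQExp k (f i)) : IsLevelOneQExp k (∑ i ∈ s, f i) := by
  classical
  induction s using Finset.induction_on with
  | empty => simpa using isLevelOneQExp_zero k
  | insert a s ha ih =>
    rw [Finset.sum_insert ha]
    exact (hf a (Finset.mem_insert_self a s)).add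
      (ih fun i hi => hf i (Finset.mem_insert_of_mem hi))

/-- Generic version: for level-one forms `S j` of weight `2 j`, `G` of weight `wG` and `H` of
weight `wH` with `wG = wH + 2`, the series `c * ∑_{j ≤ n} (-1)^j S_j G^(n-j) H^j` is the
`q`-expansion of a level-one form of weight `n * wG`. -/
theorem exists_levelOne_comb_gen (n : ℕ) (S : (j : ℕ) → ModularForm 𝒮ℒ ((2 : ℤ) * (j : ℤ)))
    {wG wH : ℤ} (hw : wG = wH + 2) (G : ModularForm 𝒮ℒ wG) (H : ModularForm 𝒮ℒ wH) (c : ℂ) :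
    ∃ F : ModularForm 𝒮ℒ ((n : ℤ) * wG), qExpansion 1 F =
      PowerSeries.C c * ∑ j ∈ Finset.range (n + 1), (-1 : PowerSeries ℂ) ^ j *
        qExpansion 1 (S j) * (qExpansion 1 G) ^ (n - j) * (qExpansion 1 H) ^ j := by
  refine IsLevelOneQExp.C_mul (isLevelOneQExp_sum _ _ fun j hj => ?_) c
  have hjn : j ≤ n := Nat.lt_succ_iff.mp (Finset.mem_range.mp hj)
  have h1 : IsLevelOneQExp ((2 : ℤ) * (j : ℤ)) ((-1 : PowerSeries ℂ) ^ j * qExpansion 1 (S j)) :=
    (isLevelOneQExp_qExpansion (S j)).neg_one_pow_mul j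
  have h2 := (isLevelOneQExp_qExpansion G).pow (n - j)
  have h3 := (isLevelOneQExp_qExpansion H).pow j
  refine ((h1.mul h2).mul h3).cast ?_
  rw [Nat.cast_sub hjn, hw]
  ring

/-- The form consumed by N4: for level-one forms `S j` of weight `2 j` there is a level-one form
of weight `8 n` with `q`-expansion `c * ∑_{j ≤ n} (-1)^j S_j E₄^(2(n-j)) E₆^j`. -/
theorem exists_levelOne_comb (n : ℕ) (S : (j : ℕ) → ModularForm 𝒮ℒ ((2 : ℤ) * (j : ℤ))) (c : ℂ) :
    ∃ F : ModularForm 𝒮ℒ ((8 : ℤ) * (n : ℤ)), qExpansion 1 F =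
      PowerSeries.C c * ∑ j ∈ Finset.range (n + 1), (-1 : PowerSeries ℂ) ^ j *
        qExpansion 1 (S j) * (qExpansion 1 E₄) ^ (2 * (n - j)) * (qExpansion 1 E₆) ^ j := by
  refine IsLevelOneQExp.C_mul (isLevelOneQExp_sum _ _ fun j hj => ?_) c
  have hjn : j ≤ n := Nat.lt_succ_iff.mp (Finset.mem_range.mp hj)
  have h1 : IsLevelOneQExp ((2 : ℤ) * (j : ℤ)) ((-1 : PowerSeries ℂ) ^ j * qExpansion 1 (S j)) :=
    (isLevelOneQExp_qExpansion (S j)).neg_one_pow_mul j
  have h2 := (isLevelOneQExp_qExpansion E₄).pow (2 * (n - j))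
  have h3 := (isLevelOneQExp_qExpansion E₆).pow j
  refine ((h1.mul h2).mul h3).cast ?_
  push_cast [Nat.cast_sub hjn]
  ring

end Fermat.Agent.Eis.ThreeForm
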