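/-
Program E (S16), node N4 (l = 3), part 3: the Artin–Schreier relation modulo `3`
(helper11).

For `y = ∑ σ₁(n) qⁿ` and the integral series `deltaZ` of `Eis/ThreeAS.lean` (the `q`-expansion of
`Δ`), one has `Δ ≡ y - y³ (mod 3)`: `map_deltaZ_zmod` over `ZMod 3` and `map_deltaZ_charThree` over
any commutative ring of characteristic `3`.
-/
import Mathlib
import Fermat.Agent.Eis.ThreeAS

set_option autoImplicit false

namespace Fermat.Agent.Eis.ThreeMod

open PowerSeries
open Fermat.Agent.Eis.ThreeAS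

/-- Over `ZMod 3`, cubing a power series is the substitution `q ↦ q³`. -/
theorem pow_three_eq_expand (f : PowerSeries (ZMod 3)) :
    f ^ 3 = PowerSeries.expand 3 (by norm_num) f := by
  have h := MvPowerSeries.map_frobenius_expand (R := ZMod 3) 3 (by norm_num) (f := f)
  have hfrob : frobenius (ZMod 3) 3 = RingHom.id _ := by
    ext x
    simp
  rw [hfrob] at h
  rw [← h]
  simp [PowerSeries.expand]

theorem natCast_pow_three (d : ℕ) : ((d : ZMod 3)) ^ 3 = (d : ZMod 3) := by
  exact ZMod.pow_card (d : ZMod 3)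

section Sigma

open ArithmeticFunction
open scoped ArithmeticFunction.sigma

theorem sigma_three_mod (n : ℕ) : ((σ 3 n : ℕ) : ZMod 3) = ((σ 1 n : ℕ) : ZMod 3) := by
  rw [sigma_apply, sigma_apply]
  push_cast
  refine Finset.sum_congr rfl fun d _ => ?_
  rw [natCast_pow_three, pow_one]

/-- `σ₁(3m) ≡ σ₁(m) (mod 3)`. -/
theorem sigma_one_three_mul (m : ℕ) : ((σ 1 (3 * m) : ℕ) : ZMod 3) = ((σ 1 m : ℕ) : ZMod 3) := by
  rcases Nat.eq_zero_or_pos m with rfl | hm
  · simp
  rw [sigma_one_apply, sigma_one_apply]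
  push_cast
  have hsplit : (3 * m).divisors = m.divisors ∪ (3 * m).divisors.filter (fun d => ¬ d ∣ m) := by
    ext d
    simp only [Finset.mem_union, Finset.mem_filter, Nat.mem_divisors]
    constructor
    · rintro ⟨h1, h2⟩
      by_cases hd : d ∣ m
      · exact Or.inl ⟨hd, hm.ne'⟩
      · exact Or.inr ⟨⟨h1, h2⟩, hd⟩
    · rintro (⟨h1, h2⟩ | ⟨h1, _⟩)
      · exact ⟨Dvd.dvd.mul_left h1 3, by omega⟩
      · exact h1
  have hdisj : Disjoint m.divisors ((3 * m).divisors.filter (fun d => ¬ d ∣ m)) := by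
    rw [Finset.disjoint_left]
    intro d hd hd'
    rw [Finset.mem_filter] at hd'
    exact hd'.2 (Nat.dvd_of_mem_divisors hd)
  rw [hsplit, Finset.sum_union hdisj]
  have hzero : ∑ d ∈ (3 * m).divisors.filter (fun d => ¬ d ∣ m), (d : ZMod 3) = 0 := by
    refine Finset.sum_eq_zero fun d hd => ?_
    rw [Finset.mem_filter, Nat.mem_divisors] at hd
    obtain ⟨⟨h1, _⟩, h2⟩ := hd
    have h3 : 3 ∣ d := by
      by_contra h3
      have hcop : Nat.Coprime d 3 := (Nat.Prime.coprime_iff_not_dvd Nat.prime_three).2 h3 |>.symm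
      exact h2 (hcop.dvd_of_dvd_mul_left h1)
    exact (ZMod.natCast_eq_zero_iff d 3).2 h3
  rw [hzero, add_zero]


/-- `y = ∑ σ₁(n) qⁿ` modulo `3`. -/
noncomputable def ybar : PowerSeries (ZMod 3) := PowerSeries.map (Int.castRingHom (ZMod 3)) yZ

@[simp] theorem coeff_ybar (n : ℕ) : coeff n ybar = ((σ 1 n : ℕ) : ZMod 3) := by
  simp [ybar]

theorem map_AZ : PowerSeries.map (Int.castRingHom (ZMod 3)) AZ = ybar := by
  ext n
  simp [sigma_three_mod]

theorem three_eq_zero : (3 : PowerSeries (ZMod 3)) = 0 := by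
  rw [← map_ofNat (C (R := ZMod 3)) 3]
  have : (3 : ZMod 3) = 0 := by decide
  rw [show (OfNat.ofNat 3 : ZMod 3) = 0 from this, _root_.map_zero]

theorem sq_eq_one_of_not_dvd {n : ℕ} (h : ¬ 3 ∣ n) : ((n : ZMod 3)) ^ 2 = 1 := by
  have hne : (n : ZMod 3) ≠ 0 := by
    rwa [Ne, ZMod.natCast_eq_zero_iff]
  exact ZMod.pow_card_sub_one_eq_one hne

theorem theta_theta_ybar : theta (theta ybar) = ybar - ybar ^ 3 := by
  ext n
  rw [coeff_theta, coeff_theta, map_sub, pow_three_eq_expand, PowerSeries.coeff_expand, coeff_ybar]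
  split_ifs with h
  · obtain ⟨m, rfl⟩ := h
    rw [Nat.mul_div_cancel_left _ (by norm_num : 0 < 3), coeff_ybar, sigma_one_three_mul, sub_self]
    have : ((3 * m : ℕ) : ZMod 3) = 0 := by
      rw [ZMod.natCast_eq_zero_iff]; exact dvd_mul_right 3 m
    rw [this, zero_mul]
  · rw [sub_zero, ← mul_assoc, ← pow_two, sq_eq_one_of_not_dvd h, one_mul]

/-- **The Artin–Schreier relation** `Δ ≡ y - y³ (mod 3)`. -/
theorem map_deltaZ_zmod : PowerSeries.map (Int.castRingHom (ZMod 3)) deltaZ = ybar - ybar ^ 3 := by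
  have h : PowerSeries.map (Int.castRingHom (ZMod 3)) deltaZ
      = theta (theta ybar) + ybar ^ 2 - 8 * ybar ^ 3 + 10 * ybar * ybar + 100 * ybar ^ 2
        + 8000 * ybar ^ 3
        - 147 * (PowerSeries.map (Int.castRingHom (ZMod 3)) BZ) ^ 2 := by
    simp only [deltaZ, map_add, map_sub, map_mul, map_pow, map_theta, map_ofNat, map_AZ]
    rfl
  rw [h, theta_theta_ybar]
  linear_combination (37 * ybar ^ 2 + 2664 * ybar ^ 3
    - 49 * (PowerSeries.map (Int.castRingHom (ZMod 3)) BZ) ^ 2) * three_eq_zero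

end Sigma


section General

variable (k : Type*) [CommRing k] [CharP k 3]

/-- `y = ∑ σ₁(n) qⁿ` over a ring of characteristic `3`. -/
noncomputable def yK : PowerSeries k := PowerSeries.map (Int.castRingHom k) yZ

omit [CharP k 3] in
theorem constantCoeff_yK : constantCoeff (yK k) = 0 := by
  rw [yK, ← coeff_zero_eq_constantCoeff_apply, coeff_map]
  simp

omit [CharP k 3] in
theorem coeff_one_yK : coeff 1 (yK k) = 1 := by
  rw [yK, coeff_map]
  simp

omit [CharP k 3] in
theorem yK_ne_zero [Nontrivial k] : yK k ≠ 0 := by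
  intro h
  have := coeff_one_yK k
  rw [h] at this
  simp at this

/-- **The Artin–Schreier relation** `Δ = y - y³` over any ring of characteristic `3`. -/
theorem map_deltaZ_charThree :
    PowerSeries.map (Int.castRingHom k) deltaZ = yK k - yK k ^ 3 := by
  have hcomp : (ZMod.castHom (dvd_refl 3) k).comp (Int.castRingHom (ZMod 3)) = Int.castRingHom k :=
    RingHom.ext_int _ _
  have h := congrArg (PowerSeries.map (ZMod.castHom (dvd_refl 3) k)) map_deltaZ_zmod
  rw [map_sub, map_pow, ybar, ← RingHom.comp_apply, ← RingHom.comp_apply, ← PowerSeries.map_comp,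
    hcomp] at h
  exact h

end General

end Fermat.Agent.Eis.ThreeMod
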