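/-
Program E (S16), node N4 (l = 3), case `p ≡ 2 (mod 3)` (helper11):
no weight two form on `Γ₀(p)` with rational `q`-expansion is `≡ 1 (mod 9)`, given the conjugates
package for `u` and integral models of the `q`-expansions of `E₄`, `E₆`, `Δ`.

The norm of `(E₄² - u E₆)/3` from `Γ₀(p)` to level one is a `3`-integral level one form, hence
modulo `3` a polynomial in `Δ ≡ y - y³`, while its `q^{1/p}`-expansion reduces to `y (y - κ)^p`:
impossible (Artin–Schreier, `Eis/ThreeAlg.lean`).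
-/
import Mathlib
import Fermat.Agent.Eis.Defs
import Fermat.Agent.Eis.ConjCong
import Fermat.Agent.Eis.L1Basis
import Fermat.Agent.Eis.ThreeAlg
import Fermat.Agent.Eis.ThreeAS
import Fermat.Agent.Eis.ThreeMod
import Fermat.Agent.Eis.ThreeACore
import Fermat.Agent.Eis.ThreeForm

set_option autoImplicit false

namespace Fermat.Agent.Eis.ThreeA

open CongruenceSubgroup ModularFormClass UpperHalfPlane PowerSeries ModularForm EisensteinSeries
open scoped MatrixGroups
open Fermat.Agent.Eis Fermat.Agent.Eis.ThreeAS Fermat.Agent.Eis.ThreeMod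

/-- Lift of a power series with coefficients in a subring. -/
theorem exists_lift (O : Subring ℂ) {H : PowerSeries ℂ} (hH : H ∈ psSub O) :
    ∃ h : PowerSeries ↥O, PowerSeries.map O.subtype h = H :=
  ⟨PowerSeries.mk fun n => ⟨coeff n H, hH n⟩, by ext n; simp⟩

/-- There is a maximal ideal of the ring of `3`-integral numbers containing `3`. -/
theorem exists_maximal_three : ∃ 𝔪 : Ideal ↥(IntAt 3), 𝔪.IsMaximal ∧ (3 : ↥(IntAt 3)) ∈ 𝔪 := by
  have hne : Ideal.span {(3 : ↥(IntAt 3))} ≠ ⊤ := by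
    rw [Ne, Ideal.span_singleton_eq_top]
    rintro ⟨v, hv⟩
    have h1 : (3 : ↥(IntAt 3)) * (↑v⁻¹ : ↥(IntAt 3)) = 1 := by
      rw [← hv]; exact v.mul_inv
    have h2 : (3 : ℂ) * ((↑v⁻¹ : ↥(IntAt 3)) : ℂ) = 1 := by
      have := congrArg (IntAt 3).subtype h1
      rw [map_mul, map_ofNat, map_one] at this
      exact this
    have h3 : ((3 : ℕ) : ℂ)⁻¹ = ((↑v⁻¹ : ↥(IntAt 3)) : ℂ) := by
      push_cast
      field_simp
      linear_combination -h2
    exact inv_prime_not_mem_IntAt (l := 3) (h3 ▸ (↑v⁻¹ : ↥(IntAt 3)).2)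
  obtain ⟨𝔪, hmax, hle⟩ := Ideal.exists_le_maximal _ hne
  exact ⟨𝔪, hmax, hle (Ideal.subset_span rfl)⟩

theorem map_AZ_charThree (k : Type*) [CommRing k] [CharP k 3] :
    PowerSeries.map (Int.castRingHom k) AZ = yK k := by
  have hcomp : (ZMod.castHom (dvd_refl 3) k).comp (Int.castRingHom (ZMod 3)) = Int.castRingHom k :=
    RingHom.ext_int _ _
  have h := congrArg (PowerSeries.map (ZMod.castHom (dvd_refl 3) k)) map_AZ
  rw [ybar, ← RingHom.comp_apply, ← RingHom.comp_apply, ← PowerSeries.map_comp, hcomp] at h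
  exact h

theorem three_eq_zero_ps {O k : Type*} [CommRing O] [CommRing k] (φ : O →+* k) (hφ3 : φ 3 = 0) :
    (3 : PowerSeries k) = 0 := by
  have h : (3 : k) = 0 := by rw [← hφ3, map_ofNat]
  rw [← map_ofNat (PowerSeries.C (R := k)) 3, h, map_zero]

/-- **Case `p ≡ 2 (mod 3)`**, in hypothesis form on the conjugates package and on the integral
models of `E₄`, `E₆`, `Δ`. -/
theorem not_unitCong_three_two_of (p : ℕ) (hp : p ≠ 0) (hp3 : p % 3 = 2)
    (hpack : ∀ u : ModularForm (Gamma0 p) 2, ConjPackage p hp u)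
    (hQ : (1 + 240 * AZ).map (Int.castRingHom ℂ) = qExpansion 1 E₄)
    (hR : (1 - 504 * BZ).map (Int.castRingHom ℂ) = qExpansion 1 E₆)
    (hD : deltaZ.map (Int.castRingHom ℂ) = qExpansion 1 ModularForm.discriminant) :
    ¬ UnitCong p 3 2 := by
  rintro ⟨u, hu⟩
  have hu' : IsUnitCong 3 2 u := hu
  obtain ⟨ut, S, hut, -, -, hpoly⟩ := hpack u
  obtain ⟨𝔪, h𝔪max, h3𝔪⟩ := exists_maximal_three
  have := h𝔪max
  let _ : Field (↥(IntAt 3) ⧸ 𝔪) := Ideal.Quotient.field 𝔪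
  set φ : ↥(IntAt 3) →+* (↥(IntAt 3) ⧸ 𝔪) := Ideal.Quotient.mk 𝔪 with hφ
  have hφ3 : φ 3 = 0 := Ideal.Quotient.eq_zero_iff_mem.2 h3𝔪
  have : CharP (↥(IntAt 3) ⧸ 𝔪) 3 :=
    (CharP.charP_iff_prime_eq_zero Nat.prime_three).2 (by
      have : ((3 : ℕ) : ↥(IntAt 3) ⧸ 𝔪) = φ 3 := by rw [map_ofNat]; rfl
      rw [this, hφ3])
  have h3k : (3 : PowerSeries (↥(IntAt 3) ⧸ 𝔪)) = 0 := three_eq_zero_ps φ hφ3
  -- congruences of the conjugates
  obtain ⟨Hinf, hHinf, hcI⟩ := conjInf_cong (l := 3) 2 p hp u hu'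
  have hlp : ¬ 3 ∣ p := by omega
  choose Hfin hHfin hcF using fun b => conjFin_cong (l := 3) 2 p hp hlp u ut hu' hut b
  obtain ⟨hinf, hhinf⟩ := exists_lift (IntAt 3) hHinf
  choose hfin hhfin using fun b => exists_lift (IntAt 3) (hHfin b)
  -- the constant `κ` with `-1/p = 1 + 3 κ`
  have hpc : (p : ℂ) ≠ 0 := by exact_mod_cast hp
  have hκmem : (-(1 / (p : ℂ)) - 1) / 3 ∈ IntAt 3 := by
    obtain ⟨m, hm⟩ : ∃ m : ℕ, p + 1 = 3 * m := ⟨(p + 1) / 3, by omega⟩
    have hpinv : ((p : ℂ))⁻¹ ∈ IntAt 3 := inv_natCast_mem_IntAt (l := 3) (m := p) hlp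
    have : (-(1 / (p : ℂ)) - 1) / 3 = -((m : ℂ) * ((p : ℂ))⁻¹) := by
      have hm' : (p : ℂ) + 1 = 3 * (m : ℂ) := by exact_mod_cast hm
      field_simp
      linear_combination -hm'
    rw [this]
    exact (IntAt 3).neg_mem ((IntAt 3).mul_mem (natCast_mem _ m) hpinv)
  set κ : ↥(IntAt 3) := ⟨(-(1 / (p : ℂ)) - 1) / 3, hκmem⟩ with hκ
  set A : PowerSeries ↥(IntAt 3) := PowerSeries.map (Int.castRingHom ↥(IntAt 3)) AZ with hA
  set B : PowerSeries ↥(IntAt 3) := PowerSeries.map (Int.castRingHom ↥(IntAt 3)) BZ with hB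
  have hB0 : constantCoeff B = 0 := by
    rw [hB, ← coeff_zero_eq_constantCoeff_apply, coeff_map, coeff_zero_eq_constantCoeff_apply,
      constantCoeff_sigSeries, map_zero]
  have hcomp : ((IntAt 3).subtype).comp (Int.castRingHom ↥(IntAt 3)) = Int.castRingHom ℂ :=
    RingHom.ext_int _ _
  have hιA : PowerSeries.map (IntAt 3).subtype A = PowerSeries.map (Int.castRingHom ℂ) AZ := by
    rw [hA, ← RingHom.comp_apply, ← PowerSeries.map_comp, hcomp]
  have hιB : PowerSeries.map (IntAt 3).subtype B = PowerSeries.map (Int.castRingHom ℂ) BZ := by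
    rw [hB, ← RingHom.comp_apply, ← PowerSeries.map_comp, hcomp]
  have hQι : 1 + 240 * PowerSeries.map (IntAt 3).subtype A = qExpansion 1 E₄ := by
    rw [← hQ, hιA]
    simp only [map_add, map_one, map_mul, map_ofNat]
  have hRι : 1 - 504 * PowerSeries.map (IntAt 3).subtype B = qExpansion 1 E₆ := by
    rw [← hR, hιB]
    simp only [map_sub, map_one, map_mul, map_ofNat]
  have h9 : (PowerSeries.C (((3 : ℕ) : ℂ) ^ 2) : PowerSeries ℂ) = 9 := by
    have : (((3 : ℕ) : ℂ) ^ 2) = 9 := by norm_num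
    rw [this, map_ofNat]
  obtain ⟨f, hf1, hf2⟩ := coreA (IntAt 3) φ hφ3 p hp (conjInf p hp u) (fun b => conjFin p ut b)
    (fun j => qExpansion 1 (S j)) hpoly A B hB0 (3 * hinf) (fun b => PowerSeries.C κ + 3 * hfin b)
    (by
      rw [map_mul, map_ofNat, hhinf]
      rw [h9] at hcI
      linear_combination hcI)
    (by
      intro b _
      have hb := hcF b
      rw [h9] at hb
      have hCκ : (PowerSeries.C (-(1 / (p : ℂ))) : PowerSeries ℂ)
          = 1 + 3 * PowerSeries.C ((κ : ℂ)) := by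
        have h3 : (3 : PowerSeries ℂ) = PowerSeries.C (3 : ℂ) := by rw [map_ofNat]
        rw [h3, ← map_mul, ← map_one (PowerSeries.C (R := ℂ)), ← map_add]
        congr 1
        rw [hκ]
        simp only
        field_simp
        ring
      rw [map_add, map_mul, map_ofNat, hhfin b, PowerSeries.map_C]
      have : (IntAt 3).subtype κ = (κ : ℂ) := rfl
      rw [this]
      linear_combination hb + hCκ)
    (by rw [map_mul, map_ofNat, h3k, zero_mul])
    (φ κ)
    (by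
      intro b _
      rw [map_add, map_mul, map_ofNat, h3k, zero_mul, add_zero, PowerSeries.map_C])
  -- the level one form
  have h3ne : ((3 : ℂ) ^ (p + 1)) ≠ 0 := pow_ne_zero _ (by norm_num)
  obtain ⟨F, hF⟩ := ThreeForm.exists_levelOne_comb (p + 1) S (((3 : ℂ) ^ (p + 1))⁻¹)
  have hfF : PowerSeries.map (IntAt 3).subtype f = qExpansion 1 F := by
    rw [hF, ← hQι, ← hRι]
    have hsum : ∑ j ∈ Finset.range (p + 1 + 1), (-1 : PowerSeries ℂ) ^ j * qExpansion 1 (S j) *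
          (1 + 240 * PowerSeries.map (IntAt 3).subtype A) ^ (2 * (p + 1 - j)) *
          (1 - 504 * PowerSeries.map (IntAt 3).subtype B) ^ j
        = PowerSeries.C ((3 : ℂ) ^ (p + 1)) * PowerSeries.map (IntAt 3).subtype f := hf1.symm
    rw [hsum, ← mul_assoc, ← map_mul, inv_mul_cancel₀ h3ne, map_one, one_mul]
  -- reduction modulo `𝔪`
  have hQ1 : (1 + 240 * AZ).map (Int.castRingHom (↥(IntAt 3) ⧸ 𝔪)) = 1 := by
    simp only [map_add, map_one, map_mul, map_ofNat]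
    linear_combination (80 * PowerSeries.map (Int.castRingHom (↥(IntAt 3) ⧸ 𝔪)) AZ) * h3k
  have hR1 : (1 - 504 * BZ).map (Int.castRingHom (↥(IntAt 3) ⧸ 𝔪)) = 1 := by
    simp only [map_sub, map_one, map_mul, map_ofNat]
    linear_combination (-168 * PowerSeries.map (Int.castRingHom (↥(IntAt 3) ⧸ 𝔪)) BZ) * h3k
  obtain ⟨o, ho⟩ := L1B.exists_coords_map_of_one hQ hR hD (IntAt 3) φ hQ1 hR1 F f hfF
  have hcomp' : φ.comp (Int.castRingHom ↥(IntAt 3)) = Int.castRingHom (↥(IntAt 3) ⧸ 𝔪) :=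
    RingHom.ext_int _ _
  have hφA : PowerSeries.map φ A = yK (↥(IntAt 3) ⧸ 𝔪) := by
    rw [hA, ← RingHom.comp_apply, ← PowerSeries.map_comp, hcomp', map_AZ_charThree]
  rw [map_deltaZ_charThree, hf2, hφA] at ho
  refine ThreeAlg.not_exists_polynomial (y := yK (↥(IntAt 3) ⧸ 𝔪)) (constantCoeff_yK _)
    (yK_ne_zero _) (φ κ) hp ⟨∑ c ∈ Finset.range (L1B.dimL ((8 : ℤ) * ((p + 1 : ℕ) : ℤ)).toNat),
      Polynomial.C (φ (o c)) * Polynomial.X ^ c, ?_⟩
  rw [ho, map_sum]
  refine Finset.sum_congr rfl fun c _ => ?_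
  rw [map_mul, map_pow, Polynomial.aeval_X, Polynomial.aeval_C]
  rfl

end Fermat.Agent.Eis.ThreeA
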