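/-
Program E (S16), node N4 (l = 3), case `p ≡ 1 (mod 3)`: algebraic core (helper11).

From the `T₂`-identity `u² + p⁻¹ U_p((U_p u)²) = κ E₄` and `u ≡ 1 (mod 3)` one gets
`aₙ(u)/3 ≡ σ₃(n) (mod 3)` for all `n ≥ 1`, provided `p + 1` is a `3`-adic unit.
-/
import Mathlib

set_option autoImplicit false

namespace Fermat.Agent.Eis.ThreeB

open PowerSeries

/-- Coefficients of the square of `1 + 3 W`. -/
theorem coeff_one_add_three_mul_sq (W : PowerSeries ℂ) (n : ℕ) (hn : 1 ≤ n) :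
    coeff n ((1 + 3 * W) ^ 2) = 6 * coeff n W + 9 * coeff n (W ^ 2) := by
  have h : (1 + 3 * W) ^ 2 = 1 + C (6 : ℂ) * W + C (9 : ℂ) * W ^ 2 := by
    have h6 : (C (6 : ℂ) : PowerSeries ℂ) = 6 := by rw [map_ofNat]
    have h9 : (C (9 : ℂ) : PowerSeries ℂ) = 9 := by rw [map_ofNat]
    rw [h6, h9]; ring
  rw [h, map_add, map_add, coeff_C_mul, coeff_C_mul, coeff_one, if_neg (by omega), zero_add]

/-- **Core of the case `p ≡ 1 (mod 3)`.** -/
theorem coeff_div_three_congr (O : Subring ℂ) (p : ℕ) (hp : p ≠ 0)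
    (hp1 : ((p : ℂ) + 1)⁻¹ ∈ O)
    (U V E4 : PowerSeries ℂ) (hU0 : coeff 0 U = 1) (hV0 : coeff 0 V = 1)
    (hU : ∀ n, 1 ≤ n → coeff n U / 3 ∈ O) (hV : ∀ n, 1 ≤ n → coeff n V / 3 ∈ O)
    (link : ∀ n, coeff n U = coeff (p * n) V)
    (κ : ℂ)
    (hT : ∀ n, coeff n (U ^ 2) + (p : ℂ)⁻¹ * coeff (p * n) (V ^ 2) = κ * coeff n E4)
    (s3 : ℕ → ℤ)
    (hE4 : ∀ n, coeff n E4 = if n = 0 then 1 else 240 * (s3 n : ℂ)) :
    ∀ n, 1 ≤ n → ∃ t ∈ O, coeff n U / 3 - (s3 n : ℂ) = 3 * t := by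
  have hpc : (p : ℂ) ≠ 0 := by exact_mod_cast hp
  -- the series `W`, `W'`
  set W : PowerSeries ℂ := PowerSeries.mk fun n => if n = 0 then 0 else coeff n U / 3 with hWdef
  set W' : PowerSeries ℂ := PowerSeries.mk fun n => if n = 0 then 0 else coeff n V / 3 with hW'def
  have hUW : U = 1 + 3 * W := by
    ext n
    have h3 : (3 : PowerSeries ℂ) = C (3 : ℂ) := by rw [map_ofNat]
    rw [map_add, h3, coeff_C_mul, hWdef, coeff_mk, coeff_one]
    by_cases hn : n = 0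
    · subst hn; simp [hU0]
    · simp only [hn, if_false]; ring
  have hVW : V = 1 + 3 * W' := by
    ext n
    have h3 : (3 : PowerSeries ℂ) = C (3 : ℂ) := by rw [map_ofNat]
    rw [map_add, h3, coeff_C_mul, hW'def, coeff_mk, coeff_one]
    by_cases hn : n = 0
    · subst hn; simp [hV0]
    · simp only [hn, if_false]; ring
  have hWO : ∀ n, coeff n W ∈ O := by
    intro n
    rw [hWdef, coeff_mk]
    split_ifs with hn
    · exact O.zero_mem
    · exact hU n (Nat.one_le_iff_ne_zero.2 hn)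
  have hW'O : ∀ n, coeff n W' ∈ O := by
    intro n
    rw [hW'def, coeff_mk]
    split_ifs with hn
    · exact O.zero_mem
    · exact hV n (Nat.one_le_iff_ne_zero.2 hn)
  have hsqO : ∀ (F : PowerSeries ℂ), (∀ n, coeff n F ∈ O) → ∀ n, coeff n (F ^ 2) ∈ O := by
    intro F hF n
    rw [pow_two, coeff_mul]
    exact O.sum_mem fun x _ => O.mul_mem (hF _) (hF _)
  -- the constant `κ`
  have hκ : κ = 1 + (p : ℂ)⁻¹ := by
    have h0 := hT 0
    rw [Nat.mul_zero, hE4 0, if_pos rfl, mul_one] at h0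
    have e1 : coeff 0 (U ^ 2) = 1 := by
      rw [pow_two, coeff_mul]; simp [hU0]
    have e2 : coeff 0 (V ^ 2) = 1 := by
      rw [pow_two, coeff_mul]; simp [hV0]
    rw [e1, e2, mul_one] at h0
    exact h0.symm
  intro n hn
  have hn0 : n ≠ 0 := by omega
  have hpn : 1 ≤ p * n := Nat.one_le_iff_ne_zero.2 (Nat.mul_ne_zero hp hn0)
  have hpn0 : p * n ≠ 0 := by omega
  have hwn : coeff n W = coeff n U / 3 := by
    rw [hWdef, coeff_mk, if_neg hn0]
  have hw'pn : coeff (p * n) W' = coeff n U / 3 := by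
    rw [hW'def, coeff_mk, if_neg hpn0, link n]
  have h1 := hT n
  rw [hE4 n, if_neg hn0, hκ, hUW, hVW, coeff_one_add_three_mul_sq W n hn,
    coeff_one_add_three_mul_sq W' (p * n) hpn, hwn, hw'pn] at h1
  set w : ℂ := coeff n U / 3 with hw
  set x : ℂ := coeff n (W ^ 2) with hx
  set x' : ℂ := coeff (p * n) (W' ^ 2) with hx'
  have hxO : x ∈ O := hsqO W hWO n
  have hx'O : x' ∈ O := hsqO W' hW'O (p * n)
  have hwO : w ∈ O := hU n hn
  -- multiply by `p`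
  have h2 : ((p : ℂ) + 1) * (6 * w - 240 * (s3 n : ℂ)) = -9 * ((p : ℂ) * x + x') := by
    have h1' : (p : ℂ) * (6 * w + 9 * x + (p : ℂ)⁻¹ * (6 * w + 9 * x'))
        = (p : ℂ) * ((1 + (p : ℂ)⁻¹) * (240 * (s3 n : ℂ))) := by rw [h1]
    have e : (p : ℂ) * (6 * w + 9 * x + (p : ℂ)⁻¹ * (6 * w + 9 * x'))
        = (p : ℂ) * (6 * w + 9 * x) + (6 * w + 9 * x') := by
      field_simp
    have e' : (p : ℂ) * ((1 + (p : ℂ)⁻¹) * (240 * (s3 n : ℂ))) = ((p : ℂ) + 1) * (240 * (s3 n : ℂ)) := by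
      field_simp
    rw [e, e'] at h1'
    linear_combination h1'
  have hp1ne : ((p : ℂ) + 1) ≠ 0 := by
    have : ((p + 1 : ℕ) : ℂ) ≠ 0 := by exact_mod_cast (Nat.succ_ne_zero p)
    simpa using this
  set z : ℂ := -(((p : ℂ) + 1)⁻¹ * ((p : ℂ) * x + x')) with hz
  have hzO : z ∈ O :=
    O.neg_mem (O.mul_mem hp1 (O.add_mem (O.mul_mem (natCast_mem O p) hxO) hx'O))
  have h3 : 6 * w - 240 * (s3 n : ℂ) = 9 * z := by
    rw [hz]
    field_simp
    linear_combination h2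
  refine ⟨(w - (s3 n : ℂ)) - 26 * (s3 n : ℂ) - z, ?_, ?_⟩
  · refine O.sub_mem (O.sub_mem (O.sub_mem hwO (intCast_mem O _)) ?_) hzO
    exact O.mul_mem (by exact_mod_cast natCast_mem O 26) (intCast_mem O _)
  · linear_combination (-1 / 3 : ℂ) * h3

end Fermat.Agent.Eis.ThreeB
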