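/-
Program E (S16), node N4 (l = 3), case `p ≡ 1 (mod 3)` (helper11):
no weight two form on `Γ₀(p)` with rational `q`-expansion is `≡ 1 (mod 3)`, given the conjugates
package of `Eis/Defs.lean` for every form of weight two and level `p`.
-/
import Mathlib
import Fermat.Agent.Eis.Defs
import Fermat.Agent.Eis.ConjCong
import Fermat.Agent.Eis.T2Identity
import Fermat.Agent.Eis.ThreeBCore

set_option autoImplicit false

namespace Fermat.Agent.Eis.ThreeB

open CongruenceSubgroup ModularFormClass UpperHalfPlane PowerSeries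
open Fermat.Agent.Eis

/-- `aₙ/3` is `3`-integral when `aₙ` is rational of `3`-adic valuation at least one. -/
theorem div_three_mem {r : ℚ} (hr : r = 0 ∨ ((1 : ℕ) : ℤ) ≤ padicValRat 3 r) :
    (r : ℂ) / 3 ∈ IntAt 3 := by
  have h := ratCast_div_pow_mem_IntAt (l := 3) 1 hr
  simpa using h

theorem sigma_three_prime {p : ℕ} (hp : p.Prime) : ArithmeticFunction.sigma 3 p = 1 + p ^ 3 := by
  rw [ArithmeticFunction.sigma_apply, hp.divisors, Finset.sum_pair hp.one_lt.ne]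
  simp

/-- **Case `p ≡ 1 (mod 3)`**, in hypothesis form on the conjugates package. -/
theorem not_unitCong_three_one_of (p : ℕ) [hpp : Fact p.Prime] (hp : p ≠ 0) (hp3 : p % 3 = 1)
    (hpack : ∀ u : ModularForm (Gamma0 p) 2, ConjPackage p hp u) : ¬ UnitCong p 3 1 := by
  rintro ⟨u, hu0, huk⟩
  obtain ⟨ut, hut, hu', κ, hT⟩ := TwoEasy.t2_identity_of_conjPackage p hp u (hpack u)
  obtain ⟨utt, hutt, hut', κ', hT'⟩ := TwoEasy.t2_identity_of_conjPackage p hp ut (hpack ut)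
  have hcoe : ∀ (f : ℍ → ℂ) (n : ℕ), coeff n (qExpansion 1 f) = qCoeff f n := fun _ _ => rfl
  -- integrality
  have hU : ∀ n, 1 ≤ n → coeff n (qExpansion 1 u) / 3 ∈ IntAt 3 := by
    intro n hn
    obtain ⟨r, hr, hv⟩ := huk n hn
    rw [hcoe, hr]
    exact div_three_mem hv
  have hV : ∀ n, 1 ≤ n → coeff n (qExpansion 1 ut) / 3 ∈ IntAt 3 := by
    intro n hn
    rw [hcoe, hut n, ← hcoe]
    exact hU (p * n) (Nat.one_le_iff_ne_zero.2 (Nat.mul_ne_zero hp (by omega)))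
  have hVV : ∀ n, 1 ≤ n → coeff n (qExpansion 1 utt) / 3 ∈ IntAt 3 := by
    intro n hn
    rw [hcoe, hutt n, ← hcoe]
    exact hV (p * n) (Nat.one_le_iff_ne_zero.2 (Nat.mul_ne_zero hp (by omega)))
  have hU0 : coeff 0 (qExpansion 1 u) = 1 := hu0
  have hV0 : coeff 0 (qExpansion 1 ut) = 1 := by
    rw [hcoe, hut 0, Nat.mul_zero]; exact hu0
  have hVV0 : coeff 0 (qExpansion 1 utt) = 1 := by
    rw [hcoe, hutt 0, Nat.mul_zero, ← hcoe]; exact hV0
  have hp1 : ((p : ℂ) + 1)⁻¹ ∈ IntAt 3 := by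
    have h := inv_natCast_mem_IntAt (l := 3) (m := p + 1) (by omega)
    simpa using h
  have hE4 : ∀ n, coeff n (qExpansion 1 ModularForm.E₄)
      = if n = 0 then 1 else 240 * ((((ArithmeticFunction.sigma 3 n : ℕ) : ℤ)) : ℂ) := by
    intro n
    rw [TwoEasy.qExpansion_E4_coeff]
    simp
  have res1 := coeff_div_three_congr (IntAt 3) p hp hp1 (qExpansion 1 u) (qExpansion 1 ut)
    (qExpansion 1 ModularForm.E₄) hU0 hV0 hU hV (fun n => hu' n) κ hT
    (fun n => ((ArithmeticFunction.sigma 3 n : ℕ) : ℤ)) hE4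
  have res2 := coeff_div_three_congr (IntAt 3) p hp hp1 (qExpansion 1 ut) (qExpansion 1 utt)
    (qExpansion 1 ModularForm.E₄) hV0 hVV0 hV hVV (fun n => hut' n) κ' hT'
    (fun n => ((ArithmeticFunction.sigma 3 n : ℕ) : ℤ)) hE4
  obtain ⟨t1, ht1, e1⟩ := res1 p (Nat.one_le_iff_ne_zero.2 hp)
  obtain ⟨t2, ht2, e2⟩ := res2 1 le_rfl
  have hlink : coeff 1 (qExpansion 1 ut) = coeff p (qExpansion 1 u) := by
    rw [hcoe, hut 1, Nat.mul_one, hcoe]
  rw [hlink] at e2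
  have hs1 : ArithmeticFunction.sigma 3 1 = 1 := by
    simp [ArithmeticFunction.sigma_apply]
  rw [sigma_three_prime hpp.out] at e1
  rw [hs1] at e2
  -- `p ^ 3 = 3 (t2 - t1)`
  have hkey : ((p : ℂ)) ^ 3 = 3 * (t2 - t1) := by
    push_cast at e1 e2
    linear_combination e2 - e1
  have hpinv : ((p : ℂ))⁻¹ ∈ IntAt 3 := inv_natCast_mem_IntAt (l := 3) (m := p) (by omega)
  have hpc : (p : ℂ) ≠ 0 := by exact_mod_cast hp
  have h13 : ((3 : ℕ) : ℂ)⁻¹ ∈ IntAt 3 := by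
    have : ((3 : ℕ) : ℂ)⁻¹ = (t2 - t1) * ((p : ℂ))⁻¹ ^ 3 := by
      push_cast
      field_simp
      linear_combination hkey
    rw [this]
    exact (IntAt 3).mul_mem ((IntAt 3).sub_mem ht2 ht1) ((IntAt 3).pow_mem hpinv 3)
  exact inv_prime_not_mem_IntAt (l := 3) h13

end Fermat.Agent.Eis.ThreeB
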