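/-
Program E (S16), node N4 (l = 3): final statements (helper11).

* `not_unitCong_three_one` : `p ≡ 1 (mod 3)` ⇒ `¬ UnitCong p 3 1` (unconditional).
* `not_unitCong_three_two_of_ramanujan` : `p ≡ 2 (mod 3)` ⇒ `¬ UnitCong p 3 2`, given Ramanujan's
  identities (R2) `12 θE₂ = E₂² - E₄` and (R4) `3 θE₄ = E₂E₄ - E₆` for the `q`-expansions.
* `not_unitCong_three_two` : the same, unconditional (Ramanujan's identities from
  `Eis/RamanujanQR.lean`).
-/
import Mathlib
import Fermat.Agent.Eis.QExpInt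
import Fermat.Agent.Eis.ConjSymFinal
import Fermat.Agent.Eis.ThreeA
import Fermat.Agent.Eis.ThreeB
import Fermat.Agent.Eis.RamanujanQR

set_option autoImplicit false

namespace Fermat.Agent.Eis.Three

open CongruenceSubgroup ModularFormClass UpperHalfPlane PowerSeries ModularForm EisensteinSeries
open scoped MatrixGroups
open Fermat.Agent.Eis Fermat.Agent.Eis.ThreeAS

theorem eisZ_eq (c : ℤ) (j : ℕ) : QExp.eisZ c j = 1 + PowerSeries.C c * sigSeries j := by
  ext n
  rw [QExp.coeff_eisZ, map_add, coeff_one, coeff_C_mul, coeff_sigSeries]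
  split_ifs with h
  · subst h; simp
  · simp

theorem map_eisZ (c : ℤ) (j : ℕ) :
    (QExp.eisZ c j).map (Int.castRingHom ℂ)
      = 1 + PowerSeries.C (c : ℂ) * (sigSeries j).map (Int.castRingHom ℂ) := by
  rw [eisZ_eq, map_add, map_one, map_mul, PowerSeries.map_C]
  simp

theorem qExp_E4_AZ : (1 + 240 * AZ).map (Int.castRingHom ℂ) = qExpansion 1 E₄ := by
  rw [QExp.qExp_E4, map_eisZ]
  simp only [map_add, map_one, map_mul, map_ofNat, Int.cast_ofNat]

theorem qExp_E6_BZ : (1 - 504 * BZ).map (Int.castRingHom ℂ) = qExpansion 1 E₆ := by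
  rw [QExp.qExp_E6, map_eisZ]
  simp only [map_sub, map_one, map_mul, map_ofNat, Int.cast_neg, Int.cast_ofNat, map_neg]
  ring

/-- **Case `p ≡ 1 (mod 3)`**, unconditional. -/
theorem not_unitCong_three_one (p : ℕ) [hpp : Fact p.Prime] (hp3 : p % 3 = 1) :
    ¬ UnitCong p 3 1 :=
  ThreeB.not_unitCong_three_one_of p hpp.out.ne_zero hp3
    (fun u => ConjSym.conjPackage p hpp.out.ne_zero u)

/-- The integral series `ThreeAS.deltaZ` is the `q`-expansion of `Δ`, given (R2) and (R4). -/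
theorem map_deltaZ_eq_of_ramanujan
    (hR2 : 12 * theta (qExpansion 1 E2) = (qExpansion 1 E2) ^ 2 - qExpansion 1 E₄)
    (hR4 : 3 * theta (qExpansion 1 E₄) = qExpansion 1 E2 * qExpansion 1 E₄ - qExpansion 1 E₆) :
    deltaZ.map (Int.castRingHom ℂ) = qExpansion 1 ModularForm.discriminant := by
  rw [QExp.qExp_Delta]
  refine map_deltaZ (K := ℂ) (E2 := qExpansion 1 E2) (E4 := qExpansion 1 E₄)
    (E6 := qExpansion 1 E₆) ?_ ?_ ?_ hR2 hR4 ?_
  · rw [QExp.qExp_E2, map_eisZ]
    simp only [Int.cast_neg, Int.cast_ofNat, map_neg, map_ofNat]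
    ring
  · rw [← qExp_E4_AZ]
    simp only [map_add, map_one, map_mul, map_ofNat]
  · rw [← qExp_E6_BZ]
    simp only [map_sub, map_one, map_mul, map_ofNat]
  · have h := congrArg (PowerSeries.map (Int.castRingHom ℂ)) QExp.eisZ_cube_sub_sq
    rw [map_sub, map_pow, map_pow, map_mul, ← QExp.qExp_E4, ← QExp.qExp_E6, map_ofNat] at h
    exact h.symm

/-- **Case `p ≡ 2 (mod 3)`**, given Ramanujan's identities (R2), (R4). -/
theorem not_unitCong_three_two_of_ramanujan (p : ℕ) [hpp : Fact p.Prime] (hp3 : p % 3 = 2)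
    (hR2 : 12 * theta (qExpansion 1 E2) = (qExpansion 1 E2) ^ 2 - qExpansion 1 E₄)
    (hR4 : 3 * theta (qExpansion 1 E₄) = qExpansion 1 E2 * qExpansion 1 E₄ - qExpansion 1 E₆) :
    ¬ UnitCong p 3 2 :=
  ThreeA.not_unitCong_three_two_of p hpp.out.ne_zero hp3
    (fun u => ConjSym.conjPackage p hpp.out.ne_zero u) qExp_E4_AZ qExp_E6_BZ
    (map_deltaZ_eq_of_ramanujan hR2 hR4)

/-- The integral series `ThreeAS.deltaZ` is the `q`-expansion of `Δ`. -/
theorem map_deltaZ_eq : deltaZ.map (Int.castRingHom ℂ) = qExpansion 1 ModularForm.discriminant :=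
  map_deltaZ_eq_of_ramanujan RamQR.ramanujan_E2' RamQR.ramanujan_E4'

/-- `ThreeAS.deltaZ` coincides with the integral `Δ`-series of `Eis/QExpInt.lean`. -/
theorem deltaZ_eq : deltaZ = QExp.deltaZ :=
  QExp.map_castRingHom_injective (by rw [map_deltaZ_eq, QExp.qExp_Delta])

/-- **Case `p ≡ 2 (mod 3)`**, unconditional. -/
theorem not_unitCong_three_two (p : ℕ) [Fact p.Prime] (hp3 : p % 3 = 2) : ¬ UnitCong p 3 2 :=
  not_unitCong_three_two_of_ramanujan p hp3 RamQR.ramanujan_E2' RamQR.ramanujan_E4'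

/-- **Node N4**: for a prime `p ≠ 3` there is no weight two form on `Γ₀(p)` with rational
`q`-expansion which is `≡ 1` modulo `3` (if `p ≡ 1 (mod 3)`), resp. modulo `9`
(if `p ≡ 2 (mod 3)`). -/
theorem not_unitCong_three (p : ℕ) [Fact p.Prime] (hp : p ≠ 3) :
    ¬ UnitCong p 3 (if p % 3 = 1 then 1 else 2) := by
  have hpp : p.Prime := Fact.out
  have h3 : p % 3 = 1 ∨ p % 3 = 2 := by
    have h0 : p % 3 ≠ 0 := by
      intro h0
      have hd : 3 ∣ p := Nat.dvd_of_mod_eq_zero h0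
      rcases (Nat.dvd_prime hpp).1 hd with h | h
      · omega
      · exact hp h.symm
    omega
  rcases h3 with h | h
  · rw [if_pos h]; exact not_unitCong_three_one p h
  · rw [if_neg (by omega)]; exact not_unitCong_three_two p h

end Fermat.Agent.Eis.Three
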