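/-
Program E (S16), node N5 (helper19), algebraic core: the `T_2`-identity bookkeeping at `l = 2`.

Setting (all in a commutative domain `R` with `2 ≠ 0`, `2 ∤ 1`; later `R = ℤ_(2) ⊆ ℚ`):
`A = 1 + 2^e B`, `At = 1 + 2^e Bt` power series (`B`, `Bt` without constant term), linked by
`coeff n Bt = coeff (p n) B`, `coeff n B = coeff (p n) Bt` (`At = U_p A`, `A = U_p At`), and the two
`T_2`-identities (trace of the square to level one is a multiple of `E_4`)

  `p · coeff n (A²) + coeff (p n) (At²) = (p+1) · 240 · σ₃(n)`  (`n ≥ 1`), and the same for `At, A`.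

* `false_of_three_mod_eight` : `p ≡ 3 (8)`, `e = 3` is impossible;
* `false_of_one_mod_four`   : `p ≡ 1 (4)`, `e = 2` is impossible.
-/
import Mathlib

set_option autoImplicit false

namespace Fermat.Agent.Eis.TwoEasy

open Finset PowerSeries

variable {R : Type*} [CommRing R]

/-- Parity of a symmetric convolution: `∑_{i+j=n} f i f j = 2 t + [n even] f(n/2)^2`. -/
theorem sum_antidiagonal_mul_self_parity (f : ℕ → R) (n : ℕ) :
    ∃ t : R, ∑ ij ∈ antidiagonal n, f ij.1 * f ij.2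
      = 2 * t + (if Even n then (f (n / 2)) ^ 2 else 0) := by
  classical
  set s := antidiagonal n with hs
  refine ⟨∑ ij ∈ s.filter (fun ij => ij.1 < ij.2), f ij.1 * f ij.2, ?_⟩
  have h1 : ∑ ij ∈ s, f ij.1 * f ij.2
      = ∑ ij ∈ s.filter (fun ij => ij.1 < ij.2), f ij.1 * f ij.2
        + ∑ ij ∈ s.filter (fun ij => ¬ ij.1 < ij.2), f ij.1 * f ij.2 :=
    (Finset.sum_filter_add_sum_filter_not _ _ _).symm
  have h2 : ∑ ij ∈ s.filter (fun ij => ¬ ij.1 < ij.2), f ij.1 * f ij.2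
      = ∑ ij ∈ (s.filter (fun ij => ¬ ij.1 < ij.2)).filter (fun ij => ij.2 < ij.1),
            f ij.1 * f ij.2
        + ∑ ij ∈ (s.filter (fun ij => ¬ ij.1 < ij.2)).filter (fun ij => ¬ ij.2 < ij.1),
            f ij.1 * f ij.2 :=
    (Finset.sum_filter_add_sum_filter_not _ _ _).symm
  have h3 : ∑ ij ∈ (s.filter (fun ij => ¬ ij.1 < ij.2)).filter (fun ij => ij.2 < ij.1),
            f ij.1 * f ij.2
      = ∑ ij ∈ s.filter (fun ij => ij.1 < ij.2), f ij.1 * f ij.2 := by
    refine Finset.sum_nbij' (fun ij => ij.swap) (fun ij => ij.swap) ?_ ?_ ?_ ?_ ?_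
    · intro ij hij
      simp only [hs, mem_filter, HasAntidiagonal.mem_antidiagonal, Prod.fst_swap,
        Prod.snd_swap] at hij ⊢
      omega
    · intro ij hij
      simp only [hs, mem_filter, HasAntidiagonal.mem_antidiagonal, Prod.fst_swap,
        Prod.snd_swap] at hij ⊢
      omega
    · intro ij _; simp
    · intro ij _; simp
    · intro ij _; simp [mul_comm]
  have h4 : ∑ ij ∈ (s.filter (fun ij => ¬ ij.1 < ij.2)).filter (fun ij => ¬ ij.2 < ij.1),
            f ij.1 * f ij.2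
      = (if Even n then (f (n / 2)) ^ 2 else 0) := by
    split_ifs with hn
    · obtain ⟨m, rfl⟩ := hn
      have : (s.filter (fun ij => ¬ ij.1 < ij.2)).filter (fun ij => ¬ ij.2 < ij.1)
          = {(m, m)} := by
        ext ⟨i, j⟩
        simp only [hs, mem_filter, HasAntidiagonal.mem_antidiagonal, mem_singleton,
          Prod.mk.injEq]
        omega
      rw [this, Finset.sum_singleton]
      have : (m + m) / 2 = m := by omega
      rw [this, sq]
    · have : (s.filter (fun ij => ¬ ij.1 < ij.2)).filter (fun ij => ¬ ij.2 < ij.1) = ∅ := by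
        ext ⟨i, j⟩
        simp only [hs, mem_filter, HasAntidiagonal.mem_antidiagonal, notMem_empty, iff_false,
          not_and, not_not]
        intro hij
        by_contra h2
        apply hn
        have : i = j := by omega
        subst this
        exact ⟨i, hij.1.symm⟩
      rw [this, Finset.sum_empty]
  rw [h1, h2, h3, h4]
  ring

/-- Parity of the coefficients of a square of a power series. -/
theorem coeff_sq_parity (B : PowerSeries R) (n : ℕ) :
    ∃ t : R, coeff n (B ^ 2) = 2 * t + (if Even n then (coeff (n / 2) B) ^ 2 else 0) := by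
  obtain ⟨t, ht⟩ := sum_antidiagonal_mul_self_parity (fun i => coeff i B) n
  exact ⟨t, by rw [sq, coeff_mul]; exact ht⟩

/-- Coefficients of `(1 + c B)²` in positive degree. -/
theorem coeff_one_add_sq (B : PowerSeries R) (c : R) {n : ℕ} (hn : 1 ≤ n) :
    coeff n ((1 + C c * B) ^ 2) = 2 * c * coeff n B + c ^ 2 * coeff n (B ^ 2) := by
  have h : (1 + C c * B) ^ 2 = 1 + C (2 * c) * B + C (c ^ 2) * B ^ 2 := by
    rw [map_mul, map_pow]
    have : (C (2:R) : PowerSeries R) = 2 := map_ofNat C 2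
    rw [this]; ring
  rw [h, map_add, map_add, coeff_C_mul, coeff_C_mul, coeff_one, if_neg (by omega)]
  ring

/-- The hypotheses of the bookkeeping: `A = 1 + c B`, `At = 1 + c Bt`, `At = U_p A`, `A = U_p At`
and the `T_2`-identity for `(A, At)`. -/
structure T2Hyp (p : ℕ) (c : R) (B Bt : PowerSeries R) : Prop where
  link : ∀ n, coeff n Bt = coeff (p * n) B
  link' : ∀ n, coeff n B = coeff (p * n) Bt
  ident : ∀ n, 1 ≤ n →
    (p : R) * coeff n ((1 + C c * B) ^ 2) + coeff (p * n) ((1 + C c * Bt) ^ 2)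
      = ((p : R) + 1) * 240 * ((ArithmeticFunction.sigma 3 n : ℕ) : R)

/-- The combination `p (B²)_n + (Bt²)_{pn}` is even when `p` is odd. -/
theorem T2Hyp.even_combo {p : ℕ} {c : R} {B Bt : PowerSeries R} (h : T2Hyp p c B Bt)
    (hp : Odd p) (n : ℕ) :
    ∃ t : R, (p : R) * coeff n (B ^ 2) + coeff (p * n) (Bt ^ 2) = 2 * t := by
  obtain ⟨t1, h1⟩ := coeff_sq_parity B n
  obtain ⟨t2, h2⟩ := coeff_sq_parity Bt (p * n)
  obtain ⟨m, hm⟩ := hp
  by_cases hn : Even n
  · have hpn : Even (p * n) := hn.mul_left p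
    rw [if_pos hn] at h1
    rw [if_pos hpn] at h2
    have hhalf : p * n / 2 = p * (n / 2) := by
      obtain ⟨k, rfl⟩ := hn
      have : p * (k + k) = (p * k) * 2 := by ring
      rw [this, Nat.mul_div_cancel _ (by norm_num)]
      have : (k + k) / 2 = k := by omega
      rw [this]
    have hb : coeff (p * n / 2) Bt = coeff (n / 2) B := by
      rw [hhalf, ← h.link']
    refine ⟨(p : R) * t1 + t2 + ((m : R) + 1) * (coeff (n / 2) B) ^ 2, ?_⟩
    rw [h1, h2, hb, hm]
    push_cast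
    ring
  · have hpn : ¬ Even (p * n) := by
      rw [Nat.even_mul]
      rintro (h' | h')
      · exact (Nat.not_even_iff_odd.mpr ⟨m, hm⟩) h'
      · exact hn h'
    rw [if_neg hn] at h1
    rw [if_neg hpn] at h2
    exact ⟨(p : R) * t1 + t2, by rw [h1, h2]; ring⟩

/-- The key relation `(★)`: `2c(p+1) b_n + 2c² t = (p+1)·240·σ₃(n)`. -/
theorem T2Hyp.star {p : ℕ} {c : R} {B Bt : PowerSeries R} (h : T2Hyp p c B Bt)
    (hp : Odd p) {n : ℕ} (hn : 1 ≤ n) :
    ∃ t : R, 2 * c * ((p : R) + 1) * coeff n B + 2 * c ^ 2 * t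
      = ((p : R) + 1) * 240 * ((ArithmeticFunction.sigma 3 n : ℕ) : R) := by
  obtain ⟨t, ht⟩ := h.even_combo hp n
  refine ⟨t, ?_⟩
  have hpn : 1 ≤ p * n := Nat.mul_pos hp.pos hn
  have h1 := h.ident n hn
  rw [coeff_one_add_sq B c hn, coeff_one_add_sq Bt c hpn, ← h.link'] at h1
  rw [← h1]
  linear_combination (-(c ^ 2)) * ht

section Domain

variable [IsDomain R]

/-- `c = 8`, `p ≡ 1 (4)` or `p ≡ 3 (8)`: `b_n ≡ σ₃(n) mod 2` for all `n ≥ 1`. -/
theorem T2Hyp.coeff_congr_sigma {p : ℕ} {B Bt : PowerSeries R} (h : T2Hyp p (8 : R) B Bt)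
    (h2 : (2 : R) ≠ 0) (hp : p % 4 = 1 ∨ p % 8 = 3) {n : ℕ} (hn : 1 ≤ n) :
    (2 : R) ∣ coeff n B - ((ArithmeticFunction.sigma 3 n : ℕ) : R) := by
  have hodd : Odd p := by
    rw [Nat.odd_iff]; omega
  obtain ⟨t, ht⟩ := h.star hodd hn
  set b := coeff n B
  set σ : R := ((ArithmeticFunction.sigma 3 n : ℕ) : R)
  rcases hp with hp | hp
  · obtain ⟨s, hs⟩ : ∃ s : ℕ, p + 1 = 2 * (2 * s + 1) := ⟨p / 4, by omega⟩
    have hs' : (p : R) + 1 = 2 * (2 * (s : R) + 1) := by exact_mod_cast congrArg (Nat.cast : ℕ → R) hs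
    rw [hs'] at ht
    have h32 : (32 : R) ≠ 0 := by
      have : (32 : R) = 2 ^ 5 := by norm_num
      rw [this]; exact pow_ne_zero _ h2
    have key : (2 * (s : R) + 1) * b + 4 * t = 15 * (2 * (s : R) + 1) * σ := by
      apply mul_left_cancel₀ h32
      linear_combination ht
    exact ⟨7 * σ + 15 * (s : R) * σ - (s : R) * b - 2 * t, by linear_combination key⟩
  · obtain ⟨s, hs⟩ : ∃ s : ℕ, p + 1 = 4 * (2 * s + 1) := ⟨p / 8, by omega⟩
    have hs' : (p : R) + 1 = 4 * (2 * (s : R) + 1) := by exact_mod_cast congrArg (Nat.cast : ℕ → R) hs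
    rw [hs'] at ht
    have h64 : (64 : R) ≠ 0 := by
      have : (64 : R) = 2 ^ 6 := by norm_num
      rw [this]; exact pow_ne_zero _ h2
    have key : (2 * (s : R) + 1) * b + 2 * t = 15 * (2 * (s : R) + 1) * σ := by
      apply mul_left_cancel₀ h64
      linear_combination ht
    exact ⟨7 * σ + 15 * (s : R) * σ - (s : R) * b - t, by linear_combination key⟩

/-- `c = 4`, `p ≡ 1 (4)`: all `b_n` (`n ≥ 1`) are even. -/
theorem T2Hyp.coeff_even {p : ℕ} {B Bt : PowerSeries R} (h : T2Hyp p (4 : R) B Bt)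
    (h2 : (2 : R) ≠ 0) (hp : p % 4 = 1) {n : ℕ} (hn : 1 ≤ n) :
    (2 : R) ∣ coeff n B := by
  have hodd : Odd p := by
    rw [Nat.odd_iff]; omega
  obtain ⟨t, ht⟩ := h.star hodd hn
  set b := coeff n B
  set σ : R := ((ArithmeticFunction.sigma 3 n : ℕ) : R)
  obtain ⟨s, hs⟩ : ∃ s : ℕ, p + 1 = 2 * (2 * s + 1) := ⟨p / 4, by omega⟩
  have hs' : (p : R) + 1 = 2 * (2 * (s : R) + 1) := by exact_mod_cast congrArg (Nat.cast : ℕ → R) hs
  rw [hs'] at ht
  have h16 : (16 : R) ≠ 0 := by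
    have : (16 : R) = 2 ^ 4 := by norm_num
    rw [this]; exact pow_ne_zero _ h2
  have key : (2 * (s : R) + 1) * b + 2 * t = 30 * (2 * (s : R) + 1) * σ := by
    apply mul_left_cancel₀ h16
    linear_combination ht
  exact ⟨15 * (2 * (s : R) + 1) * σ - (s : R) * b - t, by linear_combination key⟩

end Domain

/-- The final contradiction: `b_n ≡ σ₃(n)` for both `B` and `Bt = U_p B` is impossible
(`b_p ≡ σ₃(p) = 1 + p³ ≡ 0` and `b_p = bt_1 ≡ σ₃(1) = 1`). -/
theorem false_of_congr_sigma {p : ℕ} (hp : p.Prime) (hodd : Odd p) {B Bt : PowerSeries R}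
    (hlink : ∀ n, coeff n Bt = coeff (p * n) B)
    (h1 : ∀ n, 1 ≤ n → (2 : R) ∣ coeff n B - ((ArithmeticFunction.sigma 3 n : ℕ) : R))
    (h2 : ∀ n, 1 ≤ n → (2 : R) ∣ coeff n Bt - ((ArithmeticFunction.sigma 3 n : ℕ) : R))
    (h21 : ¬ (2 : R) ∣ 1) : False := by
  have ha := h1 p hp.one_le
  have hb := h2 1 le_rfl
  rw [hlink 1, mul_one] at hb
  have hσp : ArithmeticFunction.sigma 3 p = 1 + p ^ 3 := by
    rw [ArithmeticFunction.sigma_apply, hp.divisors, Finset.sum_pair hp.one_lt.ne]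
    simp
  have hσ1 : ArithmeticFunction.sigma 3 1 = 1 := by simp
  rw [hσp] at ha
  rw [hσ1] at hb
  obtain ⟨m, hm⟩ := hodd
  have hdiff : (2 : R) ∣ (p : R) ^ 3 := by
    have := dvd_sub hb ha
    have e : coeff p B - ((1 : ℕ) : R) - (coeff p B - ((1 + p ^ 3 : ℕ) : R)) = (p : R) ^ 3 := by
      push_cast; ring
    rwa [e] at this
  apply h21
  have e2 : (1 : R) = (p : R) ^ 3 - 2 * (4 * (m : R) ^ 3 + 6 * (m : R) ^ 2 + 3 * (m : R)) := by
    rw [hm]; push_cast; ring
  rw [e2]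
  exact dvd_sub hdiff (dvd_mul_right _ _)

/-- **Algebraic core of N5.** `A = 1 + 8 B`, `At = 1 + 8 Bt = U_p A`, `A = U_p At`, with the
`T_2`-identity for `(A, At)` and for `(At, A)`: impossible when `p ≡ 1 (4)` or `p ≡ 3 (8)`. -/
theorem false_of_T2_eight [IsDomain R] {p : ℕ} (hp : p.Prime) (hcase : p % 4 = 1 ∨ p % 8 = 3)
    {B Bt : PowerSeries R} (h : T2Hyp p (8 : R) B Bt) (h' : T2Hyp p (8 : R) Bt B)
    (h2 : (2 : R) ≠ 0) (h21 : ¬ (2 : R) ∣ 1) : False := by
  have hodd : Odd p := by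
    rw [Nat.odd_iff]; omega
  exact false_of_congr_sigma hp hodd h.link
    (fun n hn => h.coeff_congr_sigma h2 hcase hn)
    (fun n hn => h'.coeff_congr_sigma h2 hcase hn) h21

end Fermat.Agent.Eis.TwoEasy
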