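/-
Program E (S16), node N5 (helper19), layer B: descent of the rational `T₂`-identity data to
`ℤ_(2) ⊆ ℚ` and application of the algebraic core `Eis/TwoEasyAlg.lean`.
-/
import Mathlib
import Fermat.Prelude.Def_GaloisRep_Flat
import Fermat.Agent.Eis.TwoEasyAlg

set_option autoImplicit false

namespace Fermat.Agent.Eis.TwoEasy

open PowerSeries

/-- `ℤ_(2)` as a subring of `ℚ` (Prelude's `ratLocalizedAt`). -/
abbrev Z2 : Subring ℚ := GaloisRep.ratLocalizedAt 2

theorem mem_Z2_iff (q : ℚ) : q ∈ Z2 ↔ q.den.Coprime 2 := Iff.rfl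

theorem two_ne_zero_Z2 : (2 : Z2) ≠ 0 := by
  intro h
  have := congrArg (Subtype.val) h
  norm_num at this

theorem not_two_dvd_one_Z2 : ¬ (2 : Z2) ∣ 1 := by
  rintro ⟨⟨x, hx⟩, h⟩
  have h1 : (1 : ℚ) = 2 * x := by
    have := congrArg (Subtype.val) h
    simp only [Subring.coe_one, Subring.coe_mul] at this
    exact this
  have hx2 : x = 1 / 2 := by linarith
  rw [mem_Z2_iff, hx2] at hx
  norm_num at hx

/-- The power series `∑_{n ≥ 1} b n Xⁿ`. -/
noncomputable def mkB {R : Type*} [CommRing R] (b : ℕ → R) : PowerSeries R :=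
  PowerSeries.mk fun n => if n = 0 then 0 else b n

theorem coeff_mkB {R : Type*} [CommRing R] (b : ℕ → R) (n : ℕ) :
    coeff n (mkB b) = if n = 0 then 0 else b n := by
  rw [mkB, coeff_mk]

/-- One half of the rational `T₂` data. -/
structure T2RatHalf (p : ℕ) (a a' : ℕ → ℚ) : Prop where
  link : ∀ n, a' n = a (p * n)
  link' : ∀ n, a n = a' (p * n)
  ident : ∀ n, 1 ≤ n →
    coeff n ((PowerSeries.mk a) ^ 2) + (p : ℚ)⁻¹ * coeff (p * n) ((PowerSeries.mk a') ^ 2) =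
      (1 + (p : ℚ)⁻¹) * 240 * ((ArithmeticFunction.sigma 3 n : ℕ) : ℚ)

theorem map_one_add_mkB (c : Z2) (b : ℕ → Z2) (a : ℕ → ℚ) (ha0 : a 0 = 1)
    (hb : ∀ n, 1 ≤ n → a n = (c : ℚ) * (b n : ℚ)) :
    (1 + C c * mkB b).map Z2.subtype = PowerSeries.mk a := by
  ext n
  rw [coeff_map, map_add, coeff_C_mul, coeff_mkB, coeff_mk, coeff_one]
  rcases Nat.eq_zero_or_pos n with rfl | hn
  · simp [ha0]
  · rw [if_neg (by omega), if_neg (by omega), hb n hn]
    simp

theorem T2RatHalf.toHyp {p : ℕ} (hp : p ≠ 0) {a a' : ℕ → ℚ} (h : T2RatHalf p a a')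
    (ha0 : a 0 = 1) (ha0' : a' 0 = 1) (c : Z2) (hc : (c : ℚ) ≠ 0) (b b' : ℕ → Z2)
    (hb : ∀ n, 1 ≤ n → a n = (c : ℚ) * (b n : ℚ))
    (hb' : ∀ n, 1 ≤ n → a' n = (c : ℚ) * (b' n : ℚ)) :
    T2Hyp p c (mkB b) (mkB b') := by
  have hpn : ∀ n, 1 ≤ n → 1 ≤ p * n := fun n hn =>
    Nat.one_le_iff_ne_zero.2 (Nat.mul_ne_zero hp (by omega))
  refine ⟨fun n => ?_, fun n => ?_, fun n hn => ?_⟩
  · rw [coeff_mkB, coeff_mkB]
    rcases Nat.eq_zero_or_pos n with rfl | hn
    · simp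
    · rw [if_neg (by omega), if_neg (by have := hpn n hn; omega)]
      apply Subtype.ext
      have h1 := h.link n
      rw [hb' n hn, hb (p * n) (hpn n hn)] at h1
      exact mul_left_cancel₀ hc h1
  · rw [coeff_mkB, coeff_mkB]
    rcases Nat.eq_zero_or_pos n with rfl | hn
    · simp
    · rw [if_neg (by omega), if_neg (by have := hpn n hn; omega)]
      apply Subtype.ext
      have h1 := h.link' n
      rw [hb n hn, hb' (p * n) (hpn n hn)] at h1
      exact mul_left_cancel₀ hc h1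
  · apply Z2.subtype_injective
    have hA := map_one_add_mkB c b a ha0 hb
    have hA' := map_one_add_mkB c b' a' ha0' hb'
    have hid := h.ident n hn
    have hpq : (p : ℚ) ≠ 0 := by exact_mod_cast hp
    have e1 : Z2.subtype (coeff n ((1 + C c * mkB b) ^ 2)) = coeff n ((PowerSeries.mk a) ^ 2) := by
      rw [← coeff_map, RingHom.map_pow, hA]
    have e2 : Z2.subtype (coeff (p * n) ((1 + C c * mkB b') ^ 2)) =
        coeff (p * n) ((PowerSeries.mk a') ^ 2) := by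
      rw [← coeff_map, RingHom.map_pow, hA']
    have e240 : Z2.subtype (240 : Z2) = (240 : ℚ) := map_ofNat Z2.subtype 240
    rw [map_add, map_mul, map_mul, map_mul, map_add, map_one, map_natCast, map_natCast, e1, e2,
      e240]
    field_simp at hid
    linear_combination hid

theorem den_coprime_two_of_padicValRat_nonneg {q : ℚ} (h : 0 ≤ padicValRat 2 q) :
    q.den.Coprime 2 := by
  by_contra hc
  have h2 : 2 ∣ q.den := by
    by_contra h2
    exact hc ((Nat.coprime_comm).mp ((Nat.Prime.coprime_iff_not_dvd Nat.prime_two).mpr h2))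
  have hden : 1 ≤ padicValNat 2 q.den :=
    one_le_padicValNat_of_dvd (Nat.pos_iff_ne_zero.mp q.den_pos) h2
  have hnum : ¬ (2 : ℤ) ∣ q.num := by
    intro hn
    have h3 : (2 : ℕ) ∣ q.num.natAbs := by
      exact Int.natCast_dvd.mp (by simpa using hn)
    have := Nat.dvd_gcd h3 h2
    rw [q.reduced] at this
    norm_num at this
  have hnum0 : padicValInt 2 q.num = 0 := padicValInt.eq_zero_of_not_dvd hnum
  unfold padicValRat at h
  rw [hnum0] at h
  omega

theorem exists_Z2_of_padicValRat (e : ℕ) (r : ℚ) (h : r = 0 ∨ (e : ℤ) ≤ padicValRat 2 r) :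
    ∃ b : Z2, r = 2 ^ e * (b : ℚ) := by
  rcases h with rfl | h
  · exact ⟨0, by simp⟩
  · by_cases hr : r = 0
    · exact ⟨0, by simp [hr]⟩
    · have h2e : (2 : ℚ) ^ e ≠ 0 := pow_ne_zero _ (by norm_num)
      have hv : padicValRat 2 (r / 2 ^ e) = padicValRat 2 r - e := by
        have : Fact (Nat.Prime 2) := ⟨Nat.prime_two⟩
        have h1 : padicValRat 2 (2:ℚ) = 1 := by
          have := padicValRat.self (p := 2) (by norm_num)
          exact_mod_cast this
        rw [padicValRat.div hr h2e, padicValRat.pow (p := 2) (2:ℚ), h1]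
        simp
      refine ⟨⟨r / 2 ^ e, ?_⟩, ?_⟩
      · rw [mem_Z2_iff]
        apply den_coprime_two_of_padicValRat_nonneg
        rw [hv]; omega
      · simp only
        field_simp


/-- Rational form of the core, exponent `3`. -/
theorem false_of_rat_eight {p : ℕ} (hp : p.Prime) (hcase : p % 4 = 1 ∨ p % 8 = 3)
    {a a' : ℕ → ℚ} (h : T2RatHalf p a a') (h' : T2RatHalf p a' a) (ha0 : a 0 = 1)
    (b : ℕ → Z2) (hb : ∀ n, 1 ≤ n → a n = 8 * (b n : ℚ)) : False := by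
  have hp0 : p ≠ 0 := hp.ne_zero
  have hpn : ∀ n, 1 ≤ n → 1 ≤ p * n := fun n hn =>
    Nat.one_le_iff_ne_zero.2 (Nat.mul_ne_zero hp0 (by omega))
  have ha0' : a' 0 = 1 := by rw [h.link 0, mul_zero, ha0]
  have h8 : ((8 : Z2) : ℚ) = 8 := map_ofNat Z2.subtype 8
  have hc : ((8 : Z2) : ℚ) ≠ 0 := by rw [h8]; norm_num
  have hb1 : ∀ n, 1 ≤ n → a n = ((8 : Z2) : ℚ) * (b n : ℚ) := fun n hn => by rw [h8, hb n hn]
  have hb2 : ∀ n, 1 ≤ n → a' n = ((8 : Z2) : ℚ) * ((fun n => b (p * n)) n : ℚ) := fun n hn => by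
    rw [h.link n, hb1 (p * n) (hpn n hn)]
  have H := h.toHyp hp0 ha0 ha0' 8 hc b (fun n => b (p * n)) hb1 hb2
  have H' := h'.toHyp hp0 ha0' ha0 8 hc (fun n => b (p * n)) b hb2 hb1
  exact false_of_T2_eight hp hcase H H' two_ne_zero_Z2 not_two_dvd_one_Z2

/-- Rational form of the core, exponent `2`, `p ≡ 1 (4)`. -/
theorem false_of_rat_four {p : ℕ} (hp : p.Prime) (hcase : p % 4 = 1)
    {a a' : ℕ → ℚ} (h : T2RatHalf p a a') (h' : T2RatHalf p a' a) (ha0 : a 0 = 1)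
    (b : ℕ → Z2) (hb : ∀ n, 1 ≤ n → a n = 4 * (b n : ℚ)) : False := by
  have hp0 : p ≠ 0 := hp.ne_zero
  have hpn : ∀ n, 1 ≤ n → 1 ≤ p * n := fun n hn =>
    Nat.one_le_iff_ne_zero.2 (Nat.mul_ne_zero hp0 (by omega))
  have ha0' : a' 0 = 1 := by rw [h.link 0, mul_zero, ha0]
  have h4 : ((4 : Z2) : ℚ) = 4 := map_ofNat Z2.subtype 4
  have hc : ((4 : Z2) : ℚ) ≠ 0 := by rw [h4]; norm_num
  have hb1 : ∀ n, 1 ≤ n → a n = ((4 : Z2) : ℚ) * (b n : ℚ) := fun n hn => by rw [h4, hb n hn]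
  have hb2 : ∀ n, 1 ≤ n → a' n = ((4 : Z2) : ℚ) * ((fun n => b (p * n)) n : ℚ) := fun n hn => by
    rw [h.link n, hb1 (p * n) (hpn n hn)]
  have H := h.toHyp hp0 ha0 ha0' 4 hc b (fun n => b (p * n)) hb1 hb2
  have heven : ∀ n, 1 ≤ n → (2 : Z2) ∣ b n := fun n hn => by
    have := H.coeff_even two_ne_zero_Z2 hcase hn
    rwa [coeff_mkB, if_neg (by omega)] at this
  choose! b2 hb2' using heven
  refine false_of_rat_eight hp (Or.inl hcase) h h' ha0 b2 fun n hn => ?_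
  have h2 : ((2 : Z2) : ℚ) = 2 := map_ofNat Z2.subtype 2
  rw [hb n hn, hb2' n hn, Subring.coe_mul, h2]
  ring

end Fermat.Agent.Eis.TwoEasy
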