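/-
Program E (S16), node N5 (helper19), final layer: for a prime `p`,
* `p ≡ 1 mod 4` ⇒ `¬ UnitCong p 2 2`;
* `p ≡ 3 mod 8` (or `p ≡ 1 mod 4`) ⇒ `¬ UnitCong p 2 3`,
given the conjugates package of node N1 (`∀ u, ConjPackage p _ u`).
-/
import Mathlib
import Fermat.Agent.Eis.Defs
import Fermat.Agent.Eis.T2Identity
import Fermat.Agent.Eis.TwoEasyRat

set_option autoImplicit false

namespace Fermat.Agent.Eis.TwoEasy

open CongruenceSubgroup ModularFormClass UpperHalfPlane ModularForm EisensteinSeries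
open scoped MatrixGroups

/-- A rational sequence giving the `q`-expansion. -/
theorem qExpansion_eq_map_mk {f : ℍ → ℂ} {a : ℕ → ℚ} (h : ∀ n, qCoeff f n = (a n : ℂ)) :
    qExpansion 1 f = (PowerSeries.mk a).map (algebraMap ℚ ℂ) := by
  ext n
  rw [PowerSeries.coeff_map, PowerSeries.coeff_mk, ← qCoeff, h n]
  simp

theorem coeff_sq_map_mk (a : ℕ → ℚ) (n : ℕ) :
    PowerSeries.coeff n (((PowerSeries.mk a).map (algebraMap ℚ ℂ)) ^ 2) =
      ((PowerSeries.coeff n ((PowerSeries.mk a) ^ 2) : ℚ) : ℂ) := by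
  rw [← RingHom.map_pow, PowerSeries.coeff_map]
  simp

theorem coeff_zero_mk_sq (a : ℕ → ℚ) :
    PowerSeries.coeff 0 ((PowerSeries.mk a) ^ 2) = (a 0) ^ 2 := by
  rw [PowerSeries.coeff_zero_eq_constantCoeff_apply, map_pow,
    ← PowerSeries.coeff_zero_eq_constantCoeff_apply, PowerSeries.coeff_mk]

/-- One half of the rational `T₂` data out of the `T₂`-identity over `ℂ`. -/
theorem t2RatHalf_of_identity {p : ℕ} (hp : p ≠ 0) {f g : ℍ → ℂ} {a a' : ℕ → ℚ}
    (hf : ∀ n, qCoeff f n = (a n : ℂ)) (hg : ∀ n, qCoeff g n = (a' n : ℂ))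
    (ha0 : a 0 = 1) (hlink : ∀ n, a' n = a (p * n)) (hlink' : ∀ n, a n = a' (p * n))
    {κ : ℂ} (hκ : ∀ n : ℕ, PowerSeries.coeff n ((qExpansion 1 f) ^ 2) +
            (p : ℂ)⁻¹ * PowerSeries.coeff (p * n) ((qExpansion 1 g) ^ 2) =
          κ * PowerSeries.coeff n (qExpansion 1 E₄)) :
    T2RatHalf p a a' := by
  have hpc : (p : ℂ) ≠ 0 := by exact_mod_cast hp
  rw [qExpansion_eq_map_mk hf, qExpansion_eq_map_mk hg] at hκ
  simp_rw [coeff_sq_map_mk, qExpansion_E4_coeff] at hκ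
  have ha0' : a' 0 = 1 := by rw [hlink 0, mul_zero, ha0]
  have hκ0 : κ = 1 + (p : ℂ)⁻¹ := by
    have h0 := hκ 0
    rw [mul_zero, if_pos rfl, mul_one, coeff_zero_mk_sq, coeff_zero_mk_sq, ha0, ha0'] at h0
    rw [← h0]; simp
  refine ⟨hlink, hlink', fun n hn => ?_⟩
  have h1 := hκ n
  rw [if_neg (by omega), hκ0] at h1
  have h2 : (((PowerSeries.coeff n ((PowerSeries.mk a) ^ 2) +
      (p : ℚ)⁻¹ * PowerSeries.coeff (p * n) ((PowerSeries.mk a') ^ 2) : ℚ)) : ℂ) =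
      (((1 + (p : ℚ)⁻¹) * 240 * ((ArithmeticFunction.sigma 3 n : ℕ) : ℚ) : ℚ) : ℂ) := by
    push_cast
    rw [h1]; ring
  exact_mod_cast h2


/-- From `UnitCong p 2 e` and the conjugates package: rational `T₂` data with `2`-adic
divisibility `2 ^ e`. -/
theorem exists_t2Rat_of_unitCong {p : ℕ} (hp : p ≠ 0)
    (hconj : ∀ u : ModularForm (Gamma0 p) 2, ConjPackage p hp u) {e : ℕ}
    (h : UnitCong p 2 e) :
    ∃ a a' : ℕ → ℚ, T2RatHalf p a a' ∧ T2RatHalf p a' a ∧ a 0 = 1 ∧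
      ∃ b : ℕ → Z2, ∀ n, 1 ≤ n → a n = 2 ^ e * (b n : ℚ) := by
  obtain ⟨u, hu0, hu⟩ := h
  choose! r hr using hu
  set a : ℕ → ℚ := fun n => if n = 0 then 1 else r n with ha
  have hua : ∀ n, qCoeff u n = (a n : ℂ) := by
    intro n
    rcases Nat.eq_zero_or_pos n with rfl | hn
    · simp [ha, hu0]
    · rw [(hr n hn).1]
      simp [ha, Nat.pos_iff_ne_zero.1 hn]
  obtain ⟨ut, hut, hu', κ, hκ⟩ := t2_identity_of_conjPackage p hp u (hconj u)
  obtain ⟨utt, hutt, -, κ', hκ'⟩ := t2_identity_of_conjPackage p hp ut (hconj ut)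
  set a' : ℕ → ℚ := fun n => a (p * n) with ha'
  have huta : ∀ n, qCoeff ut n = (a' n : ℂ) := fun n => by rw [hut n, hua (p * n)]
  have hlink : ∀ n, a' n = a (p * n) := fun n => rfl
  have hlink' : ∀ n, a n = a' (p * n) := by
    intro n
    have h1 := hu' n
    rw [hua n, huta (p * n)] at h1
    exact_mod_cast h1
  have ha0 : a 0 = 1 := by simp [ha]
  have ha0' : a' 0 = 1 := by simp [ha', ha0]
  have hutt' : qExpansion 1 utt = qExpansion 1 u := by
    ext n
    have := hutt n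
    rw [← hu' n] at this
    exact this
  rw [hutt'] at hκ'
  refine ⟨a, a', t2RatHalf_of_identity hp hua huta ha0 hlink hlink' hκ,
    t2RatHalf_of_identity hp huta hua ha0' hlink' hlink hκ', ha0, ?_⟩
  have hb : ∀ n, ∃ b : Z2, 1 ≤ n → a n = 2 ^ e * (b : ℚ) := by
    intro n
    rcases Nat.eq_zero_or_pos n with rfl | hn
    · exact ⟨0, fun h => absurd h (by norm_num)⟩
    · obtain ⟨b, hb⟩ := exists_Z2_of_padicValRat e (r n) (hr n hn).2
      refine ⟨b, fun _ => ?_⟩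
      rw [← hb]
      simp [ha, Nat.pos_iff_ne_zero.1 hn]
  choose b hb' using hb
  exact ⟨b, hb'⟩

/-- **N5, first case.** For a prime `p ≡ 1 mod 4` there is no weight two form on `Γ₀(p)` with
rational `q`-expansion congruent to `1` modulo `4`. -/
theorem not_unitCong_two_of_one_mod_four {p : ℕ} (hp : p.Prime)
    (hconj : ∀ u : ModularForm (Gamma0 p) 2, ConjPackage p hp.ne_zero u) (h4 : p % 4 = 1) :
    ¬ UnitCong p 2 2 := by
  intro h
  obtain ⟨a, a', h1, h2, ha0, b, hb⟩ := exists_t2Rat_of_unitCong hp.ne_zero hconj h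
  exact false_of_rat_four hp h4 h1 h2 ha0 b fun n hn => by rw [hb n hn]; norm_num

/-- **N5, second case.** For a prime `p ≡ 3 mod 8` (or `p ≡ 1 mod 4`) there is no weight two form
on `Γ₀(p)` with rational `q`-expansion congruent to `1` modulo `8`. -/
theorem not_unitCong_three_of_mod {p : ℕ} (hp : p.Prime)
    (hconj : ∀ u : ModularForm (Gamma0 p) 2, ConjPackage p hp.ne_zero u)
    (hcase : p % 4 = 1 ∨ p % 8 = 3) :
    ¬ UnitCong p 2 3 := by
  intro h
  obtain ⟨a, a', h1, h2, ha0, b, hb⟩ := exists_t2Rat_of_unitCong hp.ne_zero hconj h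
  exact false_of_rat_eight hp hcase h1 h2 ha0 b fun n hn => by rw [hb n hn]; norm_num

theorem not_unitCong_three_of_three_mod_eight {p : ℕ} (hp : p.Prime)
    (hconj : ∀ u : ModularForm (Gamma0 p) 2, ConjPackage p hp.ne_zero u) (h8 : p % 8 = 3) :
    ¬ UnitCong p 2 3 :=
  not_unitCong_three_of_mod hp hconj (Or.inr h8)

end Fermat.Agent.Eis.TwoEasy
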