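/-
Program E (S16), node N5 (helper19), unconditional form: the conjugates package of node N1
(`Eis/ConjSymFinal.lean`) plugged into `Eis/TwoEasy.lean`.
* `p ≡ 1 mod 4` ⇒ `¬ UnitCong p 2 2`;
* `p ≡ 3 mod 8` (or `p ≡ 1 mod 4`) ⇒ `¬ UnitCong p 2 3`.
-/
import Mathlib
import Fermat.Agent.Eis.Defs
import Fermat.Agent.Eis.ConjSymFinal
import Fermat.Agent.Eis.TwoEasy

set_option autoImplicit false

namespace Fermat.Agent.Eis.TwoEasy

open CongruenceSubgroup

/-- **N5, first case (unconditional).** -/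
theorem not_unitCong_two_two {p : ℕ} (hp : p.Prime) (h4 : p % 4 = 1) : ¬ UnitCong p 2 2 :=
  haveI : Fact p.Prime := ⟨hp⟩
  not_unitCong_two_of_one_mod_four hp (fun u => ConjSym.conjPackage p hp.ne_zero u) h4

/-- **N5, second case (unconditional).** -/
theorem not_unitCong_two_three {p : ℕ} (hp : p.Prime) (hcase : p % 4 = 1 ∨ p % 8 = 3) :
    ¬ UnitCong p 2 3 :=
  haveI : Fact p.Prime := ⟨hp⟩
  not_unitCong_three_of_mod hp (fun u => ConjSym.conjPackage p hp.ne_zero u) hcase

/-- **N5, second case (unconditional), `p ≡ 3 mod 8`.** -/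
theorem not_unitCong_two_three_of_three_mod_eight {p : ℕ} (hp : p.Prime) (h8 : p % 8 = 3) :
    ¬ UnitCong p 2 3 :=
  not_unitCong_two_three hp (Or.inr h8)

end Fermat.Agent.Eis.TwoEasy
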