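import Mathlib
import Fermat.Agent.Eis.Defs
import Fermat.Agent.Eis.ConjCong
import Fermat.Agent.Eis.N6Core
import Fermat.Agent.Eis.Level3Cong
import Fermat.Agent.Eis.L1BasisCor
import Fermat.Agent.Eis.ConjSymFinal

/-!
# Program E (S16), node N6: `l = 2`, `p ≡ 7 mod 8` — the glue

`¬ UnitCong p 2 3` for a prime `p ≡ 7 mod 8`: first given the conjugates package (node N1) for
every weight two form on `Γ₀(p)` (`not_unitCong_two_three_of`), then unconditionally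
(`not_unitCong_two_three`, with `ConjSym.conjPackage`).

Ingredients:
* `Eis/N6Core.lean` (`N6Core.false_of_package'`): the abstract norm argument;
* `Eis/ConjCong.lean`: the conjugates of `u ≡ 1 mod 8` are `≡ 1` resp. `≡ -1/p mod 8`, and
  `-1/p ≡ 1 mod 8` in `IntAt 2` because `p ≡ 7 mod 8`;
* `Eis/Level3Ring.lean`, `Eis/Level3Cong.lean`: `A = kA ℂ`, `x = kX ℂ` with
  `E₄ = A²(1 + 216 x)`, `E₆ = A³(1 - 540 x - 5832 x²)`, `A (1 + 4x) ≡ 1 mod 8`;
* `Eis/L1BasisCor.lean` (`L1B.exists_isobaric_sum_two_mul`): level one forms of weight `2j` are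
  isobaric polynomials in `E₄, E₆`.
-/

set_option autoImplicit false
set_option linter.unusedSectionVars false

open CongruenceSubgroup ModularForm ModularFormClass UpperHalfPlane EisensteinSeries
open scoped MatrixGroups ModularForm

namespace Fermat.Agent.Eis.TwoHard

open Fermat.Agent.Eis Fermat.Agent.Eis.L3R Fermat.Agent.Eis.L3C

/-- For `p ≡ 7 mod 8`: `-1/p - 1 ∈ 8 · IntAt 2`. -/
theorem neg_inv_sub_one (p : ℕ) (hp8 : p % 8 = 7) :
    ∃ c ∈ IntAt 2, -(1 / (p : ℂ)) - 1 = 8 * c := by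
  have hodd : ¬ 2 ∣ p := by omega
  have hp0 : (p : ℂ) ≠ 0 := by
    have : p ≠ 0 := by omega
    exact_mod_cast this
  obtain ⟨m, hm⟩ : ∃ m : ℕ, p + 1 = 8 * m := ⟨(p + 1) / 8, by omega⟩
  have hmC : (p : ℂ) + 1 = 8 * (m : ℂ) := by exact_mod_cast hm
  refine ⟨-((m : ℂ) * ((p : ℂ))⁻¹), (IntAt 2).neg_mem ((IntAt 2).mul_mem ?_ ?_), ?_⟩
  · exact natCast_mem (IntAt 2) m
  · exact inv_natCast_mem_IntAt hodd
  · field_simp
    linear_combination (-1 : ℂ) * hmC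

/-- The conjugate at infinity of `u ≡ 1 mod 8` is `≡ 1 mod 8`. -/
theorem congMod_conjInf (p : ℕ) (hp : p ≠ 0) (u : ℍ → ℂ) (hu : IsUnitCong 2 3 u) :
    CongMod (IntAt 2) 8 (conjInf p hp u) 1 := by
  obtain ⟨H, hH, h⟩ := conjInf_cong (l := 2) 3 p hp u hu
  refine ⟨H, hH, ?_⟩
  rw [h]
  norm_num

/-- The finite conjugates of `u ≡ 1 mod 8` are `≡ 1 mod 8` when `p ≡ 7 mod 8`. -/
theorem congMod_conjFin (p : ℕ) (hp8 : p % 8 = 7) (u ut : ℍ → ℂ) (hu : IsUnitCong 2 3 u)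
    (hut : ∀ n : ℕ, qCoeff ut n = qCoeff u (p * n)) (b : ℕ) :
    CongMod (IntAt 2) 8 (conjFin p ut b) 1 := by
  have hp : p ≠ 0 := by omega
  have hodd : ¬ 2 ∣ p := by omega
  obtain ⟨H, hH, h⟩ := conjFin_cong (l := 2) 3 p hp hodd u ut hu hut b
  obtain ⟨c, hc, hc'⟩ := neg_inv_sub_one p hp8
  refine ⟨H + PowerSeries.C c, (psSub (IntAt 2)).add_mem hH (C_mem_psSub hc), ?_⟩
  have e : conjFin p ut b - 1
      = (conjFin p ut b - PowerSeries.C (-(1 / (p : ℂ)))) + PowerSeries.C (-(1 / (p : ℂ)) - 1) := by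
    rw [map_sub, map_one]; ring
  rw [e, h, hc', map_mul, mul_add]
  norm_num

/-- **Node N6** (hypothesis form): for a prime `p ≡ 7 mod 8` there is no weight two form on
`Γ₀(p)` which is `≡ 1 mod 8`, given the conjugates package (node N1) for that form. -/
theorem not_isUnitCong_of_conjPackage (p : ℕ) (hp8 : p % 8 = 7) (hp : p ≠ 0)
    (u : ModularForm (Gamma0 p) 2) (hpack : ConjPackage p hp u) : ¬ IsUnitCong 2 3 (⇑u) := by
  intro hu
  obtain ⟨ut, S, hut, -, hS0, hprod⟩ := hpack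
  have h3 : (3 : ℂ)⁻¹ ∈ IntAt 2 := inv_three_mem_IntAt 2 (by decide)
  have h2 : (2 : ℂ)⁻¹ ∉ IntAt 2 := by
    simpa using inv_prime_not_mem_IntAt (l := 2)
  refine N6Core.false_of_package' (IntAt 2) h2 p hp (conjInf p hp (⇑u)) (conjFin p (⇑ut))
    (congMod_conjInf p hp (⇑u) hu)
    (fun b _ => congMod_conjFin p hp8 (⇑u) (⇑ut) hu hut b)
    (fun j => qExpansion 1 (S j)) hS0 hprod
    (kE4 ℂ) (kE6 ℂ) (kA ℂ) (kX ℂ)
    (kA_mem _) constantCoeff_kA (kX_mem _ h3) constantCoeff_kX (coeff_one_kX ℂ)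
    kE4_eq_C kE6_eq_C ?_ ?_
  · obtain ⟨H, hH, h⟩ := hcong_core (IntAt 2) h3
    refine ⟨H, hH, ?_⟩
    rw [map_ofNat, map_ofNat]
    exact h
  · intro j _ _
    obtain ⟨c, hc⟩ := L1B.exists_isobaric_sum_two_mul j (S j)
    refine ⟨c, ?_⟩
    rw [← qExpansion_E4_eq_kE4, ← qExpansion_E6_eq_kE6]
    exact hc

/-- **Node N6**: `¬ UnitCong p 2 3` for a prime `p ≡ 7 mod 8`, given the conjugates package
(node N1) for every weight two form on `Γ₀(p)`. -/
theorem not_unitCong_two_three_of (p : ℕ) (hp8 : p % 8 = 7) (hp : p ≠ 0)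
    (hN1 : ∀ u : ModularForm (Gamma0 p) 2, ConjPackage p hp u) : ¬ UnitCong p 2 3 := by
  rintro ⟨u, hu⟩
  exact not_isUnitCong_of_conjPackage p hp8 hp u (hN1 u) hu

/-- **Node N6, unconditional**: `¬ UnitCong p 2 3` for every prime `p ≡ 7 mod 8` (the conjugates
package is `ConjSym.conjPackage`, nodes N1a + N1b). -/
theorem not_unitCong_two_three (p : ℕ) [hp : Fact p.Prime] (hp8 : p % 8 = 7) :
    ¬ UnitCong p 2 3 :=
  not_unitCong_two_three_of p hp8 hp.out.ne_zero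
    (fun u => ConjSym.conjPackage p hp.out.ne_zero u)

end Fermat.Agent.Eis.TwoHard
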