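/-
Program E (statement S16), node N6: the conjugates of a form `u ≡ 1 mod 8` are `≡ 1 mod 8`
when `p ≡ 7 mod 8` (plug-in for `Eis/N6Core.lean`, hypotheses `hInf` and `hFin`).
-/
import Fermat.Agent.Eis.ConjCong

set_option autoImplicit false

open CongruenceSubgroup ModularFormClass UpperHalfPlane

namespace Fermat.Agent.Eis.TwoHardCong

open Fermat.Agent.Eis

/-- `2` does not divide a number that is `7` modulo `8`. -/
theorem not_two_dvd_of_mod_eight {p : ℕ} (hp8 : p % 8 = 7) : ¬ 2 ∣ p := by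
  intro h
  omega

/-- `1/2` is not `2`-integral. -/
theorem inv_two_not_mem : (2 : ℂ)⁻¹ ∉ IntAt 2 := by
  have h := inv_prime_not_mem_IntAt (l := 2)
  simpa using h

/-- The conjugate at infinity is `≡ 1` modulo `8`. -/
theorem hInf (p : ℕ) (hp : p ≠ 0) (u : ℍ → ℂ) (hu : IsUnitCong 2 3 u) :
    CongMod (IntAt 2) 8 (conjInf p hp u) 1 := by
  obtain ⟨H, hH, h⟩ := conjInf_cong (l := 2) 3 p hp u hu
  refine ⟨H, hH, ?_⟩
  rw [h]
  norm_num

/-- `-(1/p) - 1 = 8 * (-(k/p))` when `p + 1 = 8 k`. -/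
theorem neg_inv_sub_one (p k : ℕ) (hp : p ≠ 0) (hk : p + 1 = 8 * k) :
    -(1 / (p : ℂ)) - 1 = 8 * (-((k : ℂ) / (p : ℂ))) := by
  have hp' : (p : ℂ) ≠ 0 := by exact_mod_cast hp
  have hk' : (p : ℂ) + 1 = 8 * (k : ℂ) := by exact_mod_cast hk
  field_simp
  linear_combination -hk'

/-- The finite conjugates are `≡ 1` modulo `8` when `p ≡ 7 mod 8`. -/
theorem hFin (p : ℕ) (hp : p ≠ 0) (hp8 : p % 8 = 7) (u ut : ℍ → ℂ) (hu : IsUnitCong 2 3 u)
    (hut : ∀ n : ℕ, qCoeff ut n = qCoeff u (p * n)) (b : ℕ) :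
    CongMod (IntAt 2) 8 (conjFin p ut b) 1 := by
  have h2p : ¬ 2 ∣ p := not_two_dvd_of_mod_eight hp8
  obtain ⟨H, hH, h⟩ := conjFin_cong (l := 2) 3 p hp h2p u ut hu hut b
  obtain ⟨k, hk⟩ : ∃ k, p + 1 = 8 * k := ⟨(p + 1) / 8, by omega⟩
  have hmem : -((k : ℂ) / (p : ℂ)) ∈ IntAt 2 := by
    rw [div_eq_mul_inv]
    exact (IntAt 2).neg_mem ((IntAt 2).mul_mem (natCast_mem (IntAt 2) k)
      (inv_natCast_mem_IntAt h2p))
  refine ⟨H + PowerSeries.C (-((k : ℂ) / (p : ℂ))),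
    (psSub (IntAt 2)).add_mem hH (C_mem_psSub hmem), ?_⟩
  have hc : PowerSeries.C (-(1 / (p : ℂ))) - 1
      = PowerSeries.C (8 : ℂ) * PowerSeries.C (-((k : ℂ) / (p : ℂ))) := by
    rw [← map_mul, ← neg_inv_sub_one p k hp hk, map_sub, map_one]
  have h8 : PowerSeries.C (((2 : ℕ) : ℂ) ^ 3) = (PowerSeries.C (8 : ℂ)) := by
    norm_num
  rw [h8] at h
  calc conjFin p ut b - 1
      = (conjFin p ut b - PowerSeries.C (-(1 / (p : ℂ))))
          + (PowerSeries.C (-(1 / (p : ℂ))) - 1) := by ring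
    _ = PowerSeries.C 8 * (H + PowerSeries.C (-((k : ℂ) / (p : ℂ)))) := by
        rw [h, hc]; ring

/-- The bundle consumed by `N6Core.false_of_package'` (with `O := IntAt 2`). -/
theorem cong_bundle (p : ℕ) (hp : p ≠ 0) (hp8 : p % 8 = 7) (u ut : ℍ → ℂ)
    (hu : IsUnitCong 2 3 u) (hut : ∀ n : ℕ, qCoeff ut n = qCoeff u (p * n)) :
    (2 : ℂ)⁻¹ ∉ IntAt 2 ∧ CongMod (IntAt 2) 8 (conjInf p hp u) 1 ∧
      ∀ b ∈ Finset.range p, CongMod (IntAt 2) 8 (conjFin p ut b) 1 :=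
  ⟨inv_two_not_mem, hInf p hp u hu, fun b _ => hFin p hp hp8 u ut hu hut b⟩

end Fermat.Agent.Eis.TwoHardCong
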