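import Fermat.Agent.Eis.Defs

/-!
# Program E (S16), node N6 (P4): the generic 2-adic series lemma

`O` is a subring of `ℂ` containing `1 / 27`; `s3`, `S3` are power series with coefficients in `O`,
vanishing constant term and linear coefficient `1` (in the application `s3 = ∑ σ^{(3)}(n) q ^ n` and
`S3 = ∑ σ₃(n) q ^ n`).  Put `A = 1 + 12 s3`, `E4 = 1 + 240 S3` and
`x = (E4 - A ^ 2) * (216 * A ^ 2)⁻¹`.  Then

* `x` has coefficients in `O`, vanishing constant term and linear coefficient `1`;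
* `E4 = A ^ 2 * (1 + 216 * x)`;
* `A * (1 + 4 * x) ≡ 1` modulo `8` in `O⟦q⟧`;
* if `8 * A * E6 = 27 * A ^ 4 - 18 * A ^ 2 * E4 - E4 ^ 2` then
  `E6 = A ^ 3 * (1 - 540 * x - 5832 * x ^ 2)`.

Also: `inv_mem_psSub`: the inverse of a power series with coefficients in `O` and constant term `1`
has coefficients in `O`.
-/

set_option autoImplicit false

open PowerSeries

namespace Fermat.Agent.Eis.TwoHardSeries

/-- The inverse of a power series with coefficients in `O` and constant coefficient `1` has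
coefficients in `O`. -/
theorem inv_mem_psSub {O : Subring ℂ} {F : PowerSeries ℂ} (hF : F ∈ psSub O)
    (hF0 : constantCoeff F = 1) : F⁻¹ ∈ psSub O := by
  intro n
  induction n using Nat.strong_induction_on with
  | _ n ih =>
    rw [PowerSeries.coeff_inv, hF0, inv_one]
    split_ifs with hn
    · exact O.one_mem
    · rw [neg_one_mul]
      refine O.neg_mem (O.sum_mem fun x hx => ?_)
      split_ifs with hlt
      · exact O.mul_mem (hF x.1) (ih x.2 hlt)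
      · exact O.zero_mem

theorem natCast_mem_psSub (O : Subring ℂ) (n : ℕ) : ((n : PowerSeries ℂ)) ∈ psSub O :=
  natCast_mem (psSub O) n

theorem ofNat_mem_psSub (O : Subring ℂ) (n : ℕ) [n.AtLeastTwo] :
    ((OfNat.ofNat n : PowerSeries ℂ)) ∈ psSub O := by
  have h := natCast_mem (psSub O) (OfNat.ofNat n)
  rwa [Nat.cast_ofNat] at h

/-- The polynomial identity behind `A * (1 + 4 * x) ≡ 1` modulo `8`. -/
theorem key_identity {R : Type*} [CommRing R] (s3 S3 Ai c : R) (hAAi : (1 + 12 * s3) * Ai = 1)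
    (hc : c * 27 = 1) :
    (1 + 12 * s3) * (1 + 4 * (c * (30 * S3 - 3 * s3 - 18 * s3 ^ 2) * (Ai * Ai))) - 1 =
      8 * (c * (39 * s3 + 477 * s3 ^ 2 + 15 * S3) * Ai) := by
  linear_combination (4 * c * (30 * S3 - 3 * s3 - 18 * s3 ^ 2) * Ai - 324 * c * s3) * hAAi +
    (-12 * s3) * hc

section Generic

variable {O : Subring ℂ} (h27 : ((27 : ℂ))⁻¹ ∈ O)
  {s3 S3 : PowerSeries ℂ} (hs3 : s3 ∈ psSub O) (hS3 : S3 ∈ psSub O)
  (hs30 : constantCoeff s3 = 0) (hS30 : constantCoeff S3 = 0)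
  (hs31 : coeff 1 s3 = 1) (hS31 : coeff 1 S3 = 1)

/-- `A = 1 + 12 s3`. -/
noncomputable def serA (s3 : PowerSeries ℂ) : PowerSeries ℂ := 1 + 12 * s3

/-- `E4 = 1 + 240 S3`. -/
noncomputable def serE4 (S3 : PowerSeries ℂ) : PowerSeries ℂ := 1 + 240 * S3

/-- `K = 30 S3 - 3 s3 - 18 s3 ^ 2`, so that `E4 - A ^ 2 = 8 K`. -/
noncomputable def serK (s3 S3 : PowerSeries ℂ) : PowerSeries ℂ := 30 * S3 - 3 * s3 - 18 * s3 ^ 2

/-- `x = (E4 - A ^ 2) * (216 * A ^ 2)⁻¹`. -/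
noncomputable def serX (s3 S3 : PowerSeries ℂ) : PowerSeries ℂ :=
  (serE4 S3 - serA s3 ^ 2) * (216 * serA s3 ^ 2)⁻¹

theorem serE4_sub_sq (s3 S3 : PowerSeries ℂ) : serE4 S3 - serA s3 ^ 2 = 8 * serK s3 S3 := by
  unfold serE4 serA serK
  ring

include hs30 in
theorem constantCoeff_serA : constantCoeff (serA s3) = 1 := by
  simp [serA, hs30]

include hs3 in
theorem serA_mem : serA s3 ∈ psSub O :=
  (psSub O).add_mem (psSub O).one_mem ((psSub O).mul_mem (ofNat_mem_psSub O 12) hs3)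

include hS3 in
theorem serE4_mem : serE4 S3 ∈ psSub O :=
  (psSub O).add_mem (psSub O).one_mem ((psSub O).mul_mem (ofNat_mem_psSub O 240) hS3)

include hs3 hS3 in
theorem serK_mem : serK s3 S3 ∈ psSub O := by
  unfold serK
  exact (psSub O).sub_mem ((psSub O).sub_mem ((psSub O).mul_mem (ofNat_mem_psSub O 30) hS3)
    ((psSub O).mul_mem (ofNat_mem_psSub O 3) hs3))
    ((psSub O).mul_mem (ofNat_mem_psSub O 18) ((psSub O).pow_mem hs3 2))

include hs30 in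
theorem constantCoeff_serA_sq : constantCoeff (serA s3 ^ 2) = 1 := by
  rw [map_pow, constantCoeff_serA hs30, one_pow]

include hs30 in
theorem serA_ne_zero : serA s3 ≠ 0 := by
  intro h
  have := constantCoeff_serA hs30
  rw [h, map_zero] at this
  exact zero_ne_one this

include hs30 in
/-- `x = 27⁻¹ * K * (A ^ 2)⁻¹`. -/
theorem serX_eq : serX s3 S3 = C ((27 : ℂ)⁻¹) * serK s3 S3 * (serA s3 ^ 2)⁻¹ := by
  have hA2 : constantCoeff (serA s3 ^ 2) ≠ 0 := by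
    rw [constantCoeff_serA_sq hs30]; exact one_ne_zero
  have h216 : constantCoeff ((216 : PowerSeries ℂ) * serA s3 ^ 2) ≠ 0 := by
    rw [map_mul, constantCoeff_serA_sq hs30, mul_one]
    have : constantCoeff (216 : PowerSeries ℂ) = (216 : ℂ) := by
      rw [← map_ofNat (C (R := ℂ)) 216, constantCoeff_C]
    rw [this]
    norm_num
  -- multiply both sides by the unit `216 * A ^ 2`
  have h216ne : (216 : PowerSeries ℂ) * serA s3 ^ 2 ≠ 0 := by
    intro h0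
    rw [h0, map_zero] at h216
    exact h216 rfl
  have hcancel : ∀ a b : PowerSeries ℂ,
      a * ((216 : PowerSeries ℂ) * serA s3 ^ 2) = b * ((216 : PowerSeries ℂ) * serA s3 ^ 2) →
      a = b := fun a b hab => mul_right_cancel₀ h216ne hab
  apply hcancel
  have hC : (C ((27 : ℂ)⁻¹) : PowerSeries ℂ) * 216 = 8 := by
    rw [← map_ofNat (C (R := ℂ)) 216, ← map_mul, ← map_ofNat (C (R := ℂ)) 8]
    congr 1
    norm_num
  rw [serX, mul_assoc, PowerSeries.inv_mul_cancel _ h216, mul_one, serE4_sub_sq]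
  calc 8 * serK s3 S3 = (C ((27 : ℂ)⁻¹) * 216) * serK s3 S3 * ((serA s3 ^ 2)⁻¹ * serA s3 ^ 2) := by
        rw [hC, PowerSeries.inv_mul_cancel _ hA2, mul_one]
    _ = C ((27 : ℂ)⁻¹) * serK s3 S3 * (serA s3 ^ 2)⁻¹ * (216 * serA s3 ^ 2) := by ring

include h27 hs3 hS3 hs30 in
/-- `x` has coefficients in `O`. -/
theorem serX_mem : serX s3 S3 ∈ psSub O := by
  rw [serX_eq hs30]
  exact (psSub O).mul_mem ((psSub O).mul_mem (C_mem_psSub h27) (serK_mem hs3 hS3))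
    (inv_mem_psSub ((psSub O).pow_mem (serA_mem hs3) 2) (constantCoeff_serA_sq hs30))

include hs30 hS30 in
theorem constantCoeff_serK : constantCoeff (serK s3 S3) = 0 := by
  simp [serK, hs30, hS30]

include hs30 hS30 in
theorem constantCoeff_serX : constantCoeff (serX s3 S3) = 0 := by
  rw [serX_eq hs30, map_mul, map_mul, constantCoeff_serK hs30 hS30, mul_zero, zero_mul]

include hs30 hs31 hS31 in
theorem coeff_one_serK : coeff 1 (serK s3 S3) = 27 := by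
  have hsq : coeff 1 (s3 ^ 2) = 0 := by
    rw [pow_two, PowerSeries.coeff_one_mul, hs30, mul_zero, add_zero]
  have h30 : coeff 1 ((30 : PowerSeries ℂ) * S3) = 30 := by
    rw [← map_ofNat (C (R := ℂ)) 30, PowerSeries.coeff_C_mul, hS31, mul_one]
  have h3 : coeff 1 ((3 : PowerSeries ℂ) * s3) = 3 := by
    rw [← map_ofNat (C (R := ℂ)) 3, PowerSeries.coeff_C_mul, hs31, mul_one]
  have h18 : coeff 1 ((18 : PowerSeries ℂ) * s3 ^ 2) = 0 := by
    rw [← map_ofNat (C (R := ℂ)) 18, PowerSeries.coeff_C_mul, hsq, mul_zero]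
  rw [serK, map_sub, map_sub, h30, h3, h18]
  norm_num

include hs30 hS30 hs31 hS31 in
theorem coeff_one_serX : coeff 1 (serX s3 S3) = 1 := by
  rw [serX_eq hs30, mul_assoc, PowerSeries.coeff_C_mul, PowerSeries.coeff_one_mul,
    constantCoeff_serK hs30 hS30, PowerSeries.constantCoeff_inv, constantCoeff_serA_sq hs30,
    inv_one, coeff_one_serK hs30 hs31 hS31, mul_one, mul_zero, add_zero]
  norm_num

include hs30 in
/-- `E4 = A ^ 2 * (1 + 216 * x)`. -/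
theorem serE4_eq : serE4 S3 = serA s3 ^ 2 * (1 + 216 * serX s3 S3) := by
  have h216 : constantCoeff ((216 : PowerSeries ℂ) * serA s3 ^ 2) ≠ 0 := by
    rw [map_mul, constantCoeff_serA_sq hs30, mul_one]
    have : constantCoeff (216 : PowerSeries ℂ) = (216 : ℂ) := by
      rw [← map_ofNat (C (R := ℂ)) 216, constantCoeff_C]
    rw [this]
    norm_num
  have h : (216 : PowerSeries ℂ) * serA s3 ^ 2 * serX s3 S3 = serE4 S3 - serA s3 ^ 2 := by
    rw [serX, mul_comm (serE4 S3 - serA s3 ^ 2), ← mul_assoc, PowerSeries.mul_inv_cancel _ h216,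
      one_mul]
  calc serE4 S3 = serA s3 ^ 2 + (216 * serA s3 ^ 2 * serX s3 S3) := by rw [h]; ring
    _ = serA s3 ^ 2 * (1 + 216 * serX s3 S3) := by ring

include h27 hs3 hS3 hs30 in
/-- `A * (1 + 4 * x) ≡ 1` modulo `8`. -/
theorem exists_serA_mul_sub_one :
    ∃ H ∈ psSub O, serA s3 * (1 + 4 * serX s3 S3) - 1 = 8 * H := by
  have hA : constantCoeff (serA s3) ≠ 0 := by
    rw [constantCoeff_serA hs30]; exact one_ne_zero
  have hA2 : constantCoeff (serA s3 ^ 2) ≠ 0 := by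
    rw [constantCoeff_serA_sq hs30]; exact one_ne_zero
  refine ⟨C ((27 : ℂ)⁻¹) * (39 * s3 + 477 * s3 ^ 2 + 15 * S3) * (serA s3)⁻¹, ?_, ?_⟩
  · refine (psSub O).mul_mem ((psSub O).mul_mem (C_mem_psSub h27) ?_)
      (inv_mem_psSub (serA_mem hs3) (constantCoeff_serA hs30))
    exact (psSub O).add_mem ((psSub O).add_mem ((psSub O).mul_mem (ofNat_mem_psSub O 39) hs3)
      ((psSub O).mul_mem (ofNat_mem_psSub O 477) ((psSub O).pow_mem hs3 2)))
      ((psSub O).mul_mem (ofNat_mem_psSub O 15) hS3)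
  · -- `(A ^ 2)⁻¹ = A⁻¹ * A⁻¹`
    have hinv2 : (serA s3 ^ 2)⁻¹ = (serA s3)⁻¹ * (serA s3)⁻¹ := by
      have h1 : serA s3 ^ 2 * ((serA s3)⁻¹ * (serA s3)⁻¹) = 1 := by
        calc serA s3 ^ 2 * ((serA s3)⁻¹ * (serA s3)⁻¹)
            = (serA s3 * (serA s3)⁻¹) * (serA s3 * (serA s3)⁻¹) := by ring
          _ = 1 := by rw [PowerSeries.mul_inv_cancel _ hA, one_mul]
      calc (serA s3 ^ 2)⁻¹ = (serA s3 ^ 2)⁻¹ * (serA s3 ^ 2 * ((serA s3)⁻¹ * (serA s3)⁻¹)) := by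
            rw [h1, mul_one]
        _ = ((serA s3 ^ 2)⁻¹ * serA s3 ^ 2) * ((serA s3)⁻¹ * (serA s3)⁻¹) := by ring
        _ = (serA s3)⁻¹ * (serA s3)⁻¹ := by rw [PowerSeries.inv_mul_cancel _ hA2, one_mul]
    have hC27 : (C ((27 : ℂ)⁻¹) : PowerSeries ℂ) * 27 = 1 := by
      rw [← map_ofNat (C (R := ℂ)) 27, ← map_mul, inv_mul_cancel₀ (by norm_num), map_one]
    have hAAi : (1 + 12 * s3) * (serA s3)⁻¹ = 1 := PowerSeries.mul_inv_cancel _ hA
    rw [serX_eq hs30, hinv2]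
    exact key_identity s3 S3 (serA s3)⁻¹ (C ((27 : ℂ)⁻¹)) hAAi hC27

include hs30 in
/-- If `8 * A * E6 = 27 * A ^ 4 - 18 * A ^ 2 * E4 - E4 ^ 2` then
`E6 = A ^ 3 * (1 - 540 * x - 5832 * x ^ 2)`. -/
theorem serE6_eq {E6 : PowerSeries ℂ}
    (h : 8 * serA s3 * E6 = 27 * serA s3 ^ 4 - 18 * serA s3 ^ 2 * serE4 S3 - serE4 S3 ^ 2) :
    E6 = serA s3 ^ 3 * (1 - 540 * serX s3 S3 - 5832 * serX s3 S3 ^ 2) := by
  have hA := serA_ne_zero hs30
  have h8 : (8 : PowerSeries ℂ) ≠ 0 := by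
    intro h8
    have := congrArg constantCoeff h8
    rw [← map_ofNat (C (R := ℂ)) 8, constantCoeff_C, map_zero] at this
    norm_num at this
  have h8A : (8 : PowerSeries ℂ) * serA s3 ≠ 0 := mul_ne_zero h8 hA
  apply mul_left_cancel₀ h8A
  rw [h, serE4_eq (S3 := S3) hs30]
  ring

end Generic

/-- **The generic 2-adic series lemma (P4)**, in unfolded form: for `A = 1 + 12 s3`,
`E4 = 1 + 240 S3` and `x = (E4 - A ^ 2) * (216 * A ^ 2)⁻¹`. -/
theorem series_package {O : Subring ℂ} (h27 : ((27 : ℂ))⁻¹ ∈ O)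
    {s3 S3 : PowerSeries ℂ} (hs3 : s3 ∈ psSub O) (hS3 : S3 ∈ psSub O)
    (hs30 : constantCoeff s3 = 0) (hS30 : constantCoeff S3 = 0)
    (hs31 : coeff 1 s3 = 1) (hS31 : coeff 1 S3 = 1) :
    ((1 + 240 * S3 - (1 + 12 * s3) ^ 2) * (216 * (1 + 12 * s3) ^ 2)⁻¹ ∈ psSub O) ∧
    constantCoeff ((1 + 240 * S3 - (1 + 12 * s3) ^ 2) * (216 * (1 + 12 * s3) ^ 2)⁻¹) = 0 ∧
    coeff 1 ((1 + 240 * S3 - (1 + 12 * s3) ^ 2) * (216 * (1 + 12 * s3) ^ 2)⁻¹) = 1 ∧
    (1 + 240 * S3 = (1 + 12 * s3) ^ 2 *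
      (1 + 216 * ((1 + 240 * S3 - (1 + 12 * s3) ^ 2) * (216 * (1 + 12 * s3) ^ 2)⁻¹))) ∧
    (∃ H ∈ psSub O, (1 + 12 * s3) *
      (1 + 4 * ((1 + 240 * S3 - (1 + 12 * s3) ^ 2) * (216 * (1 + 12 * s3) ^ 2)⁻¹)) - 1 = 8 * H) ∧
    ∀ E6 : PowerSeries ℂ,
      8 * (1 + 12 * s3) * E6 = 27 * (1 + 12 * s3) ^ 4 - 18 * (1 + 12 * s3) ^ 2 * (1 + 240 * S3) -
        (1 + 240 * S3) ^ 2 →
      E6 = (1 + 12 * s3) ^ 3 *
        (1 - 540 * ((1 + 240 * S3 - (1 + 12 * s3) ^ 2) * (216 * (1 + 12 * s3) ^ 2)⁻¹) -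
          5832 * ((1 + 240 * S3 - (1 + 12 * s3) ^ 2) * (216 * (1 + 12 * s3) ^ 2)⁻¹) ^ 2) :=
  ⟨serX_mem h27 hs3 hS3 hs30, constantCoeff_serX hs30 hS30, coeff_one_serX hs30 hS30 hs31 hS31,
    serE4_eq hs30, exists_serA_mul_sub_one h27 hs3 hS3 hs30, fun _ h => serE6_eq hs30 h⟩

end Fermat.Agent.Eis.TwoHardSeries
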