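/-
Program E (S16), UPPER (helper6): the upper bound `Upper p` (every modulus `M` of a congruence
between a cusp form and the Eisenstein series divides the Eisenstein numerator) from the
non-existence statements `¬ UnitCong p l e` of the nodes N3 - N6, by decomposition of `M` into
prime powers and the bridge `Bridge.unitCong_of_congCusp`.
-/
import Fermat.Agent.Eis.BridgeUnit

set_option autoImplicit false

open ModularCurve

namespace Fermat.Agent.Eis.Bridge

open Fermat.Agent.Eis Fermat.Agent.Eis.UpperArith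

/-- `Upper p` from the non-existence of forms `≡ 1 mod l ^ eExp p l` for all primes `l`. -/
theorem upper_of_not_unitCong (p : ℕ) [Fact p.Prime] (hp5 : 5 ≤ p)
    (H : ∀ (l : ℕ) [Fact l.Prime], ¬ UnitCong p l (eExp p l)) : Upper p := by
  intro M _ hc
  refine (Nat.dvd_iff_prime_pow_dvd_dvd _ _).mpr fun l k hl hlk => ?_
  by_contra hcon
  have : Fact l.Prime := ⟨hl⟩
  exact H l (unitCong_of_congCusp p hp5 l k hcon (congCusp_mono hlk hc))

/-- **UPPER.** `Upper p` for a prime `p ≥ 5` from the five node statements: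
N3 (`l ≥ 5`), N4 (`l = 3`, two cases), N5 (`l = 2`, `p ≡ 1 mod 4` and `p ≡ 3 mod 8`) and
N6 (`l = 2`, `p ≡ 7 mod 8`). -/
theorem upper_of_nodes (p : ℕ) [hp : Fact p.Prime] (hp5 : 5 ≤ p)
    (h5 : ∀ (l : ℕ) [Fact l.Prime], 5 ≤ l → ¬ UnitCong p l 1)
    (h31 : p % 3 = 1 → ¬ UnitCong p 3 1) (h32 : p % 3 = 2 → ¬ UnitCong p 3 2)
    (h21 : p % 4 = 1 → ¬ UnitCong p 2 2) (h23 : p % 8 = 3 → ¬ UnitCong p 2 3)
    (h27 : p % 8 = 7 → ¬ UnitCong p 2 3) : Upper p := by
  refine upper_of_not_unitCong p hp5 fun l hl => ?_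
  have hodd : p % 2 = 1 := by
    rcases hp.out.eq_two_or_odd with h | h
    · omega
    · exact h
  have h3 : p % 3 ≠ 0 := by
    intro h
    have : 3 ∣ p := Nat.dvd_of_mod_eq_zero h
    have := (Nat.prime_dvd_prime_iff_eq Nat.prime_three hp.out).mp this
    omega
  by_cases hl2 : l = 2
  · subst hl2
    by_cases h4 : p % 4 = 1
    · rw [eExp_two_of_one_mod_four h4]
      exact h21 h4
    · have h4' : p % 4 = 3 := by omega
      rw [eExp_two_of_three_mod_four h4']
      by_cases h8 : p % 8 = 3
      · exact h23 h8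
      · exact h27 (by omega)
  · by_cases hl3 : l = 3
    · subst hl3
      by_cases h1 : p % 3 = 1
      · rw [eExp_three_of_one_mod_three h1]
        exact h31 h1
      · have h2 : p % 3 = 2 := by omega
        rw [eExp_three_of_two_mod_three h2]
        exact h32 h2
    · have hl5 : 5 ≤ l := by
        have := hl.out.two_le
        have h4 : l ≠ 4 := by
          rintro rfl
          exact absurd hl.out (by norm_num)
        omega
      rw [eExp_of_five_le hl5]
      exact h5 l hl5

end Fermat.Agent.Eis.Bridge
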