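import Fermat.Agent.Eis.UpperGe5Core
import Fermat.Agent.Eis.ConjCong
import Fermat.Agent.Eis.ConjSymFinal

/-!
# Program E, node N3: no weight two form on `Γ₀(p)` is `≡ 1 mod l` for a prime `l ≥ 5`

The level-one weight theorem (node N2) enters as the hypothesis `LevelOneConstMod l`.
Both cases `l ≠ p` and `l = p` are treated (the second one through the form `p • u`).
-/

set_option autoImplicit false

open CongruenceSubgroup ModularFormClass UpperHalfPlane
open scoped MatrixGroups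

namespace Fermat.Agent.Eis.N3

/-- Hypothesis form of node N2: a level-one form whose `q`-expansion has coefficients in `S`
and reduces under `φ : S →+* K` (`K` a field in which `l = 0`) to a nonzero constant has weight
divisible by `l - 1`. -/
def LevelOneConstMod (l : ℕ) : Prop :=
  ∀ (S : Subring ℂ), (∀ N : ℕ, ¬ l ∣ N → ((N : ℂ))⁻¹ ∈ S) →
    ∀ (K : Type) [Field K] (φ : S →+* K), φ ((l : ℕ) : S) = 0 →
      ∀ (k : ℕ) (F : ModularForm 𝒮ℒ (k : ℤ)) (f : PowerSeries S),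
        PowerSeries.map S.subtype f = qExpansion 1 F →
          ∀ c : K, c ≠ 0 → PowerSeries.map φ f = PowerSeries.C c → (l - 1) ∣ k

/-! ### A residue field of `IntAt l` of characteristic `l` -/

theorem exists_maximal_IntAt (l : ℕ) [hl : Fact l.Prime] :
    ∃ m : Ideal (IntAt l), m.IsMaximal ∧ ((l : ℕ) : IntAt l) ∈ m := by
  apply exists_max_ideal_of_mem_nonunits
  intro hu
  obtain ⟨v, hv⟩ := hu.exists_right_inv
  apply inv_prime_not_mem_IntAt (l := l)
  have h1 : ((l : ℕ) : ℂ) * (v : ℂ) = 1 := by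
    have := congrArg (Subtype.val) hv
    simpa using this
  have hl0 : ((l : ℕ) : ℂ) ≠ 0 := by exact_mod_cast hl.out.ne_zero
  have : ((l : ℂ))⁻¹ = (v : ℂ) := by
    field_simp
    exact h1.symm
  rw [this]
  exact v.2

theorem charP_quotient (l : ℕ) [hl : Fact l.Prime] (m : Ideal (IntAt l)) [hm : m.IsMaximal]
    (hlm : ((l : ℕ) : IntAt l) ∈ m) : CharP (IntAt l ⧸ m) l := by
  let _ : Field (IntAt l ⧸ m) := Ideal.Quotient.field m
  have h0 : ((l : ℕ) : IntAt l ⧸ m) = 0 := by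
    rw [← map_natCast (Ideal.Quotient.mk m)]
    exact Ideal.Quotient.eq_zero_iff_mem.mpr hlm
  obtain ⟨q, hq⟩ := CharP.exists (IntAt l ⧸ m)
  have hdvd : q ∣ l := (CharP.cast_eq_zero_iff (IntAt l ⧸ m) q l).mp h0
  rcases (Nat.dvd_prime hl.out).mp hdvd with h | h
  · exact absurd h (CharP.char_ne_one (IntAt l ⧸ m) q)
  · subst h; exact hq

/-! ### Reduction of a congruence `F ≡ c mod l` -/

theorem reduce_of_cong {K : Type*} [CommRing K] (S : Subring ℂ) (φ : S →+* K) (lS : ℂ)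
    (hlS : lS ∈ S) (hφl : φ ⟨lS, hlS⟩ = 0) (F : PowerSeries ℂ) (c : ℂ) (hc : c ∈ S)
    (H : PowerSeries ℂ) (hH : H ∈ psSub S)
    (h : F - PowerSeries.C c = PowerSeries.C lS * H) :
    (∃ h0 : PowerSeries.coeff 0 F ∈ S, φ ⟨_, h0⟩ = φ ⟨c, hc⟩) ∧
      ∀ n, n ≠ 0 → ∃ hn : PowerSeries.coeff n F ∈ S, φ ⟨_, hn⟩ = 0 := by
  have hF : ∀ n, PowerSeries.coeff n F =
      PowerSeries.coeff n (PowerSeries.C c : PowerSeries ℂ) + lS * PowerSeries.coeff n H := by
    intro n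
    have := congrArg (PowerSeries.coeff n) h
    rw [map_sub, PowerSeries.coeff_C_mul] at this
    rw [← this]; ring
  constructor
  · have h0 : PowerSeries.coeff 0 F = c + lS * PowerSeries.coeff 0 H := by
      rw [hF 0, PowerSeries.coeff_C, if_pos rfl]
    have hmem : PowerSeries.coeff 0 F ∈ S := by
      rw [h0]; exact S.add_mem hc (S.mul_mem hlS (hH 0))
    refine ⟨hmem, ?_⟩
    have : (⟨PowerSeries.coeff 0 F, hmem⟩ : S) =
        ⟨c, hc⟩ + ⟨lS, hlS⟩ * ⟨PowerSeries.coeff 0 H, hH 0⟩ := Subtype.ext h0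
    rw [this, map_add, map_mul, hφl, zero_mul, add_zero]
  · intro n hn
    have h0 : PowerSeries.coeff n F = lS * PowerSeries.coeff n H := by
      rw [hF n, PowerSeries.coeff_C, if_neg hn, zero_add]
    have hmem : PowerSeries.coeff n F ∈ S := by
      rw [h0]; exact S.mul_mem hlS (hH n)
    refine ⟨hmem, ?_⟩
    have : (⟨PowerSeries.coeff n F, hmem⟩ : S) =
        ⟨lS, hlS⟩ * ⟨PowerSeries.coeff n H, hH n⟩ := Subtype.ext h0
    rw [this, map_mul, hφl, zero_mul]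

/-- The weight hypothesis for the symmetric functions, from `LevelOneConstMod`. -/
theorem hN2_of {l : ℕ} [Fact l.Prime] (hN2 : LevelOneConstMod l) (m : Ideal (IntAt l))
    [m.IsMaximal] (hlm : ((l : ℕ) : IntAt l) ∈ m)
    (Sj : (j : ℕ) → ModularForm 𝒮ℒ ((2 : ℤ) * (j : ℤ))) (j : ℕ)
    (g' : PowerSeries (IntAt l))
    (hg : PowerSeries.map (IntAt l).subtype g' = qExpansion 1 (Sj j))
    (c : IntAt l ⧸ m) (hc : c ≠ 0)
    (hgc : PowerSeries.map (Ideal.Quotient.mk m) g' = PowerSeries.C c) :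
    (l - 1) ∣ 2 * j := by
  let _ : Field (IntAt l ⧸ m) := Ideal.Quotient.field m
  have hφl : (Ideal.Quotient.mk m) ((l : ℕ) : IntAt l) = 0 :=
    Ideal.Quotient.eq_zero_iff_mem.mpr hlm
  have hw : (2 : ℤ) * (j : ℤ) = ((2 * j : ℕ) : ℤ) := by push_cast; ring
  exact hN2 (IntAt l) (fun N hN => inv_natCast_mem_IntAt hN) (IntAt l ⧸ m)
    (Ideal.Quotient.mk m) hφl (2 * j) (ModularForm.mcast hw (Sj j)) g' hg c hc hgc

/-! ### The case `l ≠ p` -/

theorem not_unitCong_of_ne (p l : ℕ) [hp : Fact p.Prime] [hl : Fact l.Prime] (hl5 : 5 ≤ l)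
    (hlp : l ≠ p) (hN2 : LevelOneConstMod l) : ¬ UnitCong p l 1 := by
  rintro ⟨u, hu⟩
  have hu' : IsUnitCong l 1 u := hu
  have hp0 : p ≠ 0 := hp.out.ne_zero
  have hp2 : 2 ≤ p := hp.out.two_le
  have hndvd : ¬ l ∣ p := fun h => hlp ((Nat.prime_dvd_prime_iff_eq hl.out hp.out).mp h)
  obtain ⟨ut, Sj, hut, -, -, hid⟩ := ConjSym.conjPackage p hp0 u
  obtain ⟨m, hm, hlm⟩ := exists_maximal_IntAt l
  have := hm
  let _ : Field (IntAt l ⧸ m) := Ideal.Quotient.field m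
  have : CharP (IntAt l ⧸ m) l := charP_quotient l m hlm
  have hlmem : ((l : ℂ) ^ 1) ∈ IntAt l := by
    rw [pow_one]; exact natCast_mem (IntAt l) l
  have hφl : (Ideal.Quotient.mk m) ⟨(l : ℂ) ^ 1, hlmem⟩ = 0 := by
    have : (⟨(l : ℂ) ^ 1, hlmem⟩ : IntAt l) = ((l : ℕ) : IntAt l) :=
      Subtype.ext (by simp)
    rw [this]
    exact Ideal.Quotient.eq_zero_iff_mem.mpr hlm
  have hone : (1 : ℂ) ∈ IntAt l := (IntAt l).one_mem
  have hpinv : (-(1 / (p : ℂ))) ∈ IntAt l := by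
    rw [one_div]; exact (IntAt l).neg_mem (inv_natCast_mem_IntAt hndvd)
  -- the conjugate at infinity
  obtain ⟨Hinf, hHinf, hinf⟩ := conjInf_cong 1 p hp0 u hu'
  have hinf' : conjInf p hp0 u - PowerSeries.C (1 : ℂ) = PowerSeries.C ((l : ℂ) ^ 1) * Hinf := by
    rw [map_one]; exact hinf
  obtain ⟨hI0, hIn⟩ := reduce_of_cong (IntAt l) (Ideal.Quotient.mk m) ((l : ℂ) ^ 1) hlmem hφl
    (conjInf p hp0 u) 1 hone Hinf hHinf hinf'
  have hI0' : ∃ h : PowerSeries.coeff 0 (conjInf p hp0 u) ∈ IntAt l,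
      (Ideal.Quotient.mk m) ⟨_, h⟩ = 1 := by
    obtain ⟨h, hh⟩ := hI0
    refine ⟨h, ?_⟩
    rw [hh]
    exact map_one _
  -- the finite conjugates
  have hfin : ∀ b : ℕ,
      (∃ h0 : PowerSeries.coeff 0 (conjFin p ut b) ∈ IntAt l,
        (Ideal.Quotient.mk m) ⟨_, h0⟩ = (Ideal.Quotient.mk m) ⟨-(1 / (p : ℂ)), hpinv⟩) ∧
      ∀ n, n ≠ 0 → ∃ hn : PowerSeries.coeff n (conjFin p ut b) ∈ IntAt l,
        (Ideal.Quotient.mk m) ⟨_, hn⟩ = 0 := by
    intro b
    obtain ⟨H, hH, hb⟩ := conjFin_cong 1 p hp0 hndvd u ut hu' hut b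
    exact reduce_of_cong (IntAt l) (Ideal.Quotient.mk m) ((l : ℂ) ^ 1) hlmem hφl
      (conjFin p ut b) (-(1 / (p : ℂ))) hpinv H hH hb
  exact caseA (K := IntAt l ⧸ m) l p hl5 hp2 (IntAt l) (Ideal.Quotient.mk m)
    (conjInf p hp0 u) (fun b => conjFin p ut b)
    ((Ideal.Quotient.mk m) ⟨-(1 / (p : ℂ)), hpinv⟩) hI0' hIn
    (fun b _ => (hfin b).1) (fun b _ => (hfin b).2)
    (fun j => qExpansion 1 (Sj j)) hid
    (fun j _ g' hg c hc hgc => hN2_of hN2 m hlm Sj j g' hg c hc hgc)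

/-! ### The case `l = p` (through the form `p • u`) -/

theorem reduce_mul {K : Type*} [CommRing K] (S : Subring ℂ) (φ : S →+* K) (lS : ℂ)
    (hlS : lS ∈ S) (hφl : φ ⟨lS, hlS⟩ = 0) (z x : ℂ) (hx : x ∈ S) (hz : z = lS * x) :
    ∃ h : z ∈ S, φ ⟨z, h⟩ = 0 := by
  have hmem : z ∈ S := by rw [hz]; exact S.mul_mem hlS hx
  refine ⟨hmem, ?_⟩
  have : (⟨z, hmem⟩ : S) = ⟨lS, hlS⟩ * ⟨x, hx⟩ := Subtype.ext hz
  rw [this, map_mul, hφl, zero_mul]

theorem not_unitCong_self (p : ℕ) [hp : Fact p.Prime] (hp5 : 5 ≤ p)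
    (hN2 : LevelOneConstMod p) : ¬ UnitCong p p 1 := by
  rintro ⟨u, hu0, huk⟩
  have hp0 : p ≠ 0 := hp.out.ne_zero
  have hpC : (p : ℂ) ≠ 0 := by exact_mod_cast hp0
  -- the form `p • u`
  set u' : ModularForm (Gamma0 p) 2 := (p : ℂ) • u with hu'
  have hq' : ∀ n, qCoeff u' n = (p : ℂ) * qCoeff u n := by
    intro n
    have h := ModularForm.qExpansion_smul (h := 1) one_pos
      (CongruenceSubgroup.one_mem_strictPeriods_Gamma0 p) (p : ℂ) u
    have h2 : qExpansion 1 (⇑u') = (p : ℂ) • qExpansion 1 (⇑u) := by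
      rw [← h]; rfl
    unfold qCoeff
    rw [h2, PowerSeries.coeff_smul, smul_eq_mul]
  obtain ⟨ut', Sj, hut', -, -, hid⟩ := ConjSym.conjPackage p hp0 u'
  obtain ⟨m, hm, hlm⟩ := exists_maximal_IntAt p
  have := hm
  let _ : Field (IntAt p ⧸ m) := Ideal.Quotient.field m
  have hlmem : (p : ℂ) ∈ IntAt p := natCast_mem (IntAt p) p
  have hφl : (Ideal.Quotient.mk m) ⟨(p : ℂ), hlmem⟩ = 0 := by
    have : (⟨(p : ℂ), hlmem⟩ : IntAt p) = ((p : ℕ) : IntAt p) := Subtype.ext (by simp)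
    rw [this]
    exact Ideal.Quotient.eq_zero_iff_mem.mpr hlm
  -- coefficients of `u` are `p`-integral
  have hmem_u : ∀ n, qCoeff u n ∈ IntAt p := by
    intro n
    by_cases hn : n = 0
    · subst hn; rw [hu0]; exact (IntAt p).one_mem
    · obtain ⟨r, hr, hv⟩ := huk n (Nat.one_le_iff_ne_zero.mpr hn)
      rw [hr]
      apply ratCast_mem_IntAt_of_padicValRat
      rcases hv with h | h
      · exact Or.inl h
      · exact Or.inr (by omega)
  -- positive coefficients of `u` are divisible by `p`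
  have hdiv_u : ∀ n, n ≠ 0 → ∃ x ∈ IntAt p, qCoeff u n = (p : ℂ) * x := by
    intro n hn
    obtain ⟨r, hr, hv⟩ := huk n (Nat.one_le_iff_ne_zero.mpr hn)
    refine ⟨(r : ℂ) / (p : ℂ) ^ 1, ratCast_div_pow_mem_IntAt 1 hv, ?_⟩
    rw [hr, pow_one]
    field_simp
  -- the conjugate at infinity: all coefficients are multiples of `p`
  have hInf : ∀ n, ∃ h : PowerSeries.coeff n (conjInf p hp0 u') ∈ IntAt p,
      (Ideal.Quotient.mk m) ⟨_, h⟩ = 0 := by
    intro n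
    unfold conjInf
    rw [PowerSeries.coeff_expand]
    split_ifs with hdvd
    · exact reduce_mul (IntAt p) (Ideal.Quotient.mk m) (p : ℂ) hlmem hφl _ (qCoeff u (n / p))
        (hmem_u _) (hq' (n / p))
    · exact ⟨(IntAt p).zero_mem, map_zero _⟩
  -- the finite conjugates
  have hcoeffB : ∀ b n, PowerSeries.coeff n (conjFin p ut' b) =
      -(qCoeff u (p * n) * zetaC p ^ (b * n)) := by
    intro b n
    unfold conjFin
    rw [PowerSeries.coeff_mk, hut' n, hq' (p * n)]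
    field_simp
  have hB0 : ∀ b, ∃ h : PowerSeries.coeff 0 (conjFin p ut' b) ∈ IntAt p,
      (Ideal.Quotient.mk m) ⟨_, h⟩ = -1 := by
    intro b
    have h1 : PowerSeries.coeff 0 (conjFin p ut' b) = -1 := by
      rw [hcoeffB, mul_zero, hu0, mul_zero, pow_zero, mul_one]
    have hmem : PowerSeries.coeff 0 (conjFin p ut' b) ∈ IntAt p := by
      rw [h1]; exact (IntAt p).neg_mem (IntAt p).one_mem
    refine ⟨hmem, ?_⟩
    have : (⟨PowerSeries.coeff 0 (conjFin p ut' b), hmem⟩ : IntAt p) = -1 :=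
      Subtype.ext h1
    rw [this, map_neg, map_one]
  have hBn : ∀ b n, n ≠ 0 → ∃ h : PowerSeries.coeff n (conjFin p ut' b) ∈ IntAt p,
      (Ideal.Quotient.mk m) ⟨_, h⟩ = 0 := by
    intro b n hn
    obtain ⟨x, hx, hxe⟩ := hdiv_u (p * n) (Nat.mul_ne_zero hp0 hn)
    refine reduce_mul (IntAt p) (Ideal.Quotient.mk m) (p : ℂ) hlmem hφl _
      (-(x * zetaC p ^ (b * n)))
      ((IntAt p).neg_mem ((IntAt p).mul_mem hx ((IntAt p).pow_mem (zetaC_mem_IntAt p hp0 p) _)))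
      ?_
    rw [hcoeffB, hxe]; ring
  have hdvd : (p - 1) ∣ 2 * p :=
    caseB (K := IntAt p ⧸ m) p p hp0 (IntAt p) (Ideal.Quotient.mk m)
      (conjInf p hp0 u') (fun b => conjFin p ut' b)
      (hInf 0) (fun n _ => hInf n) (fun b _ => hB0 b) (fun b _ n hn => hBn b n hn)
      (fun j => qExpansion 1 (Sj j)) hid
      (fun g' hg c hc hgc => hN2_of hN2 m hlm Sj p g' hg c hc hgc)
  exact not_pred_dvd_two_mul p hp5 hdvd

/-- **Node N3** (modulo the level-one theorem N2 as a hypothesis): for primes `p`, `l ≥ 5`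
(`l = p` allowed) there is no weight two form on `Γ₀(p)` with rational `q`-expansion `≡ 1 mod l`. -/
theorem not_unitCong_ge5_of (p l : ℕ) [Fact p.Prime] [Fact l.Prime] (hp : 5 ≤ p) (hl : 5 ≤ l)
    (hN2 : LevelOneConstMod l) : ¬ UnitCong p l 1 := by
  by_cases hlp : l = p
  · subst hlp
    exact not_unitCong_self l hp hN2
  · exact not_unitCong_of_ne p l hl hlp hN2

end Fermat.Agent.Eis.N3
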