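import Mathlib

/-!
# Program E, node N3 (upper bound at primes `l ≥ 5`): interface-free algebra core

Pure algebra (no modular forms):

* `no_twisted_invariance`: over a field, the polynomial `(X - 1) (X - r) ^ p` (`r ≠ 0`, `p ≥ 2`)
  cannot have all its coefficients of `X ^ (p + 1 - j)` with `m ∤ j` equal to zero when the field
  contains an `m`-th root of unity `ω ≠ 1`.
* `exists_omega`: in characteristic `l ≥ 5` the element `4` is an `(l - 1) / 2`-th root of unity
  different from `1`.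
* `coeff_one_X_mul_X_add_one_pow`: the coefficient of `X` in `X (X + 1) ^ p` is `1`.
* `descent_coeff`: reduction of the coefficients of a polynomial identity over power series.
-/

set_option autoImplicit false

open Polynomial

namespace Fermat.Agent.Eis.N3

section Field

variable {K : Type*} [Field K]

/-- The twisted invariance `P (ω X) = ω ^ (p + 1) P (X)` for a polynomial of degree `≤ p + 1` whose
nonzero coefficients sit in degrees `p + 1 - j` with `m ∣ j`. -/
theorem comp_C_mul_X_eq_of_coeff (P : K[X]) (n m : ℕ) (ω : K) (hωm : ω ^ m = 1)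
    (hdeg : P.natDegree ≤ n)
    (h : ∀ j ≤ n, P.coeff (n - j) ≠ 0 → m ∣ j) :
    P.comp (C ω * X) = C (ω ^ n) * P := by
  ext k
  rw [comp_C_mul_X_coeff, coeff_C_mul]
  by_cases hk : P.coeff k = 0
  · rw [hk, zero_mul, mul_zero]
  · have hkn : k ≤ n := (le_natDegree_of_ne_zero hk).trans hdeg
    have hk' : P.coeff (n - (n - k)) ≠ 0 := by
      rwa [Nat.sub_sub_self hkn]
    obtain ⟨d, hd⟩ := h (n - k) (Nat.sub_le _ _) hk'
    have hpow : ω ^ n = ω ^ k := by
      have hn : n = k + m * d := by omega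
      rw [hn, pow_add, pow_mul, hωm, one_pow, mul_one]
    rw [hpow, mul_comm]

/-- Core lemma (a) of node N3. -/
theorem no_twisted_invariance (p m : ℕ) (hp : 2 ≤ p) (hm : m ≠ 0) (r ω : K)
    (hω1 : ω ≠ 1) (hωm : ω ^ m = 1)
    (h : ∀ j ≤ p + 1, ((X - C 1) * (X - C r) ^ p : K[X]).coeff (p + 1 - j) ≠ 0 → m ∣ j) :
    False := by
  set P : K[X] := (X - C 1) * (X - C r) ^ p with hP
  have hω0 : ω ≠ 0 := by
    intro h0
    rw [h0, zero_pow hm] at hωm
    exact zero_ne_one hωm
  have hdeg : P.natDegree ≤ p + 1 := by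
    have h1 : (X - C (1 : K)).natDegree = 1 := natDegree_X_sub_C 1
    have h2 : ((X - C r) ^ p : K[X]).natDegree = p := by
      rw [natDegree_pow, natDegree_X_sub_C, mul_one]
    calc P.natDegree ≤ (X - C (1 : K)).natDegree + ((X - C r) ^ p : K[X]).natDegree :=
          natDegree_mul_le
      _ = p + 1 := by rw [h1, h2, add_comm]
  have hinv : P.comp (C ω * X) = C (ω ^ (p + 1)) * P :=
    comp_C_mul_X_eq_of_coeff P (p + 1) m ω hωm hdeg h
  have hevalP : ∀ x : K, P.eval x = (x - 1) * (x - r) ^ p := by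
    intro x
    simp [hP]
  have hev : ∀ x : K, P.eval (ω * x) = ω ^ (p + 1) * P.eval x := by
    intro x
    have := congrArg (Polynomial.eval x) hinv
    simpa [eval_comp] using this
  -- evaluate at `ω⁻¹`
  have h1 : r = ω⁻¹ := by
    have h := hev ω⁻¹
    rw [mul_inv_cancel₀ hω0, hevalP, hevalP, sub_self, zero_mul] at h
    have h' : (ω⁻¹ - 1) * (ω⁻¹ - r) ^ p = 0 := by
      rcases mul_eq_zero.mp h.symm with h0 | h0
      · exact absurd h0 (pow_ne_zero _ hω0)
      · exact h0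
    rcases mul_eq_zero.mp h' with h0 | h0
    · exfalso
      apply hω1
      have : ω⁻¹ = 1 := sub_eq_zero.mp h0
      rw [← inv_inv ω, this, inv_one]
    · exact (sub_eq_zero.mp (pow_eq_zero_iff (by omega) |>.mp h0)).symm
  -- evaluate at `1`
  have h2 : r = ω := by
    have h := hev 1
    rw [mul_one, hevalP, hevalP, sub_self, zero_mul, mul_zero] at h
    rcases mul_eq_zero.mp h with h0 | h0
    · exact absurd (sub_eq_zero.mp h0) hω1
    · exact (sub_eq_zero.mp (pow_eq_zero_iff (by omega) |>.mp h0)).symm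
  -- so `ω = ω⁻¹`, `ω ^ 2 = 1`, `ω = -1`
  have hω2 : ω * ω = 1 := by
    have : ω = ω⁻¹ := h2.symm.trans h1
    calc ω * ω = ω * ω⁻¹ := by rw [← this]
      _ = 1 := mul_inv_cancel₀ hω0
  have hωneg : ω = -1 := by
    have : (ω - 1) * (ω + 1) = 0 := by ring_nf; rw [sq, hω2]; ring
    rcases mul_eq_zero.mp this with h0 | h0
    · exact absurd (sub_eq_zero.mp h0) hω1
    · exact eq_neg_of_add_eq_zero_left h0
  have h2ne : (2 : K) ≠ 0 := by
    intro h20
    apply hω1
    rw [hωneg]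
    have : (1 : K) + 1 = 0 := by rw [one_add_one_eq_two, h20]
    exact (eq_neg_of_add_eq_zero_left this).symm
  -- the polynomial identity `(X + 1) (X - 1) ^ p = (X - 1) (X + 1) ^ p`
  have hr' : r = -1 := h2.trans hωneg
  have hpoly : ((X + C 1) * (X - C 1) ^ p : K[X]) = (X - C 1) * (X + C 1) ^ p := by
    have hL : P.comp (C ω * X) = C ((-1 : K) ^ (p + 1)) * ((X + C 1) * (X - C 1) ^ p) := by
      rw [hP, hr', hωneg]
      simp only [mul_comp, sub_comp, pow_comp, X_comp, C_comp]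
      have e1 : (C (-1 : K) * X - C 1 : K[X]) = -(X + C 1) := by
        simp only [map_neg, map_one]; ring
      have e2 : (C (-1 : K) * X - C (-1) : K[X]) = -(X - C 1) := by
        simp only [map_neg, map_one]; ring
      rw [e1, e2, neg_pow (X - C 1 : K[X]) p, map_pow, map_neg, map_one]
      ring
    have hR : C (ω ^ (p + 1)) * P = C ((-1 : K) ^ (p + 1)) * ((X - C 1) * (X + C 1) ^ p) := by
      rw [hP, hr', hωneg]
      have e3 : (X - C (-1 : K) : K[X]) = X + C 1 := by
        simp only [map_neg, map_one]; ring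
      rw [e3]
    have hc : C ((-1 : K) ^ (p + 1)) ≠ (0 : K[X]) := by
      rw [Ne, C_eq_zero]
      exact pow_ne_zero _ (neg_ne_zero.mpr one_ne_zero)
    exact mul_left_cancel₀ hc (hL.symm.trans (hinv.trans hR))
  obtain ⟨q, rfl⟩ : ∃ q, p = q + 1 := ⟨p - 1, by omega⟩
  have hq : q ≠ 0 := by omega
  have hne : ((X + C 1) * (X - C 1) : K[X]) ≠ 0 :=
    mul_ne_zero (X_add_C_ne_zero 1) (X_sub_C_ne_zero 1)
  have hcancel : ((X - C 1) ^ q : K[X]) = (X + C 1) ^ q := by
    apply mul_left_cancel₀ hne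
    calc (X + C 1) * (X - C 1) * (X - C 1) ^ q = (X + C 1) * (X - C 1) ^ (q + 1) := by ring
      _ = (X - C 1) * (X + C 1) ^ (q + 1) := hpoly
      _ = (X + C 1) * (X - C 1) * (X + C 1) ^ q := by ring
  have hev1 := congrArg (Polynomial.eval (1 : K)) hcancel
  rw [eval_pow, eval_pow, eval_sub, eval_add, eval_X, eval_C, sub_self, zero_pow hq,
    one_add_one_eq_two] at hev1
  exact h2ne (pow_eq_zero_iff hq |>.mp hev1.symm)

/-- Core lemma (b) of node N3: `4` is a nontrivial `(l - 1) / 2`-th root of unity in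
characteristic `l ≥ 5`. -/
theorem exists_omega (l : ℕ) [Fact l.Prime] [CharP K l] (hl : 5 ≤ l) :
    ∃ ω : K, ω ≠ 1 ∧ ω ^ ((l - 1) / 2) = 1 := by
  have hlp : l.Prime := Fact.out
  refine ⟨4, ?_, ?_⟩
  · intro h
    have h3 : ((3 : ℕ) : K) = 0 := by
      have : (4 : K) - 1 = 0 := sub_eq_zero.mpr h
      norm_num at this
      exact_mod_cast this
    have := (CharP.cast_eq_zero_iff K l 3).mp h3
    have := Nat.le_of_dvd (by norm_num) this
    omega
  · have h2 : ((2 : ZMod l) ^ (l - 1)) = 1 := by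
      apply ZMod.pow_card_sub_one_eq_one
      intro h
      have h2' : ((2 : ℕ) : ZMod l) = 0 := by exact_mod_cast h
      have := (ZMod.natCast_eq_zero_iff 2 l).mp h2'
      have := Nat.le_of_dvd (by norm_num) this
      omega
    have h2K : ((2 : K) ^ (l - 1)) = 1 := by
      have := congrArg (ZMod.castHom (dvd_refl l) K) h2
      rw [map_pow, map_one, map_ofNat] at this
      exact this
    have hodd : l - 1 = 2 * ((l - 1) / 2) := by
      have : l % 2 = 1 := by
        rcases hlp.eq_two_or_odd with h | h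
        · omega
        · exact h
      omega
    have h4 : (4 : K) = 2 ^ 2 := by norm_num
    rw [h4, ← pow_mul, ← hodd, h2K]

/-- The coefficient of `X` in `X (X + 1) ^ p` is `1`. -/
theorem coeff_one_X_mul_X_add_one_pow (p : ℕ) :
    ((X - C (0 : K)) * (X - C (-1 : K)) ^ p : K[X]).coeff 1 = 1 := by
  have h : ((X - C (0 : K)) * (X - C (-1 : K)) ^ p : K[X]) = X * (X + 1) ^ p := by
    simp
  rw [h, coeff_X_mul, ← C_1, coeff_X_add_C_pow]
  simp

end Field

section Descent

variable {A B L : Type*} [CommRing A] [CommRing B] [CommRing L]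

/-- Extraction of one coefficient from a Vieta-type sum. -/
theorem coeff_vieta_sum (n : ℕ) (t : ℕ → A) (j : ℕ) (hj : j ≤ n) :
    (∑ i ∈ Finset.range (n + 1), (-1 : A[X]) ^ i * C (t i) * X ^ (n - i)).coeff (n - j) =
      (-1) ^ j * t j := by
  rw [finsetSum_coeff]
  rw [Finset.sum_eq_single j]
  · have : ((-1 : A[X]) ^ j * C (t j)) = C ((-1) ^ j * t j) := by
      simp
    rw [this, coeff_C_mul, coeff_X_pow, if_pos rfl, mul_one]
  · intro i hi hij
    have hi' : i ≤ n := Nat.lt_succ_iff.mp (Finset.mem_range.mp hi)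
    have : ((-1 : A[X]) ^ i * C (t i)) = C ((-1) ^ i * t i) := by
      simp
    rw [this, coeff_C_mul, coeff_X_pow, if_neg (by omega), mul_zero]
  · intro hj'
    exact absurd (Finset.mem_range.mpr (Nat.lt_succ_iff.mpr hj)) hj'

/-- Core lemma (c) of node N3 (descent of the symmetric functions): if a polynomial `Q'` over
`A⟦Y⟧` becomes, under `ι : A → B`, a Vieta sum with coefficients `expand p (g j)`, and under
`φ : A → L` a polynomial `Q₀` with constant coefficients, then each `g j` lifts to `A⟦Y⟧` with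
reduction the constant `(-1) ^ j * Q₀.coeff (n - j)`. -/
theorem descent_coeff (ι : A →+* B) (φ : A →+* L) (n : ℕ) (Q' : (PowerSeries A)[X]) (Q₀ : L[X])
    (hQ₀ : Q'.map (PowerSeries.map φ) = Q₀.map (PowerSeries.C (R := L)))
    (p : ℕ) (hp : p ≠ 0) (g : ℕ → PowerSeries B)
    (hid : Q'.map (PowerSeries.map ι) =
      ∑ j ∈ Finset.range (n + 1),
        (-1 : (PowerSeries B)[X]) ^ j * C (PowerSeries.expand p hp (g j)) * X ^ (n - j))
    (j : ℕ) (hj : j ≤ n) :
    ∃ g' : PowerSeries A, PowerSeries.map ι g' = g j ∧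
      PowerSeries.map φ g' = PowerSeries.C ((-1) ^ j * Q₀.coeff (n - j)) := by
  set h' : PowerSeries A := (-1) ^ j * Q'.coeff (n - j) with hh'
  have h1 : PowerSeries.map ι h' = PowerSeries.expand p hp (g j) := by
    have hc : (Q'.map (PowerSeries.map ι)).coeff (n - j) = _ :=
      congrArg (fun Q : (PowerSeries B)[X] => Q.coeff (n - j)) hid
    rw [coeff_vieta_sum n _ j hj, coeff_map] at hc
    rw [hh', map_mul, map_pow, map_neg, map_one, hc, ← mul_assoc, ← mul_pow]
    simp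
  have h2 : PowerSeries.map φ h' = PowerSeries.C ((-1) ^ j * Q₀.coeff (n - j)) := by
    have hc : (Q'.map (PowerSeries.map φ)).coeff (n - j) = _ :=
      congrArg (fun Q : (PowerSeries L)[X] => Q.coeff (n - j)) hQ₀
    rw [coeff_map, coeff_map] at hc
    rw [hh', map_mul, map_pow, map_neg, map_one, hc]
    simp
  refine ⟨PowerSeries.mk fun i => PowerSeries.coeff (p * i) h', ?_, ?_⟩
  · ext i
    rw [PowerSeries.coeff_map, PowerSeries.coeff_mk, ← PowerSeries.coeff_map, h1,
      PowerSeries.coeff_expand_mul]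
  · ext i
    rw [PowerSeries.coeff_map, PowerSeries.coeff_mk, ← PowerSeries.coeff_map, h2,
      PowerSeries.coeff_C, PowerSeries.coeff_C]
    have hp0 : p * i = 0 ↔ i = 0 := by
      constructor
      · intro h
        rcases Nat.mul_eq_zero.mp h with h | h
        · exact absurd h hp
        · exact h
      · intro h
        rw [h, mul_zero]
    simp only [hp0]

end Descent

section Main

open PowerSeries in
/-- Lifting a complex power series with coefficients in a subring `S`, with prescribed constant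
reduction under `φ : S →+* L`. -/
theorem exists_lift_const {L : Type*} [CommRing L] (S : Subring ℂ) (φ : S →+* L)
    (f : PowerSeries ℂ) (γ : L)
    (h0 : ∃ h : PowerSeries.coeff 0 f ∈ S, φ ⟨_, h⟩ = γ)
    (hn : ∀ n, n ≠ 0 → ∃ h : PowerSeries.coeff n f ∈ S, φ ⟨_, h⟩ = 0) :
    ∃ f' : PowerSeries S, PowerSeries.map S.subtype f' = f ∧
      PowerSeries.map φ f' = PowerSeries.C γ := by
  have hmem : ∀ n, PowerSeries.coeff n f ∈ S := by
    intro n
    by_cases hn0 : n = 0
    · subst hn0; exact h0.1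
    · exact (hn n hn0).1
  refine ⟨PowerSeries.mk fun n => ⟨PowerSeries.coeff n f, hmem n⟩, ?_, ?_⟩
  · ext n
    rw [PowerSeries.coeff_map, PowerSeries.coeff_mk]
    rfl
  · ext n
    rw [PowerSeries.coeff_map, PowerSeries.coeff_mk, PowerSeries.coeff_C]
    by_cases hn0 : n = 0
    · subst hn0
      rw [if_pos rfl]
      exact h0.2
    · rw [if_neg hn0]
      exact (hn n hn0).2

/-- The generic descent statement of node N3: the symmetric functions `g j` of the `p + 1`
conjugates `cInf, cB 0, …, cB (p - 1)` have coefficients in `S`, and reduce under `φ` to the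
constants `(-1) ^ j * coeff_{p + 1 - j} ((X - γInf) (X - γB) ^ p)`. -/
theorem core_main {L : Type*} [CommRing L] (p : ℕ) (hp0 : p ≠ 0) (S : Subring ℂ) (φ : S →+* L)
    (cInf : PowerSeries ℂ) (cB : ℕ → PowerSeries ℂ) (γInf γB : L)
    (hInf0 : ∃ h : PowerSeries.coeff 0 cInf ∈ S, φ ⟨_, h⟩ = γInf)
    (hInfn : ∀ n, n ≠ 0 → ∃ h : PowerSeries.coeff n cInf ∈ S, φ ⟨_, h⟩ = 0)
    (hB0 : ∀ b < p, ∃ h : PowerSeries.coeff 0 (cB b) ∈ S, φ ⟨_, h⟩ = γB)
    (hBn : ∀ b < p, ∀ n, n ≠ 0 → ∃ h : PowerSeries.coeff n (cB b) ∈ S, φ ⟨_, h⟩ = 0)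
    (g : ℕ → PowerSeries ℂ)
    (hid : (X - C cInf) * ∏ b ∈ Finset.range p, (X - C (cB b)) =
      ∑ j ∈ Finset.range (p + 2),
        (-1 : (PowerSeries ℂ)[X]) ^ j * C (PowerSeries.expand p hp0 (g j)) * X ^ (p + 1 - j))
    (j : ℕ) (hj : j ≤ p + 1) :
    ∃ g' : PowerSeries S, PowerSeries.map S.subtype g' = g j ∧
      PowerSeries.map φ g' =
        PowerSeries.C ((-1) ^ j * ((X - C γInf) * (X - C γB) ^ p : L[X]).coeff (p + 1 - j)) := by
  obtain ⟨cInf', hInf1, hInf2⟩ := exists_lift_const S φ cInf γInf hInf0 hInfn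
  have hBex : ∀ b, ∃ f' : PowerSeries S, b < p →
      (PowerSeries.map S.subtype f' = cB b ∧ PowerSeries.map φ f' = PowerSeries.C γB) := by
    intro b
    by_cases hb : b < p
    · obtain ⟨f', h1, h2⟩ := exists_lift_const S φ (cB b) γB (hB0 b hb) (hBn b hb)
      exact ⟨f', fun _ => ⟨h1, h2⟩⟩
    · exact ⟨0, fun h => absurd h hb⟩
  choose cB' hcB' using hBex
  set Q' : (PowerSeries S)[X] := (X - C cInf') * ∏ b ∈ Finset.range p, (X - C (cB' b)) with hQ'
  have hmapι : Q'.map (PowerSeries.map S.subtype) =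
      (X - C cInf) * ∏ b ∈ Finset.range p, (X - C (cB b)) := by
    rw [hQ', Polynomial.map_mul, Polynomial.map_prod, Polynomial.map_sub, Polynomial.map_X,
      Polynomial.map_C, hInf1]
    congr 1
    apply Finset.prod_congr rfl
    intro b hb
    rw [Polynomial.map_sub, Polynomial.map_X, Polynomial.map_C,
      (hcB' b (Finset.mem_range.mp hb)).1]
  have hmapφ : Q'.map (PowerSeries.map φ) =
      ((X - C γInf) * (X - C γB) ^ p : L[X]).map (PowerSeries.C (R := L)) := by
    rw [hQ', Polynomial.map_mul, Polynomial.map_prod, Polynomial.map_sub, Polynomial.map_X,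
      Polynomial.map_C, hInf2, Polynomial.map_mul, Polynomial.map_pow, Polynomial.map_sub,
      Polynomial.map_X, Polynomial.map_C, Polynomial.map_sub, Polynomial.map_X, Polynomial.map_C]
    congr 1
    have hconst : ∀ b ∈ Finset.range p,
        Polynomial.map (PowerSeries.map φ) (X - C (cB' b)) = X - C (PowerSeries.C γB) := by
      intro b hb
      rw [Polynomial.map_sub, Polynomial.map_X, Polynomial.map_C,
        (hcB' b (Finset.mem_range.mp hb)).2]
    rw [Finset.prod_congr rfl hconst, Finset.prod_const, Finset.card_range]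
  have hid' : Q'.map (PowerSeries.map S.subtype) =
      ∑ j ∈ Finset.range (p + 1 + 1),
        (-1 : (PowerSeries ℂ)[X]) ^ j * C (PowerSeries.expand p hp0 (g j)) * X ^ (p + 1 - j) := by
    rw [hmapι, hid]
  exact descent_coeff S.subtype φ (p + 1) Q' _ hmapφ p hp0 g hid' j hj

/-- Case `l ≠ p` of node N3, abstract form: reductions `1` (cusp `∞`) and `r` (cusp `0`), level-one
weight theorem `hN2` for the symmetric functions. -/
theorem caseA {K : Type*} [Field K] (l p : ℕ) [Fact l.Prime] [CharP K l] (hl : 5 ≤ l)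
    (hp : 2 ≤ p) (S : Subring ℂ) (φ : S →+* K)
    (cInf : PowerSeries ℂ) (cB : ℕ → PowerSeries ℂ) (r : K)
    (hInf0 : ∃ h : PowerSeries.coeff 0 cInf ∈ S, φ ⟨_, h⟩ = 1)
    (hInfn : ∀ n, n ≠ 0 → ∃ h : PowerSeries.coeff n cInf ∈ S, φ ⟨_, h⟩ = 0)
    (hB0 : ∀ b < p, ∃ h : PowerSeries.coeff 0 (cB b) ∈ S, φ ⟨_, h⟩ = r)
    (hBn : ∀ b < p, ∀ n, n ≠ 0 → ∃ h : PowerSeries.coeff n (cB b) ∈ S, φ ⟨_, h⟩ = 0)
    (g : ℕ → PowerSeries ℂ)
    (hid : (X - C cInf) * ∏ b ∈ Finset.range p, (X - C (cB b)) =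
      ∑ j ∈ Finset.range (p + 2),
        (-1 : (PowerSeries ℂ)[X]) ^ j * C (PowerSeries.expand p (by omega) (g j)) *
          X ^ (p + 1 - j))
    (hN2 : ∀ j ≤ p + 1, ∀ g' : PowerSeries S, PowerSeries.map S.subtype g' = g j →
      ∀ c : K, c ≠ 0 → PowerSeries.map φ g' = PowerSeries.C c → (l - 1) ∣ 2 * j) :
    False := by
  obtain ⟨ω, hω1, hωm⟩ := exists_omega (K := K) l hl
  have hlp : l.Prime := Fact.out
  have hodd : l - 1 = 2 * ((l - 1) / 2) := by
    have : l % 2 = 1 := by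
      rcases hlp.eq_two_or_odd with h | h
      · omega
      · exact h
    omega
  have hm0 : (l - 1) / 2 ≠ 0 := by omega
  refine no_twisted_invariance (K := K) p ((l - 1) / 2) hp hm0 r ω hω1 hωm ?_
  intro j hj hne
  obtain ⟨g', hg1, hg2⟩ := core_main p (by omega) S φ cInf cB 1 r hInf0 hInfn hB0 hBn g hid j hj
  have hc : ((-1 : K) ^ j * ((X - C 1) * (X - C r) ^ p : K[X]).coeff (p + 1 - j)) ≠ 0 :=
    mul_ne_zero (pow_ne_zero _ (neg_ne_zero.mpr one_ne_zero)) hne
  have hdvd := hN2 j hj g' hg1 _ hc hg2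
  rw [hodd] at hdvd
  exact Nat.dvd_of_mul_dvd_mul_left (by norm_num) hdvd

/-- Case `l = p` of node N3, abstract form (applied to the form `p • u`): reductions `0`
(cusp `∞`) and `-1` (cusp `0`); conclusion `(l - 1) ∣ 2 p`. -/
theorem caseB {K : Type*} [Field K] (l p : ℕ) (hp0 : p ≠ 0) (S : Subring ℂ) (φ : S →+* K)
    (cInf : PowerSeries ℂ) (cB : ℕ → PowerSeries ℂ)
    (hInf0 : ∃ h : PowerSeries.coeff 0 cInf ∈ S, φ ⟨_, h⟩ = 0)
    (hInfn : ∀ n, n ≠ 0 → ∃ h : PowerSeries.coeff n cInf ∈ S, φ ⟨_, h⟩ = 0)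
    (hB0 : ∀ b < p, ∃ h : PowerSeries.coeff 0 (cB b) ∈ S, φ ⟨_, h⟩ = -1)
    (hBn : ∀ b < p, ∀ n, n ≠ 0 → ∃ h : PowerSeries.coeff n (cB b) ∈ S, φ ⟨_, h⟩ = 0)
    (g : ℕ → PowerSeries ℂ)
    (hid : (X - C cInf) * ∏ b ∈ Finset.range p, (X - C (cB b)) =
      ∑ j ∈ Finset.range (p + 2),
        (-1 : (PowerSeries ℂ)[X]) ^ j * C (PowerSeries.expand p hp0 (g j)) * X ^ (p + 1 - j))
    (hN2 : ∀ g' : PowerSeries S, PowerSeries.map S.subtype g' = g p →
      ∀ c : K, c ≠ 0 → PowerSeries.map φ g' = PowerSeries.C c → (l - 1) ∣ 2 * p) :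
    (l - 1) ∣ 2 * p := by
  obtain ⟨g', hg1, hg2⟩ :=
    core_main p hp0 S φ cInf cB 0 (-1) hInf0 hInfn hB0 hBn g hid p (by omega)
  have h1 : p + 1 - p = 1 := by omega
  rw [h1, coeff_one_X_mul_X_add_one_pow, mul_one] at hg2
  exact hN2 g' hg1 _ (pow_ne_zero _ (neg_ne_zero.mpr one_ne_zero)) hg2

/-- `(p - 1) ∣ 2 p` is impossible for `p ≥ 5`. -/
theorem not_pred_dvd_two_mul (p : ℕ) (hp : 5 ≤ p) : ¬ (p - 1) ∣ 2 * p := by
  intro h
  have h2 : (p - 1) ∣ 2 * (p - 1) := Dvd.intro_left 2 rfl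
  have h3 : (p - 1) ∣ 2 * p - 2 * (p - 1) := Nat.dvd_sub h h2
  have h4 : 2 * p - 2 * (p - 1) = 2 := by omega
  rw [h4] at h3
  have := Nat.le_of_dvd (by norm_num) h3
  omega

end Main

end Fermat.Agent.Eis.N3
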