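import Fermat.Agent.Eis.Defs
import Fermat.Agent.Eis.UpperArith

/-!
# Program E (S16): assembly of the upper bound `Upper p`

`upper_of`: from the BRIDGE (`CongCusp p (l^a)` + numerics ⇒ `UnitCong p l e`) and the five
non-existence statements `¬ UnitCong p l e` (nodes N3–N6) deduce
`Upper p : ∀ M ≥ 1, CongCusp p M → M ∣ eisensteinNumerator p`
by prime-power decomposition of `M`.
-/

set_option autoImplicit false

namespace Fermat.Agent.Eis.UpperMain

open ModularCurve CongruenceSubgroup ModularFormClass
open Fermat.Agent.Eis.UpperArith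

/-- `CongCusp` is monotone in the modulus. -/
theorem congCusp_of_dvd {p M M' : ℕ} (h : M' ∣ M) (hM : CongCusp p M) : CongCusp p M' := by
  obtain ⟨f, hf⟩ := hM
  refine ⟨f, fun k hk => ?_⟩
  obtain ⟨a, ha, hdiv⟩ := hf k hk
  exact ⟨a, ha, (Int.natCast_dvd_natCast.mpr h).trans hdiv⟩

/-- **Assembly of the upper bound** (hypothesis form: bridge + the five non-existence
statements). -/
theorem upper_of (p : ℕ) [Fact p.Prime] (hp5 : 5 ≤ p)
    (hbridge : ∀ (l a e : ℕ), l.Prime → 1 ≤ a →
      (e : ℤ) ≤ (a : ℤ) + (padicValNat l 24 : ℤ) - (padicValNat l (p - 1) : ℤ) →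
      CongCusp p (l ^ a) → UnitCong p l e)
    (h3 : ∀ l : ℕ, l.Prime → 5 ≤ l → ¬ UnitCong p l 1)
    (h4a : p % 3 = 1 → ¬ UnitCong p 3 1)
    (h4b : p % 3 = 2 → ¬ UnitCong p 3 2)
    (h5a : p % 4 = 1 → ¬ UnitCong p 2 2)
    (h5b : p % 8 = 3 → ¬ UnitCong p 2 3)
    (h6 : p % 8 = 7 → ¬ UnitCong p 2 3) : Upper p := by
  have hpp : p.Prime := Fact.out
  intro M hM hcong
  rw [Nat.dvd_iff_prime_pow_dvd_dvd]
  intro l a hl hla
  rcases Nat.eq_zero_or_pos a with rfl | ha
  · simp
  by_contra hnot
  haveI : Fact l.Prime := ⟨hl⟩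
  have hnum := eExp_add_le p l a hp5 hnot
  have hle : ((eExp p l : ℕ) : ℤ) ≤
      (a : ℤ) + (padicValNat l 24 : ℤ) - (padicValNat l (p - 1) : ℤ) := by
    omega
  have hunit : UnitCong p l (eExp p l) :=
    hbridge l a (eExp p l) hl ha hle (congCusp_of_dvd hla hcong)
  -- case analysis on `l`
  by_cases h2 : l = 2
  · subst h2
    have hodd : p % 2 = 1 := by
      rcases hpp.eq_two_or_odd with h | h
      · omega
      · exact h
    by_cases h41 : p % 4 = 1
    · rw [eExp_two_of_one_mod_four h41] at hunit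
      exact h5a h41 hunit
    · have h43 : p % 4 = 3 := by omega
      rw [eExp_two_of_three_mod_four h43] at hunit
      have h8 : p % 8 = 3 ∨ p % 8 = 7 := by omega
      rcases h8 with h8 | h8
      · exact h5b h8 hunit
      · exact h6 h8 hunit
  · by_cases h3' : l = 3
    · subst h3'
      have hp3 : p % 3 ≠ 0 := by
        intro h0
        have hdvd : 3 ∣ p := Nat.dvd_of_mod_eq_zero h0
        have := (Nat.prime_dvd_prime_iff_eq Nat.prime_three hpp).mp hdvd
        omega
      by_cases h31 : p % 3 = 1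
      · rw [eExp_three_of_one_mod_three h31] at hunit
        exact h4a h31 hunit
      · have h32 : p % 3 = 2 := by omega
        rw [eExp_three_of_two_mod_three h32] at hunit
        exact h4b h32 hunit
    · have h5l : 5 ≤ l := by
        have h2l := hl.two_le
        rcases Nat.lt_or_ge l 5 with hlt | hge
        · have : l = 4 := by omega
          subst this
          exact absurd hl (by decide)
        · exact hge
      rw [eExp_of_five_le h5l] at hunit
      exact h3 l hl h5l hunit

end Fermat.Agent.Eis.UpperMain
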