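import Fermat.Agent.Eis.UpperSelf
import Fermat.Agent.Eis.L1ModMain

/-!
# Program E (S16), node N3, case `l = p`, final form

`¬ UnitCong p p 1` for every prime `p ≥ 5`: plug of the level one theorem
`L1.dvd_weight_of_const_mod` (N2) into `UpperSelf.not_unitCong_self_of`.
-/

set_option autoImplicit false

namespace Fermat.Agent.Eis.UpperSelf

/-- **N3, case `l = p`**: there is no weight two form on `Γ₀(p)` congruent to `1` modulo `p`. -/
theorem not_unitCong_self (p : ℕ) [Fact p.Prime] (hp : 5 ≤ p) : ¬ UnitCong p p 1 :=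
  not_unitCong_self_of p hp fun S hS K _ φ hφ k F f hf c hc hfc =>
    L1.dvd_weight_of_const_mod p hp S hS φ hφ k F f hf c hc hfc

end Fermat.Agent.Eis.UpperSelf
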