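import Mathlib
import Fermat.Agent.Eis.Defs
import Fermat.Agent.Eis.ConjCong
import Fermat.Agent.Eis.ConjSymFinal
import Fermat.Agent.Eis.UpperGe5Core
import Fermat.Agent.Eis.UpperSelfFinal
import Fermat.Agent.Eis.L1ModMain

/-!
# Program E (S16), node N3: no `u ∈ M₂(Γ₀(p))` with `u ≡ 1 mod l` for primes `l, p ≥ 5`

Plug of the abstract core `N3.caseA` (case `l ≠ p`) into the conjugates package, the congruences
of the conjugates and the level one theorem `L1.dvd_weight_of_const_mod`; the case `l = p` is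
`UpperSelf.not_unitCong_self`.
-/

set_option autoImplicit false

namespace Fermat.Agent.Eis.UpperNe

open Polynomial CongruenceSubgroup ModularFormClass UpperHalfPlane
open scoped MatrixGroups

/-- Reduction data of a power series congruent to a constant modulo `l`. -/
theorem reduction_of_cong {l : ℕ} [Fact l.Prime] {K : Type*} [CommRing K]
    (φ : IntAt l →+* K) (hφ : φ ((l : ℕ) : IntAt l) = 0) (F H : PowerSeries ℂ) (a : ℂ)
    (ha : a ∈ IntAt l) (hH : H ∈ psSub (IntAt l))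
    (h : F - PowerSeries.C a = PowerSeries.C ((l : ℂ) ^ 1) * H) :
    (∃ h0 : PowerSeries.coeff 0 F ∈ IntAt l, φ ⟨_, h0⟩ = φ ⟨a, ha⟩) ∧
      ∀ n, n ≠ 0 → ∃ hn : PowerSeries.coeff n F ∈ IntAt l, φ ⟨_, hn⟩ = 0 := by
  have hlO : (l : ℂ) ∈ IntAt l := natCast_mem (IntAt l) l
  have hF : F = PowerSeries.C a + PowerSeries.C ((l : ℂ) ^ 1) * H := by rw [← h]; ring
  have hc : ∀ n, PowerSeries.coeff n F =
      (if n = 0 then a else 0) + (l : ℂ) * PowerSeries.coeff n H := by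
    intro n
    rw [hF, map_add, PowerSeries.coeff_C, PowerSeries.coeff_C_mul, pow_one]
  have hsub : ∀ n, ∀ hn : PowerSeries.coeff n F ∈ IntAt l,
      (⟨_, hn⟩ : IntAt l) = (if n = 0 then ⟨a, ha⟩ else 0) +
        ((l : ℕ) : IntAt l) * ⟨PowerSeries.coeff n H, hH n⟩ := by
    intro n hn
    apply Subtype.ext
    simp only [Subring.coe_add, Subring.coe_mul, Subring.coe_natCast]
    rw [hc n]
    split_ifs <;> simp
  have hmem : ∀ n, PowerSeries.coeff n F ∈ IntAt l := by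
    intro n
    rw [hc n]
    refine (IntAt l).add_mem ?_ ((IntAt l).mul_mem hlO (hH n))
    split_ifs
    · exact ha
    · exact (IntAt l).zero_mem
  refine ⟨⟨hmem 0, ?_⟩, fun n hn => ⟨hmem n, ?_⟩⟩
  · rw [hsub 0 (hmem 0), map_add, map_mul, hφ, zero_mul, add_zero, if_pos rfl]
  · rw [hsub n (hmem n), map_add, map_mul, hφ, zero_mul, add_zero, if_neg hn, map_zero]

/-- **N3, case `l ≠ p`.** -/
theorem not_unitCong_ne (p l : ℕ) [hp : Fact p.Prime] [hl : Fact l.Prime] (hp5 : 5 ≤ p)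
    (hl5 : 5 ≤ l) (hlp : l ≠ p) : ¬ UnitCong p l 1 := by
  rintro ⟨u, hu⟩
  have hu' : IsUnitCong l 1 (⇑u) := hu
  have hp0 : p ≠ 0 := hp.out.ne_zero
  have hldvd : ¬ l ∣ p := by
    intro h
    rcases (Nat.dvd_prime hp.out).1 h with h1 | h1
    · exact hl.out.one_lt.ne' h1
    · exact hlp h1
  obtain ⟨ut, S, hut, -, -, hprod⟩ := ConjSym.conjPackage p hp0 u
  -- the residue field
  obtain ⟨m, hm, hlm⟩ := UpperSelf.exists_maximal_IntAt l
  let _ : Field (IntAt l ⧸ m) := Ideal.Quotient.field m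
  let φ : IntAt l →+* (IntAt l ⧸ m) := Ideal.Quotient.mk m
  have hφ : φ ((l : ℕ) : IntAt l) = 0 := Ideal.Quotient.eq_zero_iff_mem.mpr hlm
  haveI : CharP (IntAt l ⧸ m) l := by
    rw [CharP.charP_iff_prime_eq_zero hl.out]
    have := hφ
    rw [map_natCast] at this
    exact this
  -- congruences of the conjugates
  obtain ⟨Hinf, hHinf, hinf⟩ := conjInf_cong 1 p hp0 (⇑u) hu'
  have hone : (1 : ℂ) ∈ IntAt l := (IntAt l).one_mem
  have hinf' : conjInf p hp0 ⇑u - PowerSeries.C (1 : ℂ) = PowerSeries.C ((l : ℂ) ^ 1) * Hinf := by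
    rw [map_one]; exact hinf
  obtain ⟨hI0, hIn⟩ := reduction_of_cong φ hφ _ Hinf 1 hone hHinf hinf'
  have hpinv : (-(1 / (p : ℂ))) ∈ IntAt l := by
    rw [one_div]; exact (IntAt l).neg_mem (inv_natCast_mem_IntAt hldvd)
  have hfin : ∀ b, (∃ h0 : PowerSeries.coeff 0 (conjFin p (⇑ut) b) ∈ IntAt l,
        φ ⟨_, h0⟩ = φ ⟨-(1 / (p : ℂ)), hpinv⟩) ∧
      ∀ n, n ≠ 0 → ∃ hn : PowerSeries.coeff n (conjFin p (⇑ut) b) ∈ IntAt l, φ ⟨_, hn⟩ = 0 := by
    intro b
    obtain ⟨H, hH, hb⟩ := conjFin_cong 1 p hp0 hldvd (⇑u) (⇑ut) hu' hut b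
    exact reduction_of_cong φ hφ _ H _ hpinv hH hb
  have hone' : φ ⟨1, hone⟩ = 1 := by
    have : (⟨1, hone⟩ : IntAt l) = 1 := rfl
    rw [this, map_one]
  refine N3.caseA (K := IntAt l ⧸ m) l p hl5 (by omega) (IntAt l) φ (conjInf p hp0 ⇑u)
    (fun b => conjFin p (⇑ut) b) (φ ⟨-(1 / (p : ℂ)), hpinv⟩)
    (by obtain ⟨h0, h1⟩ := hI0; exact ⟨h0, h1.trans hone'⟩) hIn
    (fun b _ => (hfin b).1) (fun b _ => (hfin b).2)
    (fun j => qExpansion 1 (S j)) hprod ?_
  -- the level one theorem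
  intro j _ g' hg' c hc hgc
  have hwt : (2 : ℤ) * (j : ℤ) = ((2 * j : ℕ) : ℤ) := by push_cast; ring
  let F : ModularForm 𝒮ℒ ((2 * j : ℕ) : ℤ) := ModularForm.mcast hwt (S j)
  have hF : qExpansion 1 F = qExpansion 1 (S j) := rfl
  exact L1.dvd_weight_of_const_mod l hl5 (IntAt l) (fun N hN => inv_natCast_mem_IntAt hN) φ hφ
    (2 * j) F g' (hg'.trans hF.symm) c hc hgc

/-- **Node N3**: for primes `p, l ≥ 5` (`l = p` allowed) there is no weight two form on `Γ₀(p)`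
with rational `q`-expansion congruent to `1` modulo `l`. -/
theorem not_unitCong_ge_five (p l : ℕ) [Fact p.Prime] [Fact l.Prime] (hp5 : 5 ≤ p) (hl5 : 5 ≤ l) :
    ¬ UnitCong p l 1 := by
  by_cases h : l = p
  · subst h
    exact UpperSelf.not_unitCong_self l hp5
  · exact not_unitCong_ne p l hp5 hl5 h

end Fermat.Agent.Eis.UpperNe
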