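import Fermat.Agent.Eis.Defs

/-!
# Program E (S16), node UPPER (b): the arithmetic of the upper bound

Pure arithmetic and monotonicity, no modular forms inside:

* `congCusp_of_dvd` : `M' ∣ M → CongCusp p M → CongCusp p M'`;
* `unitCong_mono` : `e' ≤ e → UnitCong p l e → UnitCong p l e'`;
* `upper_of` : `Upper p` from the bridge (`CongCusp p (l ^ a) → UnitCong p l e` for
  `e ≤ a + v_l(24) - v_l(p - 1)`) and the five non-existence statements `¬ UnitCong p l e`
  (nodes N3, N4, N5, N6), by prime-power decomposition of the modulus `M`: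
  with `n = (p - 1) / gcd (p - 1) 12`, `l ^ a ∤ n` forces the exponent `e` of the bridge to be
  `≥ 1` (`l ≥ 5`), `≥ 1` resp. `2` (`l = 3`, `p ≡ 1` resp. `2 mod 3`), `≥ 2` resp. `3`
  (`l = 2`, `p ≡ 1` resp. `3 mod 4`).
-/

set_option autoImplicit false

open ModularCurve

namespace Fermat.Agent.Eis.UpperOf

open Fermat.Agent.Eis

/-- `CongCusp` is inherited by divisors of the modulus. -/
theorem congCusp_of_dvd {p M M' : ℕ} (h : M' ∣ M) (hM : CongCusp p M) : CongCusp p M' := by
  obtain ⟨f, hf⟩ := hM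
  refine ⟨f, fun k hk => ?_⟩
  obtain ⟨a, ha, hdvd⟩ := hf k hk
  exact ⟨a, ha, (Int.natCast_dvd_natCast.mpr h).trans hdvd⟩

/-- `UnitCong` is monotone in the exponent. -/
theorem unitCong_mono {p l e e' : ℕ} (h : e' ≤ e) (hu : UnitCong p l e) : UnitCong p l e' := by
  obtain ⟨u, hu0, hu⟩ := hu
  refine ⟨u, hu0, fun k hk => ?_⟩
  obtain ⟨r, hr, hval⟩ := hu k hk
  refine ⟨r, hr, hval.imp id fun hv => le_trans ?_ hv⟩
  exact_mod_cast h

/-- Computing a `p`-adic valuation from two divisibility facts. -/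
theorem padicValNat_eq_of {l n k : ℕ} [Fact l.Prime] (hn : n ≠ 0) (h1 : l ^ k ∣ n)
    (h2 : ¬ l ^ (k + 1) ∣ n) : padicValNat l n = k := by
  have h1' := (padicValNat_dvd_iff_le hn).mp h1
  have h2' : ¬ k + 1 ≤ padicValNat l n := fun h => h2 ((padicValNat_dvd_iff_le hn).mpr h)
  omega

/-- The valuation of `n = (p - 1) / gcd (p - 1) 12`. -/
theorem padicValNat_eisensteinNumerator {p l : ℕ} [Fact l.Prime] (hp : 2 ≤ p) :
    padicValNat l (eisensteinNumerator p) =
      padicValNat l (p - 1) - min (padicValNat l (p - 1)) (padicValNat l 12) := by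
  have hx : p - 1 ≠ 0 := by omega
  have hl : l.Prime := Fact.out
  rw [eisensteinNumerator, padicValNat.div_of_dvd (Nat.gcd_dvd_left _ _)]
  congr 1
  have h := congrArg (fun f => f l) (Nat.factorization_gcd hx (by norm_num : (12 : ℕ) ≠ 0))
  simp only [Finsupp.inf_apply, Nat.factorization_def _ hl] at h
  exact h

theorem eisensteinNumerator_ne_zero {p : ℕ} (hp : 2 ≤ p) : eisensteinNumerator p ≠ 0 := by
  have h1 : 0 < p - 1 := by omega
  have h2 : Nat.gcd (p - 1) 12 ∣ p - 1 := Nat.gcd_dvd_left _ _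
  have h3 : 0 < Nat.gcd (p - 1) 12 := Nat.gcd_pos_of_pos_left _ h1
  rw [eisensteinNumerator]
  exact (Nat.div_pos (Nat.le_of_dvd h1 h2) h3).ne'

/-- **UPPER (b).** The upper bound from the bridge and the non-existence statements. -/
theorem upper_of (p : ℕ) [Fact p.Prime] (hp5 : 5 ≤ p)
    (hbridge : ∀ (l a e : ℕ), l.Prime → 1 ≤ a →
      (e : ℤ) ≤ a + padicValNat l 24 - padicValNat l (p - 1) →
      CongCusp p (l ^ a) → UnitCong p l e)
    (h3 : ∀ l, l.Prime → 5 ≤ l → ¬ UnitCong p l 1)
    (h4a : p % 3 = 1 → ¬ UnitCong p 3 1) (h4b : p % 3 = 2 → ¬ UnitCong p 3 2)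
    (h5a : p % 4 = 1 → ¬ UnitCong p 2 2) (h5b : p % 8 = 3 → ¬ UnitCong p 2 3)
    (h6 : p % 8 = 7 → ¬ UnitCong p 2 3) : Upper p := by
  have hpp : p.Prime := Fact.out
  intro M hM hCC
  have hn : eisensteinNumerator p ≠ 0 := eisensteinNumerator_ne_zero (by omega)
  rw [← Nat.factorization_prime_le_iff_dvd (by omega) hn]
  intro l hl
  have : Fact l.Prime := ⟨hl⟩
  rw [Nat.factorization_def _ hl, Nat.factorization_def _ hl]
  by_contra hlt
  rw [not_le] at hlt
  rw [padicValNat_eisensteinNumerator (by omega)] at hlt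
  set a := padicValNat l M with ha
  set w := padicValNat l (p - 1) with hw
  have ha1 : 1 ≤ a := by omega
  have hCCa : CongCusp p (l ^ a) := congCusp_of_dvd pow_padicValNat_dvd hCC
  have hx : p - 1 ≠ 0 := by omega
  -- the three cases for `l`
  have hcases : l = 2 ∨ l = 3 ∨ 5 ≤ l := by
    have h2 := hl.two_le
    by_cases h5 : 5 ≤ l
    · exact Or.inr (Or.inr h5)
    · have : l = 2 ∨ l = 3 ∨ l = 4 := by omega
      rcases this with h | h | h
      · exact Or.inl h
      · exact Or.inr (Or.inl h)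
      · subst h; exact absurd hl (by decide)
  rcases hcases with rfl | rfl | h5
  · -- `l = 2`
    have h12 : padicValNat 2 12 = 2 :=
      padicValNat_eq_of (by norm_num) (by norm_num) (by norm_num)
    have h24 : padicValNat 2 24 = 3 :=
      padicValNat_eq_of (by norm_num) (by norm_num) (by norm_num)
    rw [h12] at hlt
    have hodd : p % 2 = 1 := by
      rcases hpp.eq_two_or_odd with h | h
      · omega
      · exact h
    by_cases hp4 : p % 4 = 1
    · -- `4 ∣ p - 1`
      have hw2 : 2 ≤ w := by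
        rw [hw, ← padicValNat_dvd_iff_le hx]
        exact (Nat.dvd_iff_mod_eq_zero).mpr (by omega)
      refine h5a hp4 (hbridge 2 a 2 hl ha1 ?_ hCCa)
      rw [h24, ← hw]
      push_cast
      omega
    · -- `p ≡ 3 mod 4`
      have hw1 : w = 1 := by
        rw [hw]
        refine padicValNat_eq_of hx ?_ ?_
        · exact (Nat.dvd_iff_mod_eq_zero).mpr (by omega)
        · intro h
          have := (Nat.dvd_iff_mod_eq_zero).mp h
          norm_num at this
          omega
      have hU : UnitCong p 2 3 := by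
        refine hbridge 2 a 3 hl ha1 ?_ hCCa
        rw [h24, ← hw, hw1]
        push_cast
        omega
      have h8 : p % 8 = 3 ∨ p % 8 = 7 := by omega
      rcases h8 with h8 | h8
      · exact h5b h8 hU
      · exact h6 h8 hU
  · -- `l = 3`
    have h12 : padicValNat 3 12 = 1 :=
      padicValNat_eq_of (by norm_num) (by norm_num) (by norm_num)
    have h24 : padicValNat 3 24 = 1 :=
      padicValNat_eq_of (by norm_num) (by norm_num) (by norm_num)
    rw [h12] at hlt
    have hp3 : p % 3 = 1 ∨ p % 3 = 2 := by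
      have : p % 3 ≠ 0 := by
        intro h
        have h3p : 3 ∣ p := (Nat.dvd_iff_mod_eq_zero).mpr h
        have := (Nat.prime_dvd_prime_iff_eq Nat.prime_three hpp).mp h3p
        omega
      omega
    rcases hp3 with hp3 | hp3
    · have hw1 : 1 ≤ w := by
        rw [hw]
        exact one_le_padicValNat_of_dvd hx ((Nat.dvd_iff_mod_eq_zero).mpr (by omega))
      refine h4a hp3 (hbridge 3 a 1 hl ha1 ?_ hCCa)
      rw [h24, ← hw]
      push_cast
      omega
    · have hw0 : w = 0 := by
        rw [hw]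
        refine padicValNat.eq_zero_of_not_dvd fun h => ?_
        have := (Nat.dvd_iff_mod_eq_zero).mp h
        omega
      refine h4b hp3 (hbridge 3 a 2 hl ha1 ?_ hCCa)
      rw [h24, ← hw, hw0]
      push_cast
      omega
  · -- `5 ≤ l`
    have hnd : ∀ m : ℕ, m = 12 ∨ m = 24 → ¬ l ∣ m := by
      intro m hm hdvd
      have hl24 : l ∣ 24 := by
        rcases hm with rfl | rfl
        · exact hdvd.trans (by norm_num)
        · exact hdvd
      have hle := Nat.le_of_dvd (by norm_num) hl24
      have h24 : (24 : ℕ) = 2 ^ 3 * 3 := by norm_num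
      rw [h24] at hl24
      rcases (Nat.Prime.dvd_mul hl).mp hl24 with h | h
      · have := (Nat.prime_dvd_prime_iff_eq hl Nat.prime_two).mp (hl.dvd_of_dvd_pow h)
        omega
      · have := (Nat.prime_dvd_prime_iff_eq hl Nat.prime_three).mp h
        omega
    have h12 : padicValNat l 12 = 0 := padicValNat.eq_zero_of_not_dvd (hnd 12 (Or.inl rfl))
    have h24 : padicValNat l 24 = 0 := padicValNat.eq_zero_of_not_dvd (hnd 24 (Or.inr rfl))
    rw [h12] at hlt
    refine h3 l hl h5 (hbridge l a 1 hl ha1 ?_ hCCa)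
    rw [h24, ← hw]
    push_cast
    have : min w 0 = 0 := Nat.min_zero w
    omega

end Fermat.Agent.Eis.UpperOf
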