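import Mathlib
import Fermat.Agent.Eis.Defs
import Fermat.Agent.Eis.ConjCong
import Fermat.Agent.Eis.T2Identity
import Fermat.Agent.Eis.ConjSymFinal

/-!
# Program E (S16), node N3, case `l = p`: there is no `u ∈ M₂(Γ₀(p))` with `u ≡ 1 mod p` (`p ≥ 5`)

If `u ≡ 1 mod p` then `p · c_∞ ≡ 0` and `p · c_b ≡ -1` modulo `p` (coefficients in `IntAt p`), so the
level one form `(-p)^p • S_p` of weight `2p` has `p`-integral `q`-expansion congruent to the constant
`1` modulo `p`.  The level one theorem N2 (`(l - 1) ∣ k`, here a hypothesis `N2Hyp p` in the shape of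
`L1.dvd_weight_of_const_mod`) gives `(p - 1) ∣ 2p`, i.e. `p ≤ 3`.
-/

set_option autoImplicit false

namespace Fermat.Agent.Eis.UpperSelf

open Polynomial CongruenceSubgroup ModularFormClass UpperHalfPlane
open scoped MatrixGroups

section Algebra

variable {R : Type*} [CommRing R]

theorem coeff_zero_prod_X_sub_C {ι : Type*} (s : Finset ι) (x : ι → R) :
    (∏ i ∈ s, (X - C (x i))).coeff 0 = ∏ i ∈ s, (-x i) := by
  rw [Polynomial.coeff_zero_eq_eval_zero, Polynomial.eval_prod]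
  simp

theorem coeff_one_prod_X_sub_C {ι : Type*} [DecidableEq ι] (s : Finset ι) (x : ι → R) :
    (∏ i ∈ s, (X - C (x i))).coeff 1 = ∑ i ∈ s, ∏ j ∈ s.erase i, (-x j) := by
  have h := Polynomial.coeff_derivative (∏ i ∈ s, (X - C (x i))) 0
  rw [Polynomial.derivative_prod_finset] at h
  simp only [derivative_sub, derivative_X, derivative_C, sub_zero, mul_one, zero_add,
    Nat.cast_zero] at h
  rw [← h, Polynomial.finsetSum_coeff]
  exact Finset.sum_congr rfl fun i _ => coeff_zero_prod_X_sub_C _ _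

/-- The coefficient of `X¹` of `(X - a₀) ∏_{b<n} (X - a_b)`. -/
theorem coeff_one_vieta (a0 : R) (a : ℕ → R) (n : ℕ) :
    ((X - C a0) * ∏ b ∈ Finset.range n, (X - C (a b))).coeff 1 =
      ∏ b ∈ Finset.range n, (-a b) +
        (-a0) * ∑ b ∈ Finset.range n, ∏ b' ∈ (Finset.range n).erase b, (-a b') := by
  rw [sub_mul, coeff_sub, show (1 : ℕ) = 0 + 1 from rfl, coeff_X_mul, coeff_C_mul,
    coeff_zero_prod_X_sub_C, coeff_one_prod_X_sub_C]
  ring

/-- Scaling the roots by `c` multiplies the `n`-th symmetric function of `n + 1` roots by `c ^ n`. -/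
theorem scale_vieta (c a0 : R) (a : ℕ → R) (n : ℕ) (hn : 1 ≤ n) :
    c ^ n * (∏ b ∈ Finset.range n, (-a b) +
        (-a0) * ∑ b ∈ Finset.range n, ∏ b' ∈ (Finset.range n).erase b, (-a b')) =
      ∏ b ∈ Finset.range n, (c * -a b) +
        (c * -a0) * ∑ b ∈ Finset.range n, ∏ b' ∈ (Finset.range n).erase b, (c * -a b') := by
  have h1 : ∏ b ∈ Finset.range n, (c * -a b) = c ^ n * ∏ b ∈ Finset.range n, (-a b) := by
    rw [Finset.prod_mul_distrib, Finset.prod_const, Finset.card_range]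
  have h2 : ∀ b ∈ Finset.range n, ∏ b' ∈ (Finset.range n).erase b, (c * -a b') =
      c ^ (n - 1) * ∏ b' ∈ (Finset.range n).erase b, (-a b') := by
    intro b hb
    rw [Finset.prod_mul_distrib, Finset.prod_const, Finset.card_erase_of_mem hb, Finset.card_range]
  rw [h1, Finset.sum_congr rfl h2, ← Finset.mul_sum]
  have h3 : c ^ n = c * c ^ (n - 1) := by
    rw [← pow_succ', Nat.sub_add_cancel hn]
  rw [h3]
  ring

/-- A product of elements `≡ 1 mod c` is `≡ 1 mod c` (congruences with witnesses in a subring). -/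
theorem prod_cong_one (A : Subring R) {c : R} (hc : c ∈ A) {ι : Type*} (s : Finset ι) (x : ι → R)
    (h : ∀ i ∈ s, ∃ H ∈ A, x i - 1 = c * H) : ∃ H ∈ A, ∏ i ∈ s, x i - 1 = c * H := by
  classical
  induction s using Finset.induction_on with
  | empty => exact ⟨0, A.zero_mem, by simp⟩
  | insert a s ha ih =>
    obtain ⟨H1, hH1, h1⟩ := h a (Finset.mem_insert_self _ _)
    obtain ⟨H2, hH2, h2⟩ := ih fun i hi => h i (Finset.mem_insert_of_mem hi)
    refine ⟨H1 * (1 + c * H2) + H2, ?_, ?_⟩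
    · exact A.add_mem (A.mul_mem hH1 (A.add_mem A.one_mem (A.mul_mem hc hH2))) hH2
    · rw [Finset.prod_insert ha]
      have e1 : x a = 1 + c * H1 := by rw [← h1]; ring
      have e2 : ∏ i ∈ s, x i = 1 + c * H2 := by rw [← h2]; ring
      rw [e1, e2]
      ring

theorem mem_of_cong_one (A : Subring R) {c : R} (hc : c ∈ A) {x : R}
    (h : ∃ H ∈ A, x - 1 = c * H) : x ∈ A := by
  obtain ⟨H, hH, h1⟩ := h
  have : x = 1 + c * H := by rw [← h1]; ring
  rw [this]
  exact A.add_mem A.one_mem (A.mul_mem hc hH)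

/-- The scaled `n`-th symmetric function is `≡ 1 mod c` when `c a₀' ≡ 0` and all `c a_b' ≡ 1`. -/
theorem total_cong_one (A : Subring R) {c : R} (hc : c ∈ A) (y0 : R) (hy0 : y0 ∈ A) (y : ℕ → R)
    (n : ℕ) (hy : ∀ b ∈ Finset.range n, ∃ H ∈ A, y b - 1 = c * H) :
    ∃ H ∈ A, (∏ b ∈ Finset.range n, y b +
      (c * y0) * ∑ b ∈ Finset.range n, ∏ b' ∈ (Finset.range n).erase b, y b') - 1 = c * H := by
  obtain ⟨H1, hH1, h1⟩ := prod_cong_one A hc (Finset.range n) y hy
  have hmem : ∑ b ∈ Finset.range n, ∏ b' ∈ (Finset.range n).erase b, y b' ∈ A :=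
    A.sum_mem fun b _ => A.prod_mem fun b' hb' =>
      mem_of_cong_one A hc (hy b' (Finset.mem_of_mem_erase hb'))
  refine ⟨H1 + y0 * ∑ b ∈ Finset.range n, ∏ b' ∈ (Finset.range n).erase b, y b',
    A.add_mem hH1 (A.mul_mem hy0 hmem), ?_⟩
  have e1 : ∏ b ∈ Finset.range n, y b = 1 + c * H1 := by rw [← h1]; ring
  rw [e1]
  ring

end Algebra

/-- The level one theorem N2 (`L1.dvd_weight_of_const_mod`) as a hypothesis. -/
def N2Hyp (l : ℕ) : Prop :=
  ∀ (S : Subring ℂ), (∀ N : ℕ, ¬ l ∣ N → ((N : ℂ))⁻¹ ∈ S) →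
    ∀ (K : Type) [Field K] (φ : S →+* K), φ (l : S) = 0 →
      ∀ (k : ℕ) (F : ModularForm 𝒮ℒ k) (f : PowerSeries S),
        PowerSeries.map S.subtype f = qExpansion 1 F →
          ∀ c : K, c ≠ 0 → PowerSeries.map φ f = PowerSeries.C c → (l - 1) ∣ k

/-- `p` lies in a maximal ideal of `IntAt p`. -/
theorem exists_maximal_IntAt (p : ℕ) [hp : Fact p.Prime] :
    ∃ m : Ideal (IntAt p), m.IsMaximal ∧ ((p : ℕ) : IntAt p) ∈ m := by
  have hne : Ideal.span {((p : ℕ) : IntAt p)} ≠ ⊤ := by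
    rw [Ne, Ideal.span_singleton_eq_top]
    intro hu
    obtain ⟨v, hv⟩ := hu.exists_right_inv
    have h1 : ((p : ℂ)) * (v : ℂ) = 1 := by
      have := congrArg (Subtype.val) hv
      simpa using this
    have hp0 : (p : ℂ) ≠ 0 := by exact_mod_cast hp.out.ne_zero
    have h2 : (v : ℂ) = ((p : ℂ))⁻¹ := by
      field_simp
      rw [mul_comm]
      exact h1
    exact inv_prime_not_mem_IntAt (l := p) (h2 ▸ v.2)
  obtain ⟨m, hm, hle⟩ := Ideal.exists_le_maximal _ hne
  exact ⟨m, hm, hle (Ideal.subset_span rfl)⟩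

/-- `p · (-c_b) ≡ 1 mod p` for the finite conjugates of `u ≡ 1 mod p`. -/
theorem conjFin_self_cong (p : ℕ) [hp : Fact p.Prime] (u ut : ℍ → ℂ) (hu : IsUnitCong p 1 u)
    (hut : ∀ n : ℕ, qCoeff ut n = qCoeff u (p * n)) (b : ℕ) :
    ∃ H ∈ psSub (IntAt p),
      PowerSeries.C (p : ℂ) * -(conjFin p ut b) - 1 = PowerSeries.C (p : ℂ) * H := by
  obtain ⟨h0, hk⟩ := hu
  have hp0 : (p : ℂ) ≠ 0 := by exact_mod_cast hp.out.ne_zero
  have hz : zetaC p ∈ IntAt p := zetaC_mem_IntAt p hp.out.ne_zero p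
  let H0 : PowerSeries ℂ := PowerSeries.mk fun n =>
    if n = 0 then 0 else (qCoeff ut n / (p : ℂ) ^ 1) * zetaC p ^ (b * n)
  refine ⟨H0, ?_, ?_⟩
  · intro n
    simp only [H0, PowerSeries.coeff_mk]
    split_ifs with hn
    · exact (IntAt p).zero_mem
    · have hpn : 1 ≤ p * n := Nat.one_le_iff_ne_zero.2 (Nat.mul_ne_zero hp.out.ne_zero hn)
      obtain ⟨r, hr, hv⟩ := hk (p * n) hpn
      rw [hut n, hr]
      exact (IntAt p).mul_mem (ratCast_div_pow_mem_IntAt 1 hv) ((IntAt p).pow_mem hz _)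
  · ext n
    rw [PowerSeries.coeff_C_mul, map_sub, PowerSeries.coeff_C_mul, map_neg, PowerSeries.coeff_one]
    simp only [conjFin, H0, PowerSeries.coeff_mk]
    by_cases hn : n = 0
    · subst hn
      have : qCoeff ut 0 = 1 := by rw [hut 0, Nat.mul_zero, h0]
      simp [this]
    · simp only [hn, if_false]
      field_simp
      ring

/-- **N3, case `l = p`**, on the level one theorem N2 as a hypothesis. -/
theorem not_unitCong_self_of (p : ℕ) [hp : Fact p.Prime] (hp5 : 5 ≤ p) (hN2 : N2Hyp p) :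
    ¬ UnitCong p p 1 := by
  rintro ⟨u, hu⟩
  have hu' : IsUnitCong p 1 (⇑u) := hu
  have hp0 : p ≠ 0 := hp.out.ne_zero
  have hpC : (p : ℂ) ≠ 0 := by exact_mod_cast hp0
  obtain ⟨ut, S, hut, -, -, hprod⟩ := ConjSym.conjPackage p hp0 u
  have hcO : (p : ℂ) ∈ IntAt p := natCast_mem (IntAt p) p
  have hcA : PowerSeries.C (p : ℂ) ∈ psSub (IntAt p) := C_mem_psSub hcO
  -- the congruences of the conjugates
  obtain ⟨Hinf, hHinf, hinf⟩ := conjInf_cong 1 p hp0 (⇑u) hu'
  have hinfA : -(conjInf p hp0 ⇑u) ∈ psSub (IntAt p) := by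
    have : conjInf p hp0 ⇑u = 1 + PowerSeries.C ((p : ℂ) ^ 1) * Hinf := by rw [← hinf]; ring
    rw [this]
    exact (psSub (IntAt p)).neg_mem ((psSub (IntAt p)).add_mem (psSub (IntAt p)).one_mem
      ((psSub (IntAt p)).mul_mem (C_mem_psSub ((IntAt p).pow_mem hcO 1)) hHinf))
  have hfin : ∀ b ∈ Finset.range p, ∃ H ∈ psSub (IntAt p),
      PowerSeries.C (p : ℂ) * -(conjFin p (⇑ut) b) - 1 = PowerSeries.C (p : ℂ) * H :=
    fun b _ => conjFin_self_cong p (⇑u) (⇑ut) hu' hut b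
  -- the coefficient of `X¹` in the Vieta identity
  have hco := congrArg (fun P : Polynomial (PowerSeries ℂ) => P.coeff 1) hprod
  beta_reduce at hco
  rw [coeff_one_vieta, show p + 2 = (p + 1) + 1 from rfl] at hco
  have hv := TwoEasy.coeff_vieta_sum (R := PowerSeries ℂ) (p + 1)
    (fun j => PowerSeries.expand p hp0 (qExpansion 1 (S j))) p (Nat.le_succ p)
  rw [show p + 1 - p = 1 by omega] at hv
  rw [hv] at hco
  -- scale by `p ^ p`
  have hsc := scale_vieta (PowerSeries.C (p : ℂ)) (conjInf p hp0 ⇑u) (fun b => conjFin p (⇑ut) b) p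
    hp.out.one_le
  rw [hco] at hsc
  obtain ⟨H, hH, htot⟩ := total_cong_one (psSub (IntAt p)) hcA (-(conjInf p hp0 ⇑u)) hinfA
    (fun b => PowerSeries.C (p : ℂ) * -(conjFin p (⇑ut) b)) p hfin
  rw [← hsc] at htot
  -- `htot : C p ^ p * ((-1) ^ p * expand p (qExp S_p)) - 1 = C p * H`
  set G : PowerSeries ℂ := qExpansion 1 (S p) with hG
  set κ : ℂ := (-(p : ℂ)) ^ p with hκ
  have hkey : PowerSeries.C κ * PowerSeries.expand p hp0 G - 1 = PowerSeries.C (p : ℂ) * H := by
    rw [← htot, hκ, map_pow, map_neg, neg_pow]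
    ring
  have hcoeff : ∀ n : ℕ, κ * PowerSeries.coeff n G =
      (p : ℂ) * PowerSeries.coeff (p * n) H + if n = 0 then 1 else 0 := by
    intro n
    have := congrArg (PowerSeries.coeff (p * n)) hkey
    rw [map_sub, PowerSeries.coeff_C_mul, PowerSeries.coeff_C_mul, PowerSeries.coeff_expand_mul,
      PowerSeries.coeff_one] at this
    have hz : (p * n = 0) ↔ n = 0 := by
      constructor
      · intro h
        rcases Nat.mul_eq_zero.mp h with h | h
        · exact absurd h hp0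
        · exact h
      · rintro rfl; simp
    simp only [hz] at this
    rw [← this]
    ring
  -- the residue field
  obtain ⟨m, hm, hpm⟩ := exists_maximal_IntAt p
  let _ : Field (IntAt p ⧸ m) := Ideal.Quotient.field m
  let φ : IntAt p →+* (IntAt p ⧸ m) := Ideal.Quotient.mk m
  have hφ : φ ((p : ℕ) : IntAt p) = 0 := Ideal.Quotient.eq_zero_iff_mem.mpr hpm
  -- the level one form
  have hwt : (2 : ℤ) * (p : ℤ) = ((2 * p : ℕ) : ℤ) := by push_cast; ring
  let F : ModularForm 𝒮ℒ ((2 * p : ℕ) : ℤ) := ModularForm.mcast hwt (κ • S p)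
  have hF : qExpansion 1 F = PowerSeries.C κ * G := by
    have h1 : (⇑F : ℍ → ℂ) = κ • (⇑(S p) : ℍ → ℂ) := by
      funext z
      rfl
    rw [h1, ModularForm.qExpansion_smul one_pos one_mem_strictPeriods_SL κ (S p),
      PowerSeries.smul_eq_C_mul]
  have hmem : ∀ n : ℕ, κ * PowerSeries.coeff n G ∈ IntAt p := by
    intro n
    rw [hcoeff n]
    refine (IntAt p).add_mem ((IntAt p).mul_mem hcO (hH _)) ?_
    split_ifs
    · exact (IntAt p).one_mem
    · exact (IntAt p).zero_mem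
  let f : PowerSeries (IntAt p) := PowerSeries.mk fun n => ⟨κ * PowerSeries.coeff n G, hmem n⟩
  have hf : PowerSeries.map (IntAt p).subtype f = qExpansion 1 F := by
    ext n
    rw [hF, PowerSeries.coeff_map, PowerSeries.coeff_mk, PowerSeries.coeff_C_mul]
    rfl
  have hfc : PowerSeries.map φ f = PowerSeries.C (1 : IntAt p ⧸ m) := by
    ext n
    rw [PowerSeries.coeff_map, PowerSeries.coeff_mk, PowerSeries.coeff_C]
    have hsub : (⟨κ * PowerSeries.coeff n G, hmem n⟩ : IntAt p) =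
        ((p : ℕ) : IntAt p) * ⟨PowerSeries.coeff (p * n) H, hH _⟩ + (if n = 0 then 1 else 0) := by
      apply Subtype.ext
      simp only [Subring.coe_add, Subring.coe_mul, Subring.coe_natCast]
      rw [hcoeff n]
      split_ifs <;> simp
    rw [hsub, map_add, map_mul, hφ, zero_mul, zero_add]
    split_ifs <;> simp
  have hdvd : (p - 1) ∣ 2 * p :=
    hN2 (IntAt p) (fun N hN => inv_natCast_mem_IntAt hN) (IntAt p ⧸ m) φ hφ (2 * p) F f hf 1
      one_ne_zero hfc
  -- arithmetic: `(p - 1) ∣ 2p` forces `p ≤ 3`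
  have h2 : (p - 1) ∣ 2 * (p - 1) := Dvd.intro_left 2 rfl
  have h3 : (p - 1) ∣ 2 * p - 2 * (p - 1) := Nat.dvd_sub hdvd h2
  have h4 : 2 * p - 2 * (p - 1) = 2 := by omega
  rw [h4] at h3
  have := Nat.le_of_dvd (by norm_num) h3
  omega

end Fermat.Agent.Eis.UpperSelf
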